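import Fermat.Agent.V.RRCor.Avoid
import Fermat.Agent.V.Weier.Basic

/-!
# Program MW (S17), heights half, leaf (PNG): products of Riemann-Roch spaces (Mumford)

For divisors `D, E` on a curve of genus `g` all of whose places have degree one (constant field
infinite), with `deg D ≥ 4g` and `deg E ≥ 2g`:

  `L(D) * L(E) = L(D + E)`   (`mw17pg_mul_eq`).

* `mw17pg_mul_le`  : `L(D) * L(E) ≤ L(D + E)` (no hypothesis);
* `mw17pg_step`    : adding a point to `E` preserves equality;
* `mw17pg_base`    : the base-point-free pencil trick (`deg D - deg E ≥ 2g - 1`, `deg E ≥ 2g`).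
-/

set_option autoImplicit false
set_option linter.unusedSectionVars false
set_option linter.unusedVariables false

noncomputable section

namespace Fermat.Agent.MW17

open AlgebraicCurve Module Fermat.Agent.S24 Fermat.Agent.V.Dual Fermat.Agent.V.RR
  Fermat.Agent.V.Weier Fermat.Agent.V

variable {K F : Type*} [Field K] [Field F] [Algebra K F]

theorem mw17pg_mul_mem {D E : Divisor K F} {f h : F} (hf : f ∈ riemannRochSpace D)
    (hh : h ∈ riemannRochSpace E) : f * h ∈ riemannRochSpace (D + E) := by
  rw [mem_riemannRochSpace_iff] at hf hh ⊢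
  intro v
  by_cases hf0 : f = 0
  · left; rw [hf0, zero_mul]
  by_cases hh0 : h = 0
  · left; rw [hh0, mul_zero]
  right
  rw [Place.ord_mul v hf0 hh0, Finsupp.add_apply]
  have h1 := (hf v).resolve_left hf0
  have h2 := (hh v).resolve_left hh0
  linarith

/-- `L(D) * L(E) ≤ L(D + E)`. -/
theorem mw17pg_mul_le (D E : Divisor K F) :
    riemannRochSpace D * riemannRochSpace E ≤ riemannRochSpace (D + E) := by
  rw [Submodule.mul_le]
  intro f hf h hh
  exact mw17pg_mul_mem hf hh

/-- the subspace `s • L(D)`. -/
theorem mw17pg_finrank_map_mul (D : Divisor K F) {s : F} (hs : s ≠ 0) :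
    finrank K ((riemannRochSpace D).map (LinearMap.mulLeft K s)) =
      finrank K (riemannRochSpace D) := by
  have hinj : Function.Injective (LinearMap.mulLeft K s) := by
    intro a b hab
    exact mul_left_cancel₀ hs hab
  exact (Submodule.equivMapOfInjective (LinearMap.mulLeft K s) hinj (riemannRochSpace D)).finrank_eq.symm

/-- **adding a point**: if `L(D) * L(E - P) = L(D + (E - P))` then `L(D) * L(E) = L(D + E)`
(`deg D, deg E ≥ 2g`, `P` of degree one). -/
theorem mw17pg_step {g : ℕ} (R : V27RR K F g) (P : Place K F) (hP : P.deg = 1)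
    (D E : Divisor K F) (hD : 2 * (g : ℤ) - 1 < Divisor.degree D)
    (hE : 2 * (g : ℤ) - 1 < Divisor.degree E)
    (h : riemannRochSpace D * riemannRochSpace (E - Finsupp.single P 1) =
      riemannRochSpace (D + (E - Finsupp.single P 1))) :
    riemannRochSpace D * riemannRochSpace E = riemannRochSpace (D + E) := by
  classical
  refine le_antisymm (mw17pg_mul_le D E) ?_
  obtain ⟨f, hf0, hf, hfo⟩ := R.exists_ord_eq (D := D) P (by rw [hP]; push_cast; linarith)
  obtain ⟨e, he0, he, heo⟩ := R.exists_ord_eq (D := E) P (by rw [hP]; push_cast; linarith)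
  have hmono : riemannRochSpace D * riemannRochSpace (E - Finsupp.single P 1) ≤
      riemannRochSpace D * riemannRochSpace E :=
    mul_le_mul' le_rfl (v27rr_rrSpace_mono (by
      rw [sub_le_self_iff]
      exact Finsupp.single_nonneg.mpr zero_le_one))
  have hfe : f * e ∈ riemannRochSpace D * riemannRochSpace E := Submodule.mul_mem_mul hf he
  have hfe0 : f * e ≠ 0 := mul_ne_zero hf0 he0
  have hsub : D + (E - Finsupp.single P 1) = D + E - Finsupp.single P 1 := by abel
  intro t ht
  by_cases ht0 : t = 0
  · rw [ht0]; exact Submodule.zero_mem _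
  by_cases ht' : t ∈ riemannRochSpace (D + E - Finsupp.single P 1)
  · rw [← hsub, ← h] at ht'
    exact hmono ht'
  have hto : P.ord t = -(D + E) P := v27rc_ord_eq_of_not_mem ht0 ht ht'
  have hord : P.ord t = P.ord (f * e) := by
    rw [hto, Place.ord_mul P hf0 he0, hfo, heo, Finsupp.add_apply]; ring
  obtain ⟨c, hc0, hc⟩ := v27w_exists_sub hP ht0 hfe0 hord
  have hsplit : t = (t - c • (f * e)) + c • (f * e) := by ring
  have hmem2 : c • (f * e) ∈ riemannRochSpace D * riemannRochSpace E :=
    Submodule.smul_mem _ c hfe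
  rcases hc with hc | hc
  · rw [hsplit, hc, zero_add]; exact hmem2
  · by_cases hz : t - c • (f * e) = 0
    · rw [hsplit, hz, zero_add]; exact hmem2
    have hin : t - c • (f * e) ∈ riemannRochSpace (D + E) :=
      Submodule.sub_mem _ ht (Submodule.smul_mem _ c (mw17pg_mul_mem hf he))
    have hin' : t - c • (f * e) ∈ riemannRochSpace (D + E - Finsupp.single P 1) := by
      rw [mem_riemannRochSpace_iff] at hin ⊢
      intro v
      right
      have hv := (hin v).resolve_left hz
      by_cases hvP : v = P
      · subst hvP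
        rw [Finsupp.sub_apply, Finsupp.single_eq_same]
        rw [hto] at hc
        omega
      · rw [Finsupp.sub_apply, Finsupp.single_eq_of_ne hvP, sub_zero]
        exact hv
    rw [← hsub, ← h] at hin'
    rw [hsplit]
    exact Submodule.add_mem _ (hmono hin') hmem2

/-- **the base-point-free pencil trick**: `L(D) * L(E) = L(D + E)` if `deg E ≥ 2g` and
`deg D - deg E ≥ 2g - 1`. -/
theorem mw17pg_base [Infinite K] {g : ℕ} (R : V27RR K F g)
    (hdeg1 : ∀ v : Place K F, v.deg = 1) (D E : Divisor K F)
    (hE : 2 * (g : ℤ) - 1 < Divisor.degree E)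
    (hDE : 2 * (g : ℤ) - 2 < Divisor.degree D - Divisor.degree E) :
    riemannRochSpace D * riemannRochSpace E = riemannRochSpace (D + E) := by
  classical
  have := R.hasDiv
  have hg0 : (0 : ℤ) ≤ g := Int.natCast_nonneg _
  -- two sections of `L(E)` without common zero
  obtain ⟨s1, hs10, hs1, -⟩ := v27rc_exists_ord_eq_on' R hdeg1 E ∅ hE
  obtain ⟨D1, hD1, -⟩ := HasPrincipalDivisors.exists_divisor (K := K) s1 hs10
  obtain ⟨s2, hs20, hs2, hs2o⟩ := v27rc_exists_ord_eq_on' R hdeg1 E (D1 + E).support hE
  have hcov : ∀ v : Place K F, v.ord s1 = -E v ∨ v.ord s2 = -E v := by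
    intro v
    by_cases hv : v ∈ (D1 + E).support
    · exact Or.inr (hs2o v hv)
    · left
      rw [Finsupp.notMem_support_iff, Finsupp.add_apply, hD1 v] at hv
      linarith
  have hs1E := mem_riemannRochSpace_iff.mp hs1
  have hs2E := mem_riemannRochSpace_iff.mp hs2
  -- the three subspaces
  set A : Submodule K F := (riemannRochSpace D).map (LinearMap.mulLeft K s1) with hA
  set B : Submodule K F := (riemannRochSpace D).map (LinearMap.mulLeft K s2) with hB
  set C : Submodule K F := (riemannRochSpace (D - E)).map (LinearMap.mulLeft K (s1 * s2)) with hC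
  have hAB : A ⊓ B = C := by
    apply le_antisymm
    · rintro t ⟨⟨a, ha, rfl⟩, ⟨b, hb, hab⟩⟩
      simp only [LinearMap.mulLeft_apply] at hab ⊢
      -- `s2 * b = s1 * a`
      by_cases ha0 : a = 0
      · subst ha0
        rw [mul_zero]
        exact Submodule.zero_mem _
      have hb0 : b ≠ 0 := by
        rintro rfl
        rw [mul_zero] at hab
        exact mul_ne_zero hs10 ha0 hab.symm
      refine ⟨a / s2, ?_, ?_⟩
      · have haD := mem_riemannRochSpace_iff.mp ha
        have hbD := mem_riemannRochSpace_iff.mp hb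
        have heq : a / s2 = b / s1 := by
          rw [div_eq_div_iff hs20 hs10]
          rw [mul_comm a s1, mul_comm b s2, hab]
        refine mem_riemannRochSpace_iff.mpr fun v => ?_
        right
        rw [Finsupp.sub_apply]
        rcases hcov v with h1 | h2
        · rw [heq, div_eq_mul_inv, Place.ord_mul v hb0 (inv_ne_zero hs10), Place.ord_inv, h1]
          have := (hbD v).resolve_left hb0
          linarith
        · rw [div_eq_mul_inv, Place.ord_mul v ha0 (inv_ne_zero hs20), Place.ord_inv, h2]
          have := (haD v).resolve_left ha0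
          linarith
      · simp only [LinearMap.mulLeft_apply]
        field_simp
    · rintro t ⟨c, hc, rfl⟩
      simp only [LinearMap.mulLeft_apply]
      have hDE' : D = E + (D - E) := by abel
      refine ⟨⟨s2 * c, ?_, by simp only [LinearMap.mulLeft_apply]; ring⟩,
        ⟨s1 * c, ?_, by simp only [LinearMap.mulLeft_apply]; ring⟩⟩
      · rw [hDE']; exact mw17pg_mul_mem hs2 hc
      · rw [hDE']; exact mw17pg_mul_mem hs1 hc
  -- dimensions
  have hfA : finrank K A = finrank K (riemannRochSpace D) := mw17pg_finrank_map_mul D hs10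
  have hfB : finrank K B = finrank K (riemannRochSpace D) := mw17pg_finrank_map_mul D hs20
  have hfC : finrank K C = finrank K (riemannRochSpace (D - E)) :=
    mw17pg_finrank_map_mul (D - E) (mul_ne_zero hs10 hs20)
  have := R.finL D
  have := R.finL (D + E)
  have hsum := Submodule.finrank_sup_add_finrank_inf_eq A B
  rw [hAB, hfA, hfB, hfC] at hsum
  have r1 := (R.finrank_of_lt (D := D) (by linarith)).1
  have r2 := (R.finrank_of_lt (D := D - E) (by rw [map_sub]; linarith)).1
  have r3 := (R.finrank_of_lt (D := D + E) (by rw [map_add]; linarith)).1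
  rw [map_sub] at r2
  rw [map_add] at r3
  have hdim : finrank K (riemannRochSpace (D + E)) ≤ finrank K ↥(A ⊔ B) := by
    have : (finrank K (riemannRochSpace (D + E)) : ℤ) = finrank K ↥(A ⊔ B) := by
      have hsum' : (finrank K ↥(A ⊔ B) : ℤ) + finrank K (riemannRochSpace (D - E)) =
          finrank K (riemannRochSpace D) + finrank K (riemannRochSpace D) := by
        exact_mod_cast hsum
      linarith
    exact le_of_eq (by exact_mod_cast this)
  have hle1 : A ⊔ B ≤ riemannRochSpace D * riemannRochSpace E := by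
    refine sup_le ?_ ?_
    · rintro _ ⟨a, ha, rfl⟩
      simp only [LinearMap.mulLeft_apply]
      rw [mul_comm s1 a]
      exact Submodule.mul_mem_mul ha hs1
    · rintro _ ⟨a, ha, rfl⟩
      simp only [LinearMap.mulLeft_apply]
      rw [mul_comm s2 a]
      exact Submodule.mul_mem_mul ha hs2
  have hle2 := mw17pg_mul_le D E
  have heq : A ⊔ B = riemannRochSpace (D + E) :=
    Submodule.eq_of_le_of_finrank_le (hle1.trans hle2) hdim
  exact le_antisymm hle2 (heq ▸ hle1)

/-- (PNG) **`L(D) * L(E) = L(D + E)`** for `deg D ≥ 4g`, `deg E ≥ 2g` (all places of degree one,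
infinite constant field). -/
theorem mw17pg_mul_eq [Infinite K] {g : ℕ} (R : V27RR K F g)
    (hdeg1 : ∀ v : Place K F, v.deg = 1) (D E : Divisor K F)
    (hD : 4 * (g : ℤ) ≤ Divisor.degree D) (hE : 2 * (g : ℤ) ≤ Divisor.degree E) :
    riemannRochSpace D * riemannRochSpace E = riemannRochSpace (D + E) := by
  classical
  have hg0 : (0 : ℤ) ≤ g := Int.natCast_nonneg _
  obtain ⟨P⟩ := R.place
  have key : ∀ k : ℕ, ∀ E : Divisor K F, 2 * (g : ℤ) ≤ Divisor.degree E →
      Divisor.degree E ≤ Divisor.degree D - 2 * g + 1 + k →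
      riemannRochSpace D * riemannRochSpace E = riemannRochSpace (D + E) := by
    intro k
    induction k with
    | zero =>
      intro E h1 h2
      exact mw17pg_base R hdeg1 D E (by linarith) (by push_cast at h2; linarith)
    | succ k ih =>
      intro E h1 h2
      by_cases hcase : Divisor.degree E ≤ Divisor.degree D - 2 * g + 1 + k
      · exact ih E h1 hcase
      rw [not_le] at hcase
      have hdegE' : Divisor.degree (E - Finsupp.single P 1) = Divisor.degree E - 1 := by
        rw [map_sub, Divisor.degree_single, hdeg1 P]; simp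
      refine mw17pg_step R P (hdeg1 P) D E (by linarith) (by linarith) ?_
      refine ih (E - Finsupp.single P 1) ?_ ?_
      · rw [hdegE']; linarith
      · rw [hdegE']; push_cast at h2; linarith
  refine key (Divisor.degree E).toNat E hE ?_
  have : (0 : ℤ) ≤ Divisor.degree E := by linarith
  rw [Int.toNat_of_nonneg this]
  linarith

/-- symmetric form. -/
theorem mw17pg_mul_eq' [Infinite K] {g : ℕ} (R : V27RR K F g)
    (hdeg1 : ∀ v : Place K F, v.deg = 1) (D E : Divisor K F)
    (hD : 2 * (g : ℤ) ≤ Divisor.degree D) (hE : 4 * (g : ℤ) ≤ Divisor.degree E) :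
    riemannRochSpace D * riemannRochSpace E = riemannRochSpace (D + E) := by
  rw [mul_comm, add_comm]
  exact mw17pg_mul_eq R hdeg1 E D hE hD

/-- the products of two spanning families span `L(D + E)` (Segre form of (PNG)). -/
theorem mw17pg_span_mul [Infinite K] {g : ℕ} (R : V27RR K F g)
    (hdeg1 : ∀ v : Place K F, v.deg = 1) (D E : Divisor K F)
    (hD : 4 * (g : ℤ) ≤ Divisor.degree D) (hE : 2 * (g : ℤ) ≤ Divisor.degree E)
    {ι ι' : Type*} (s : ι → F) (t : ι' → F)
    (hs : Submodule.span K (Set.range s) = riemannRochSpace D)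
    (ht : Submodule.span K (Set.range t) = riemannRochSpace E) :
    Submodule.span K (Set.range fun p : ι × ι' => s p.1 * t p.2) = riemannRochSpace (D + E) := by
  rw [← mw17pg_mul_eq R hdeg1 D E hD hE, ← hs, ← ht, Submodule.span_mul_span]
  congr 1
  ext x
  constructor
  · rintro ⟨p, rfl⟩
    exact Set.mul_mem_mul ⟨p.1, rfl⟩ ⟨p.2, rfl⟩
  · rintro ⟨_, ⟨i, rfl⟩, _, ⟨j, rfl⟩, rfl⟩
    exact ⟨(i, j), rfl⟩

/-- every element of `L(D + E)` is a bilinear expression in two spanning families. -/
theorem mw17pg_exists_bilinear [Infinite K] {g : ℕ} (R : V27RR K F g)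
    (hdeg1 : ∀ v : Place K F, v.deg = 1) (D E : Divisor K F)
    (hD : 4 * (g : ℤ) ≤ Divisor.degree D) (hE : 2 * (g : ℤ) ≤ Divisor.degree E)
    {ι ι' : Type*} [Fintype ι] [Fintype ι'] (s : ι → F) (t : ι' → F)
    (hs : Submodule.span K (Set.range s) = riemannRochSpace D)
    (ht : Submodule.span K (Set.range t) = riemannRochSpace E)
    (f : F) (hf : f ∈ riemannRochSpace (D + E)) :
    ∃ c : ι → ι' → K, f = ∑ i, ∑ j, c i j • (s i * t j) := by
  classical
  rw [← mw17pg_span_mul R hdeg1 D E hD hE s t hs ht] at hf
  obtain ⟨c, hc⟩ := (Submodule.mem_span_range_iff_exists_fun K).mp hf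
  refine ⟨fun i j => c (i, j), ?_⟩
  rw [← hc, Fintype.sum_prod_type]

end Fermat.Agent.MW17
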