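import Mathlib
import Fermat.Agent.V.RR.Pack

/-!
# Greedy completion of a divisor with `l(D) = 1` to a non-special divisor of degree `g`

On a Riemann–Roch package `R : V27RR K F g`:

* `mw17_step` : if `l(D) = 1` and `deg D < g`, then `l(D + P) = 1` for all places `P` of degree one
  outside a finite set of at most `2g - 2 - deg D` places (the base points of `|W - D|`).
* `mw17_completion` : if `Pts` is a set of more than `2g - 2` places of degree one, any `D` with
  `l(D) = 1` and `deg D + n ≤ g` can be completed by an effective divisor `A` of degree `n`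
  supported on `Pts` to `l(D + A) = 1`.
-/

set_option autoImplicit false
set_option linter.unusedSectionVars false
set_option linter.style.haveILetI false

noncomputable section

namespace Fermat.Agent.MW17

open AlgebraicCurve Module Fermat.Agent.V.RR Fermat.Agent.V.Dual

variable {K F : Type*} [Field K] [Field F] [Algebra K F] {g : ℕ}

/-- the degree of an effective divisor bounds the size of its support. -/
theorem mw17_card_support_le (hpos : ∀ v : Place K F, 0 < v.deg) {E : Divisor K F} (hE : 0 ≤ E) :
    (E.support.card : ℤ) ≤ Divisor.degree E := by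
  classical
  have hdeg : Divisor.degree E = ∑ v ∈ E.support, E v * (v.deg : ℤ) := by
    conv_lhs => rw [← Finsupp.sum_single E]
    rw [Finsupp.sum, map_sum]
    exact Finset.sum_congr rfl fun v _ => Divisor.degree_single v _
  rw [hdeg, Finset.card_eq_sum_ones, Nat.cast_sum]
  refine Finset.sum_le_sum fun v hv => ?_
  have h1 : (1 : ℤ) ≤ E v := by
    have h0 : 0 ≤ E v := hE v
    have hne : E v ≠ 0 := Finsupp.mem_support_iff.1 hv
    omega
  have h2 : (1 : ℤ) ≤ (v.deg : ℤ) := by exact_mod_cast hpos v
  push_cast
  nlinarith

/-- **greedy step.** -/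
theorem mw17_step (R : V27RR K F g) {D : Divisor K F}
    (hl : finrank K (riemannRochSpace D) = 1) (hdeg : Divisor.degree D < g) :
    ∃ S : Finset (Place K F), (S.card : ℤ) ≤ 2 * g - 2 - Divisor.degree D ∧
      ∀ P : Place K F, P.deg = 1 → P ∉ S →
        finrank K (riemannRochSpace (D + Finsupp.single P 1)) = 1 := by
  classical
  haveI := R.hasDiv
  obtain ⟨W, hW, -, -, hRR⟩ := R.can
  have h1 := hRR D
  rw [hl] at h1
  -- `l(W - D) = g - deg D ≥ 1`
  have hne : riemannRochSpace (W - D) ≠ ⊥ := by
    intro h0
    rw [h0, finrank_bot] at h1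
    push_cast at h1
    omega
  obtain ⟨s, hs, hs0⟩ := Submodule.exists_mem_ne_zero_of_ne_bot hne
  obtain ⟨Ds, hDs, hdegs⟩ := HasPrincipalDivisors.exists_divisor (K := K) s hs0
  set E : Divisor K F := Ds + (W - D) with hE
  have hEnn : 0 ≤ E := by
    intro v
    rw [mem_riemannRochSpace_iff] at hs
    have := (hs v).resolve_left hs0
    rw [hE, Finsupp.add_apply, hDs]
    show (0 : ℤ) ≤ _
    linarith
  have hEdeg : Divisor.degree E = 2 * g - 2 - Divisor.degree D := by
    rw [hE, map_add, map_sub, hdegs, hW]
    ring
  refine ⟨E.support, ?_, fun P hP1 hPS => ?_⟩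
  · rw [← hEdeg]
    exact mw17_card_support_le (fun v => v27d_deg_pos R.res v) hEnn
  · have hEP : E P = 0 := Finsupp.notMem_support_iff.1 hPS
    have h2 := hRR (D + Finsupp.single P 1)
    rw [map_add, Divisor.degree_single, hP1, Nat.cast_one, mul_one] at h2
    -- `L(W - D - P) < L(W - D)`
    have hle : riemannRochSpace (W - (D + Finsupp.single P 1)) ≤ riemannRochSpace (W - D) :=
      v27rr_rrSpace_mono (by
        rw [← sub_sub, sub_le_self_iff]
        exact Finsupp.single_nonneg.mpr zero_le_one)
    have hsn : s ∉ riemannRochSpace (W - (D + Finsupp.single P 1)) := by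
      intro hmem
      rw [mem_riemannRochSpace_iff] at hmem
      have := (hmem P).resolve_left hs0
      rw [Finsupp.sub_apply, Finsupp.add_apply, Finsupp.single_eq_same] at this
      have h3 : E P = Ds P + (W P - D P) := by
        rw [hE, Finsupp.add_apply, Finsupp.sub_apply]
      rw [hDs] at h3
      omega
    have hlt : riemannRochSpace (W - (D + Finsupp.single P 1)) < riemannRochSpace (W - D) :=
      lt_of_le_of_ne hle (fun h => hsn (h ▸ hs))
    haveI := R.finL (W - D)
    have hfl := Submodule.finrank_lt_finrank_of_lt hlt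
    -- monotonicity `l(D) ≤ l(D + P)`
    have hmono : riemannRochSpace D ≤ riemannRochSpace (D + Finsupp.single P 1) :=
      v27rr_rrSpace_mono (by
        rw [le_add_iff_nonneg_right]
        exact Finsupp.single_nonneg.mpr zero_le_one)
    haveI := R.finL (D + Finsupp.single P 1)
    have hge := Submodule.finrank_mono hmono
    rw [hl] at hge
    have h4 : (finrank K (riemannRochSpace (W - (D + Finsupp.single P 1))) : ℤ) + 1 ≤
        finrank K (riemannRochSpace (W - D)) := by exact_mod_cast hfl
    have h5 : (1 : ℤ) ≤ finrank K (riemannRochSpace (D + Finsupp.single P 1)) := by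
      exact_mod_cast hge
    have h6 : (finrank K (riemannRochSpace (D + Finsupp.single P 1)) : ℤ) = 1 := by
      push_cast at h1
      linarith
    exact_mod_cast h6

/-- `l(D) ≥ 1` forces `deg D ≥ 0`. -/
theorem mw17_degree_nonneg (R : V27RR K F g) {D : Divisor K F}
    (hl : finrank K (riemannRochSpace D) = 1) : 0 ≤ Divisor.degree D := by
  by_contra h
  rw [R.neg D (not_le.1 h), finrank_bot] at hl
  exact zero_ne_one hl

/-- **greedy completion.** -/
theorem mw17_completion (R : V27RR K F g) (Pts : Finset (Place K F))
    (hPts : 2 * (g : ℤ) - 2 < Pts.card) (hdeg1 : ∀ P ∈ Pts, P.deg = 1) {D : Divisor K F}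
    (hl : finrank K (riemannRochSpace D) = 1) (n : ℕ) (hn : Divisor.degree D + n ≤ g) :
    ∃ A : Divisor K F, 0 ≤ A ∧ (∀ v, A v ≠ 0 → v ∈ Pts) ∧ Divisor.degree A = n ∧
      finrank K (riemannRochSpace (D + A)) = 1 := by
  classical
  induction n with
  | zero =>
    exact ⟨0, le_rfl, fun v hv => absurd rfl hv, by simp, by rwa [add_zero]⟩
  | succ n ih =>
    obtain ⟨A, hA0, hAP, hAdeg, hAl⟩ := ih (by push_cast at hn; linarith)
    have hdegDA : Divisor.degree (D + A) < g := by
      rw [map_add, hAdeg]
      push_cast at hn
      linarith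
    obtain ⟨S, hS, hstep⟩ := mw17_step R hAl hdegDA
    have hnn := mw17_degree_nonneg R hAl
    have hcard : S.card < Pts.card := by
      have : (S.card : ℤ) < Pts.card := by linarith
      exact_mod_cast this
    obtain ⟨P, hPPts, hPS⟩ := Finset.exists_mem_notMem_of_card_lt_card hcard
    refine ⟨A + Finsupp.single P 1, ?_, ?_, ?_, ?_⟩
    · exact add_nonneg hA0 (Finsupp.single_nonneg.mpr zero_le_one)
    · intro v hv
      by_cases hvP : v = P
      · exact hvP ▸ hPPts
      · apply hAP v
        rwa [Finsupp.add_apply, Finsupp.single_eq_of_ne hvP, add_zero] at hv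
    · rw [map_add, hAdeg, Divisor.degree_single, hdeg1 P hPPts]
      push_cast
      ring
    · rw [← add_assoc]
      exact hstep P (hdeg1 P hPPts) hPS

/-- for a canonical divisor `W` (in the sense of the Riemann–Roch formula): a divisor of degree `g`
with `l = 1` is non-special, `L(W - D) = 0`. -/
theorem mw17_nonspecial (R : V27RR K F g) {W : Divisor K F}
    (hRR : ∀ D : Divisor K F, (finrank K (riemannRochSpace D) : ℤ) =
      Divisor.degree D + 1 - g + finrank K (riemannRochSpace (W - D)))
    {D : Divisor K F} (hl : finrank K (riemannRochSpace D) = 1) (hdeg : Divisor.degree D = g) :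
    riemannRochSpace (W - D) = ⊥ := by
  haveI := R.finL (W - D)
  have h := hRR D
  rw [hl, hdeg] at h
  have h0 : finrank K (riemannRochSpace (W - D)) = 0 := by
    have : (finrank K (riemannRochSpace (W - D)) : ℤ) = 0 := by
      push_cast at h
      linarith
    exact_mod_cast this
  exact Submodule.finrank_eq_zero.1 h0

/-- an effective divisor contained in a divisor with `l = 1` has `l = 1`. -/
theorem mw17_finrank_eq_one_of_le (R : V27RR K F g) {A D : Divisor K F} (hA : 0 ≤ A) (hAD : A ≤ D)
    (hl : finrank K (riemannRochSpace D) = 1) : finrank K (riemannRochSpace A) = 1 := by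
  haveI := R.finL D
  haveI := R.finL A
  have h1 := Submodule.finrank_mono (v27rr_rrSpace_mono hAD)
  rw [hl] at h1
  have h2 : 0 < finrank K (riemannRochSpace A) := by
    rw [Module.finrank_pos_iff_exists_ne_zero]
    refine ⟨⟨1, ?_⟩, ?_⟩
    · rw [mem_riemannRochSpace_iff]
      intro v
      right
      rw [Place.ord_one]
      have := hA v
      show -A v ≤ 0
      change (0 : ℤ) ≤ A v at this
      omega
    · intro h
      have := congrArg Subtype.val h
      exact one_ne_zero this
  omega

/-- with `A ≥ 0`, `l(A) = 1`: `l(W - A) = g - deg A`. -/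
theorem mw17_finrank_canonical_sub {W : Divisor K F}
    (hRR : ∀ D : Divisor K F, (finrank K (riemannRochSpace D) : ℤ) =
      Divisor.degree D + 1 - g + finrank K (riemannRochSpace (W - D)))
    {A : Divisor K F} (hl : finrank K (riemannRochSpace A) = 1) :
    (finrank K (riemannRochSpace (W - A)) : ℤ) = g - Divisor.degree A := by
  have h := hRR A
  rw [hl] at h
  push_cast at h
  linarith

end Fermat.Agent.MW17

end
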