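import Fermat.Agent.S20.FFRR
import Fermat.Agent.V.RR.Pack
import Fermat.Prelude.Def_AlgebraicCurve_CanonicalDivisor

/-!
# S17 heights, leaf (KAN): the divisor of `dx` is a canonical divisor of the Riemann–Roch package

Main's S20 carries a second Riemann–Roch theory (Dedekind–Weber lattice pairs) which computes the
dimension of the space of everywhere regular Kähler differentials.  Comparing the two theories on
the divisors `e • (x)_∞` identifies the genus of `V27RR` with that dimension, and then the divisor of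
`dx` with the canonical divisor of `V27RR` up to a principal divisor.
-/

set_option autoImplicit false
set_option linter.unusedSectionVars false
set_option linter.unusedVariables false
set_option linter.style.haveILetI false

noncomputable section

namespace Fermat.Agent.MW17

open Polynomial Module IsDedekindDomain HeightOneSpectrum WithZero AlgebraicCurve
  IntermediateField KaehlerDifferential Fermat.Agent.S24 Fermat.Agent.S20 Fermat.Agent.V.RR
  Fermat.Agent.V.Dual

section Closure

variable {K F : Type*} [Field K] [Field F] [Algebra K F]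
  (A 𝕜 : Type*) [CommRing A] [Field 𝕜] [Algebra A 𝕜] [Algebra 𝕜 F] [Algebra A F]
  [IsScalarTower A 𝕜 F] [IsDedekindDomain A] [IsFractionRing A 𝕜] [FiniteDimensional 𝕜 F]
  [Algebra.IsSeparable 𝕜 F] [Algebra K A] [IsScalarTower K A F]
  [IsDedekindDomain (integralClosure A F)] [IsFractionRing (integralClosure A F) F]

/-- an element of `F` is integral over `A` iff it is regular at all places coming from the primes
of the integral closure. -/
theorem mw17kn_mem_integralClosure_iff (f : F) :
    f ∈ integralClosure A F ↔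
      ∀ P : HeightOneSpectrum (integralClosure A F), f = 0 ∨ 0 ≤ (placeOfPrime K F P).ord f := by
  constructor
  · intro hf P
    have h1 : P.valuation F f ≤ exp (0 : ℤ) := by
      have := P.valuation_le_one (K := F) (⟨f, hf⟩ : integralClosure A F)
      simpa using this
    have := (ffside_valuation_le_exp_iff (K := K) A P f 0).1 h1
    simpa using this
  · intro h
    have h1 : ∀ P : HeightOneSpectrum (integralClosure A F), P.valuation F f ≤ 1 := by
      intro P
      have := (ffside_valuation_le_exp_iff (K := K) A P f 0).2 (by simpa using h P)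
      simpa using this
    obtain ⟨b, rfl⟩ := HeightOneSpectrum.mem_integers_of_valuation_le_one F f h1
    exact b.2

end Closure

section Setting

variable {K F : Type*} [Field K] [Field F] [Algebra K F] [Algebra K[X] F] [Algebra (RatFunc K) F]
  [IsScalarTower K[X] (RatFunc K) F] [IsScalarTower K (RatFunc K) F] [IsScalarTower K K[X] F]
  [FiniteDimensional (RatFunc K) F] [CharZero K]

/-- the finite integers: functions regular wherever `x` is. -/
theorem mw17kn_mem_ffLam_iff (f : F) :
    f ∈ ffLam K F ↔ ∀ v : Place K F, 0 ≤ v.ord (ffX K F) → f = 0 ∨ 0 ≤ v.ord f := by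
  rw [Subalgebra.mem_toSubmodule, mw17kn_mem_integralClosure_iff (K := K) K[X]]
  constructor
  · intro h v hv
    have h1 := h (fffinEquiv.symm ⟨v, hv⟩)
    have h2 : placeOfPrime K F (fffinEquiv.symm ⟨v, hv⟩) = v := by
      rw [← fffinEquiv_apply, Equiv.apply_symm_apply]
    rwa [h2] at h1
  · intro h P
    have hv : 0 ≤ (placeOfPrime K F P).ord (ffX K F) := by
      rw [← fffinEquiv_apply]; exact (fffinEquiv P).2
    exact h _ hv

/-- the infinite integers: functions regular at the poles of `x`. -/
theorem mw17kn_mem_ffLamInf_iff (f : F) :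
    f ∈ ffLamInf K F ↔ ∀ v : Place K F, v.ord (ffX K F) < 0 → f = 0 ∨ 0 ≤ v.ord f := by
  rw [Subalgebra.mem_toSubmodule, mw17kn_mem_integralClosure_iff (K := K) (Rinf K)]
  constructor
  · intro h v hv
    have h1 := h (ffinfEquiv.symm ⟨v, hv⟩)
    have h2 : placeOfPrime K F (ffinfEquiv.symm ⟨v, hv⟩) = v := by
      rw [← ffinfEquiv_apply, Equiv.apply_symm_apply]
    rwa [h2] at h1
  · intro h P
    exact h _ (ffinf_ord_pos P)

/-- the twisted infinite integers. -/
theorem mw17kn_mem_twist_iff (e : ℤ) (f : F) :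
    f ∈ twist e (ffLamInf K F) ↔
      ∀ v : Place K F, v.ord (ffX K F) < 0 → f = 0 ∨ e * v.ord (ffX K F) ≤ v.ord f := by
  rw [mem_twist, mw17kn_mem_ffLamInf_iff]
  have hsmul : (RatFunc.X : RatFunc K) ^ (-e) • f = ffX K F ^ (-e) * f := by
    rw [Algebra.smul_def, ffX_eq, map_zpow₀]
  rw [hsmul]
  refine forall_congr' fun v => forall_congr' fun hv => ?_
  have hx0 : ffX K F ≠ 0 := by rintro h; rw [h] at hv; simp at hv
  rcases eq_or_ne f 0 with rfl | hf
  · simp
  have h2 : ffX K F ^ (-e) * f ≠ 0 := mul_ne_zero (zpow_ne_zero _ hx0) hf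
  simp only [h2, hf, false_or]
  rw [v.ord_mul (zpow_ne_zero _ hx0) hf, v.ord_zpow]
  constructor <;> intro h <;> linarith

end Setting

section Compare

variable {K F : Type*} [Field K] [Field F] [Algebra K F] [Algebra K[X] F] [Algebra (RatFunc K) F]
  [IsScalarTower K[X] (RatFunc K) F] [IsScalarTower K (RatFunc K) F] [IsScalarTower K K[X] F]
  [FiniteDimensional (RatFunc K) F] [CharZero K] [IsAlgClosed K]
  (hx : Transcendental K (ffX K F)) [FiniteDimensional K⟮ffX K F⟯ F]
  [Algebra.IsSeparable K⟮ffX K F⟯ F]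

theorem mw17kn_finite_poles :
    (Function.support fun v : Place K F => ((-(v.ord (ffX K F))).toNat : ℤ)).Finite := by
  have h1 : Finite {v : Place K F // v.ord (ffX K F) < 0} := (ffinf_sum_ord (K := K) (F := F)).1
  have h2 : {v : Place K F | v.ord (ffX K F) < 0}.Finite := Set.finite_coe_iff.1 h1
  refine h2.subset ?_
  intro v hv
  simp only [Function.mem_support, ne_eq, Int.natCast_eq_zero, Int.toNat_eq_zero, not_le] at hv
  show v.ord (ffX K F) < 0
  omega

variable (K F) in
/-- the divisor of poles of the coordinate. -/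
def mw17knDinf : Divisor K F :=
  Finsupp.ofSupportFinite (fun v : Place K F => ((-(v.ord (ffX K F))).toNat : ℤ))
    mw17kn_finite_poles

theorem mw17knDinf_apply (v : Place K F) :
    mw17knDinf K F v = ((-(v.ord (ffX K F))).toNat : ℤ) := rfl

theorem mw17knDinf_of_nonneg {v : Place K F} (hv : 0 ≤ v.ord (ffX K F)) :
    mw17knDinf K F v = 0 := by
  rw [mw17knDinf_apply]
  simp only [Int.natCast_eq_zero, Int.toNat_eq_zero]
  omega

theorem mw17knDinf_of_neg {v : Place K F} (hv : v.ord (ffX K F) < 0) :
    mw17knDinf K F v = -(v.ord (ffX K F)) := by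
  rw [mw17knDinf_apply, Int.toNat_of_nonneg (by omega)]

include hx in
theorem mw17kn_degree_Dinf (e : ℤ) :
    Divisor.degree (e • mw17knDinf K F) = e * finrank (RatFunc K) F := by
  have hdeg := ffmain_degree_eq (e • mw17knDinf K F) (fun v => place_deg_eq_one v hx)
    (fun v => 0 ≤ v.ord (ffX K F)) (fun v => v.ord (ffX K F) < 0) (fun v => not_le.symm)
  obtain ⟨hfinite, hn⟩ := ffinf_sum_ord (K := K) (F := F)
  have h1 : (fun v : {v : Place K F // 0 ≤ v.ord (ffX K F)} => (e • mw17knDinf K F) v.1) =
      fun _ => 0 := funext fun v => by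
    rw [Finsupp.smul_apply, mw17knDinf_of_nonneg v.2, smul_zero]
  have h2 : (fun v : {v : Place K F // v.ord (ffX K F) < 0} => (e • mw17knDinf K F) v.1) =
      fun v => e * (-(v.1.ord (ffX K F))) := funext fun v => by
    rw [Finsupp.smul_apply, mw17knDinf_of_neg v.2, smul_eq_mul]
  rw [h1, h2, finsum_zero, zero_add] at hdeg
  rw [hdeg, ← hn]
  have := Fintype.ofFinite {v : Place K F // v.ord (ffX K F) < 0}
  rw [finsum_eq_sum_of_fintype, finsum_eq_sum_of_fintype, Finset.mul_sum]

/-- `L(e (x)_∞)` in lattice terms. -/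
theorem mw17kn_rrSpace_eq (e : ℕ) :
    riemannRochSpace ((e : ℤ) • mw17knDinf K F) =
      kSub (ffLam K F) ⊓ kSubInf (twist (e : ℤ) (ffLamInf K F)) := by
  ext f
  rw [mem_riemannRochSpace_iff, Submodule.mem_inf, mem_kSub, mem_kSubInf, mw17kn_mem_ffLam_iff,
    mw17kn_mem_twist_iff]
  constructor
  · intro h
    refine ⟨fun v hv => ?_, fun v hv => ?_⟩
    · have := h v
      rwa [Finsupp.smul_apply, mw17knDinf_of_nonneg hv, smul_zero, neg_zero] at this
    · have := h v
      rw [Finsupp.smul_apply, mw17knDinf_of_neg hv, smul_eq_mul] at this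
      rcases this with h0 | h1
      · exact Or.inl h0
      · exact Or.inr (by linarith)
  · rintro ⟨h1, h2⟩ v
    rcases le_or_gt 0 (v.ord (ffX K F)) with hv | hv
    · have := h1 v hv
      rwa [Finsupp.smul_apply, mw17knDinf_of_nonneg hv, smul_zero, neg_zero]
    · rw [Finsupp.smul_apply, mw17knDinf_of_neg hv, smul_eq_mul]
      rcases h2 v hv with h0 | h3
      · exact Or.inl h0
      · exact Or.inr (by linarith)

include hx in
/-- the lattice count of `l(e (x)_∞)` for large `e`. -/
theorem mw17kn_latH0_twist :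
    ∃ e₀ : ℕ, ∀ e : ℕ, e₀ ≤ e →
      (latH0 (ffLam K F) (twist (e : ℤ) (ffLamInf K F)) : ℤ) =
        1 - finrank K (ffHolo K F) + e * finrank (RatFunc K) F := by
  classical
  obtain ⟨b, d, h⟩ := exists_isDWBasis (ffLam K F) (ffLamInf K F)
  have h0 : latH0 (ffLam K F) (ffLamInf K F) = 1 := fflat_latH0_eq_one
  have h1 : latH1 (ffLam K F) (ffLamInf K F) = finrank K (ffHolo K F) :=
    latH1_eq_latH0_dual (ffLam K F) (ffLamInf K F) (Algebra.traceForm (RatFunc K) F)
      (traceForm_nondegenerate (RatFunc K) F)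
  have hchi := h.chi_eq
  rw [h0, h1] at hchi
  refine ⟨∑ i, (-(d i) - 1).toNat, fun e he => ?_⟩
  have hpos : ∀ i, 0 ≤ d i + (e : ℤ) + 1 := by
    intro i
    have h2 : (-(d i) - 1).toNat ≤ ∑ i, (-(d i) - 1).toNat :=
      Finset.single_le_sum (f := fun i => (-(d i) - 1).toNat) (fun _ _ => Nat.zero_le _)
        (Finset.mem_univ i)
    have h3 : (((-(d i) - 1).toNat : ℕ) : ℤ) ≤ (e : ℤ) := by exact_mod_cast h2.trans he
    have h4 : -(d i) - 1 ≤ ((-(d i) - 1).toNat : ℤ) := Int.self_le_toNat _
    linarith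
  rw [(h.twist (e : ℤ)).latH0_eq]
  push_cast
  have h5 : ∀ i, (((d i + (e : ℤ) + 1).toNat : ℕ) : ℤ) = (d i + 1) + e := by
    intro i
    rw [Int.toNat_of_nonneg (hpos i)]
    ring
  simp only [h5]
  rw [Finset.sum_add_distrib, ← hchi]
  simp only [Finset.sum_const, Finset.card_univ, Fintype.card_fin, nsmul_eq_mul]
  push_cast
  ring

include hx in
/-- **the two genera agree**: the dimension of the space of regular differentials is the genus of
the Riemann–Roch package. -/
theorem mw17kn_finrank_ffHolo {g : ℕ} (R : V27RR K F g) : finrank K (ffHolo K F) = g := by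
  obtain ⟨e₀, he₀⟩ := mw17kn_latH0_twist hx
  have hn : 0 < finrank (RatFunc K) F := Module.finrank_pos
  set n := finrank (RatFunc K) F with hn'
  set e := max e₀ (2 * g) with he
  have h1 := he₀ e (le_max_left _ _)
  have h2 : latH0 (ffLam K F) (twist (e : ℤ) (ffLamInf K F)) =
      finrank K (riemannRochSpace ((e : ℤ) • mw17knDinf K F)) := by
    rw [mw17kn_rrSpace_eq]
    rfl
  have hdeg := mw17kn_degree_Dinf hx (e : ℤ)
  have hlt : 2 * (g : ℤ) - 2 < Divisor.degree ((e : ℤ) • mw17knDinf K F) := by
    rw [hdeg]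
    have h3 : (2 * g : ℤ) ≤ e := by exact_mod_cast le_max_right e₀ (2 * g)
    have h4 : (1 : ℤ) ≤ n := by exact_mod_cast hn
    have h5 : (0 : ℤ) ≤ e := by positivity
    nlinarith
  have h3 := (R.finrank_of_lt hlt).1
  rw [hdeg, ← h2, h1] at h3
  have : (finrank K (ffHolo K F) : ℤ) = g := by linarith
  exact_mod_cast this

include hx in
theorem mw17kn_ffHolo_eq (Dx : Divisor K F)
    (hDx : ∀ v : Place K F, Dx v = v.ordDifferential (D K F (ffX K F))) :
    ffHolo K F = riemannRochSpace Dx := by
  ext f
  rw [ffmain_mem_ffHolo_iff hx, mem_riemannRochSpace_iff]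
  refine forall_congr' fun v => ?_
  rw [hDx v]
  constructor <;> rintro (h | h)
  · exact Or.inl h
  · exact Or.inr (by linarith)
  · exact Or.inl h
  · exact Or.inr (by linarith)

include hx in
theorem mw17kn_two_mul_finrank_ffHolo (Dx : Divisor K F)
    (hDx : ∀ v : Place K F, Dx v = v.ordDifferential (D K F (ffX K F))) :
    2 * (finrank K (ffHolo K F) : ℤ) = Divisor.degree Dx + 2 := by
  obtain ⟨H, hH, hdeg⟩ := ffmain_two_mul_finrank (K := K) (F := F) hx
  let φ : F →ₗ[K] Ω[F⁄K] :=
    (LinearMap.toSpanSingleton F Ω[F⁄K] (D K F (ffX K F))).restrictScalars K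
  have hφ : ∀ g, φ g = g • D K F (ffX K F) := fun g => rfl
  have hdx : D K F (ffX K F) ≠ 0 := kaehlerRank_D_ne_zero hx
  have hinj : Function.Injective φ := by
    intro g₁ g₂ h
    rw [hφ, hφ, ← sub_eq_zero, ← sub_smul, smul_eq_zero] at h
    exact sub_eq_zero.1 (h.resolve_right hdx)
  have hmap : H = (ffHolo K F).map φ := by
    ext η
    rw [hH, Submodule.mem_map]
    constructor
    · intro h
      obtain ⟨g, rfl⟩ := kaehlerRank_exists_eq_smul (K := K) (x := ffX K F) η
      refine ⟨g, (ffmain_mem_ffHolo_iff hx g).2 fun v => ?_, rfl⟩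
      exact (ffmain_ordDifferential_smul hx v g).1 (h v)
    · rintro ⟨g, hg, rfl⟩ v
      rw [hφ, ffmain_ordDifferential_smul hx]
      exact (ffmain_mem_ffHolo_iff hx g).1 hg v
  have h1 := hdeg Dx hDx
  rw [hmap, ← (Submodule.equivMapOfInjective φ hinj (ffHolo K F)).finrank_eq] at h1
  exact h1

include hx in
/-- the divisor of `dx` exists. -/
theorem mw17kn_exists_divisor_ffX :
    ∃ Dx : Divisor K F, ∀ v : Place K F, Dx v = v.ordDifferential (D K F (ffX K F)) := by
  have h1 := (fffin_finrank_dual_quot (K := K) (F := F) hx).1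
  have h2 : {v : Place K F | v.ord (ffX K F) < 0}.Finite :=
    Set.finite_coe_iff.1 (ffinf_sum_ord (K := K) (F := F)).1
  have hfin : (Function.support fun v : Place K F =>
      v.ordDifferential (D K F (ffX K F))).Finite := by
    refine ((h1.image Subtype.val).union h2).subset ?_
    intro v hv
    rcases le_or_gt 0 (v.ord (ffX K F)) with h | h
    · exact Or.inl ⟨⟨v, h⟩, hv, rfl⟩
    · exact Or.inr h
  exact ⟨Finsupp.ofSupportFinite _ hfin, fun v => rfl⟩

end Compare

section Canonical

variable {K F : Type*} [Field K] [Field F] [Algebra K F]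

/-- an effective divisor of degree zero is zero. -/
theorem mw17kn_eq_zero_of_degree (hres : ∀ v : Place K F, Module.Finite K v.ResidueField)
    {E : Divisor K F} (h0 : 0 ≤ E) (hd : Divisor.degree E = 0) : E = 0 := by
  rw [v27rr_degree_eq_sum, Finsupp.sum] at hd
  have hnn : ∀ v ∈ E.support, 0 ≤ E v * (v.deg : ℤ) := fun v _ => by
    have : 0 ≤ E v := Finsupp.le_def.mp h0 v
    positivity
  have hz := (Finset.sum_eq_zero_iff_of_nonneg hnn).1 hd
  ext v
  by_cases hv : v ∈ E.support
  · have h1 := hz v hv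
    have h2 : (0 : ℤ) < v.deg := by exact_mod_cast v27d_deg_pos hres v
    rcases mul_eq_zero.1 h1 with h | h
    · simpa using h
    · omega
  · simpa using Finsupp.notMem_support_iff.1 hv

/-- multiplication by a function with divisor `W' - W` carries `L(W - D)` onto `L(W' - D)`. -/
theorem mw17kn_finrank_rrSpace_congr {W W' : Divisor K F} {f : F} (hf : f ≠ 0)
    (hdiv : ∀ v : Place K F, v.ord f = W' v - W v) (D : Divisor K F) :
    finrank K (riemannRochSpace (W' - D)) = finrank K (riemannRochSpace (W - D)) := by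
  let m : F →ₗ[K] F := LinearMap.mulLeft K f
  have hm : ∀ h, m h = f * h := fun h => rfl
  have hinj : Function.Injective m := fun a b hab => mul_left_cancel₀ hf hab
  have hmap : (riemannRochSpace (W' - D)).map m = riemannRochSpace (W - D) := by
    ext h
    rw [Submodule.mem_map]
    constructor
    · rintro ⟨h', hh', rfl⟩
      rw [mem_riemannRochSpace_iff] at hh' ⊢
      intro v
      rcases hh' v with h0 | h1
      · left; rw [hm, h0, mul_zero]
      · rcases eq_or_ne h' 0 with h0 | h0
        · left; rw [hm, h0, mul_zero]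
        right
        rw [hm, v.ord_mul hf h0, hdiv v]
        simp only [Finsupp.sub_apply] at h1 ⊢
        linarith
    · intro hh
      refine ⟨f⁻¹ * h, ?_, by rw [hm, ← mul_assoc, mul_inv_cancel₀ hf, one_mul]⟩
      rw [mem_riemannRochSpace_iff] at hh ⊢
      intro v
      rcases hh v with h0 | h1
      · left; rw [h0, mul_zero]
      · rcases eq_or_ne h 0 with h0 | h0
        · left; rw [h0, mul_zero]
        right
        rw [v.ord_mul (inv_ne_zero hf) h0, v.ord_inv, hdiv v]
        simp only [Finsupp.sub_apply] at h1 ⊢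
        linarith
  rw [← hmap, (Submodule.equivMapOfInjective m hinj _).finrank_eq]

variable {g : ℕ} (R : V27RR K F g)

include R in
/-- two divisors of degree `2g - 2` with `l = g` differ by a principal divisor, when one of them
is canonical. -/
theorem mw17kn_exists_fun {W Dx : Divisor K F}
    (hW : ∀ D : Divisor K F, (finrank K (riemannRochSpace D) : ℤ) =
      Divisor.degree D + 1 - g + finrank K (riemannRochSpace (W - D)))
    (hWdeg : Divisor.degree W = 2 * (g : ℤ) - 2)
    (hdeg : Divisor.degree Dx = 2 * (g : ℤ) - 2) (hl : finrank K (riemannRochSpace Dx) = g) :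
    ∃ f : F, f ≠ 0 ∧ ∀ v : Place K F, v.ord f = Dx v - W v := by
  have := R.hasDiv
  have h1 := hW Dx
  rw [hdeg, hl] at h1
  have h2 : finrank K (riemannRochSpace (W - Dx)) = 1 := by
    have : (finrank K (riemannRochSpace (W - Dx)) : ℤ) = 1 := by linarith
    exact_mod_cast this
  have hne : riemannRochSpace (W - Dx) ≠ ⊥ := by
    intro h0
    rw [h0, finrank_bot] at h2
    exact zero_ne_one h2
  obtain ⟨f, hf, hf0⟩ := Submodule.exists_mem_ne_zero_of_ne_bot hne
  refine ⟨f, hf0, fun v => ?_⟩
  have h3 : -(W - Dx) ≤ v27d_div K f := (v27d_mem_rrSpace_iff hf0).1 hf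
  have h4 : 0 ≤ v27d_div K f + (W - Dx) := by
    rw [Finsupp.le_def] at h3 ⊢
    intro v
    have := h3 v
    simp only [Finsupp.neg_apply, Finsupp.add_apply, Finsupp.coe_zero, Pi.zero_apply] at this ⊢
    linarith
  have h5 : Divisor.degree (v27d_div K f + (W - Dx)) = 0 := by
    rw [map_add, map_sub, v27d_degree_div, hWdeg, hdeg]
    ring
  have h6 := mw17kn_eq_zero_of_degree R.res h4 h5
  have h7 := DFunLike.congr_fun h6 v
  simp only [Finsupp.add_apply, Finsupp.sub_apply, Finsupp.coe_zero, Pi.zero_apply,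
    v27d_div_apply'] at h7
  linarith

include R in
/-- **a divisor of degree `2g - 2` with `l = g` is canonical**: it can replace `W` in `R.can`. -/
theorem mw17kn_canonical_of {Dx : Divisor K F}
    (hdeg : Divisor.degree Dx = 2 * (g : ℤ) - 2) (hl : finrank K (riemannRochSpace Dx) = g) :
    (∀ D : Divisor K F, finrank K (H1 D) = finrank K (riemannRochSpace (Dx - D))) ∧
    ∀ D : Divisor K F, (finrank K (riemannRochSpace D) : ℤ) =
      Divisor.degree D + 1 - g + finrank K (riemannRochSpace (Dx - D)) := by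
  obtain ⟨W, hWdeg, hWl, h3, h4⟩ := R.can
  obtain ⟨f, hf0, hf⟩ := mw17kn_exists_fun R h4 hWdeg hdeg hl
  have key : ∀ D : Divisor K F,
      finrank K (riemannRochSpace (Dx - D)) = finrank K (riemannRochSpace (W - D)) :=
    fun D => mw17kn_finrank_rrSpace_congr hf0 hf D
  exact ⟨fun D => by rw [h3 D, key D], fun D => by rw [h4 D, key D]⟩

include R in
/-- any two canonical divisors (degree `2g - 2`, `l = g`) are linearly equivalent. -/
theorem mw17kn_isPrincipal_sub {W Dx : Divisor K F}
    (hWdeg : Divisor.degree W = 2 * (g : ℤ) - 2) (hWl : finrank K (riemannRochSpace W) = g)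
    (hdeg : Divisor.degree Dx = 2 * (g : ℤ) - 2) (hl : finrank K (riemannRochSpace Dx) = g) :
    Divisor.IsPrincipal (Dx - W) := by
  obtain ⟨f, hf0, hf⟩ := mw17kn_exists_fun R (mw17kn_canonical_of R hWdeg hWl).2 hWdeg hdeg hl
  exact ⟨f, hf0, fun v => by rw [Finsupp.sub_apply, hf v]⟩

end Canonical

section Main

variable {K F : Type*} [Field K] [Field F] [Algebra K F] [IsAlgClosed K] [CharZero K]

/-- the two statements in the lattice setting, transported to an arbitrary separating
coordinate `x`. -/
theorem mw17kn_aux (x : F) (hx : Transcendental K x) [FiniteDimensional K⟮x⟯ F] :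
    (∃ Dx : Divisor K F, ∀ v : Place K F, Dx v = v.ordDifferential (D K F x)) ∧
    ∀ {g : ℕ} (R : V27RR K F g) (Dx : Divisor K F),
      (∀ v : Place K F, Dx v = v.ordDifferential (D K F x)) →
      Divisor.degree Dx = 2 * (g : ℤ) - 2 ∧ finrank K (riemannRochSpace Dx) = g := by
  let e : RatFunc K ≃ₐ[K] K⟮x⟯ := RatFunc.algEquivOfTranscendental x hx
  letI algP : Algebra K[X] F := (aeval x : K[X] →ₐ[K] F).toRingHom.toAlgebra
  letI algR : Algebra (RatFunc K) F :=
    ((algebraMap K⟮x⟯ F).comp (e : RatFunc K →+* K⟮x⟯)).toAlgebra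
  have hP : ∀ p : K[X], algebraMap K[X] F p = aeval x p := fun p => rfl
  have hR : ∀ r : RatFunc K, algebraMap (RatFunc K) F r = ((e r : K⟮x⟯) : F) := fun r => rfl
  haveI t1 : IsScalarTower K[X] (RatFunc K) F := IsScalarTower.of_algebraMap_eq fun p => by
    rw [hP, hR, RatFunc.algEquivOfTranscendental_algebraMap]
    simp
  haveI t2 : IsScalarTower K K[X] F := IsScalarTower.of_algebraMap_eq fun c => by
    rw [hP, Polynomial.algebraMap_apply, Algebra.algebraMap_self_apply, aeval_C]
  haveI t3 : IsScalarTower K (RatFunc K) F := IsScalarTower.of_algebraMap_eq fun c => by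
    rw [hR, e.commutes]
    rfl
  haveI fd : FiniteDimensional (RatFunc K) F :=
    Module.Finite.of_equiv_equiv (A₁ := K⟮x⟯) (B₁ := F) (A₂ := RatFunc K) (B₂ := F)
      e.symm.toRingEquiv (RingEquiv.refl F) (by
        ext r
        simp [hR])
  have hX : ffX K F = x := by
    rw [ffX, hP, aeval_X]
  have hx' : Transcendental K (ffX K F) := by rw [hX]; exact hx
  haveI fd' : FiniteDimensional K⟮ffX K F⟯ F := by rw [hX]; infer_instance
  haveI sep : Algebra.IsSeparable K⟮ffX K F⟯ F := inferInstance
  refine ⟨?_, ?_⟩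
  · obtain ⟨Dx, hDx⟩ := mw17kn_exists_divisor_ffX (K := K) (F := F) hx'
    exact ⟨Dx, fun v => by rw [hDx v, hX]⟩
  · intro g R Dx hDx
    have hDx' : ∀ v : Place K F, Dx v = v.ordDifferential (D K F (ffX K F)) := fun v => by
      rw [hDx v, hX]
    have h1 := mw17kn_finrank_ffHolo hx' R
    have h2 := mw17kn_two_mul_finrank_ffHolo hx' Dx hDx'
    have h3 := mw17kn_ffHolo_eq hx' Dx hDx'
    rw [h1] at h2
    refine ⟨by linarith, ?_⟩
    rw [← h3, h1]

/-- the divisor of `dx` exists. -/
theorem mw17kn_exists_divisor (x : F) (hx : Transcendental K x) [FiniteDimensional K⟮x⟯ F] :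
    ∃ Dx : Divisor K F, ∀ v : Place K F, Dx v = v.ordDifferential (D K F x) :=
  (mw17kn_aux x hx).1

variable {g : ℕ} (R : V27RR K F g) (x : F) (hx : Transcendental K x) [FiniteDimensional K⟮x⟯ F]
  (Dx : Divisor K F) (hDx : ∀ v : Place K F, Dx v = v.ordDifferential (D K F x))

include R hx hDx in
/-- **(KAN)** the divisor of `dx` is a canonical divisor of the Riemann–Roch package: it has degree
`2g - 2`, `l = g`, and it can replace `W` in `R.can` verbatim. -/
theorem mw17kn_main :
    Divisor.degree Dx = 2 * (g : ℤ) - 2 ∧ finrank K (riemannRochSpace Dx) = g ∧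
    (∀ D : Divisor K F, finrank K (H1 D) = finrank K (riemannRochSpace (Dx - D))) ∧
    ∀ D : Divisor K F, (finrank K (riemannRochSpace D) : ℤ) =
      Divisor.degree D + 1 - g + finrank K (riemannRochSpace (Dx - D)) := by
  obtain ⟨h1, h2⟩ := (mw17kn_aux x hx).2 R Dx hDx
  obtain ⟨h3, h4⟩ := mw17kn_canonical_of R h1 h2
  exact ⟨h1, h2, h3, h4⟩

include R hx hDx in
/-- the divisor of `dx` is linearly equivalent to every canonical divisor of the package. -/
theorem mw17kn_isPrincipal {W : Divisor K F} (hWdeg : Divisor.degree W = 2 * (g : ℤ) - 2)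
    (hWl : finrank K (riemannRochSpace W) = g) : Divisor.IsPrincipal (Dx - W) := by
  obtain ⟨h1, h2⟩ := (mw17kn_aux x hx).2 R Dx hDx
  exact mw17kn_isPrincipal_sub R hWdeg hWl h1 h2

include hx hDx in
/-- `L(div dx)` is the space of `h` with `h dx` everywhere regular. -/
theorem mw17kn_mem_rrSpace_iff (h : F) :
    h ∈ riemannRochSpace Dx ↔ ∀ v : Place K F, h = 0 ∨ 0 ≤ v.ord h + v.ordDifferential (D K F x) := by
  rw [mem_riemannRochSpace_iff]
  refine forall_congr' fun v => ?_
  rw [hDx v]
  constructor <;> rintro (h | h)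
  · exact Or.inl h
  · exact Or.inr (by linarith)
  · exact Or.inl h
  · exact Or.inr (by linarith)

include R hx in
/-- the same for the divisor of an arbitrary non-zero Kähler differential. -/
theorem mw17kn_main_of_ne_zero (ω : Ω[F⁄K]) (hω : ω ≠ 0) (Dω : Divisor K F)
    (hDω : ∀ v : Place K F, Dω v = v.ordDifferential ω) :
    Divisor.degree Dω = 2 * (g : ℤ) - 2 ∧ finrank K (riemannRochSpace Dω) = g ∧
    (∀ D : Divisor K F, finrank K (H1 D) = finrank K (riemannRochSpace (Dω - D))) ∧
    ∀ D : Divisor K F, (finrank K (riemannRochSpace D) : ℤ) =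
      Divisor.degree D + 1 - g + finrank K (riemannRochSpace (Dω - D)) := by
  have := R.hasDiv
  obtain ⟨Dx, hDx⟩ := mw17kn_exists_divisor x hx
  obtain ⟨h1, h2⟩ := (mw17kn_aux x hx).2 R Dx hDx
  obtain ⟨c, rfl⟩ := kaehlerRank_exists_eq_smul (K := K) (x := x) ω
  have hc : c ≠ 0 := by
    rintro rfl
    exact hω (zero_smul _ _)
  have hdx : D K F x ≠ 0 := kaehlerRank_D_ne_zero hx
  have hord : ∀ v : Place K F, v.ord c = Dω v - Dx v := by
    intro v
    have := place_nontrivial_kaehler (K := K) (F := F) hx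
    have := place_dCoordGenerates v hx
    have hcoeff : v.differentialCoeff (D K F x) ≠ 0 := by
      intro h0
      have h3 := v.differentialCoeff_smul_dCoord (D K F x)
      rw [h0, zero_smul] at h3
      exact hdx h3.symm
    rw [hDω v, hDx v, v.ordDifferential_smul hc hcoeff]
    ring
  have hdiv : Dω = v27d_div K c + Dx := by
    ext v
    rw [Finsupp.add_apply, v27d_div_apply', hord v]
    ring
  have h3 : Divisor.degree Dω = 2 * (g : ℤ) - 2 := by
    rw [hdiv, map_add, v27d_degree_div, zero_add, h1]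
  have h4 : finrank K (riemannRochSpace Dω) = g := by
    have := mw17kn_finrank_rrSpace_congr hc hord 0
    rw [sub_zero, sub_zero] at this
    rw [this, h2]
  obtain ⟨h5, h6⟩ := mw17kn_canonical_of R h3 h4
  exact ⟨h3, h4, h5, h6⟩

include R hx in
/-- **the Kähler genus is the Riemann–Roch genus.** -/
theorem mw17kn_genus_eq [HasCanonicalDivisor (K := K) (F := F)] :
    AlgebraicCurve.genus K F = g := by
  classical
  have hdx : D K F x ≠ 0 := kaehlerRank_D_ne_zero hx
  have hex : ∃ ω : Ω[F⁄K], ω ≠ 0 := ⟨_, hdx⟩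
  rw [AlgebraicCurve.genus, dif_pos hex]
  have h1 := (mw17kn_main_of_ne_zero R x hx hex.choose hex.choose_spec
    (canonicalDivisorOf hex.choose_spec) (fun v => canonicalDivisorOf_apply _ v)).1
  rw [h1]
  have : (2 * (g : ℤ) - 2 + 2).toNat = 2 * g := by omega
  rw [this]
  omega

end Main

end Fermat.Agent.MW17
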