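import Mathlib
import Fermat.Agent.V.Pres.Ord

/-!
# Program MW (S17), heights half (A): the common curve-side definitions

Owner: helper16.  Namespace `Fermat.Agent.MW17`, prefix `mw17` / `Mw17`.
See `blueprints/S17-heights.md` (origin/helper16), §2.

Setting: a field `K`, a shape `δ`, a multiplication table `T : V27pTable K δ`,
`B := V27pB T = ⊕_j K[X] e_j` (main: `V/Pres/Ring.lean`, `V/Pres/Ord.lean`).

* `Mw17Pt T`      : the finite points `B →ₐ[K] K`;
* `Mw17Idx δ m`   : the monomials `x^r e_j` of weight `N r + d j ≤ m` (a `Fintype`);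
* `mw17Mon T i`   : the monomial `x^r e_j ∈ B`;
* `mw17Psi T m q` : the vector `ψ_m(q) = (q (x^r e_j))` (the coordinate `(0,0)` is `1`);
* `mw17Sec T m u` : the section `Σ u_i x^r e_j ∈ L_m` with coefficient vector `u`.
-/

set_option autoImplicit false

noncomputable section

namespace Fermat.Agent.MW17

open Fermat.Agent.V Polynomial

variable {K : Type*} [Field K] {δ : V27pShape}

/-- the finite points of the presented curve -/
abbrev Mw17Pt (T : V27pTable K δ) : Type _ := V27pB T →ₐ[K] K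

/-- index set of the monomial basis of `L_m`: pairs `(j, r)` with `N r + d j ≤ m` -/
abbrev Mw17Idx (δ : V27pShape) (m : ℕ) : Type :=
  {i : ZMod δ.N × Fin (m + 1) // δ.N * (i.2 : ℕ) + δ.d i.1 ≤ m}

instance (δ : V27pShape) (m : ℕ) : Fintype (Mw17Idx δ m) := by
  unfold Mw17Idx; infer_instance

/-- the weight `N r + d j` of a monomial index -/
def mw17Wt {m : ℕ} (i : Mw17Idx δ m) : ℕ := δ.N * (i.1.2 : ℕ) + δ.d i.1.1

theorem mw17Wt_le {m : ℕ} (i : Mw17Idx δ m) : mw17Wt i ≤ m := i.2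

/-- the index of the constant monomial `1 = x^0 e_0` -/
def mw17IdxZero (δ : V27pShape) (m : ℕ) : Mw17Idx δ m :=
  ⟨((0 : ZMod δ.N), (0 : Fin (m + 1))), by simp [δ.d_zero]⟩

instance (δ : V27pShape) (m : ℕ) : Nonempty (Mw17Idx δ m) := ⟨mw17IdxZero δ m⟩

/-- inclusion of index sets `L_m ⊆ L_m'` -/
def mw17IdxIncl {m m' : ℕ} (h : m ≤ m') (i : Mw17Idx δ m) : Mw17Idx δ m' :=
  ⟨(i.1.1, ⟨(i.1.2 : ℕ), by have := i.1.2.2; omega⟩), by have := i.2; simp only; omega⟩

variable (T : V27pTable K δ)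

/-- the monomial `x^r e_j` -/
def mw17Mon {m : ℕ} (i : Mw17Idx δ m) : V27pB T :=
  V27pB.x ^ (i.1.2 : ℕ) * V27pB.e i.1.1

theorem mw17Mon_zero (m : ℕ) : mw17Mon T (mw17IdxZero δ m) = 1 := by
  simp [mw17Mon, mw17IdxZero, V27pB.e_zero]

theorem mw17Mon_incl {m m' : ℕ} (h : m ≤ m') (i : Mw17Idx δ m) :
    mw17Mon T (mw17IdxIncl h i) = mw17Mon T i := rfl

/-- `ψ_m(q)` : the values of the monomial basis of `L_m` at the point `q` -/
def mw17Psi (m : ℕ) (q : Mw17Pt T) : Mw17Idx δ m → K := fun i => q (mw17Mon T i)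

theorem mw17Psi_zero (m : ℕ) (q : Mw17Pt T) : mw17Psi T m q (mw17IdxZero δ m) = 1 := by
  simp [mw17Psi, mw17Mon_zero]

theorem mw17Psi_ne_zero (m : ℕ) (q : Mw17Pt T) : mw17Psi T m q ≠ 0 := fun h => by
  have := congrFun h (mw17IdxZero δ m)
  rw [mw17Psi_zero] at this
  exact one_ne_zero this

/-- the section of `O(m P0)` with coefficient vector `u` -/
def mw17Sec (m : ℕ) (u : Mw17Idx δ m → K) : V27pB T := ∑ i, u i • mw17Mon T i

theorem mw17Sec_apply (m : ℕ) (u : Mw17Idx δ m → K) (q : Mw17Pt T) :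
    q (mw17Sec T m u) = ∑ i, u i * mw17Psi T m q i := by
  simp [mw17Sec, mw17Psi, map_sum, map_smul]

theorem mw17Sec_add (m : ℕ) (u u' : Mw17Idx δ m → K) :
    mw17Sec T m (u + u') = mw17Sec T m u + mw17Sec T m u' := by
  simp [mw17Sec, add_smul, Finset.sum_add_distrib]

theorem mw17Sec_smul (m : ℕ) (c : K) (u : Mw17Idx δ m → K) :
    mw17Sec T m (c • u) = c • mw17Sec T m u := by
  simp [mw17Sec, Finset.smul_sum, mul_smul]

/-- `mw17Sec` as a linear map -/
def mw17SecL (m : ℕ) : (Mw17Idx δ m → K) →ₗ[K] V27pB T where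
  toFun := mw17Sec T m
  map_add' := mw17Sec_add T m
  map_smul' := mw17Sec_smul T m

end Fermat.Agent.MW17
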