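import Mathlib
import Fermat.Agent.MW17.Cone.Cert
import Fermat.Agent.HT.ConeLoc

/-!
# Program MW (S17), heights half (A), leaf §4.3 (NSS-CURVE) = LOC-2 on the table ring

Owner: helper19.  Namespace `Fermat.Agent.MW17`, prefix `mw17cn`.

For `k ≥ δ.N + 2·δ.bound` the monomials `φ := mw17Mon T (m := k)` of `L_k` satisfy the three
hypotheses of helper26's cone certificate / helper6's `htcn_loc2_top`:

* `mw17cn_adjoin_eq_top` : they generate `B = V27pB T` as a `K`-algebra;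
* `mw17Mon_zero`          : the monomial of index `mw17IdxZero δ k` is `1`;
* `mw17cn_hpow`           : for every `l` other than the top index, `φ_l ^ k` is a homogeneous
  polynomial of degree `k - 1` in the `φ_i` (the closure of the image of the curve meets the
  hyperplane `y_0 = 0` only in the point `e_top`).

Hence LOC-2 in `φ`-coordinates on the curve: `mw17cn_loc2_bi` (bihomogeneous `p_j(u, y)`),
`mw17cn_loc2_bi'` (all `u`, `0 < N₁`), `mw17cn_loc2_single` (no `u`), and the blueprint literal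
`mw17cn_loc2` (`p_β = Σ_i G β i (u) · y_i`).
-/

set_option autoImplicit false

noncomputable section

namespace Fermat.Agent.MW17

open Fermat.Agent.V Fermat.Agent.HT MvPolynomial

variable {K : Type*} [Field K] {δ : V27pShape} (T : V27pTable K δ)

/-- every `k ≥ δ.bound` is a pole order: the top index of `L_k` -/
theorem mw17cn_exists_top {k : ℕ} (hk : δ.bound ≤ k) : ∃ t : Mw17Idx δ k, mw17Wt t = k :=
  mw17cn_exists_idx le_rfl (mw17cn_nongap hk)

theorem mw17cn_wt_lt_of_ne {k : ℕ} {t l : Mw17Idx δ k} (ht : mw17Wt t = k) (hl : l ≠ t) :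
    mw17Wt l < k := by
  rcases lt_or_eq_of_le (mw17Wt_le l) with h | h
  · exact h
  · exact absurd (mw17cn_idx_ext (h.trans ht.symm)) hl

/-- **(hpow)** for `k ≥ 2·δ.bound`, `k ≥ 1`: the `k`-th power of a monomial of weight `< k` is a
homogeneous polynomial of degree `k - 1` in the monomials of `L_k` -/
theorem mw17cn_hpow {k : ℕ} (hk : 2 * δ.bound ≤ k) (hk1 : 1 ≤ k) (l : Mw17Idx δ k)
    (hl : mw17Wt l < k) :
    ∃ n : ℕ, 0 < n ∧ ∃ p : MvPolynomial (Mw17Idx δ k) K, p.IsHomogeneous (n - 1) ∧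
      MvPolynomial.aeval (mw17Mon T (m := k)) p = mw17Mon T l ^ n := by
  have hle : V27pLe (mw17Mon T l ^ k) (k * (k - 1)) := by
    have h1 : V27pLe (mw17Mon T l) (mw17Wt l) := by
      rw [← v27pOrd_le_iff, mw17cn_ord_mon]
    refine (mw17cn_le_pow h1 k).mono (Nat.mul_le_mul_left k ?_)
    omega
  obtain ⟨p, hp, hev⟩ := mw17cn_split T hk (k - 1) _ hle
  exact ⟨k, hk1, p, hp, hev⟩

/-- **(hgen)** for `k ≥ δ.N` and `k ≥ δ.d j`: the monomials of `L_k` generate `B` -/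
theorem mw17cn_adjoin_eq_top {k : ℕ} (hN : δ.N ≤ k) (hd : ∀ j, δ.d j ≤ k) :
    Algebra.adjoin K (Set.range (mw17Mon T (m := k))) = ⊤ := by
  rw [eq_top_iff]
  intro b _
  have hx : V27pB.x (T := T) ∈ Algebra.adjoin K (Set.range (mw17Mon T (m := k))) :=
    Algebra.subset_adjoin ⟨mw17cnIx hN, mw17cn_mon_ix hN⟩
  have he : ∀ j, V27pB.e (T := T) j ∈ Algebra.adjoin K (Set.range (mw17Mon T (m := k))) :=
    fun j => Algebra.subset_adjoin ⟨mw17cnIe j (hd j), mw17cn_mon_ie j (hd j)⟩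
  rw [V27pB.eq_sum_smul_e b]
  refine Subalgebra.sum_mem _ fun j _ => ?_
  rw [Algebra.smul_def]
  refine Subalgebra.mul_mem _ ?_ (he j)
  have h1 : algebraMap (Polynomial K) (V27pB T) (b j) =
      Polynomial.aeval (V27pB.x (T := T)) (b j) := by
    rw [V27pB.x, Polynomial.aeval_algebraMap_apply, Polynomial.aeval_X_left_apply]
  rw [h1]
  exact Polynomial.aeval_mem_adjoin_singleton K _ |> fun h =>
    (Algebra.adjoin_le (by
      intro z hz
      rw [Set.mem_singleton_iff.mp hz]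
      exact hx)) h

/-! ### LOC-2 on the curve -/

section Loc2

variable [IsAlgClosed K] {ι' : Type*} [Fintype ι']

/-- **LOC-2 in `φ`-coordinates, bihomogeneous form** (`φ = ψ_k`, `k ≥ δ.N + 2·δ.bound`). -/
theorem mw17cn_loc2_bi {k m : ℕ} [DecidableEq (Mw17Idx δ k)] (hk : δ.N + 2 * δ.bound ≤ k)
    (t : Mw17Idx δ k) (ht : mw17Wt t = k) {N₁ N₂ : ℕ}
    (p : ι' → MvPolynomial (Mw17Idx δ m ⊕ Mw17Idx δ k) K)
    (hp : ∀ j, IsWeightedHomogeneous (htnsBiw (Mw17Idx δ m) (Mw17Idx δ k)) (p j) (N₁, N₂))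
    (haff : ∀ u : Mw17Idx δ m → K, u ≠ 0 → ∀ q : Mw17Pt T, ∃ j,
      MvPolynomial.eval (Sum.elim u (mw17Psi T k q)) (p j) ≠ 0)
    (hinf : ∀ u : Mw17Idx δ m → K, u ≠ 0 → ∃ j,
      MvPolynomial.eval (Sum.elim u (Pi.single t (1 : K))) (p j) ≠ 0) :
    ∃ C : HtConst K, ∀ (w : AbsoluteValue K ℝ) (u : Mw17Idx δ m → K) (q : Mw17Pt T), u ≠ 0 →
      htlSup w u ^ N₁ * htlSup w (mw17Psi T k q) ^ N₂ ≤
        C.val w * ⨆ j, w (MvPolynomial.eval (Sum.elim u (mw17Psi T k q)) (p j)) := by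
  have hd : ∀ j, δ.d j ≤ k := fun j => by have := δ.d_le_bound j; omega
  exact htcn_loc2_top (mw17Mon T (m := k)) (mw17cn_adjoin_eq_top T (by omega) hd)
    (mw17IdxZero δ k) t (mw17Mon_zero T k)
    (fun l hl => mw17cn_hpow T (by omega) (by have := δ.hN; omega) l (mw17cn_wt_lt_of_ne ht hl))
    p hp haff hinf

/-- **LOC-2, bihomogeneous form, all `u`** (`0 < N₁`). -/
theorem mw17cn_loc2_bi' {k m : ℕ} [DecidableEq (Mw17Idx δ k)] (hk : δ.N + 2 * δ.bound ≤ k)
    (t : Mw17Idx δ k) (ht : mw17Wt t = k) {N₁ N₂ : ℕ} (hN₁ : 0 < N₁)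
    (p : ι' → MvPolynomial (Mw17Idx δ m ⊕ Mw17Idx δ k) K)
    (hp : ∀ j, IsWeightedHomogeneous (htnsBiw (Mw17Idx δ m) (Mw17Idx δ k)) (p j) (N₁, N₂))
    (haff : ∀ u : Mw17Idx δ m → K, u ≠ 0 → ∀ q : Mw17Pt T, ∃ j,
      MvPolynomial.eval (Sum.elim u (mw17Psi T k q)) (p j) ≠ 0)
    (hinf : ∀ u : Mw17Idx δ m → K, u ≠ 0 → ∃ j,
      MvPolynomial.eval (Sum.elim u (Pi.single t (1 : K))) (p j) ≠ 0) :
    ∃ C : HtConst K, ∀ (w : AbsoluteValue K ℝ) (u : Mw17Idx δ m → K) (q : Mw17Pt T),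
      htlSup w u ^ N₁ * htlSup w (mw17Psi T k q) ^ N₂ ≤
        C.val w * ⨆ j, w (MvPolynomial.eval (Sum.elim u (mw17Psi T k q)) (p j)) := by
  have hd : ∀ j, δ.d j ≤ k := fun j => by have := δ.d_le_bound j; omega
  exact htcn_loc2_top' (mw17Mon T (m := k)) (mw17cn_adjoin_eq_top T (by omega) hd)
    (mw17IdxZero δ k) t (mw17Mon_zero T k)
    (fun l hl => mw17cn_hpow T (by omega) (by have := δ.hN; omega) l (mw17cn_wt_lt_of_ne ht hl))
    hN₁ p hp haff hinf

/-- **LOC-2 without `u`**: a tuple of forms of degree `N` in `ψ_k` without common zero on the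
complete curve bounds `‖ψ_k q‖ ^ N`. -/
theorem mw17cn_loc2_single {k : ℕ} [DecidableEq (Mw17Idx δ k)] (hk : δ.N + 2 * δ.bound ≤ k)
    (t : Mw17Idx δ k) (ht : mw17Wt t = k) {N : ℕ}
    (p : ι' → MvPolynomial (Mw17Idx δ k) K) (hp : ∀ j, (p j).IsHomogeneous N)
    (haff : ∀ q : Mw17Pt T, ∃ j, MvPolynomial.eval (mw17Psi T k q) (p j) ≠ 0)
    (hinf : ∃ j, MvPolynomial.eval (Pi.single t (1 : K)) (p j) ≠ 0) :
    ∃ C : HtConst K, ∀ (w : AbsoluteValue K ℝ) (q : Mw17Pt T),
      htlSup w (mw17Psi T k q) ^ N ≤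
        C.val w * ⨆ j, w (MvPolynomial.eval (mw17Psi T k q) (p j)) := by
  have hd : ∀ j, δ.d j ≤ k := fun j => by have := δ.d_le_bound j; omega
  exact htcn_loc2_single_top (mw17Mon T (m := k)) (mw17cn_adjoin_eq_top T (by omega) hd)
    (mw17IdxZero δ k) t (mw17Mon_zero T k)
    (fun l hl => mw17cn_hpow T (by omega) (by have := δ.hN; omega) l (mw17cn_wt_lt_of_ne ht hl))
    p hp haff hinf

omit [IsAlgClosed K] in
/-- a form of degree `0` is constant -/
theorem mw17cn_eval_of_degree_zero {σ : Type*} [Fintype σ] {g : MvPolynomial σ K}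
    (hg : g.IsHomogeneous 0) (u u' : σ → K) :
    MvPolynomial.eval u g = MvPolynomial.eval u' g := by
  have h1 := mw17cn_aeval_smul g hg 0 u
  have h2 := mw17cn_aeval_smul g hg 0 u'
  rw [pow_zero, one_mul, zero_smul] at h1 h2
  exact (h1.symm.trans h2 : MvPolynomial.aeval u g = MvPolynomial.aeval u' g)

/-- **LOC-2, the literal of blueprint §4.3** (`p_β(u, y) = Σ_i G β i (u) · y_i`, all `u`). -/
theorem mw17cn_loc2 {ι : Type*} [Fintype ι] (a k m : ℕ) (hk : δ.N + 2 * δ.bound ≤ k)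
    (t : Mw17Idx δ k) (ht : mw17Wt t = k)
    (G : ι → Mw17Idx δ k → MvPolynomial (Mw17Idx δ m) K)
    (hG : ∀ β i, (G β i).IsHomogeneous a)
    (hfin : ∀ u : Mw17Idx δ m → K, u ≠ 0 → ∀ q : Mw17Pt T,
      ∃ β, ∑ i, MvPolynomial.eval u (G β i) * mw17Psi T k q i ≠ 0)
    (hinf : ∀ u : Mw17Idx δ m → K, u ≠ 0 → ∃ β, MvPolynomial.eval u (G β t) ≠ 0) :
    ∃ C : HtConst K, ∀ (w : AbsoluteValue K ℝ) (u : Mw17Idx δ m → K) (q : Mw17Pt T),
      htlSup w u ^ a * htlSup w (mw17Psi T k q) ≤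
        C.val w * ⨆ β, w (∑ i, MvPolynomial.eval u (G β i) * mw17Psi T k q i) := by
  classical
  have key : ∀ (u : Mw17Idx δ m → K) (y : Mw17Idx δ k → K) (β : ι),
      MvPolynomial.eval (Sum.elim u y) (mw17cnP G β) =
        ∑ i, MvPolynomial.eval u (G β i) * y i := fun u y β => mw17cnP_aeval G β u y
  obtain ⟨C, hC⟩ := mw17cn_loc2_bi T hk t ht (mw17cnP G) (mw17cnP_bihom G hG)
    (fun u hu q => by
      obtain ⟨β, hβ⟩ := hfin u hu q
      exact ⟨β, by rw [key]; exact hβ⟩)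
    (fun u hu => by
      obtain ⟨β, hβ⟩ := hinf u hu
      refine ⟨β, ?_⟩
      rw [key, Finset.sum_eq_single t (fun i _ hi => by rw [Pi.single_eq_of_ne hi, mul_zero])
        (fun h => absurd (Finset.mem_univ t) h), Pi.single_eq_same, mul_one]
      exact hβ)
  have hC' : ∀ (w : AbsoluteValue K ℝ) (u : Mw17Idx δ m → K) (q : Mw17Pt T), u ≠ 0 →
      htlSup w u ^ a * htlSup w (mw17Psi T k q) ≤
        C.val w * ⨆ β, w (∑ i, MvPolynomial.eval u (G β i) * mw17Psi T k q i) := by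
    intro w u q hu
    have := hC w u q hu
    simp only [key, pow_one] at this
    exact this
  refine ⟨C, fun w u q => ?_⟩
  by_cases hu : u = 0
  · rcases Nat.eq_zero_or_pos a with ha | ha
    · subst ha
      have h1 : (fun _ => 1 : Mw17Idx δ m → K) ≠ 0 := fun h => by
        have := congrFun h (mw17IdxZero δ m)
        simp at this
      have h2 := hC' w (fun _ => 1) q h1
      have h3 : ∀ β i, MvPolynomial.eval u (G β i) =
          MvPolynomial.eval (fun _ => 1 : Mw17Idx δ m → K) (G β i) :=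
        fun β i => mw17cn_eval_of_degree_zero (hG β i) _ _
      simp only [h3, pow_zero] at h2 ⊢
      exact h2
    · subst hu
      have h1 : htlSup w (0 : Mw17Idx δ m → K) = 0 := by simp [htlSup]
      rw [h1, zero_pow ha.ne', zero_mul]
      exact mul_nonneg (htl_val_nonneg C w) (Real.iSup_nonneg fun j => w.nonneg _)
  · exact hC' w u q hu

end Loc2

/-! ### the case `k = 0`: the homogeneous Nullstellensatz in local form -/

/-- **LOC-2 with trivial curve part**: forms `G β` of degree `a` without common non-trivial zero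
bound `‖u‖ ^ a` from below. -/
theorem mw17cn_loc2_zero [IsAlgClosed K] {ι κ : Type*} [Fintype ι] [Fintype κ] [Nonempty κ]
    (a : ℕ) (G : ι → MvPolynomial κ K) (hG : ∀ β, (G β).IsHomogeneous a)
    (h : ∀ u : κ → K, u ≠ 0 → ∃ β, MvPolynomial.eval u (G β) ≠ 0) :
    ∃ C : HtConst K, ∀ (w : AbsoluteValue K ℝ) (u : κ → K),
      htlSup w u ^ a ≤ C.val w * ⨆ β, w (MvPolynomial.eval u (G β)) := by
  obtain ⟨M, Q, hQ, hcert⟩ := htns_exists_certificate (K := K) (⊥ : Ideal (MvPolynomial κ K))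
    (fun f hf n => by rw [Ideal.mem_bot] at hf ⊢; rw [hf, map_zero]) G hG
    (fun x _ hx => by
      by_contra hne
      obtain ⟨β, hβ⟩ := h x hne
      exact hβ (hx β))
  obtain ⟨C, hC⟩ := htlb_ge_single Q hQ a
  have hC' : ∀ (w : AbsoluteValue K ℝ) (u : κ → K), u ≠ 0 →
      htlSup w u ^ a ≤ C.val w * ⨆ β, w (MvPolynomial.eval u (G β)) := by
    intro w u hu
    refine hC w u (fun β => MvPolynomial.eval u (G β)) hu (fun i => ?_)
    exact htns_aeval_certificate (L := K) ⊥ hcert u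
      (fun f hf => by rw [Ideal.mem_bot] at hf; rw [hf, map_zero]) i
  refine ⟨C, fun w u => ?_⟩
  by_cases hu : u = 0
  · rcases Nat.eq_zero_or_pos a with ha | ha
    · subst ha
      have h1 : (fun _ => 1 : κ → K) ≠ 0 := fun h => by
        have := congrFun h (Classical.arbitrary κ)
        simp at this
      have h2 := hC' w (fun _ => 1) h1
      have h3 : ∀ β, MvPolynomial.eval u (G β) = MvPolynomial.eval (fun _ => 1 : κ → K) (G β) :=
        fun β => mw17cn_eval_of_degree_zero (hG β) _ _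
      simp only [h3, pow_zero] at h2 ⊢
      exact h2
    · subst hu
      have h1 : htlSup w (0 : κ → K) = 0 := by simp [htlSup]
      rw [h1, zero_pow ha.ne']
      exact mul_nonneg (htl_val_nonneg C w) (Real.iSup_nonneg fun j => w.nonneg _)
  · exact hC' w u hu

end Fermat.Agent.MW17
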