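import Fermat.Agent.MW17.Setup
import Fermat.Agent.HT.Loc

/-!
# Program MW (S17), heights half (A): comparison of two fixed tuples  (TUPLE-CMP)

Owner: helper10.  Namespace `Fermat.Agent.MW17`, prefix `mw17tu`.

`B = V27pB T` a Dedekind domain.  If `a = (a_i)` and `a' = (a'_l)` are fixed tuples of elements of
`B` such that every `a'_l` lies in the ideal generated by the `a_i` (i.e. `a'` vanishes at least as
much as `a` at every finite point) and `max ord a' ≤ max ord a` (the same at `P0`), then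
`‖a'(Q)‖_w ≤ C_w ‖a(Q)‖_w` for all admissible absolute values `w` and all finite points `Q`.

The only analytic input is the hypothesis `Mw17BpfLoc T` (= blueprint LOC-2 with `a = 0`: a tuple
of `L_l` without common zero on the complete curve dominates `ψ_l`).
-/

set_option autoImplicit false

noncomputable section

namespace Fermat.Agent.MW17

open Fermat.Agent.V Fermat.Agent.HT Polynomial
open scoped Pointwise

variable {K : Type*} [Field K] {δ : V27pShape}

section Expand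

variable (T : V27pTable K δ)

/-- the `k`-th coordinate as an additive map -/
def mw17tuCoord (k : ZMod δ.N) : V27pB T →+ K[X] where
  toFun a := a k
  map_zero' := rfl
  map_add' _ _ := rfl

/-- the monomial `x^r e_j` in coordinates -/
theorem mw17tu_xpow_mul_e_apply (r : ℕ) (j k : ZMod δ.N) :
    (V27pB.x ^ r * V27pB.e j : V27pB T) k = if k = j then X ^ r else 0 := by
  have h : (V27pB.x ^ r * V27pB.e j : V27pB T) = (X ^ r : K[X]) • (V27pB.e j : V27pB T) := by
    rw [V27pB.x, ← map_pow, Algebra.smul_def]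
  rw [h, V27pB.smul_apply, V27pB.e_apply]
  split_ifs <;> simp

/-- every element of `L_m` is the section of a coefficient vector -/
theorem mw17tu_exists_sec {b : V27pB T} {m : ℕ} (h : V27pLe b m) :
    ∃ u : Mw17Idx δ m → K, b = mw17Sec T m u := by
  classical
  refine ⟨fun i => (b i.1.1).coeff (i.1.2 : ℕ), ?_⟩
  refine V27pB.ext fun k => ?_
  have h1 : (mw17Sec T m fun i : Mw17Idx δ m => (b i.1.1).coeff (i.1.2 : ℕ)) k
      = ∑ i : Mw17Idx δ m, C ((b i.1.1).coeff (i.1.2 : ℕ)) *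
          (if k = i.1.1 then X ^ (i.1.2 : ℕ) else 0) := by
    have := map_sum (mw17tuCoord T k)
      (fun i : Mw17Idx δ m => (b i.1.1).coeff (i.1.2 : ℕ) • mw17Mon T i) Finset.univ
    simp only [mw17tuCoord, AddMonoidHom.coe_mk, ZeroHom.coe_mk] at this
    rw [mw17Sec, this]
    refine Finset.sum_congr rfl fun i _ => ?_
    rw [V27pB.smul_def', mw17Mon, mw17tu_xpow_mul_e_apply]
  rw [h1]
  ext r
  rw [Polynomial.finsetSum_coeff]
  by_cases hr : δ.N * r + δ.d k ≤ m
  · have hr' : r < m + 1 := by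
      have := Nat.le_mul_of_pos_left r δ.hN
      omega
    rw [Finset.sum_eq_single (⟨(k, ⟨r, hr'⟩), hr⟩ : Mw17Idx δ m)]
    · simp
    · intro i _ hi
      by_cases hk : k = i.1.1
      · rw [if_pos hk, coeff_C_mul, coeff_X_pow]
        have : r ≠ (i.1.2 : ℕ) := by
          intro hri
          apply hi
          apply Subtype.ext
          apply Prod.ext
          · exact hk.symm
          · exact Fin.ext hri.symm
        rw [if_neg this, mul_zero]
      · rw [if_neg hk, mul_zero, coeff_zero]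
    · intro hne; exact absurd (Finset.mem_univ _) hne
  · push Not at hr
    rw [h k r hr]
    symm
    apply Finset.sum_eq_zero
    intro i _
    by_cases hk : k = i.1.1
    · rw [if_pos hk, coeff_C_mul, coeff_X_pow]
      have : r ≠ (i.1.2 : ℕ) := by
        intro hri
        have := i.2
        rw [← hk, ← hri] at this
        omega
      rw [if_neg this, mul_zero]
    · rw [if_neg hk, mul_zero, coeff_zero]

/-- an element of `L_l` is bounded by `ψ_l`, uniformly in the absolute value and the point -/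
theorem mw17tu_le_psi {b : V27pB T} {l : ℕ} (h : V27pLe b l) :
    ∃ C : HtConst K, ∀ (w : HtAbs K) (χ : Mw17Pt T),
      w (χ b) ≤ C.val w * htlSup w (mw17Psi T l χ) := by
  classical
  obtain ⟨u, rfl⟩ := mw17tu_exists_sec T h
  obtain ⟨C₁, hC₁⟩ := htl_arch_le_val (K := K) (Fintype.card (Mw17Idx δ l))
  obtain ⟨C₂, hC₂⟩ := htl_val_finset Finset.univ (fun i : Mw17Idx δ l => HtConst.ofElem (u i))
  obtain ⟨C₃, hC₃⟩ := htl_val_mul C₁ C₂
  refine ⟨C₃, fun w χ => ?_⟩
  rw [mw17Sec_apply]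
  have hu : htlSup w u ≤ C₂.val w := by
    refine htlSup_le (htl_val_nonneg _ _) fun i => ?_
    refine le_trans ?_ (hC₂ i (Finset.mem_univ _) w)
    rw [htl_val_ofElem]; exact le_max_right _ _
  calc (w : AbsoluteValue K ℝ) (∑ i, u i * mw17Psi T l χ i)
      ≤ htlArch (w : AbsoluteValue K ℝ) (Fintype.card (Mw17Idx δ l)) *
          (htlSup w u * htlSup w (mw17Psi T l χ)) :=
        htl_linear_le (w : AbsoluteValue K ℝ) u _
    _ ≤ C₁.val w * (C₂.val w * htlSup w (mw17Psi T l χ)) := by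
        refine mul_le_mul (hC₁ w) ?_ (mul_nonneg (htlSup_nonneg _ _) (htlSup_nonneg _ _))
          (htl_val_nonneg _ _)
        exact mul_le_mul_of_nonneg_right hu (htlSup_nonneg _ _)
    _ = (C₁.val w * C₂.val w) * htlSup w (mw17Psi T l χ) := by ring
    _ ≤ C₃.val w * htlSup w (mw17Psi T l χ) :=
        mul_le_mul_of_nonneg_right (hC₃ w) (htlSup_nonneg _ _)

end Expand

/-! ### Dedekind algebra -/

section Algebra

variable {A : Type*} [CommRing A] [IsDedekindDomain A]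

/-- Dedekind factorisation of a tuple against a non-zero element `s` of its ideal `I`:
`I * J = (s)`, `J = (c_j)`, `a_i c_j = s t_ij` with `(t_ij) = (1)`. -/
theorem mw17tu_factor {ι ι' : Type*} (a : ι → A) (a' : ι' → A)
    (hI : ∀ l, a' l ∈ Ideal.span (Set.range a)) {s : A} (hs : s ≠ 0)
    (hsI : s ∈ Ideal.span (Set.range a)) :
    ∃ (n : ℕ) (c : Fin n → A) (t : ι × Fin n → A) (t' : ι' × Fin n → A),
      (∀ i j, a i * c j = s * t (i, j)) ∧ (∀ l j, a' l * c j = s * t' (l, j)) ∧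
      (1 : A) ∈ Ideal.span (Set.range t) ∧
      Ideal.span (Set.range a) * Ideal.span (Set.range c) = Ideal.span {s} := by
  classical
  have hle : Ideal.span {s} ≤ Ideal.span (Set.range a) :=
    (Ideal.span_singleton_le_iff_mem _).mpr hsI
  obtain ⟨J, hJ⟩ := Ideal.dvd_iff_le.mpr hle
  obtain ⟨n, c, hc⟩ :=
    Submodule.fg_iff_exists_fin_generating_family.mp (IsNoetherian.noetherian J)
  have hcJ : Ideal.span (Set.range c) = J := hc
  have hmem : ∀ b : A, b ∈ Ideal.span (Set.range a) → ∀ j, ∃ t, b * c j = s * t := by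
    intro b hb j
    have h1 : b * c j ∈ Ideal.span (Set.range a) * J :=
      Ideal.mul_mem_mul hb (hcJ ▸ Ideal.subset_span ⟨j, rfl⟩)
    rw [← hJ, Ideal.mem_span_singleton'] at h1
    obtain ⟨t, ht⟩ := h1
    exact ⟨t, by rw [← ht, mul_comm]⟩
  choose t ht using fun p : ι × Fin n => hmem (a p.1) (Ideal.subset_span ⟨p.1, rfl⟩) p.2
  choose t' ht' using fun p : ι' × Fin n => hmem (a' p.1) (hI p.1) p.2
  refine ⟨n, c, t, t', fun i j => ht (i, j), fun l j => ht' (l, j), ?_, ?_⟩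
  · have hs' : s ∈ Ideal.span (Set.range a) * Ideal.span (Set.range c) := by
      rw [hcJ, ← hJ]; exact Ideal.mem_span_singleton_self s
    rw [Ideal.span_mul_span'] at hs'
    have hsub : Ideal.span (Set.range a * Set.range c) ≤
        Ideal.span {s} * Ideal.span (Set.range t) := by
      rw [Ideal.span_le]
      rintro _ ⟨_, ⟨i, rfl⟩, _, ⟨j, rfl⟩, rfl⟩
      show a i * c j ∈ _
      rw [ht (i, j)]
      exact Ideal.mul_mem_mul (Ideal.mem_span_singleton_self s)
        (Ideal.subset_span ⟨(i, j), rfl⟩)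
    have h2 := hsub hs'
    rw [Ideal.mem_span_singleton_mul] at h2
    obtain ⟨z, hz, hsz⟩ := h2
    have hz1 : z = 1 := by
      apply mul_left_cancel₀ hs
      rw [hsz, mul_one]
    rwa [hz1] at hz
  · rw [hcJ]; exact hJ.symm

/-- a non-zero finitely generated ideal of a Dedekind domain is generated by two non-zero
elements -/
theorem mw17tu_two_gen {ι : Type*} (a : ι → A) (ha : ∃ i, a i ≠ 0) :
    ∃ s₁ s₂ : A, s₁ ≠ 0 ∧ s₂ ≠ 0 ∧ Ideal.span (Set.range a) = Ideal.span {s₁, s₂} := by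
  obtain ⟨i, hi⟩ := ha
  have hmem : a i ∈ Ideal.span (Set.range a) := Ideal.subset_span ⟨i, rfl⟩
  obtain ⟨y, hy⟩ := IsDedekindDomain.exists_eq_span_pair hmem hi
  by_cases hy0 : y = 0
  · refine ⟨a i, a i, hi, hi, ?_⟩
    rw [hy, hy0]
    simp [Ideal.span_insert]
  · exact ⟨a i, y, hi, hy0, hy⟩

/-- the two complementary ideals cannot both lie in a proper ideal -/
theorem mw17tu_coprime {I J₁ J₂ : Ideal A} {s₁ s₂ : A} (hI0 : I ≠ ⊥)
    (h₁ : I * J₁ = Ideal.span {s₁}) (h₂ : I * J₂ = Ideal.span {s₂})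
    (hI : I = Ideal.span {s₁, s₂}) (M : Ideal A) (hM : M ≠ ⊤) : ¬ (J₁ ≤ M ∧ J₂ ≤ M) := by
  rintro ⟨hJ₁, hJ₂⟩
  have hle : I ≤ I * M := by
    conv_lhs => rw [hI]
    rw [Ideal.span_le]
    intro z hz
    rcases hz with rfl | hz
    · have : z ∈ I * J₁ := by rw [h₁]; exact Ideal.mem_span_singleton_self z
      exact Ideal.mul_mono_right hJ₁ this
    · rw [Set.mem_singleton_iff] at hz
      subst hz
      have : z ∈ I * J₂ := by rw [h₂]; exact Ideal.mem_span_singleton_self z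
      exact Ideal.mul_mono_right hJ₂ this
  have heq : I * M = I * ⊤ := by
    rw [Ideal.mul_top]
    exact le_antisymm Ideal.mul_le_left hle
  exact hM (mul_left_cancel₀ hI0 heq)

/-- **local criterion for ideal membership** in a Dedekind domain: `b ∈ (a_i)` as soon as, for
every maximal ideal `M` and every `e`, `(a_i) ⊆ M^e` implies `b ∈ M^e`. -/
theorem mw17tu_mem_span_of_local {ι : Type*} (a : ι → A) (ha : ∃ i, a i ≠ 0) (b : A)
    (h : ∀ M : Ideal A, M.IsMaximal → ∀ e : ℕ, (∀ i, a i ∈ M ^ e) → b ∈ M ^ e) :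
    b ∈ Ideal.span (Set.range a) := by
  classical
  by_cases hb : b = 0
  · rw [hb]; exact zero_mem _
  have hI0 : Ideal.span (Set.range a) ≠ ⊥ := by
    obtain ⟨i, hi⟩ := ha
    intro h0
    apply hi
    have h3 : a i ∈ Ideal.span (Set.range a) := Ideal.subset_span ⟨i, rfl⟩
    rw [h0] at h3
    simpa using h3
  have hJ0 : Ideal.span {b} ≠ ⊥ := by
    rwa [Ne, Ideal.span_singleton_eq_bot]
  rw [← Ideal.span_singleton_le_iff_mem, ← Ideal.dvd_iff_le,
    UniqueFactorizationMonoid.dvd_iff_normalizedFactors_le_normalizedFactors hI0 hJ0,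
    Multiset.le_iff_count]
  intro p
  by_cases hp : p ∈ UniqueFactorizationMonoid.normalizedFactors (Ideal.span (Set.range a))
  · have hprime : Prime p := UniqueFactorizationMonoid.prime_of_normalized_factor p hp
    have hpI : p.IsPrime := Ideal.isPrime_of_prime hprime
    have hp0 : p ≠ ⊥ := hprime.ne_zero
    have hmax : p.IsMaximal := hpI.isMaximal hp0
    have hfac : ∀ {J : Ideal A} (e : ℕ), J ≠ ⊥ →
        (J ≤ p ^ e ↔ e ≤ Multiset.count p (UniqueFactorizationMonoid.normalizedFactors J)) := by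
      intro J e hJ
      rw [← Ideal.dvd_iff_le,
        UniqueFactorizationMonoid.dvd_iff_normalizedFactors_le_normalizedFactors
          (pow_ne_zero _ hp0) hJ,
        UniqueFactorizationMonoid.normalizedFactors_pow,
        UniqueFactorizationMonoid.normalizedFactors_irreducible hprime.irreducible,
        normalize_eq, Multiset.nsmul_singleton, ← Multiset.le_count_iff_replicate_le]
    have hle : Ideal.span (Set.range a) ≤
        p ^ Multiset.count p (UniqueFactorizationMonoid.normalizedFactors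
          (Ideal.span (Set.range a))) := (hfac _ hI0).mpr le_rfl
    have hb' := h p hmax _ (fun i => hle (Ideal.subset_span ⟨i, rfl⟩))
    exact (hfac _ hJ0).mp ((Ideal.span_singleton_le_iff_mem _).mpr hb')
  · rw [Multiset.count_eq_zero_of_notMem hp]; exact Nat.zero_le _

/-- a maximal ideal with residue field `K` is the kernel of a `K`-point -/
theorem mw17tu_exists_point_of_maximal {K B : Type*} [Field K] [CommRing B] [Algebra K B]
    (P : Ideal B) (hP : P.IsMaximal)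
    (hres : Function.Surjective (algebraMap K (B ⧸ P))) :
    ∃ χ : B →ₐ[K] K, RingHom.ker (χ : B →+* K) = P := by
  letI : Field (B ⧸ P) := Ideal.Quotient.field P
  have hinj : Function.Injective (algebraMap K (B ⧸ P)) := (algebraMap K (B ⧸ P)).injective
  let e : K ≃ₐ[K] (B ⧸ P) := AlgEquiv.ofBijective (Algebra.ofId K (B ⧸ P)) ⟨hinj, hres⟩
  refine ⟨(e.symm : (B ⧸ P) →ₐ[K] K).comp (Ideal.Quotient.mkₐ K P), ?_⟩
  ext b
  rw [RingHom.mem_ker]
  change e.symm (Ideal.Quotient.mk P b) = 0 ↔ b ∈ P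
  rw [EmbeddingLike.map_eq_zero_iff, Ideal.Quotient.eq_zero_iff_mem]

end Algebra

/-! ### The comparison -/

section Main

variable (T : V27pTable K δ)

/-- (LOC-2 with `a = 0`, at level `l`): a tuple of `L_l` without common zero at the finite points
and containing an element of exact order `l` dominates `ψ_l`. -/
def Mw17BpfLoc : Prop :=
  ∀ (ι : Type) [Fintype ι] (l : ℕ) (t : ι → V27pB T), (∀ i, V27pLe (t i) l) →
    (∃ i, t i ≠ 0 ∧ v27pOrd (t i) = l) → (∀ χ : Mw17Pt T, ∃ i, χ (t i) ≠ 0) →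
    ∃ C : HtConst K, ∀ (w : HtAbs K) (χ : Mw17Pt T),
      htlSup w (mw17Psi T l χ) ≤ C.val w * ⨆ i, w (χ (t i))

variable {T}

/-- one factorisation: the comparison at the points where the complementary tuple `c` does not
vanish identically -/
theorem mw17tu_cmp_aux (hloc : Mw17BpfLoc T) {ι ι' : Type} [Fintype ι] [Fintype ι']
    (a : ι → V27pB T) (a' : ι' → V27pB T)
    (hord : ∀ l, ∃ i, a i ≠ 0 ∧ v27pOrd (a' l) ≤ v27pOrd (a i))
    {s : V27pB T} (hs : s ≠ 0) {n : ℕ} (c : Fin n → V27pB T) (t : ι × Fin n → V27pB T)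
    (t' : ι' × Fin n → V27pB T)
    (ht : ∀ i j, a i * c j = s * t (i, j)) (ht' : ∀ l j, a' l * c j = s * t' (l, j))
    (h1 : (1 : V27pB T) ∈ Ideal.span (Set.range t))
    (hi₀ : ∃ i, a i ≠ 0) (hj₀ : ∃ j, c j ≠ 0) :
    ∃ C : HtConst K, ∀ (w : HtAbs K) (χ : Mw17Pt T), (∃ j, χ (c j) ≠ 0) →
      ∀ l, w (χ (a' l)) ≤ C.val w * ⨆ i, w (χ (a i)) := by
  classical
  -- maximal orders
  obtain ⟨i₀, hi₀m, hi₀max⟩ := Finset.exists_max_image (Finset.univ.filter fun i => a i ≠ 0)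
    (fun i => v27pOrd (a i)) (by obtain ⟨i, hi⟩ := hi₀; exact ⟨i, by simp [hi]⟩)
  obtain ⟨j₀, hj₀m, hj₀max⟩ := Finset.exists_max_image (Finset.univ.filter fun j => c j ≠ 0)
    (fun j => v27pOrd (c j)) (by obtain ⟨j, hj⟩ := hj₀; exact ⟨j, by simp [hj]⟩)
  simp only [Finset.mem_filter, Finset.mem_univ, true_and] at hi₀m hj₀m hi₀max hj₀max
  -- orders of the quotients
  have hquot : ∀ {b cc tt : V27pB T}, b ≠ 0 → cc ≠ 0 → b * cc = s * tt →
      tt ≠ 0 ∧ v27pOrd s + v27pOrd tt = v27pOrd b + v27pOrd cc := by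
    intro b cc tt hb hcc h
    have htt : tt ≠ 0 := by
      rintro rfl
      rw [mul_zero] at h
      exact mul_ne_zero hb hcc h
    refine ⟨htt, ?_⟩
    rw [← v27pOrd_mul hs htt, ← h, v27pOrd_mul hb hcc]
  have hzero : ∀ {b cc tt : V27pB T}, (b = 0 ∨ cc = 0) → b * cc = s * tt → tt = 0 := by
    intro b cc tt hbc h
    have : b * cc = 0 := by rcases hbc with rfl | rfl <;> simp
    rw [this] at h
    rcases mul_eq_zero.mp h.symm with h0 | h0
    · exact absurd h0 hs
    · exact h0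
  obtain ⟨htop_ne, htop⟩ := hquot hi₀m hj₀m (ht i₀ j₀)
  set l : ℕ := v27pOrd (t (i₀, j₀)) with hl
  have hle : ∀ p, V27pLe (t p) l := by
    rintro ⟨i, j⟩
    by_cases hi : a i = 0
    · rw [hzero (Or.inl hi) (ht i j)]; exact V27pLe.zero _
    by_cases hj : c j = 0
    · rw [hzero (Or.inr hj) (ht i j)]; exact V27pLe.zero _
    obtain ⟨_, h⟩ := hquot hi hj (ht i j)
    rw [← v27pOrd_le_iff]
    have := hi₀max i hi
    have := hj₀max j hj
    omega
  have hle' : ∀ p, V27pLe (t' p) l := by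
    rintro ⟨i, j⟩
    by_cases hi : a' i = 0
    · rw [hzero (Or.inl hi) (ht' i j)]; exact V27pLe.zero _
    by_cases hj : c j = 0
    · rw [hzero (Or.inr hj) (ht' i j)]; exact V27pLe.zero _
    obtain ⟨_, h⟩ := hquot hi hj (ht' i j)
    rw [← v27pOrd_le_iff]
    obtain ⟨i₁, hi₁, hi₁le⟩ := hord i
    have := hi₀max i₁ hi₁
    have := hj₀max j hj
    omega
  have hnz : ∀ χ : Mw17Pt T, ∃ p, χ (t p) ≠ 0 := by
    intro χ
    by_contra hcon
    push Not at hcon
    have hsub : Ideal.span (Set.range t) ≤ RingHom.ker (χ : V27pB T →+* K) := by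
      rw [Ideal.span_le]
      rintro _ ⟨p, rfl⟩
      exact hcon p
    have h2 : (χ : V27pB T →+* K) 1 = 0 := hsub h1
    rw [map_one] at h2
    exact one_ne_zero h2
  obtain ⟨C₁, hC₁⟩ := hloc (ι × Fin n) l t hle ⟨(i₀, j₀), htop_ne, rfl⟩ hnz
  choose C₂ hC₂ using fun p : ι' × Fin n => mw17tu_le_psi T (hle' p)
  obtain ⟨C₃, hC₃⟩ := htl_val_finset Finset.univ C₂
  obtain ⟨C₄, hC₄⟩ := htl_val_mul C₃ C₁
  refine ⟨C₄, fun w χ hχ l' => ?_⟩
  obtain ⟨jχ, hjχ⟩ := hχ
  have : Nonempty (Fin n) := ⟨jχ⟩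
  have : Nonempty ι := ⟨i₀⟩
  obtain ⟨v, hv⟩ : ∃ v : AbsoluteValue K ℝ, v = w.1 := ⟨_, rfl⟩
  have hC₁' : htlSup v (mw17Psi T l χ) ≤ C₁.val v * htlSup v (fun p => χ (t p)) := by
    rw [hv]; exact hC₁ w χ
  have hC₂' : ∀ p, v (χ (t' p)) ≤ (C₂ p).val v * htlSup v (mw17Psi T l χ) := by
    intro p; rw [hv]; exact hC₂ p w χ
  change w.1 (χ (a' l')) ≤ C₄.val w.1 * ⨆ i, w.1 (χ (a i))
  rw [← hv]
  -- the maximal `c`
  obtain ⟨j₁, hj₁⟩ := htl_exists_eq_sup v (fun j => χ (c j))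
  have hcpos : 0 < v (χ (c j₁)) := by
    rw [← hj₁]
    exact lt_of_lt_of_le (v.pos hjχ) (htl_le_sup v (fun j => χ (c j)) jχ)
  -- the maximal `t`
  obtain ⟨p₁, hp₁⟩ := htl_exists_eq_sup v (fun p => χ (t p))
  have hAχ0 : 0 ≤ ⨆ i, v (χ (a i)) := Real.iSup_nonneg fun _ => v.nonneg _
  have hAle : ∀ i, v (χ (a i)) ≤ ⨆ i, v (χ (a i)) := fun i =>
    htl_le_sup v (fun i => χ (a i)) i
  -- `v(s) * sup t ≤ Aχ * v(c j₁)`
  have hkey : v (χ s) * htlSup v (fun p => χ (t p)) ≤ (⨆ i, v (χ (a i))) * v (χ (c j₁)) := by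
    rw [hp₁]
    have h3 : v (χ s) * v (χ (t p₁)) = v (χ (a p₁.1)) * v (χ (c p₁.2)) := by
      rw [← map_mul, ← map_mul, ← map_mul, ← map_mul, ht p₁.1 p₁.2]
    rw [h3]
    refine mul_le_mul (hAle _) ?_ (v.nonneg _) hAχ0
    rw [← hj₁]
    exact htl_le_sup v (fun j => χ (c j)) p₁.2
  -- `v(a' l') * v(c j₁) = v(s) * v(t' (l', j₁))`
  have hprod : v (χ (a' l')) * v (χ (c j₁)) = v (χ s) * v (χ (t' (l', j₁))) := by
    rw [← map_mul, ← map_mul, ← map_mul, ← map_mul, ht' l' j₁]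
  have hs0 : 0 ≤ v (χ s) := v.nonneg _
  have hchain : v (χ (a' l')) * v (χ (c j₁)) ≤
      (C₄.val v * ⨆ i, v (χ (a i))) * v (χ (c j₁)) := by
    rw [hprod]
    calc v (χ s) * v (χ (t' (l', j₁)))
        ≤ v (χ s) * (C₃.val v * htlSup v (mw17Psi T l χ)) := by
          refine mul_le_mul_of_nonneg_left ?_ hs0
          refine le_trans (hC₂' (l', j₁)) ?_
          exact mul_le_mul_of_nonneg_right (hC₃ _ (Finset.mem_univ _) v) (htlSup_nonneg _ _)
      _ ≤ v (χ s) * (C₃.val v * (C₁.val v * htlSup v (fun p => χ (t p)))) := by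
          refine mul_le_mul_of_nonneg_left ?_ hs0
          exact mul_le_mul_of_nonneg_left hC₁' (htl_val_nonneg _ _)
      _ = (C₃.val v * C₁.val v) * (v (χ s) * htlSup v (fun p => χ (t p))) := by ring
      _ ≤ C₄.val v * ((⨆ i, v (χ (a i))) * v (χ (c j₁))) := by
          refine mul_le_mul (hC₄ v) hkey (mul_nonneg hs0 (htlSup_nonneg _ _))
            (htl_val_nonneg _ _)
      _ = (C₄.val v * ⨆ i, v (χ (a i))) * v (χ (c j₁)) := by ring
  exact le_of_mul_le_mul_right hchain hcpos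

variable [IsDedekindDomain (V27pB T)]

/-- **(TUPLE-CMP)**: if the fixed tuple `a'` lies in the ideal generated by the fixed tuple `a`
(it vanishes at least as much at every finite point) and its pole orders are bounded by those of
`a` (the same at `P0`), then `|a'_l(Q)|_w ≤ C_w · max_i |a_i(Q)|_w` uniformly in `w` and `Q`. -/
theorem mw17tu_cmp (hloc : Mw17BpfLoc T) {ι ι' : Type} [Fintype ι] [Fintype ι']
    (a : ι → V27pB T) (a' : ι' → V27pB T) (ha : ∃ i, a i ≠ 0)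
    (hI : ∀ l, a' l ∈ Ideal.span (Set.range a))
    (hord : ∀ l, ∃ i, a i ≠ 0 ∧ v27pOrd (a' l) ≤ v27pOrd (a i)) :
    ∃ C : HtConst K, ∀ (w : HtAbs K) (χ : Mw17Pt T) (l : ι'),
      w (χ (a' l)) ≤ C.val w * ⨆ i, w (χ (a i)) := by
  classical
  obtain ⟨s₁, s₂, hs₁, hs₂, hgen⟩ := mw17tu_two_gen a ha
  have hs₁I : s₁ ∈ Ideal.span (Set.range a) := by
    rw [hgen]; exact Ideal.subset_span (by simp)
  have hs₂I : s₂ ∈ Ideal.span (Set.range a) := by
    rw [hgen]; exact Ideal.subset_span (by simp)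
  obtain ⟨n₁, c₁, t₁, t'₁, ht₁, ht'₁, h1₁, hIJ₁⟩ := mw17tu_factor a a' hI hs₁ hs₁I
  obtain ⟨n₂, c₂, t₂, t'₂, ht₂, ht'₂, h1₂, hIJ₂⟩ := mw17tu_factor a a' hI hs₂ hs₂I
  have hI0 : Ideal.span (Set.range a) ≠ ⊥ := by
    obtain ⟨i, hi⟩ := ha
    intro h
    apply hi
    have h3 : a i ∈ Ideal.span (Set.range a) := Ideal.subset_span ⟨i, rfl⟩
    rw [h] at h3
    simpa using h3
  have hcne : ∀ {n : ℕ} (c : Fin n → V27pB T) {s : V27pB T}, s ≠ 0 →
      Ideal.span (Set.range a) * Ideal.span (Set.range c) = Ideal.span {s} → ∃ j, c j ≠ 0 := by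
    intro n c s hs hIJ
    by_contra hcon
    push Not at hcon
    have h3 : Ideal.span (Set.range c) = ⊥ := by
      rw [Ideal.span_eq_bot]
      rintro _ ⟨j, rfl⟩
      exact hcon j
    rw [h3, Ideal.mul_bot] at hIJ
    exact hs (Ideal.span_singleton_eq_bot.mp hIJ.symm)
  obtain ⟨C₁, hC₁⟩ := mw17tu_cmp_aux hloc a a' hord hs₁ c₁ t₁ t'₁ ht₁ ht'₁ h1₁ ha
    (hcne c₁ hs₁ hIJ₁)
  obtain ⟨C₂, hC₂⟩ := mw17tu_cmp_aux hloc a a' hord hs₂ c₂ t₂ t'₂ ht₂ ht'₂ h1₂ ha
    (hcne c₂ hs₂ hIJ₂)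
  obtain ⟨C₃, hC₃⟩ := htl_val_max C₁ C₂
  refine ⟨C₃, fun w χ l => ?_⟩
  have hA0 : 0 ≤ ⨆ i, w (χ (a i)) :=
    Real.iSup_nonneg fun _ => (w : AbsoluteValue K ℝ).nonneg _
  have hker : RingHom.ker (χ : V27pB T →+* K) ≠ ⊤ := RingHom.ker_ne_top _
  have hcop := mw17tu_coprime hI0 hIJ₁ hIJ₂ hgen _ hker
  by_cases h₁ : ∃ j, χ (c₁ j) ≠ 0
  · exact le_trans (hC₁ w χ h₁ l)
      (mul_le_mul_of_nonneg_right (le_trans (le_max_left _ _) (hC₃ w)) hA0)
  · have h₂ : ∃ j, χ (c₂ j) ≠ 0 := by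
      by_contra h₂
      push Not at h₁ h₂
      apply hcop
      constructor
      · rw [Ideal.span_le]
        rintro _ ⟨j, rfl⟩
        exact h₁ j
      · rw [Ideal.span_le]
        rintro _ ⟨j, rfl⟩
        exact h₂ j
    exact le_trans (hC₂ w χ h₂ l)
      (mul_le_mul_of_nonneg_right (le_trans (le_max_right _ _) (hC₃ w)) hA0)

/-- the local criterion at the `K`-points (`hres` = helper4's `mw17in_hres T`): `b ∈ (a_i)` as
soon as `b` vanishes at every point to the order to which all the `a_i` vanish -/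
theorem mw17tu_mem_span_of_points
    (hres : ∀ P : Ideal (V27pB T), P.IsMaximal →
      Function.Surjective (algebraMap K (V27pB T ⧸ P)))
    {ι : Type*} (a : ι → V27pB T) (ha : ∃ i, a i ≠ 0) (b : V27pB T)
    (h : ∀ (χ : Mw17Pt T) (e : ℕ), (∀ i, a i ∈ RingHom.ker (χ : V27pB T →+* K) ^ e) →
      b ∈ RingHom.ker (χ : V27pB T →+* K) ^ e) :
    b ∈ Ideal.span (Set.range a) := by
  refine mw17tu_mem_span_of_local a ha b fun M hM e he => ?_
  obtain ⟨χ, hχ⟩ := mw17tu_exists_point_of_maximal M hM (hres M hM)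
  rw [← hχ] at he ⊢
  exact h χ e he

/-- `mw17tu_cmp` with the sup norm on the left -/
theorem mw17tu_cmp_sup (hloc : Mw17BpfLoc T) {ι ι' : Type} [Fintype ι] [Fintype ι']
    (a : ι → V27pB T) (a' : ι' → V27pB T) (ha : ∃ i, a i ≠ 0)
    (hI : ∀ l, a' l ∈ Ideal.span (Set.range a))
    (hord : ∀ l, ∃ i, a i ≠ 0 ∧ v27pOrd (a' l) ≤ v27pOrd (a i)) :
    ∃ C : HtConst K, ∀ (w : HtAbs K) (χ : Mw17Pt T),
      htlSup w (fun l => χ (a' l)) ≤ C.val w * htlSup w (fun i => χ (a i)) := by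
  obtain ⟨C, hC⟩ := mw17tu_cmp hloc a a' ha hI hord
  refine ⟨C, fun w χ => ?_⟩
  refine htlSup_le (mul_nonneg (htl_val_nonneg _ _) (htlSup_nonneg _ _)) fun l => ?_
  exact hC w χ l

/-- two tuples generating the same ideal, with the same maximal pole order, have comparable
sup norms -/
theorem mw17tu_equiv (hloc : Mw17BpfLoc T) {ι ι' : Type} [Fintype ι] [Fintype ι']
    (a : ι → V27pB T) (a' : ι' → V27pB T) (ha : ∃ i, a i ≠ 0) (ha' : ∃ l, a' l ≠ 0)
    (hI : Ideal.span (Set.range a') = Ideal.span (Set.range a))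
    (hord : ∀ l, ∃ i, a i ≠ 0 ∧ v27pOrd (a' l) ≤ v27pOrd (a i))
    (hord' : ∀ i, ∃ l, a' l ≠ 0 ∧ v27pOrd (a i) ≤ v27pOrd (a' l)) :
    ∃ C : HtConst K, ∀ (w : HtAbs K) (χ : Mw17Pt T),
      htlSup w (fun l => χ (a' l)) ≤ C.val w * htlSup w (fun i => χ (a i)) ∧
      htlSup w (fun i => χ (a i)) ≤ C.val w * htlSup w (fun l => χ (a' l)) := by
  obtain ⟨C₁, hC₁⟩ := mw17tu_cmp_sup hloc a a' ha
    (fun l => hI ▸ Ideal.subset_span ⟨l, rfl⟩) hord
  obtain ⟨C₂, hC₂⟩ := mw17tu_cmp_sup hloc a' a ha'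
    (fun i => hI.symm ▸ Ideal.subset_span ⟨i, rfl⟩) hord'
  obtain ⟨C₃, hC₃⟩ := htl_val_max C₁ C₂
  refine ⟨C₃, fun w χ => ⟨?_, ?_⟩⟩
  · exact le_trans (hC₁ w χ) (mul_le_mul_of_nonneg_right
      (le_trans (le_max_left _ _) (hC₃ w)) (htlSup_nonneg _ _))
  · exact le_trans (hC₂ w χ) (mul_le_mul_of_nonneg_right
      (le_trans (le_max_right _ _) (hC₃ w)) (htlSup_nonneg _ _))

end Main

end Fermat.Agent.MW17
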