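import Mathlib

/-!
# Program MW (S17), half (A): degree bounds from Galois-stable finite sets (prefix `mw17dg_`)

Owner: helper2.  Mathlib only.

The Northcott step of the height half needs: *the points `Q_b` of the unique effective divisor
`D_x` of a class `x ∈ J(K)` have coordinates of degree `≤ g · [K : ℚ]` over `ℚ`*.  The input is
that `D_x` is stable under `G_K = K.fixingSubgroup` and that evaluation of a `G_K`-fixed function
is `G_K`-equivariant.  This file contains the pure Galois theory:

* `mw17dg_mem_of_fixed` : an element of `ℚ̄` fixed by `K.fixingSubgroup` lies in `K`;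
* `mw17dg_natDegree_minpoly_le` : an element of a finite `G_K`-stable set `S ⊆ ℚ̄` has degree
  `≤ #S · [K : ℚ]` over `ℚ`;
* `mw17dg_natDegree_of_equivariant` : the same for the values `ev Q` of a `G_K`-equivariant map
  `ev : X → ℚ̄` on a finite `G_K`-stable set `T ⊆ X` (`X` = places, `ev` = value of a `G_K`-fixed
  function).
-/

set_option autoImplicit false

open Polynomial

namespace Fermat.Agent.MW17

/-- an element of `ℚ̄` fixed by the absolute Galois group of `K` lies in `K` -/
theorem mw17dg_mem_of_fixed (K : IntermediateField ℚ (AlgebraicClosure ℚ))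
    (a : AlgebraicClosure ℚ) (h : ∀ σ ∈ K.fixingSubgroup, σ a = a) : a ∈ K := by
  have hcl : IsAlgClosure ℚ (AlgebraicClosure ℚ) := AlgebraicClosure.instIsAlgClosure ℚ
  have hgal : IsGalois ℚ (AlgebraicClosure ℚ) := IsAlgClosure.isGalois ℚ (AlgebraicClosure ℚ)
  have h1 : a ∈ IntermediateField.fixedField K.fixingSubgroup := by
    rw [IntermediateField.mem_fixedField_iff]
    exact h
  rwa [InfiniteGalois.fixedField_fixingSubgroup] at h1

/-- a monic polynomial over `ℚ̄` whose coefficients are fixed by `G_K` comes from `K[X]` -/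
theorem mw17dg_exists_map_eq (K : IntermediateField ℚ (AlgebraicClosure ℚ))
    (p : (AlgebraicClosure ℚ)[X])
    (h : ∀ σ ∈ K.fixingSubgroup, p.map (σ : AlgebraicClosure ℚ ≃ₐ[ℚ] AlgebraicClosure ℚ).toRingEquiv.toRingHom = p) :
    ∃ q : K[X], q.map (algebraMap K (AlgebraicClosure ℚ)) = p := by
  have hc : ∀ n, p.coeff n ∈ K := by
    intro n
    refine mw17dg_mem_of_fixed K _ (fun σ hσ => ?_)
    have := congrArg (fun r => r.coeff n) (h σ hσ)
    simpa [Polynomial.coeff_map] using this
  have hmem : p ∈ Polynomial.lifts (algebraMap K (AlgebraicClosure ℚ)) := by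
    rw [Polynomial.lifts_iff_coeff_lifts]
    intro n
    exact ⟨⟨p.coeff n, hc n⟩, rfl⟩
  obtain ⟨q, hq⟩ := (Polynomial.mem_lifts p).1 hmem
  exact ⟨q, hq⟩

/-- **degree bound**: an element of a finite `G_K`-stable subset `S` of `ℚ̄` has degree at most
`#S · [K : ℚ]` over `ℚ`. -/
theorem mw17dg_natDegree_minpoly_le (K : IntermediateField ℚ (AlgebraicClosure ℚ))
    [FiniteDimensional ℚ K] (S : Finset (AlgebraicClosure ℚ))
    (hS : ∀ σ ∈ K.fixingSubgroup, ∀ b ∈ S, σ b ∈ S) {a : AlgebraicClosure ℚ} (ha : a ∈ S) :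
    (minpoly ℚ a).natDegree ≤ S.card * Module.finrank ℚ K := by
  classical
  -- the polynomial `∏_{b ∈ S} (X - b)` is `G_K`-invariant
  set p : (AlgebraicClosure ℚ)[X] := ∏ b ∈ S, (X - C b) with hp
  have hinv : ∀ σ ∈ K.fixingSubgroup,
      p.map (σ : AlgebraicClosure ℚ ≃ₐ[ℚ] AlgebraicClosure ℚ).toRingEquiv.toRingHom = p := by
    intro σ hσ
    rw [hp, Polynomial.map_prod]
    have himg : S.image (fun b => σ b) = S := by
      apply Finset.eq_of_subset_of_card_le
      · intro c hc
        obtain ⟨b, hb, rfl⟩ := Finset.mem_image.1 hc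
        exact hS σ hσ b hb
      · rw [Finset.card_image_of_injective _ σ.injective]
    calc ∏ b ∈ S, (X - C b).map (σ : AlgebraicClosure ℚ ≃ₐ[ℚ] AlgebraicClosure ℚ).toRingEquiv.toRingHom
        = ∏ b ∈ S, (X - C (σ b)) := by
          refine Finset.prod_congr rfl (fun b _ => ?_)
          simp
      _ = ∏ c ∈ S.image (fun b => σ b), (X - C c) := by
          rw [Finset.prod_image (fun x _ y _ h => σ.injective h)]
      _ = ∏ b ∈ S, (X - C b) := by rw [himg]
  obtain ⟨q, hq⟩ := mw17dg_exists_map_eq K p hinv
  have hpmonic : p.Monic := Polynomial.monic_prod_of_monic _ _ (fun b _ => Polynomial.monic_X_sub_C b)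
  have hpdeg : p.natDegree = S.card := by
    rw [hp, Polynomial.natDegree_prod_of_monic _ _ (fun b _ => Polynomial.monic_X_sub_C b)]
    simp
  have hinj : Function.Injective (algebraMap K (AlgebraicClosure ℚ)) :=
    (algebraMap K (AlgebraicClosure ℚ)).injective
  have hqdeg : q.natDegree = S.card := by
    rw [← hpdeg, ← hq, Polynomial.natDegree_map_eq_of_injective hinj]
  have hq0 : q ≠ 0 := by
    intro h0
    rw [h0, Polynomial.map_zero] at hq
    exact hpmonic.ne_zero hq.symm
  -- `a` is a root of `q`
  have hroot : Polynomial.aeval a q = 0 := by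
    rw [Polynomial.aeval_def, Polynomial.eval₂_eq_eval_map, hq, hp, Polynomial.eval_prod]
    exact Finset.prod_eq_zero ha (by simp)
  -- degree of `a` over `K`
  have hint : IsIntegral K a := ⟨q * C (q.leadingCoeff)⁻¹,
    Polynomial.monic_mul_leadingCoeff_inv hq0, by
      rw [← Polynomial.aeval_def, map_mul, hroot, zero_mul]⟩
  have hKdeg : (minpoly K a).natDegree ≤ S.card := by
    rw [← hqdeg]
    exact Polynomial.natDegree_le_of_dvd (minpoly.dvd K a hroot) hq0
  -- tower
  have halg : Algebra.IsAlgebraic ℚ (AlgebraicClosure ℚ) := AlgebraicClosure.isAlgebraic ℚ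
  have hintQ : IsIntegral ℚ a := (Algebra.IsAlgebraic.isAlgebraic (R := ℚ) a).isIntegral
  have h1 : (minpoly ℚ a).natDegree = Module.finrank ℚ (IntermediateField.adjoin ℚ {a}) :=
    (IntermediateField.adjoin.finrank hintQ).symm
  have h2 : (minpoly K a).natDegree = Module.finrank K (IntermediateField.adjoin K {a}) :=
    (IntermediateField.adjoin.finrank hint).symm
  -- `ℚ(a) ⊆ K(a)` as `ℚ`-spaces
  haveI : FiniteDimensional K (IntermediateField.adjoin K {a}) :=
    IntermediateField.adjoin.finiteDimensional hint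
  haveI : FiniteDimensional ℚ (IntermediateField.adjoin K {a}) :=
    FiniteDimensional.trans ℚ K _
  have h3 : Module.finrank ℚ (IntermediateField.adjoin K {a})
      = Module.finrank ℚ K * Module.finrank K (IntermediateField.adjoin K {a}) :=
    (Module.finrank_mul_finrank ℚ K _).symm
  -- the `ℚ`-linear inclusion `ℚ(a) → K(a)`
  have hle : Module.finrank ℚ (IntermediateField.adjoin ℚ {a})
      ≤ Module.finrank ℚ (IntermediateField.adjoin K {a}) := by
    have hsub : ∀ y : IntermediateField.adjoin ℚ {a}, (y : AlgebraicClosure ℚ) ∈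
        IntermediateField.adjoin K {a} := by
      intro y
      have : (IntermediateField.adjoin ℚ {a}) ≤
          (IntermediateField.adjoin K {a}).restrictScalars ℚ := by
        rw [IntermediateField.adjoin_le_iff]
        intro z hz
        rw [Set.mem_singleton_iff] at hz
        subst hz
        exact IntermediateField.mem_adjoin_simple_self K z
      exact this y.2
    let f : IntermediateField.adjoin ℚ {a} →ₗ[ℚ] IntermediateField.adjoin K {a} :=
      { toFun := fun y => ⟨y, hsub y⟩
        map_add' := fun _ _ => rfl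
        map_smul' := fun _ _ => rfl }
    have hf : Function.Injective f := by
      intro y z hyz
      apply Subtype.ext
      exact congrArg (fun t : IntermediateField.adjoin K {a} => (t : AlgebraicClosure ℚ)) hyz
    exact LinearMap.finrank_le_finrank_of_injective hf
  calc (minpoly ℚ a).natDegree = Module.finrank ℚ (IntermediateField.adjoin ℚ {a}) := h1
    _ ≤ Module.finrank ℚ (IntermediateField.adjoin K {a}) := hle
    _ = Module.finrank ℚ K * Module.finrank K (IntermediateField.adjoin K {a}) := h3
    _ = Module.finrank ℚ K * (minpoly K a).natDegree := by rw [h2]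
    _ ≤ Module.finrank ℚ K * S.card := Nat.mul_le_mul_left _ hKdeg
    _ = S.card * Module.finrank ℚ K := Nat.mul_comm _ _

/-- **degree bound, equivariant form**: `X` a set with an action of `Gal(ℚ̄/ℚ)` (the places of the
curve), `T ⊆ X` finite and `G_K`-stable (the support of a `G_K`-stable divisor), `ev : X → ℚ̄`
`G_K`-equivariant on `T` (the value of a `G_K`-fixed function).  Then every value `ev Q`, `Q ∈ T`,
has degree `≤ #T · [K : ℚ]` over `ℚ`. -/
theorem mw17dg_natDegree_of_equivariant {X : Type*}
    [MulAction (AlgebraicClosure ℚ ≃ₐ[ℚ] AlgebraicClosure ℚ) X]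
    (K : IntermediateField ℚ (AlgebraicClosure ℚ)) [FiniteDimensional ℚ K]
    (T : Finset X) (hT : ∀ σ ∈ K.fixingSubgroup, ∀ Q ∈ T, σ • Q ∈ T)
    (ev : X → AlgebraicClosure ℚ)
    (hev : ∀ σ ∈ K.fixingSubgroup, ∀ Q ∈ T, ev (σ • Q) = σ (ev Q)) {Q : X} (hQ : Q ∈ T) :
    (minpoly ℚ (ev Q)).natDegree ≤ T.card * Module.finrank ℚ K := by
  classical
  have h := mw17dg_natDegree_minpoly_le K (T.image ev)
    (fun σ hσ b hb => by
      obtain ⟨P, hP, rfl⟩ := Finset.mem_image.1 hb
      rw [← hev σ hσ P hP]
      exact Finset.mem_image_of_mem ev (hT σ hσ P hP))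
    (Finset.mem_image_of_mem ev hQ)
  exact h.trans (Nat.mul_le_mul_right _ Finset.card_image_le)

end Fermat.Agent.MW17
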