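import Fermat.Agent.MW17.Kan

/-!
# S17 heights, leaf (GAUSS): the Gauss map of the one-point embedding and the canonical system

Place-language facts behind the tangent comparison (8.4)(c):

* `mw17gaWr a b = a • D b - b • D a` (the Wronskian differential), homogeneous of degree two under
  scaling, regular where `a, b` are;
* (GAUSS) for `n ≥ 2g + 1` the Wronskians of `L(n P0)` have no common zero: order exactly `0` at
  every place `≠ P0` and exactly `-2n` at `P0` for suitable `a, b`;
* (BPF) for `g ≥ 1` the canonical system `L(div dx)` has no base point;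
* (ORD) the function-level consequences for `a * b' - b * a'` (`' = d/dx`) and `h * a * b`.
-/

set_option autoImplicit false
set_option linter.unusedSectionVars false
set_option linter.unusedVariables false
set_option linter.style.haveILetI false

noncomputable section

namespace Fermat.Agent.MW17

open Polynomial Module AlgebraicCurve IntermediateField KaehlerDifferential Fermat.Agent.S24
  Fermat.Agent.S20 Fermat.Agent.V.RR Fermat.Agent.V.Dual

section Wronskian

variable {K F : Type*} [Field K] [Field F] [Algebra K F]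

variable (K) in
/-- the Wronskian differential `a db - b da`. -/
def mw17gaWr (a b : F) : Ω[F⁄K] := a • D K F b - b • D K F a

theorem mw17gaWr_one_left (b : F) : mw17gaWr K 1 b = D K F b := by
  rw [mw17gaWr, one_smul, Derivation.map_one_eq_zero, smul_zero, sub_zero]

theorem mw17gaWr_self (a : F) : mw17gaWr K a a = 0 := sub_self _

theorem mw17gaWr_swap (a b : F) : mw17gaWr K b a = -mw17gaWr K a b := by
  rw [mw17gaWr, mw17gaWr, neg_sub]

/-- homogeneity: `Wr (c a, c b) = c² Wr (a, b)`. -/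
theorem mw17gaWr_mul (c a b : F) :
    mw17gaWr K (c * a) (c * b) = (c * c) • mw17gaWr K a b := by
  simp only [mw17gaWr, Derivation.leibniz, smul_add, smul_sub, smul_smul]
  have h1 : c * a * b = c * b * a := by ring
  rw [h1]
  have h2 : c * a * c = c * c * a := by ring
  have h3 : c * b * c = c * c * b := by ring
  rw [h2, h3]
  abel

end Wronskian

section Local

variable {K F : Type*} [Field K] [Field F] [Algebra K F] [IsAlgClosed K] [CharZero K]
  {x : F} (hx : Transcendental K x) [FiniteDimensional K⟮x⟯ F] (v : Place K F)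

include hx in
theorem mw17ga_coeff_sub (ω₁ ω₂ : Ω[F⁄K]) :
    v.differentialCoeff (ω₁ - ω₂) = v.differentialCoeff ω₁ - v.differentialCoeff ω₂ := by
  have := place_nontrivial_kaehler (K := K) (F := F) hx
  have := place_dCoordGenerates v hx
  exact v.differentialCoeff_unique (by
    rw [sub_smul, v.differentialCoeff_smul_dCoord, v.differentialCoeff_smul_dCoord])

include hx in
/-- the coefficient of a non-zero differential is non-zero. -/
theorem mw17ga_coeff_ne_zero {ω : Ω[F⁄K]} (hω : ω ≠ 0) : v.differentialCoeff ω ≠ 0 := by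
  have := place_nontrivial_kaehler (K := K) (F := F) hx
  have := place_dCoordGenerates v hx
  intro h0
  have h1 := v.differentialCoeff_smul_dCoord ω
  rw [h0, zero_smul] at h1
  exact hω h1.symm

include hx in
/-- `ord (c • ω) = ord c + ord ω` for `c ≠ 0`, `ω ≠ 0`. -/
theorem mw17ga_ordDiff_smul {c : F} (hc : c ≠ 0) {ω : Ω[F⁄K]} (hω : ω ≠ 0) :
    v.ordDifferential (c • ω) = v.ord c + v.ordDifferential ω := by
  have := place_nontrivial_kaehler (K := K) (F := F) hx
  have := place_dCoordGenerates v hx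
  exact v.ordDifferential_smul hc (mw17ga_coeff_ne_zero hx v hω)

include hx in
/-- the Wronskian of two functions regular at `v` is regular at `v`. -/
theorem mw17ga_wr_regular {a b : F} (ha : a ∈ v.toValuationSubring)
    (hb : b ∈ v.toValuationSubring) : 0 ≤ v.ordDifferential (mw17gaWr K a b) := by
  have := place_nontrivial_kaehler (K := K) (F := F) hx
  have := place_dCoordGenerates v hx
  rw [Place.ordDifferential, mw17gaWr, mw17ga_coeff_sub hx, v.differentialCoeff_smul,
    v.differentialCoeff_smul]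
  have h1 := place_differentialCoeff_D_mem v hx ⟨a, ha⟩
  have h2 := place_differentialCoeff_D_mem v hx ⟨b, hb⟩
  have h3 : a * v.differentialCoeff (D K F b) - b * v.differentialCoeff (D K F a) ∈
      v.toValuationSubring :=
    sub_mem (mul_mem ha h2) (mul_mem hb h1)
  exact localDiff_ord_nonneg v ⟨_, h3⟩

include hx in
/-- the Wronskian of two functions with poles of order `≤ n` at `v` has a pole of order `≤ 2n`. -/
theorem mw17ga_wr_ge {a b : F} {n : ℕ} (ha : a = 0 ∨ -(n : ℤ) ≤ v.ord a)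
    (hb : b = 0 ∨ -(n : ℤ) ≤ v.ord b) : -(2 * (n : ℤ)) ≤ v.ordDifferential (mw17gaWr K a b) := by
  rcases eq_or_ne (mw17gaWr K a b) 0 with h0 | h0
  · rw [h0, Place.ordDifferential]
    have := place_nontrivial_kaehler (K := K) (F := F) hx
    have := place_dCoordGenerates v hx
    rw [v.differentialCoeff_zero, v.ord_zero]
    omega
  set π : F := ((localDiffUnif v : v.toValuationSubring) : F) with hπ
  have hπ0 : π ≠ 0 := localDiffUnif_ne_zero v
  have hπ1 : v.ord π = 1 := ord_localDiffUnif v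
  set c : F := π ^ n with hc
  have hc0 : c ≠ 0 := pow_ne_zero _ hπ0
  have hcord : v.ord c = n := by
    have := v.ord_zpow π (n : ℤ)
    rw [zpow_natCast, hπ1, mul_one] at this
    exact this
  have hmem : ∀ f : F, (f = 0 ∨ -(n : ℤ) ≤ v.ord f) → c * f ∈ v.toValuationSubring := by
    intro f hf
    rcases eq_or_ne f 0 with rfl | hf0
    · rw [mul_zero]; exact zero_mem _
    · apply PlaceOrd.mem_of_ord_nonneg
      rw [v.ord_mul hc0 hf0, hcord]
      have := hf.resolve_left hf0
      linarith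
  have h1 := mw17ga_wr_regular hx v (hmem a ha) (hmem b hb)
  rw [mw17gaWr_mul, mw17ga_ordDiff_smul hx v (mul_ne_zero hc0 hc0) h0, v.ord_mul hc0 hc0,
    hcord] at h1
  linarith

include hx in
/-- at a simple zero of `b - b(v)` the differential `db` has order `0`. -/
theorem mw17ga_ordDiff_D_eq_zero {b : F} (a : K) (h : v.ord (b - algebraMap K F a) = 1) :
    v.ordDifferential (D K F b) = 0 := by
  have hne : b ≠ algebraMap K F a := by
    intro h0
    rw [h0, sub_self, v.ord_zero] at h
    exact zero_ne_one h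
  have := place_ordDifferential_D_of_zero v hx a (e := 1) one_pos (by simpa using h) hne
  simpa using this

include hx in
/-- at a simple zero of `b - b(v)` the differential `db` does not vanish. -/
theorem mw17ga_D_ne_zero_of_simple {b : F} (a : K) (h : v.ord (b - algebraMap K F a) = 1) :
    D K F b ≠ 0 := by
  intro hD0
  have hne : b ≠ algebraMap K F a := by
    intro h0
    rw [h0, sub_self, v.ord_zero] at h
    exact zero_ne_one h
  have := place_differentialCoeff_D_ne_zero_of_zero v hx a (e := 1) one_pos (by simpa using h) hne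
  rw [hD0] at this
  have hn := place_nontrivial_kaehler (K := K) (F := F) hx
  have hg := place_dCoordGenerates v hx
  exact this v.differentialCoeff_zero

include hx in
/-- exact pole order `2n` of the Wronskian of functions with pole orders `n` and `n - 1`. -/
theorem mw17ga_wr_eq {a b : F} {n : ℕ} (ha : v.ord a = -(n : ℤ)) (hb : v.ord b = -(n : ℤ) + 1)
    (ha0 : a ≠ 0) (hb0 : b ≠ 0) :
    mw17gaWr K a b ≠ 0 ∧ v.ordDifferential (mw17gaWr K a b) = -(2 * (n : ℤ)) := by
  have hc0 : a⁻¹ ≠ 0 := inv_ne_zero ha0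
  have h1 : mw17gaWr K (a⁻¹ * a) (a⁻¹ * b) = (a⁻¹ * a⁻¹) • mw17gaWr K a b := mw17gaWr_mul _ _ _
  rw [inv_mul_cancel₀ ha0, mw17gaWr_one_left] at h1
  have hq : v.ord (a⁻¹ * b - algebraMap K F 0) = 1 := by
    rw [map_zero, sub_zero, v.ord_mul hc0 hb0, v.ord_inv, ha, hb]
    ring
  have h2 := mw17ga_ordDiff_D_eq_zero hx v 0 hq
  have hne : mw17gaWr K a b ≠ 0 := by
    intro h0
    rw [h0, smul_zero] at h1
    exact mw17ga_D_ne_zero_of_simple hx v 0 hq h1
  refine ⟨hne, ?_⟩
  rw [h1, mw17ga_ordDiff_smul hx v (mul_ne_zero hc0 hc0) hne, v.ord_mul hc0 hc0, v.ord_inv,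
    ha] at h2
  linarith

end Local

section Global

variable {K F : Type*} [Field K] [Field F] [Algebra K F] [IsAlgClosed K] [CharZero K]
  {g : ℕ} (R : V27RR K F g) {x : F} (hx : Transcendental K x) [FiniteDimensional K⟮x⟯ F]
  (P0 : Place K F)

/-- membership in `L(n P0)`: regular off `P0`, pole of order `≤ n` at `P0`. -/
theorem mw17ga_mem_iff {n : ℕ} {f : F} :
    f ∈ riemannRochSpace (Finsupp.single P0 (n : ℤ)) ↔
      (f = 0 ∨ -(n : ℤ) ≤ P0.ord f) ∧ ∀ v : Place K F, v ≠ P0 → f = 0 ∨ 0 ≤ v.ord f := by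
  classical
  rw [mem_riemannRochSpace_iff]
  constructor
  · intro h
    refine ⟨?_, fun v hv => ?_⟩
    · have := h P0
      rwa [Finsupp.single_eq_same] at this
    · have := h v
      rwa [Finsupp.single_eq_of_ne hv, neg_zero] at this
  · rintro ⟨h1, h2⟩ v
    by_cases hv : v = P0
    · subst hv
      rwa [Finsupp.single_eq_same]
    · rw [Finsupp.single_eq_of_ne hv, neg_zero]
      exact h2 v hv

include hx in
/-- (GAUSS, upper half, finite places) Wronskians of `L(n P0)` are regular off `P0`. -/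
theorem mw17ga_wr_ge_fin {n : ℕ} {a b : F}
    (ha : a ∈ riemannRochSpace (Finsupp.single P0 (n : ℤ)))
    (hb : b ∈ riemannRochSpace (Finsupp.single P0 (n : ℤ))) (v : Place K F) (hv : v ≠ P0) :
    0 ≤ v.ordDifferential (mw17gaWr K a b) := by
  have hmem : ∀ f : F, f ∈ riemannRochSpace (Finsupp.single P0 (n : ℤ)) →
      f ∈ v.toValuationSubring := by
    intro f hf
    rcases ((mw17ga_mem_iff P0).1 hf).2 v hv with rfl | h
    · exact zero_mem _
    · exact PlaceOrd.mem_of_ord_nonneg v h
  exact mw17ga_wr_regular hx v (hmem a ha) (hmem b hb)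

include hx in
/-- (GAUSS, upper half, at `P0`) Wronskians of `L(n P0)` have a pole of order `≤ 2n` at `P0`. -/
theorem mw17ga_wr_ge_inf {n : ℕ} {a b : F}
    (ha : a ∈ riemannRochSpace (Finsupp.single P0 (n : ℤ)))
    (hb : b ∈ riemannRochSpace (Finsupp.single P0 (n : ℤ))) :
    -(2 * (n : ℤ)) ≤ P0.ordDifferential (mw17gaWr K a b) :=
  mw17ga_wr_ge hx P0 ((mw17ga_mem_iff P0).1 ha).1 ((mw17ga_mem_iff P0).1 hb).1

include R hx in
/-- (GAUSS, finite places) the embedding by `L(n P0)`, `n ≥ 2g + 1`, is an immersion at every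
place `v ≠ P0`: some `b ∈ L(n P0)` has `db` of order `0` at `v`. -/
theorem mw17ga_exists_fin {n : ℕ} (hn : 2 * g + 1 ≤ n) (v : Place K F) (hv : v ≠ P0) :
    ∃ b : F, b ∈ riemannRochSpace (Finsupp.single P0 (n : ℤ)) ∧ mw17gaWr K 1 b ≠ 0 ∧
      v.ordDifferential (mw17gaWr K 1 b) = 0 := by
  classical
  have hd0 : P0.deg = 1 := place_deg_eq_one P0 hx
  have hdv : v.deg = 1 := place_deg_eq_one v hx
  set E : Divisor K F := Finsupp.single P0 (n : ℤ) - Finsupp.single v 1 with hE
  have hdegE : Divisor.degree E = (n : ℤ) - 1 := by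
    rw [hE, map_sub, Divisor.degree_single, Divisor.degree_single, hd0, hdv]
    simp
  obtain ⟨f, hf0, hf, hord⟩ := R.exists_ord_eq (D := E) v (by
    rw [hdegE, hdv]
    have : (2 * g + 1 : ℤ) ≤ n := by exact_mod_cast hn
    push_cast
    linarith)
  have hEv : E v = -1 := by
    rw [hE, Finsupp.sub_apply, Finsupp.single_eq_of_ne hv, Finsupp.single_eq_same]
    ring
  rw [hEv, neg_neg] at hord
  have hle : E ≤ Finsupp.single P0 (n : ℤ) := by
    rw [hE, sub_le_self_iff]
    exact Finsupp.single_nonneg.mpr zero_le_one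
  have hord' : v.ord (f - algebraMap K F 0) = 1 := by rw [map_zero, sub_zero]; exact hord
  refine ⟨f, v27rr_rrSpace_mono hle hf, ?_, ?_⟩
  · rw [mw17gaWr_one_left]
    exact mw17ga_D_ne_zero_of_simple hx v 0 hord'
  · rw [mw17gaWr_one_left]
    exact mw17ga_ordDiff_D_eq_zero hx v 0 hord'

include R hx in
/-- (GAUSS, at `P0`) functions of pole orders `n` and `n - 1` have a Wronskian with a pole of
exact order `2n`. -/
theorem mw17ga_exists_inf {n : ℕ} (hn : 2 * g + 1 ≤ n) :
    ∃ a b : F, a ∈ riemannRochSpace (Finsupp.single P0 (n : ℤ)) ∧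
      b ∈ riemannRochSpace (Finsupp.single P0 (n : ℤ)) ∧ mw17gaWr K a b ≠ 0 ∧
      P0.ordDifferential (mw17gaWr K a b) = -(2 * (n : ℤ)) := by
  have hd0 : P0.deg = 1 := place_deg_eq_one P0 hx
  obtain ⟨a, ha0, ha, ha'⟩ := R.exists_single_pole P0 hd0 (n := n) (by omega)
  obtain ⟨b, hb0, hb, hb'⟩ := R.exists_single_pole P0 hd0 (n := n - 1) (by omega)
  have hb1 : P0.ord b = -(n : ℤ) + 1 := by
    rw [hb]
    have : 1 ≤ n := by omega
    push_cast [Nat.cast_sub this]
    ring
  obtain ⟨hne, heq⟩ := mw17ga_wr_eq hx P0 ha hb1 ha0 hb0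
  refine ⟨a, b, ?_, ?_, hne, heq⟩
  · exact (mw17ga_mem_iff P0).2 ⟨Or.inr (by rw [ha]), fun v hv => Or.inr (ha' v hv)⟩
  · exact (mw17ga_mem_iff P0).2 ⟨Or.inr (by rw [hb1]; linarith), fun v hv => Or.inr (hb' v hv)⟩

end Global

section BasePoint

variable {K F : Type*} [Field K] [Field F] [Algebra K F] {g : ℕ} (R : V27RR K F g)

include R in
/-- if `l(D - P) < l(D)` there is `f ∈ L(D)` with `ord_P f = -D(P)` exactly. -/
theorem mw17ga_exists_ord_eq_of_lt {D : Divisor K F} (P : Place K F)
    (hlt : finrank K (riemannRochSpace (D - Finsupp.single P 1)) <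
      finrank K (riemannRochSpace D)) :
    ∃ f : F, f ≠ 0 ∧ f ∈ riemannRochSpace D ∧ P.ord f = -D P := by
  classical
  have hle : riemannRochSpace (D - Finsupp.single P 1) ≤ riemannRochSpace D :=
    v27rr_rrSpace_mono (by
      rw [sub_le_self_iff]
      exact Finsupp.single_nonneg.mpr zero_le_one)
  have hne : riemannRochSpace (D - Finsupp.single P 1) ≠ riemannRochSpace D := by
    intro h
    rw [h] at hlt
    exact lt_irrefl _ hlt
  obtain ⟨f, hf, hf'⟩ := SetLike.exists_of_lt (lt_of_le_of_ne hle hne)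
  have hf0 : f ≠ 0 := by
    rintro rfl
    exact hf' (Submodule.zero_mem _)
  refine ⟨f, hf0, hf, ?_⟩
  rw [mem_riemannRochSpace_iff] at hf hf'
  have hP1 := (hf P).resolve_left hf0
  by_contra hne'
  apply hf'
  intro v
  right
  by_cases hv : v = P
  · subst hv
    rw [Finsupp.sub_apply, Finsupp.single_eq_same]
    omega
  · rw [Finsupp.sub_apply, Finsupp.single_eq_of_ne hv, sub_zero]
    exact (hf v).resolve_left hf0

include R in
/-- on a curve of genus `≥ 1` there is no function with a single simple pole. -/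
theorem mw17ga_finrank_single (hg : 1 ≤ g) (v : Place K F) (hdv : v.deg = 1) :
    finrank K (riemannRochSpace (Finsupp.single v (1 : ℤ))) = 1 := by
  classical
  by_contra hne
  have hfin := R.finL
  have h0 : riemannRochSpace (0 : Divisor K F) ≤ riemannRochSpace (Finsupp.single v (1 : ℤ)) :=
    v27rr_rrSpace_mono (Finsupp.single_nonneg.mpr zero_le_one)
  have hlt : riemannRochSpace (0 : Divisor K F) < riemannRochSpace (Finsupp.single v (1 : ℤ)) := by
    refine lt_of_le_of_ne h0 fun h => hne ?_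
    rw [← h, R.zero]
  obtain ⟨f, hf, hf'⟩ := SetLike.exists_of_lt hlt
  have hf0 : f ≠ 0 := by
    rintro rfl
    exact hf' (Submodule.zero_mem _)
  rw [mem_riemannRochSpace_iff] at hf hf'
  -- orders of `f`
  have hoff : ∀ w : Place K F, w ≠ v → 0 ≤ w.ord f := by
    intro w hw
    have := (hf w).resolve_left hf0
    rwa [Finsupp.single_eq_of_ne hw, neg_zero] at this
  have hv1 : -1 ≤ v.ord f := by
    have := (hf v).resolve_left hf0
    rwa [Finsupp.single_eq_same] at this
  have hv2 : v.ord f < 0 := by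
    by_contra hnn
    push Not at hnn
    apply hf'
    intro w
    right
    rw [Finsupp.coe_zero, Pi.zero_apply, neg_zero]
    by_cases hw : w = v
    · subst hw; exact hnn
    · exact hoff w hw
  have hv : v.ord f = -1 := by omega
  have hpow : ∀ (w : Place K F) (k : ℕ), w.ord (f ^ k) = k * w.ord f := by
    intro w k
    have := w.ord_zpow f (k : ℤ)
    rwa [zpow_natCast] at this
  -- `l(k v) ≥ k + 1`
  have key : ∀ k : ℕ, k + 1 ≤ finrank K (riemannRochSpace (Finsupp.single v (k : ℤ))) := by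
    intro k
    induction k with
    | zero =>
      have : (Finsupp.single v ((0 : ℕ) : ℤ) : Divisor K F) = 0 := by simp
      rw [this, R.zero]
    | succ k ih =>
      have hle : riemannRochSpace (Finsupp.single v (k : ℤ)) ≤
          riemannRochSpace (Finsupp.single v ((k + 1 : ℕ) : ℤ)) :=
        v27rr_rrSpace_mono (by
          rw [Finsupp.single_le_single]
          push_cast
          linarith)
      have hmem : f ^ (k + 1) ∈ riemannRochSpace (Finsupp.single v ((k + 1 : ℕ) : ℤ)) := by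
        rw [mem_riemannRochSpace_iff]
        intro w
        right
        by_cases hw : w = v
        · subst hw
          rw [Finsupp.single_eq_same, hpow, hv]
          push_cast
          ring_nf
          exact le_refl _
        · rw [Finsupp.single_eq_of_ne hw, neg_zero, hpow]
          have := hoff w hw
          positivity
      have hnot : f ^ (k + 1) ∉ riemannRochSpace (Finsupp.single v (k : ℤ)) := by
        intro hm
        rw [mem_riemannRochSpace_iff] at hm
        have := (hm v).resolve_left (pow_ne_zero _ hf0)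
        rw [Finsupp.single_eq_same, hpow, hv] at this
        push_cast at this
        linarith
      have hlt' : riemannRochSpace (Finsupp.single v (k : ℤ)) <
          riemannRochSpace (Finsupp.single v ((k + 1 : ℕ) : ℤ)) :=
        lt_of_le_of_ne hle fun h => hnot (h ▸ hmem)
      have := Submodule.finrank_lt_finrank_of_lt hlt'
      omega
  have h1 := key (2 * g)
  have h2 := (R.finrank_of_lt (D := Finsupp.single v ((2 * g : ℕ) : ℤ)) (by
    rw [Divisor.degree_single, hdv]
    push_cast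
    linarith)).1
  rw [Divisor.degree_single, hdv] at h2
  push_cast at h2
  have h3 : ((2 * g + 1 : ℕ) : ℤ) ≤ finrank K (riemannRochSpace
      (Finsupp.single v ((2 * g : ℕ) : ℤ))) := by exact_mod_cast h1
  push_cast at h3
  have : (1 : ℤ) ≤ g := by exact_mod_cast hg
  linarith

include R in
/-- (BPF) a canonical divisor of a curve of genus `≥ 1` has no base point. -/
theorem mw17ga_bpf_of_canonical (hg : 1 ≤ g) {W : Divisor K F}
    (hWdeg : Divisor.degree W = 2 * (g : ℤ) - 2) (hWl : finrank K (riemannRochSpace W) = g)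
    (hW : ∀ D : Divisor K F, (finrank K (riemannRochSpace D) : ℤ) =
      Divisor.degree D + 1 - g + finrank K (riemannRochSpace (W - D)))
    (v : Place K F) (hdv : v.deg = 1) :
    ∃ h : F, h ≠ 0 ∧ h ∈ riemannRochSpace W ∧ v.ord h = -W v := by
  apply mw17ga_exists_ord_eq_of_lt R v
  have h1 := hW (W - Finsupp.single v 1)
  rw [sub_sub_cancel, mw17ga_finrank_single R hg v hdv, map_sub, hWdeg, Divisor.degree_single,
    hdv] at h1
  have h2 : (finrank K (riemannRochSpace (W - Finsupp.single v 1)) : ℤ) = g - 1 := by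
    rw [h1]; push_cast; ring
  rw [hWl]
  have : (finrank K (riemannRochSpace (W - Finsupp.single v 1)) : ℤ) < g := by rw [h2]; linarith
  exact_mod_cast this

end BasePoint

section Ddx

variable {K F : Type*} [Field K] [Field F] [Algebra K F]

open Classical in
variable (K) in
/-- the derivative `df/dx`: the coefficient of `D f` with respect to `D x`. -/
def mw17gaDdx (x f : F) : F :=
  if h : ∃ c : F, D K F f = c • D K F x then h.choose else 0

theorem mw17ga_ddx_spec (x : F) [Algebra.IsSeparable K⟮x⟯ F] (f : F) :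
    D K F f = mw17gaDdx K x f • D K F x := by
  have h := kaehlerRank_exists_eq_smul (K := K) (x := x) (D K F f)
  rw [mw17gaDdx, dif_pos h]
  exact h.choose_spec

theorem mw17ga_ddx_unique {x : F} (hx : Transcendental K x) [FiniteDimensional K⟮x⟯ F]
    [Algebra.IsSeparable K⟮x⟯ F] {f c : F} (h : D K F f = c • D K F x) : mw17gaDdx K x f = c := by
  have hdx : D K F x ≠ 0 := kaehlerRank_D_ne_zero hx
  have h1 := mw17ga_ddx_spec (K := K) x f
  rw [h, ← sub_eq_zero, ← sub_smul, smul_eq_zero] at h1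
  exact (sub_eq_zero.1 (h1.resolve_right hdx)).symm

theorem mw17ga_ddx_self {x : F} (hx : Transcendental K x) [FiniteDimensional K⟮x⟯ F]
    [Algebra.IsSeparable K⟮x⟯ F] : mw17gaDdx K x x = 1 :=
  mw17ga_ddx_unique hx (one_smul _ _).symm

theorem mw17ga_ddx_algebraMap {x : F} (hx : Transcendental K x) [FiniteDimensional K⟮x⟯ F]
    [Algebra.IsSeparable K⟮x⟯ F] (c : K) : mw17gaDdx K x (algebraMap K F c) = 0 :=
  mw17ga_ddx_unique hx (by rw [Derivation.map_algebraMap, zero_smul])

theorem mw17ga_ddx_add {x : F} (hx : Transcendental K x) [FiniteDimensional K⟮x⟯ F]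
    [Algebra.IsSeparable K⟮x⟯ F] (a b : F) :
    mw17gaDdx K x (a + b) = mw17gaDdx K x a + mw17gaDdx K x b :=
  mw17ga_ddx_unique hx (by
    rw [map_add, add_smul, ← mw17ga_ddx_spec, ← mw17ga_ddx_spec])

theorem mw17ga_ddx_mul {x : F} (hx : Transcendental K x) [FiniteDimensional K⟮x⟯ F]
    [Algebra.IsSeparable K⟮x⟯ F] (a b : F) :
    mw17gaDdx K x (a * b) = a * mw17gaDdx K x b + b * mw17gaDdx K x a :=
  mw17ga_ddx_unique hx (by
    rw [Derivation.leibniz, add_smul, mul_smul, mul_smul, ← mw17ga_ddx_spec, ← mw17ga_ddx_spec])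

theorem mw17ga_ddx_smul {x : F} (hx : Transcendental K x) [FiniteDimensional K⟮x⟯ F]
    [Algebra.IsSeparable K⟮x⟯ F] (c : K) (a : F) :
    mw17gaDdx K x (c • a) = c • mw17gaDdx K x a :=
  mw17ga_ddx_unique hx (by
    rw [Derivation.map_smul, smul_assoc, ← mw17ga_ddx_spec])

variable (K) in
/-- the Wronskian function `a b' - b a'`, `' = d/dx`. -/
def mw17gaW (x a b : F) : F := a * mw17gaDdx K x b - b * mw17gaDdx K x a

theorem mw17ga_wr_eq_smul (x : F) [Algebra.IsSeparable K⟮x⟯ F] (a b : F) :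
    mw17gaWr K a b = mw17gaW K x a b • D K F x := by
  rw [mw17gaWr, mw17gaW, sub_smul, mul_smul, mul_smul, ← mw17ga_ddx_spec, ← mw17ga_ddx_spec]

theorem mw17gaW_one_left {x : F} (hx : Transcendental K x) [FiniteDimensional K⟮x⟯ F]
    [Algebra.IsSeparable K⟮x⟯ F] (b : F) : mw17gaW K x 1 b = mw17gaDdx K x b := by
  have h1 : mw17gaDdx K x (1 : F) = 0 := by
    have := mw17ga_ddx_algebraMap (K := K) hx 1
    rwa [map_one] at this
  rw [mw17gaW, h1, mul_zero, sub_zero, one_mul]

end Ddx

section Orders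

variable {K F : Type*} [Field K] [Field F] [Algebra K F] [IsAlgClosed K] [CharZero K]
  {g : ℕ} (R : V27RR K F g) {x : F} (hx : Transcendental K x) [FiniteDimensional K⟮x⟯ F]
  (P0 : Place K F) (Dx : Divisor K F)
  (hDx : ∀ v : Place K F, Dx v = v.ordDifferential (D K F x))

open Classical in
/-- the common order-minimum of the Gauss tuple and of the differential tuple at a place. -/
def mw17gaMin (P0 : Place K F) (Dx : Divisor K F) (n : ℕ) (v : Place K F) : ℤ :=
  -Dx v - if v = P0 then 2 * (n : ℤ) else 0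

theorem mw17gaMin_of_ne {n : ℕ} {v : Place K F} (hv : v ≠ P0) :
    mw17gaMin P0 Dx n v = -Dx v := by
  rw [mw17gaMin, if_neg hv, sub_zero]

theorem mw17gaMin_self {n : ℕ} : mw17gaMin P0 Dx n P0 = -Dx P0 - 2 * (n : ℤ) := by
  rw [mw17gaMin, if_pos rfl]

include hx hDx in
/-- the order of the Wronskian function from the order of the Wronskian differential. -/
theorem mw17ga_ord_W (v : Place K F) (a b : F) (h0 : mw17gaW K x a b ≠ 0) :
    v.ord (mw17gaW K x a b) = v.ordDifferential (mw17gaWr K a b) - Dx v := by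
  have hdx : D K F x ≠ 0 := kaehlerRank_D_ne_zero hx
  rw [mw17ga_wr_eq_smul x, mw17ga_ordDiff_smul hx v h0 hdx, hDx v]
  ring

include hx hDx in
/-- (ORD, Gauss tuple, `≥`) -/
theorem mw17ga_le_ord_W {n : ℕ} {a b : F}
    (ha : a ∈ riemannRochSpace (Finsupp.single P0 (n : ℤ)))
    (hb : b ∈ riemannRochSpace (Finsupp.single P0 (n : ℤ))) (v : Place K F) :
    mw17gaW K x a b = 0 ∨ mw17gaMin P0 Dx n v ≤ v.ord (mw17gaW K x a b) := by
  rcases eq_or_ne (mw17gaW K x a b) 0 with h0 | h0
  · exact Or.inl h0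
  right
  rw [mw17ga_ord_W hx Dx hDx v a b h0]
  by_cases hv : v = P0
  · subst hv
    rw [mw17gaMin_self]
    have := mw17ga_wr_ge_inf hx v ha hb
    linarith
  · rw [mw17gaMin_of_ne P0 Dx hv]
    have := mw17ga_wr_ge_fin hx P0 ha hb v hv
    linarith

include R hx hDx in
/-- (ORD, Gauss tuple, `=`) the minimum is attained at every place. -/
theorem mw17ga_exists_ord_W {n : ℕ} (hn : 2 * g + 1 ≤ n) (v : Place K F) :
    ∃ a b : F, a ∈ riemannRochSpace (Finsupp.single P0 (n : ℤ)) ∧
      b ∈ riemannRochSpace (Finsupp.single P0 (n : ℤ)) ∧ mw17gaW K x a b ≠ 0 ∧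
      v.ord (mw17gaW K x a b) = mw17gaMin P0 Dx n v := by
  have hdx : D K F x ≠ 0 := kaehlerRank_D_ne_zero hx
  have hne : ∀ a b : F, mw17gaWr K a b ≠ 0 → mw17gaW K x a b ≠ 0 := by
    intro a b h h0
    rw [mw17ga_wr_eq_smul x, h0, zero_smul] at h
    exact h rfl
  by_cases hv : v = P0
  · subst hv
    obtain ⟨a, b, ha, hb, h0, hab⟩ := mw17ga_exists_inf R hx v hn
    refine ⟨a, b, ha, hb, hne a b h0, ?_⟩
    rw [mw17ga_ord_W hx Dx hDx v a b (hne a b h0), hab, mw17gaMin_self]
    ring
  · obtain ⟨b, hb, h0, hb0⟩ := mw17ga_exists_fin R hx P0 hn v hv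
    have h1 : (1 : F) ∈ riemannRochSpace (Finsupp.single P0 (n : ℤ)) :=
      (mw17ga_mem_iff P0).2 ⟨Or.inr (by rw [Place.ord_one]; omega),
        fun w _ => Or.inr (by rw [Place.ord_one])⟩
    refine ⟨1, b, h1, hb, hne 1 b h0, ?_⟩
    rw [mw17ga_ord_W hx Dx hDx v 1 b (hne 1 b h0), hb0, mw17gaMin_of_ne P0 Dx hv]
    ring

include hx hDx in
/-- (ORD, differential tuple, `≥`) -/
theorem mw17ga_le_ord_hab {n : ℕ} {h a b : F} (hh : h ∈ riemannRochSpace Dx)
    (ha : a ∈ riemannRochSpace (Finsupp.single P0 (n : ℤ)))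
    (hb : b ∈ riemannRochSpace (Finsupp.single P0 (n : ℤ))) (v : Place K F) :
    h * a * b = 0 ∨ mw17gaMin P0 Dx n v ≤ v.ord (h * a * b) := by
  rcases eq_or_ne (h * a * b) 0 with h0 | h0
  · exact Or.inl h0
  right
  have hh0 : h ≠ 0 := fun e => h0 (by rw [e, zero_mul, zero_mul])
  have ha0 : a ≠ 0 := fun e => h0 (by rw [e, mul_zero, zero_mul])
  have hb0 : b ≠ 0 := fun e => h0 (by rw [e, mul_zero])
  rw [v.ord_mul (mul_ne_zero hh0 ha0) hb0, v.ord_mul hh0 ha0]
  have h1 := ((mem_riemannRochSpace_iff.1 hh) v).resolve_left hh0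
  by_cases hv : v = P0
  · subst hv
    rw [mw17gaMin_self]
    have h2 := ((mw17ga_mem_iff v).1 ha).1.resolve_left ha0
    have h3 := ((mw17ga_mem_iff v).1 hb).1.resolve_left hb0
    linarith
  · rw [mw17gaMin_of_ne P0 Dx hv]
    have h2 := (((mw17ga_mem_iff P0).1 ha).2 v hv).resolve_left ha0
    have h3 := (((mw17ga_mem_iff P0).1 hb).2 v hv).resolve_left hb0
    linarith

include R hx hDx in
/-- (BPF) the canonical system `L(div dx)` has no base point (`g ≥ 1`). -/
theorem mw17ga_bpf (hg : 1 ≤ g) (v : Place K F) :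
    ∃ h : F, h ≠ 0 ∧ h ∈ riemannRochSpace Dx ∧ v.ord h = -Dx v := by
  obtain ⟨h1, h2, -, h4⟩ := mw17kn_main R x hx Dx hDx
  exact mw17ga_bpf_of_canonical R hg h1 h2 h4 v (place_deg_eq_one v hx)

include R hx hDx in
/-- (ORD, differential tuple, `=`) the minimum is attained at every place. -/
theorem mw17ga_exists_ord_hab (hg : 1 ≤ g) {n : ℕ} (hn : 2 * g + 1 ≤ n) (v : Place K F) :
    ∃ h a b : F, h ∈ riemannRochSpace Dx ∧ a ∈ riemannRochSpace (Finsupp.single P0 (n : ℤ)) ∧
      b ∈ riemannRochSpace (Finsupp.single P0 (n : ℤ)) ∧ h * a * b ≠ 0 ∧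
      v.ord (h * a * b) = mw17gaMin P0 Dx n v := by
  obtain ⟨h, hh0, hh, hord⟩ := mw17ga_bpf R hx Dx hDx hg v
  by_cases hv : v = P0
  · subst hv
    have hd0 : v.deg = 1 := place_deg_eq_one v hx
    obtain ⟨a, ha0, ha, ha'⟩ := R.exists_single_pole v hd0 (n := n) (by omega)
    have hamem : a ∈ riemannRochSpace (Finsupp.single v (n : ℤ)) :=
      (mw17ga_mem_iff v).2 ⟨Or.inr (by rw [ha]), fun w hw => Or.inr (ha' w hw)⟩
    refine ⟨h, a, a, hh, hamem, hamem, mul_ne_zero (mul_ne_zero hh0 ha0) ha0, ?_⟩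
    rw [v.ord_mul (mul_ne_zero hh0 ha0) ha0, v.ord_mul hh0 ha0, hord, ha, mw17gaMin_self]
    ring
  · have h1 : (1 : F) ∈ riemannRochSpace (Finsupp.single P0 (n : ℤ)) :=
      (mw17ga_mem_iff P0).2 ⟨Or.inr (by rw [Place.ord_one]; omega),
        fun w _ => Or.inr (by rw [Place.ord_one])⟩
    refine ⟨h, 1, 1, hh, h1, h1, by simpa using hh0, ?_⟩
    rw [mul_one, mul_one, hord, mw17gaMin_of_ne P0 Dx hv]

include R hx hDx in
/-- **(8.4)(c), curve side**: the Gauss tuple `(a b' - b a')` (`a, b ∈ L(n P0)`) and the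
differential tuple `(h a b)` (`h ∈ L(div dx)`, i.e. `h dx` regular) have the same order-minimum
`mw17gaMin P0 Dx n v` at EVERY place `v`, and it is attained by both. -/
theorem mw17ga_main (hg : 1 ≤ g) {n : ℕ} (hn : 2 * g + 1 ≤ n) (v : Place K F) :
    (∀ a b : F, a ∈ riemannRochSpace (Finsupp.single P0 (n : ℤ)) →
      b ∈ riemannRochSpace (Finsupp.single P0 (n : ℤ)) →
      mw17gaW K x a b = 0 ∨ mw17gaMin P0 Dx n v ≤ v.ord (mw17gaW K x a b)) ∧
    (∃ a b : F, a ∈ riemannRochSpace (Finsupp.single P0 (n : ℤ)) ∧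
      b ∈ riemannRochSpace (Finsupp.single P0 (n : ℤ)) ∧ mw17gaW K x a b ≠ 0 ∧
      v.ord (mw17gaW K x a b) = mw17gaMin P0 Dx n v) ∧
    (∀ h a b : F, h ∈ riemannRochSpace Dx → a ∈ riemannRochSpace (Finsupp.single P0 (n : ℤ)) →
      b ∈ riemannRochSpace (Finsupp.single P0 (n : ℤ)) →
      h * a * b = 0 ∨ mw17gaMin P0 Dx n v ≤ v.ord (h * a * b)) ∧
    ∃ h a b : F, h ∈ riemannRochSpace Dx ∧ a ∈ riemannRochSpace (Finsupp.single P0 (n : ℤ)) ∧
      b ∈ riemannRochSpace (Finsupp.single P0 (n : ℤ)) ∧ h * a * b ≠ 0 ∧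
      v.ord (h * a * b) = mw17gaMin P0 Dx n v :=
  ⟨fun a b ha hb => mw17ga_le_ord_W hx P0 Dx hDx ha hb v,
    mw17ga_exists_ord_W R hx P0 Dx hDx hn v,
    fun h a b hh ha hb => mw17ga_le_ord_hab hx P0 Dx hDx hh ha hb v,
    mw17ga_exists_ord_hab R hx P0 Dx hDx hg hn v⟩

end Orders

section Basis

variable {K F : Type*} [Field K] [Field F] [Algebra K F]

/-- functions vanishing to order `> m` at `v` (together with `0`): a `K`-subspace. -/
def mw17gaBall (v : Place K F) (m : ℤ) : Submodule K F where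
  carrier := {f | f = 0 ∨ m < v.ord f}
  zero_mem' := Or.inl rfl
  add_mem' := by
    rintro a b ha hb
    rcases eq_or_ne a 0 with rfl | ha0
    · rwa [zero_add]
    rcases eq_or_ne b 0 with rfl | hb0
    · rwa [add_zero]
    rcases eq_or_ne (a + b) 0 with h0 | h0
    · exact Or.inl h0
    right
    have h1 := ha.resolve_left ha0
    have h2 := hb.resolve_left hb0
    have h3 : min (v.ord a) (v.ord b) ≤ v.ord (a + b) := PlaceOrd.min_le_ord_add v h0
    exact lt_of_lt_of_le (lt_min h1 h2) h3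
  smul_mem' := by
    rintro c a ha
    rcases eq_or_ne c 0 with rfl | hc0
    · left; rw [zero_smul]
    rcases eq_or_ne a 0 with rfl | ha0
    · left; rw [smul_zero]
    right
    have h1 := ha.resolve_left ha0
    have hc : algebraMap K F c ≠ 0 := (_root_.map_ne_zero _).2 hc0
    rw [Algebra.smul_def, v.ord_mul hc ha0, PlaceOrd.ord_algebraMap v c, zero_add]
    exact h1

theorem mw17ga_mem_ball {v : Place K F} {m : ℤ} {f : F} :
    f ∈ mw17gaBall v m ↔ f = 0 ∨ m < v.ord f := Iff.rfl

/-- a `K`-bilinear map which sends all pairs of generators into a subspace sends all pairs of the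
spans into it. -/
theorem mw17ga_bilin_span {ι κ : Type*} (S : Submodule K F) (B : F →ₗ[K] F →ₗ[K] F)
    (φ : ι → F) (η : κ → F) (h : ∀ i j, B (φ i) (η j) ∈ S) {a b : F}
    (ha : a ∈ Submodule.span K (Set.range φ)) (hb : b ∈ Submodule.span K (Set.range η)) :
    B a b ∈ S := by
  induction ha using Submodule.span_induction with
  | mem a ha =>
    obtain ⟨i, rfl⟩ := ha
    induction hb using Submodule.span_induction with
    | mem b hb =>
      obtain ⟨j, rfl⟩ := hb
      exact h i j
    | zero => rw [map_zero]; exact S.zero_mem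
    | add b₁ b₂ _ _ h₁ h₂ => rw [map_add]; exact S.add_mem h₁ h₂
    | smul c b _ h₁ => rw [map_smul]; exact S.smul_mem c h₁
  | zero => rw [map_zero, LinearMap.zero_apply]; exact S.zero_mem
  | add a₁ a₂ _ _ h₁ h₂ => rw [map_add, LinearMap.add_apply]; exact S.add_mem h₁ h₂
  | smul c a _ h₁ => rw [map_smul, LinearMap.smul_apply]; exact S.smul_mem c h₁

end Basis

section Bilin

variable {K F : Type*} [Field K] [Field F] [Algebra K F] {x : F} (hx : Transcendental K x)
  [FiniteDimensional K⟮x⟯ F] [Algebra.IsSeparable K⟮x⟯ F]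

variable (K) in
/-- the Wronskian function as a `K`-bilinear map. -/
def mw17gaWBilin : F →ₗ[K] F →ₗ[K] F :=
  LinearMap.mk₂ K (mw17gaW K x)
    (fun a₁ a₂ b => by
      simp only [mw17gaW, mw17ga_ddx_add hx]
      ring)
    (fun c a b => by
      rw [mw17gaW, mw17gaW, mw17ga_ddx_smul hx]
      simp only [Algebra.smul_def]
      ring)
    (fun a b₁ b₂ => by
      simp only [mw17gaW, mw17ga_ddx_add hx]
      ring)
    (fun c a b => by
      rw [mw17gaW, mw17gaW, mw17ga_ddx_smul hx]
      simp only [Algebra.smul_def]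
      ring)

theorem mw17gaWBilin_apply (a b : F) : mw17gaWBilin K hx a b = mw17gaW K x a b := rfl

end Bilin

section BasisOrders

variable {K F : Type*} [Field K] [Field F] [Algebra K F] [IsAlgClosed K] [CharZero K]
  {g : ℕ} (R : V27RR K F g) {x : F} (hx : Transcendental K x) [FiniteDimensional K⟮x⟯ F]
  (P0 : Place K F) (Dx : Divisor K F)
  (hDx : ∀ v : Place K F, Dx v = v.ordDifferential (D K F x))


include R hx hDx in
/-- (ORD, Gauss tuple, on a spanning family) the minimum is attained by a pair of generators. -/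
theorem mw17ga_exists_ord_W_basis {n : ℕ} (hn : 2 * g + 1 ≤ n) {ι : Type*} (φ : ι → F)
    (hφ : Submodule.span K (Set.range φ) = riemannRochSpace (Finsupp.single P0 (n : ℤ)))
    (v : Place K F) :
    ∃ i j : ι, mw17gaW K x (φ i) (φ j) ≠ 0 ∧
      v.ord (mw17gaW K x (φ i) (φ j)) = mw17gaMin P0 Dx n v := by
  by_contra hcon
  push Not at hcon
  have hmem : ∀ i, φ i ∈ riemannRochSpace (Finsupp.single P0 (n : ℤ)) := fun i => by
    rw [← hφ]; exact Submodule.subset_span ⟨i, rfl⟩
  have hball : ∀ i j, mw17gaWBilin K hx (φ i) (φ j) ∈ mw17gaBall v (mw17gaMin P0 Dx n v) := by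
    intro i j
    rw [mw17gaWBilin_apply, mw17ga_mem_ball]
    rcases mw17ga_le_ord_W hx P0 Dx hDx (hmem i) (hmem j) v with h0 | h1
    · exact Or.inl h0
    · rcases eq_or_ne (mw17gaW K x (φ i) (φ j)) 0 with h0 | h0
      · exact Or.inl h0
      · exact Or.inr (lt_of_le_of_ne h1 (Ne.symm (hcon i j h0)))
  obtain ⟨a, b, ha, hb, hne, hord⟩ := mw17ga_exists_ord_W R hx P0 Dx hDx hn v
  rw [← hφ] at ha hb
  have := mw17ga_bilin_span _ (mw17gaWBilin K hx) φ φ hball ha hb
  rw [mw17gaWBilin_apply, mw17ga_mem_ball] at this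
  rcases this with h0 | h1
  · exact hne h0
  · rw [hord] at h1
    exact lt_irrefl _ h1

include R hx hDx in
/-- (ORD, differential tuple, on spanning families) the minimum is attained by generators. -/
theorem mw17ga_exists_ord_hab_basis (hg : 1 ≤ g) {n : ℕ} (hn : 2 * g + 1 ≤ n) {ι κ : Type*}
    (φ : ι → F)
    (hφ : Submodule.span K (Set.range φ) = riemannRochSpace (Finsupp.single P0 (n : ℤ)))
    (η : κ → F) (hη : Submodule.span K (Set.range η) = riemannRochSpace Dx) (v : Place K F) :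
    ∃ (c : κ) (i j : ι), η c * φ i * φ j ≠ 0 ∧
      v.ord (η c * φ i * φ j) = mw17gaMin P0 Dx n v := by
  by_contra hcon
  push Not at hcon
  have hmem : ∀ i, φ i ∈ riemannRochSpace (Finsupp.single P0 (n : ℤ)) := fun i => by
    rw [← hφ]; exact Submodule.subset_span ⟨i, rfl⟩
  have hmemη : ∀ c, η c ∈ riemannRochSpace Dx := fun c => by
    rw [← hη]; exact Submodule.subset_span ⟨c, rfl⟩
  set ψ : ι × ι → F := fun p => φ p.1 * φ p.2 with hψ
  have hball : ∀ (c : κ) (p : ι × ι),
      LinearMap.mul K F (η c) (ψ p) ∈ mw17gaBall v (mw17gaMin P0 Dx n v) := by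
    intro c p
    rw [LinearMap.mul_apply', mw17ga_mem_ball, hψ, ← mul_assoc]
    rcases mw17ga_le_ord_hab hx P0 Dx hDx (hmemη c) (hmem p.1) (hmem p.2) v with h0 | h1
    · exact Or.inl h0
    · rcases eq_or_ne (η c * φ p.1 * φ p.2) 0 with h0 | h0
      · exact Or.inl h0
      · exact Or.inr (lt_of_le_of_ne h1 (Ne.symm (hcon c p.1 p.2 h0)))
  obtain ⟨h, a, b, hh, ha, hb, hne, hord⟩ := mw17ga_exists_ord_hab R hx P0 Dx hDx hg hn v
  rw [← hφ] at ha hb
  rw [← hη] at hh
  have hab : a * b ∈ Submodule.span K (Set.range ψ) := by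
    have := mw17ga_bilin_span (Submodule.span K (Set.range ψ)) (LinearMap.mul K F) φ φ
      (fun i j => Submodule.subset_span ⟨(i, j), rfl⟩) ha hb
    rwa [LinearMap.mul_apply'] at this
  have := mw17ga_bilin_span _ (LinearMap.mul K F) η ψ hball hh hab
  rw [LinearMap.mul_apply', mw17ga_mem_ball, ← mul_assoc] at this
  rcases this with h0 | h1
  · exact hne h0
  · rw [hord] at h1
    exact lt_irrefl _ h1

include hx hDx in
/-- clearing the poles: if `ρ` vanishes to order `≥ (div dx)(v)` at every `v ≠ P0` then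
`ρ (a b' - b a')` is regular off `P0` with a pole of order `≤ k0` at `P0`. -/
theorem mw17ga_rho_W_mem {n k0 : ℕ} {ρ : F} (hρ : ∀ v : Place K F, v ≠ P0 → Dx v ≤ v.ord ρ)
    (hk0 : Dx P0 + 2 * (n : ℤ) - P0.ord ρ ≤ k0) {a b : F}
    (ha : a ∈ riemannRochSpace (Finsupp.single P0 (n : ℤ)))
    (hb : b ∈ riemannRochSpace (Finsupp.single P0 (n : ℤ))) :
    ρ * mw17gaW K x a b ∈ riemannRochSpace (Finsupp.single P0 (k0 : ℤ)) := by
  rcases eq_or_ne (ρ * mw17gaW K x a b) 0 with h0 | h0
  · rw [h0]; exact Submodule.zero_mem _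
  have hρ0 : ρ ≠ 0 := fun e => h0 (by rw [e, zero_mul])
  have hW0 : mw17gaW K x a b ≠ 0 := fun e => h0 (by rw [e, mul_zero])
  rw [mw17ga_mem_iff]
  refine ⟨Or.inr ?_, fun v hv => Or.inr ?_⟩
  · have h1 := (mw17ga_le_ord_W hx P0 Dx hDx ha hb P0).resolve_left hW0
    rw [mw17gaMin_self] at h1
    rw [P0.ord_mul hρ0 hW0]
    linarith
  · have h1 := (mw17ga_le_ord_W hx P0 Dx hDx ha hb v).resolve_left hW0
    rw [mw17gaMin_of_ne P0 Dx hv] at h1
    rw [v.ord_mul hρ0 hW0]
    have := hρ v hv
    linarith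

include hx hDx in
/-- the same for the differential tuple `ρ h a b`. -/
theorem mw17ga_rho_hab_mem {n k0 : ℕ} {ρ : F} (hρ : ∀ v : Place K F, v ≠ P0 → Dx v ≤ v.ord ρ)
    (hk0 : Dx P0 + 2 * (n : ℤ) - P0.ord ρ ≤ k0) {h a b : F} (hh : h ∈ riemannRochSpace Dx)
    (ha : a ∈ riemannRochSpace (Finsupp.single P0 (n : ℤ)))
    (hb : b ∈ riemannRochSpace (Finsupp.single P0 (n : ℤ))) :
    ρ * (h * a * b) ∈ riemannRochSpace (Finsupp.single P0 (k0 : ℤ)) := by
  rcases eq_or_ne (ρ * (h * a * b)) 0 with h0 | h0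
  · rw [h0]; exact Submodule.zero_mem _
  have hρ0 : ρ ≠ 0 := fun e => h0 (by rw [e, zero_mul])
  have hW0 : h * a * b ≠ 0 := fun e => h0 (by rw [e, mul_zero])
  rw [mw17ga_mem_iff]
  refine ⟨Or.inr ?_, fun v hv => Or.inr ?_⟩
  · have h1 := (mw17ga_le_ord_hab hx P0 Dx hDx hh ha hb P0).resolve_left hW0
    rw [mw17gaMin_self] at h1
    rw [P0.ord_mul hρ0 hW0]
    linarith
  · have h1 := (mw17ga_le_ord_hab hx P0 Dx hDx hh ha hb v).resolve_left hW0
    rw [mw17gaMin_of_ne P0 Dx hv] at h1
    rw [v.ord_mul hρ0 hW0]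
    have := hρ v hv
    linarith

end BasisOrders

end Fermat.Agent.MW17
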