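import Fermat.Agent.MW17.Gauss
import Fermat.Agent.MW17.Setup
import Fermat.Agent.V.Sem.PtPlace
import Fermat.Agent.V.Pres.IntRingPresented
import Fermat.Agent.V.Pres.FieldGlue
import Fermat.Agent.V.Pres.OnePoint

/-!
# S17 heights, (8.4)(c'): the Gauss tuple inside the table ring

`P : V27Presented K F T` a one-point presentation, `x = ψ(x)`, `φ_i = ψ(mon_i)` the monomial basis
of `L(n P0)`.  We produce `ρ ≠ 0` in `B = V27pB T` and `dm_i ∈ B` with `ρ dφ_i = dm_i dx`, the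
Gauss tuple `G_(i,j) = mon_i dm_j - mon_j dm_i ∈ B` (`= ρ (φ_i φ_j' - φ_j φ_i')`), its exact zero
cycle `E` (`span G = ∏_{q ∈ E} ker q`), its exact top order `k₁`, and the identity
`k₁ + 2 = |E| + 2 n + 2 g` (which is `deg div(dx) = 2g - 2`).
-/

set_option autoImplicit false
set_option linter.unusedSectionVars false
set_option linter.unusedVariables false
set_option linter.style.haveILetI false

noncomputable section

namespace Fermat.Agent.MW17

open Polynomial Module AlgebraicCurve IntermediateField KaehlerDifferential Fermat.Agent.S24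
  Fermat.Agent.V Fermat.Agent.V.RR

/-! ### the monomials span `L_m` -/

section Expand

variable {K : Type*} [Field K] {δ : V27pShape} (T : V27pTable K δ)

/-- the monomial `x^r e_j` in coordinates -/
theorem mw17gb_xpow_mul_e_apply (r : ℕ) (j k : ZMod δ.N) :
    (V27pB.x ^ r * V27pB.e j : V27pB T) k = if k = j then X ^ r else 0 := by
  have h : (V27pB.x ^ r * V27pB.e j : V27pB T) = (X ^ r : K[X]) • (V27pB.e j : V27pB T) := by
    rw [V27pB.x, ← map_pow, Algebra.smul_def]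
  rw [h, V27pB.smul_apply, V27pB.e_apply]
  split_ifs <;> simp

/-- a monomial of `L_m` has pole order `≤ m` -/
theorem mw17gb_mon_le {m : ℕ} (i : Mw17Idx δ m) : V27pLe (mw17Mon T i) m := by
  intro j r hr
  rw [mw17Mon, mw17gb_xpow_mul_e_apply]
  split_ifs with hj
  · rw [coeff_X_pow]
    have h2 := i.2
    have : r ≠ (i.1.2 : ℕ) := by
      intro e
      rw [e, hj] at hr
      omega
    rw [if_neg this]
  · rw [coeff_zero]

/-- the `k`-th coordinate as an additive map -/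
def mw17gbCoord (k : ZMod δ.N) : V27pB T →+ K[X] where
  toFun a := a k
  map_zero' := rfl
  map_add' _ _ := rfl

/-- every element of `L_m` is a `K`-combination of the monomials of `L_m` -/
theorem mw17gb_mem_span_mon {b : V27pB T} {m : ℕ} (h : V27pLe b m) :
    b ∈ Submodule.span K (Set.range fun i : Mw17Idx δ m => mw17Mon T i) := by
  classical
  have key : b = ∑ i : Mw17Idx δ m, (b i.1.1).coeff (i.1.2 : ℕ) • mw17Mon T i := by
    refine V27pB.ext fun k => ?_
    have h1 : (∑ i : Mw17Idx δ m, (b i.1.1).coeff (i.1.2 : ℕ) • mw17Mon T i) k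
        = ∑ i : Mw17Idx δ m, C ((b i.1.1).coeff (i.1.2 : ℕ)) *
            (if k = i.1.1 then X ^ (i.1.2 : ℕ) else 0) := by
      change mw17gbCoord T k (∑ i : Mw17Idx δ m, (b i.1.1).coeff (i.1.2 : ℕ) • mw17Mon T i) = _
      rw [map_sum]
      refine Finset.sum_congr rfl fun i _ => ?_
      change ((b i.1.1).coeff (i.1.2 : ℕ) • mw17Mon T i) k = _
      rw [V27pB.smul_def', mw17Mon, mw17gb_xpow_mul_e_apply]
    rw [h1]
    ext r
    rw [Polynomial.finsetSum_coeff]
    by_cases hr : δ.N * r + δ.d k ≤ m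
    · have hr' : r < m + 1 := by
        have := Nat.le_mul_of_pos_left r δ.hN
        omega
      rw [Finset.sum_eq_single (⟨(k, ⟨r, hr'⟩), hr⟩ : Mw17Idx δ m)]
      · simp
      · intro i _ hi
        by_cases hk : k = i.1.1
        · rw [if_pos hk, coeff_C_mul, coeff_X_pow]
          have : r ≠ (i.1.2 : ℕ) := by
            intro hri
            apply hi
            apply Subtype.ext
            apply Prod.ext
            · exact hk.symm
            · exact Fin.ext hri.symm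
          rw [if_neg this, mul_zero]
        · rw [if_neg hk, mul_zero, coeff_zero]
      · intro hne; exact absurd (Finset.mem_univ _) hne
    · push Not at hr
      rw [h k r hr]
      symm
      apply Finset.sum_eq_zero
      intro i _
      by_cases hk : k = i.1.1
      · rw [if_pos hk, coeff_C_mul, coeff_X_pow]
        have : r ≠ (i.1.2 : ℕ) := by
          intro hri
          have := i.2
          rw [← hk, ← hri] at this
          omega
        rw [if_neg this, mul_zero]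
      · rw [if_neg hk, mul_zero, coeff_zero]
  rw [key]
  exact Submodule.sum_mem _ fun i _ =>
    Submodule.smul_mem _ _ (Submodule.subset_span ⟨i, rfl⟩)

end Expand

/-! ### the presentation: field facts and the order dictionary -/

section Pres

variable {K F : Type*} [Field K] [Field F] [Algebra K F] {δ : V27pShape} {T : V27pTable K δ}
  (P : V27Presented K F T)

/-- `ψ x` is transcendental -/
theorem mw17gb_transcendental : Transcendental K (P.ψ (V27pB.x (T := T))) := by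
  apply v27ir_transcendental P.P0
  rw [v27ir_presented_ord_x P]
  have : (0 : ℤ) < δ.N := by exact_mod_cast δ.hN
  omega

/-- `F` is finite over `K(ψ x)` -/
theorem mw17gb_finiteDimensional :
    FiniteDimensional K⟮P.ψ (V27pB.x (T := T))⟯ F := by
  letI := v27spAlg P
  haveI := v27sp_isScalarTower P
  haveI := v27sp_isFractionRing P
  exact v27fg_finiteDimensional K (V27pB T) F

/-- in characteristic zero `ψ x` is a separating generator -/
theorem mw17gb_isSepGen [CharZero K] : IsSepGen K (P.ψ (V27pB.x (T := T))) := by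
  haveI := mw17gb_finiteDimensional P
  exact ⟨mw17gb_transcendental P, mw17gb_finiteDimensional P, inferInstance⟩

/-- the images of the monomials span `L(m P0)` -/
theorem mw17gb_span_mon (m : ℕ) :
    Submodule.span K (Set.range fun i : Mw17Idx δ m => P.ψ (mw17Mon T i)) =
      riemannRochSpace (Finsupp.single P.P0 (m : ℤ)) := by
  apply le_antisymm
  · rw [Submodule.span_le]
    rintro _ ⟨i, rfl⟩
    exact (P.mem_L_iff m _).2 (mw17gb_mon_le T i)
  · intro f hf
    obtain ⟨a, ha, rfl⟩ := P.exists_of_mem_L hf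
    have h1 := mw17gb_mem_span_mon T (b := a) (m := m) ha
    have h2 : (Set.range fun i : Mw17Idx δ m => P.ψ (mw17Mon T i)) =
        P.ψ.toLinearMap '' (Set.range fun i : Mw17Idx δ m => mw17Mon T i) := by
      rw [← Set.range_comp]
      rfl
    rw [h2, ← Submodule.map_span]
    exact ⟨a, h1, rfl⟩

/-- the pole order at `P0` is `v27pOrd` -/
theorem mw17gb_ord_P0 {b : V27pB T} (hb : b ≠ 0) :
    P.P0.ord (P.ψ b) = -(v27pOrd b : ℤ) := by
  rw [P.ord_eq_iff hb]
  obtain ⟨j, hj, htop⟩ := v27p_exists_top hb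
  exact ⟨v27pLe_ord b, j, (b j).natDegree, htop, by
    rw [coeff_natDegree]; exact leadingCoeff_ne_zero.2 hj⟩

end Pres

/-! ### the order dictionary at the finite points -/

section PresDedekind

variable {K F : Type*} [Field K] [Field F] [Algebra K F] [IsAlgClosed K] {δ : V27pShape}
  {T : V27pTable K δ} (P : V27Presented K F T) [IsDedekindDomain (V27pB T)]

/-- `b ∈ 𝔪_q ^ e` iff `ψ b` vanishes to order `≥ e` at the place of `q` -/
theorem mw17gb_mem_pow_iff (q : Mw17Pt T) {b : V27pB T} (hb : b ≠ 0) (e : ℕ) :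
    b ∈ RingHom.ker (q : V27pB T →+* K) ^ e ↔ (e : ℤ) ≤ (v27spPlace P q).ord (P.ψ b) := by
  letI := v27spAlg P
  haveI := v27sp_isScalarTower P
  haveI := v27sp_isFractionRing P
  have h1 : (v27spPlace P q).ord (P.ψ b) =
      (multiplicity (v27ptPrime v27pi_not_isField q).asIdeal (Ideal.span {b}) : ℤ) :=
    v27c_ord_eq_multiplicity (K := K) (M := F) (v27ptPrime v27pi_not_isField q) hb
  rw [h1, v27ptPrime_asIdeal]
  have hsr : Ideal.span {b} ≠ 0 := Submodule.span_singleton_eq_bot.mp.mt hb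
  have hfm : FiniteMultiplicity (RingHom.ker q) (Ideal.span {b}) :=
    FiniteMultiplicity.of_prime_left (v27ptPrime v27pi_not_isField q).prime hsr
  change b ∈ RingHom.ker q ^ e ↔ _
  rw [Nat.cast_le, ← hfm.pow_dvd_iff_le_multiplicity, Ideal.dvd_iff_le,
    Ideal.span_singleton_le_iff_mem]

/-- the same with the zero element allowed -/
theorem mw17gb_mem_pow_iff' (q : Mw17Pt T) (b : V27pB T) (e : ℕ) :
    b ∈ RingHom.ker (q : V27pB T →+* K) ^ e ↔
      (P.ψ b = 0 ∨ (e : ℤ) ≤ (v27spPlace P q).ord (P.ψ b)) := by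
  by_cases hb : b = 0
  · subst hb
    simp
  · rw [mw17gb_mem_pow_iff P q hb]
    constructor
    · exact fun h => Or.inr h
    · rintro (h | h)
      · exact absurd h (P.ψ_ne_zero hb)
      · exact h

end PresDedekind

/-! ### zero cycles of ideals in a Dedekind domain with enough points -/

section Cycle

open UniqueFactorizationMonoid

variable {K B : Type*} [Field K] [CommRing B] [IsDedekindDomain B] [Algebra K B]

/-- the point ideals of a multiset of points -/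
def mw17gbKers (E : Multiset (B →ₐ[K] K)) : Multiset (Ideal B) :=
  E.map fun q : B →ₐ[K] K => RingHom.ker (q : B →+* K)

theorem mw17gb_ker_injective :
    Function.Injective (fun q : B →ₐ[K] K => RingHom.ker (q : B →+* K)) :=
  fun q q' h => v27pt_point_ext h

/-- every nonzero ideal is a product of point ideals (when all maximal ideals are point ideals) -/
theorem mw17gb_exists_cycle
    (hpt : ∀ M : Ideal B, M.IsMaximal → ∃ q : B →ₐ[K] K, RingHom.ker (q : B →+* K) = M)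
    {I : Ideal B} (hI : I ≠ ⊥) :
    ∃ E : Multiset (B →ₐ[K] K), I = (mw17gbKers E).prod := by
  classical
  have key : ∀ f : Multiset (Ideal B), (∀ p ∈ f, p.IsMaximal) →
      ∃ E : Multiset (B →ₐ[K] K), mw17gbKers E = f := by
    intro f
    induction f using Multiset.induction_on with
    | empty => exact fun _ => ⟨0, rfl⟩
    | cons p f ih =>
      intro h
      obtain ⟨E, hE⟩ := ih fun p' hp' => h p' (Multiset.mem_cons_of_mem hp')
      obtain ⟨q, hq⟩ := hpt p (h p (Multiset.mem_cons_self p f))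
      exact ⟨q ::ₘ E, by rw [mw17gbKers, Multiset.map_cons, hq, ← hE]; rfl⟩
  obtain ⟨E, hE⟩ := key (normalizedFactors I) (by
    intro p hp
    have hprime : Prime p := prime_of_normalized_factor p hp
    exact (Ideal.isPrime_of_prime hprime).isMaximal hprime.ne_zero)
  refine ⟨E, ?_⟩
  rw [hE]
  exact (associated_iff_eq.1 (prod_normalizedFactors hI)).symm

/-- multiplicities in a product of point ideals -/
theorem mw17gb_prod_le_pow_iff [DecidableEq (B →ₐ[K] K)] (hnf : ¬ IsField B)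
    (E : Multiset (B →ₐ[K] K)) (q : B →ₐ[K] K) (e : ℕ) :
    (mw17gbKers E).prod ≤ RingHom.ker (q : B →+* K) ^ e ↔ e ≤ E.count q := by
  classical
  have hne : ∀ q' : B →ₐ[K] K, RingHom.ker (q' : B →+* K) ≠ ⊥ := fun q' =>
    Ring.ne_bot_of_isMaximal_of_not_isField (v27pt_ker_isMaximal q') hnf
  have hprime : ∀ q' : B →ₐ[K] K, Prime (RingHom.ker (q' : B →+* K)) := fun q' =>
    Ideal.prime_of_isPrime (hne q') (v27pt_ker_isMaximal q').isPrime
  have h0 : (mw17gbKers E).prod ≠ 0 := by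
    apply Multiset.prod_ne_zero
    intro h0
    rw [mw17gbKers, Multiset.mem_map] at h0
    obtain ⟨q', -, h⟩ := h0
    exact hne q' h
  have hnf' : normalizedFactors (mw17gbKers E).prod = mw17gbKers E := by
    apply normalizedFactors_prod_of_prime
    intro p hp
    rw [mw17gbKers, Multiset.mem_map] at hp
    obtain ⟨q', -, rfl⟩ := hp
    exact hprime q'
  rw [← Ideal.dvd_iff_le,
    dvd_iff_normalizedFactors_le_normalizedFactors (pow_ne_zero _ (hne q)) h0,
    normalizedFactors_pow, normalizedFactors_irreducible (hprime q).irreducible,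
    normalize_eq, Multiset.nsmul_singleton, ← Multiset.le_count_iff_replicate_le, hnf',
    mw17gbKers]
  rw [Multiset.count_map_eq_count' _ _ (mw17gb_ker_injective (K := K) (B := B)) q]

end Cycle

/-! ### the Gauss tuple in the table ring -/

section Gauss

variable {K F : Type*} [Field K] [Field F] [Algebra K F] [IsAlgClosed K] [CharZero K]
  {δ : V27pShape} {T : V27pTable K δ} (P : V27Presented K F T)
  {g : ℕ} (R : V27RR K F g) (Dx : Divisor K F)
  (hDx : ∀ v : Place K F, Dx v = v.ordDifferential (D K F (P.ψ (V27pB.x (T := T)))))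

include hDx in
/-- `dx` is regular off `P0` -/
theorem mw17gb_Dx_nonneg (v : Place K F) (hv : v ≠ P.P0) : 0 ≤ Dx v := by
  have hx := mw17gb_transcendental P
  haveI := mw17gb_finiteDimensional P
  have h := mw17ga_wr_regular hx v (a := 1) (b := P.ψ V27pB.x) (one_mem _)
    (P.hcover v hv V27pB.x)
  rwa [mw17gaWr_one_left, ← hDx v] at h

include R hDx in
/-- a denominator: `ρ ≠ 0` in `B` vanishing along the finite part of `div(dx)` -/
theorem mw17gb_exists_rho :
    ∃ ρ : V27pB T, ρ ≠ 0 ∧ ∀ v : Place K F, v ≠ P.P0 → Dx v ≤ v.ord (P.ψ ρ) := by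
  classical
  set Dfin : Divisor K F := Dx - Finsupp.single P.P0 (Dx P.P0) with hDfin
  set k : ℕ := ((g : ℤ) + Divisor.degree Dfin).toNat with hk
  have hk' : (g : ℤ) + Divisor.degree Dfin ≤ (k : ℤ) := Int.self_le_toNat _
  obtain ⟨f, hf0, hf⟩ := R.exists_ne_zero_mem
    (D := Finsupp.single P.P0 (k : ℤ) - Dfin) (by
      rw [map_sub, Divisor.degree_single, P.hdeg]
      push_cast
      linarith)
  have hord : ∀ v : Place K F, v ≠ P.P0 → Dx v ≤ v.ord f := by
    intro v hv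
    have h1 := ((mem_riemannRochSpace_iff.1 hf) v).resolve_left hf0
    rw [Finsupp.sub_apply, Finsupp.single_eq_of_ne hv, hDfin, Finsupp.sub_apply,
      Finsupp.single_eq_of_ne hv] at h1
    linarith
  obtain ⟨ρ, hρ⟩ := P.hrange f fun v hv =>
    PlaceOrd.mem_of_ord_nonneg v (le_trans (mw17gb_Dx_nonneg P Dx hDx v hv) (hord v hv))
  refine ⟨ρ, ?_, fun v hv => by rw [hρ]; exact hord v hv⟩
  rintro rfl
  rw [map_zero] at hρ
  exact hf0 hρ.symm

include hDx in
/-- clearing the denominator of `db/dx` -/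
theorem mw17gb_exists_dm {ρ : V27pB T}
    (hρ : ∀ v : Place K F, v ≠ P.P0 → Dx v ≤ v.ord (P.ψ ρ)) (b : V27pB T) :
    ∃ c : V27pB T, P.ψ c = P.ψ ρ * mw17gaDdx K (P.ψ (V27pB.x (T := T))) (P.ψ b) := by
  have hx := mw17gb_transcendental P
  haveI := mw17gb_finiteDimensional P
  set n : ℕ := v27pOrd b with hn
  set k0 : ℕ := (Dx P.P0 + 2 * (n : ℤ) - P.P0.ord (P.ψ ρ)).toNat with hk0
  have h1 : (1 : F) ∈ riemannRochSpace (Finsupp.single P.P0 (n : ℤ)) :=
    (mw17ga_mem_iff P.P0).2 ⟨Or.inr (by rw [Place.ord_one]; omega),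
      fun w _ => Or.inr (by rw [Place.ord_one])⟩
  have hb : P.ψ b ∈ riemannRochSpace (Finsupp.single P.P0 (n : ℤ)) :=
    (P.mem_L_iff n b).2 (v27pLe_ord b)
  have h2 := mw17ga_rho_W_mem hx P.P0 Dx hDx (n := n) (k0 := k0) hρ (Int.self_le_toNat _) h1 hb
  rw [mw17gaW_one_left hx] at h2
  obtain ⟨c, -, hc⟩ := P.exists_of_mem_L h2
  exact ⟨c, hc⟩

/-- the Gauss tuple `mon_i dm_j - mon_j dm_i` attached to a family `dm` -/
def mw17gbG (T : V27pTable K δ) {n : ℕ} (dm : Mw17Idx δ n → V27pB T)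
    (p : Mw17Idx δ n × Mw17Idx δ n) : V27pB T :=
  mw17Mon T p.1 * dm p.2 - mw17Mon T p.2 * dm p.1

/-- the Gauss tuple is `ρ` times the Wronskian functions -/
theorem mw17gb_psi_G {n : ℕ} {ρ : V27pB T} (dm : Mw17Idx δ n → V27pB T)
    (hdm : ∀ i, P.ψ (dm i) =
      P.ψ ρ * mw17gaDdx K (P.ψ (V27pB.x (T := T))) (P.ψ (mw17Mon T i)))
    (p : Mw17Idx δ n × Mw17Idx δ n) :
    P.ψ (mw17gbG T dm p) =
      P.ψ ρ * mw17gaW K (P.ψ (V27pB.x (T := T))) (P.ψ (mw17Mon T p.1)) (P.ψ (mw17Mon T p.2)) := by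
  rw [mw17gbG, map_sub, map_mul, map_mul, hdm, hdm, mw17gaW]
  ring

/-- the relation `ρ dφ_i = dm_i dx` -/
theorem mw17gb_smul_D {n : ℕ} {ρ : V27pB T} (dm : Mw17Idx δ n → V27pB T)
    (hdm : ∀ i, P.ψ (dm i) =
      P.ψ ρ * mw17gaDdx K (P.ψ (V27pB.x (T := T))) (P.ψ (mw17Mon T i))) (i : Mw17Idx δ n) :
    P.ψ ρ • D K F (P.ψ (mw17Mon T i)) = P.ψ (dm i) • D K F (P.ψ (V27pB.x (T := T))) := by
  have hx := mw17gb_transcendental P
  haveI := mw17gb_finiteDimensional P
  rw [hdm, mul_smul, ← mw17ga_ddx_spec]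

/-- the Wronskian relation `ρ (φ_i dφ_j - φ_j dφ_i) = G_(i,j) dx` (the hypothesis of the jet
bridge) -/
theorem mw17gb_wronskian_rel {n : ℕ} {ρ : V27pB T} (dm : Mw17Idx δ n → V27pB T)
    (hdm : ∀ i, P.ψ ρ • D K F (P.ψ (mw17Mon T i)) =
      P.ψ (dm i) • D K F (P.ψ (V27pB.x (T := T)))) (p : Mw17Idx δ n × Mw17Idx δ n) :
    P.ψ ρ • (P.ψ (mw17Mon T p.1) • D K F (P.ψ (mw17Mon T p.2)) -
        P.ψ (mw17Mon T p.2) • D K F (P.ψ (mw17Mon T p.1))) =
      P.ψ (mw17gbG T dm p) • D K F (P.ψ (V27pB.x (T := T))) := by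
  rw [mw17gbG, map_sub, map_mul, map_mul, sub_smul, mul_smul, mul_smul, ← hdm, ← hdm, smul_sub,
    smul_comm (P.ψ ρ), smul_comm (P.ψ ρ)]

include R hDx in
/-- the orders of the Gauss tuple at every place: a lower bound, attained -/
theorem mw17gb_ord_G {n : ℕ} (hn : 2 * g + 1 ≤ n) {ρ : V27pB T} (hρ0 : ρ ≠ 0)
    (dm : Mw17Idx δ n → V27pB T)
    (hdm : ∀ i, P.ψ (dm i) =
      P.ψ ρ * mw17gaDdx K (P.ψ (V27pB.x (T := T))) (P.ψ (mw17Mon T i)))
    (v : Place K F) :
    (∀ p, mw17gbG T dm p = 0 ∨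
      v.ord (P.ψ ρ) + mw17gaMin P.P0 Dx n v ≤ v.ord (P.ψ (mw17gbG T dm p))) ∧
    ∃ p, mw17gbG T dm p ≠ 0 ∧
      v.ord (P.ψ (mw17gbG T dm p)) = v.ord (P.ψ ρ) + mw17gaMin P.P0 Dx n v := by
  have hx := mw17gb_transcendental P
  haveI := mw17gb_finiteDimensional P
  have hρ' : P.ψ ρ ≠ 0 := P.ψ_ne_zero hρ0
  have hmem : ∀ i : Mw17Idx δ n,
      P.ψ (mw17Mon T i) ∈ riemannRochSpace (Finsupp.single P.P0 (n : ℤ)) := fun i =>
    (P.mem_L_iff n _).2 (mw17gb_mon_le T i)
  constructor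
  · intro p
    by_cases h0 : mw17gbG T dm p = 0
    · exact Or.inl h0
    right
    have h1 : P.ψ (mw17gbG T dm p) ≠ 0 := P.ψ_ne_zero h0
    rw [mw17gb_psi_G P dm hdm] at h1 ⊢
    have hW0 : mw17gaW K (P.ψ (V27pB.x (T := T))) (P.ψ (mw17Mon T p.1))
        (P.ψ (mw17Mon T p.2)) ≠ 0 := fun e => h1 (by rw [e, mul_zero])
    rw [v.ord_mul hρ' hW0]
    have := (mw17ga_le_ord_W hx P.P0 Dx hDx (hmem p.1) (hmem p.2) v).resolve_left hW0
    linarith
  · obtain ⟨i, j, hW0, hord⟩ := mw17ga_exists_ord_W_basis R hx P.P0 Dx hDx hn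
      (fun i : Mw17Idx δ n => P.ψ (mw17Mon T i)) (mw17gb_span_mon P n) v
    have h1 : P.ψ (mw17gbG T dm (i, j)) ≠ 0 := by
      rw [mw17gb_psi_G P dm hdm]
      exact mul_ne_zero hρ' hW0
    refine ⟨(i, j), fun e => h1 (by rw [e, map_zero]), ?_⟩
    rw [mw17gb_psi_G P dm hdm, v.ord_mul hρ' hW0, hord]

include R hDx in
/-- the exact top order of the Gauss tuple -/
theorem mw17gb_top {n : ℕ} (hn : 2 * g + 1 ≤ n) {ρ : V27pB T} (hρ0 : ρ ≠ 0)
    (dm : Mw17Idx δ n → V27pB T)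
    (hdm : ∀ i, P.ψ (dm i) =
      P.ψ ρ * mw17gaDdx K (P.ψ (V27pB.x (T := T))) (P.ψ (mw17Mon T i))) :
    ∃ k₁ : ℕ, (k₁ : ℤ) = v27pOrd ρ + Dx P.P0 + 2 * n ∧ (∀ p, V27pLe (mw17gbG T dm p) k₁) ∧
      ∃ p, mw17gbG T dm p ≠ 0 ∧ v27pOrd (mw17gbG T dm p) = k₁ := by
  obtain ⟨h1, p₀, hp₀, hord⟩ := mw17gb_ord_G P R Dx hDx hn hρ0 dm hdm P.P0
  rw [mw17gaMin_self, mw17gb_ord_P0 P hρ0, mw17gb_ord_P0 P hp₀] at hord
  refine ⟨v27pOrd (mw17gbG T dm p₀), by linarith, fun p => ?_, p₀, hp₀, rfl⟩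
  by_cases h0 : mw17gbG T dm p = 0
  · rw [h0]; exact V27pLe.zero _
  have h2 := (h1 p).resolve_left h0
  rw [mw17gaMin_self, mw17gb_ord_P0 P hρ0, mw17gb_ord_P0 P h0] at h2
  rw [← v27pOrd_le_iff]
  have : (v27pOrd (mw17gbG T dm p) : ℤ) ≤ v27pOrd (mw17gbG T dm p₀) := by linarith
  exact_mod_cast this

variable [IsDedekindDomain (V27pB T)]

include R hDx in
/-- the multiplicities of the zero cycle of the Gauss tuple -/
theorem mw17gb_count [DecidableEq (Mw17Pt T)] {n : ℕ} (hn : 2 * g + 1 ≤ n) {ρ : V27pB T}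
    (hρ0 : ρ ≠ 0) (hρ : ∀ v : Place K F, v ≠ P.P0 → Dx v ≤ v.ord (P.ψ ρ))
    (dm : Mw17Idx δ n → V27pB T)
    (hdm : ∀ i, P.ψ (dm i) =
      P.ψ ρ * mw17gaDdx K (P.ψ (V27pB.x (T := T))) (P.ψ (mw17Mon T i)))
    (E : Multiset (Mw17Pt T))
    (hE : Ideal.span (Set.range (mw17gbG T dm)) = (mw17gbKers E).prod) (q : Mw17Pt T) :
    (E.count q : ℤ) = (v27spPlace P q).ord (P.ψ ρ) - Dx (v27spPlace P q) := by
  set v := v27spPlace P q with hv
  have hvne : v ≠ P.P0 := v27spPlace_ne P q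
  obtain ⟨h1, p₀, hp₀, hord⟩ := mw17gb_ord_G P R Dx hDx hn hρ0 dm hdm v
  rw [mw17gaMin_of_ne P.P0 Dx hvne] at h1 hord
  have hz : 0 ≤ v.ord (P.ψ ρ) - Dx v := by
    have := hρ v hvne
    linarith
  have key : ∀ e : ℕ, e ≤ E.count q ↔ (e : ℤ) ≤ v.ord (P.ψ ρ) - Dx v := by
    intro e
    rw [← mw17gb_prod_le_pow_iff v27pi_not_isField E q e, ← hE, Ideal.span_le,
      Set.range_subset_iff]
    constructor
    · intro h
      have h2 := (mw17gb_mem_pow_iff' P q _ e).1 (h p₀)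
      have h3 := h2.resolve_left (P.ψ_ne_zero hp₀)
      rw [← hv, hord] at h3
      linarith
    · intro h p
      rw [SetLike.mem_coe, mw17gb_mem_pow_iff' P q _ e]
      by_cases h0 : mw17gbG T dm p = 0
      · left; rw [h0, map_zero]
      · right
        have := (h1 p).resolve_left h0
        rw [← hv]
        linarith
  apply le_antisymm
  · exact (key _).1 le_rfl
  · have h2 := (key (v.ord (P.ψ ρ) - Dx v).toNat).2 (by rw [Int.toNat_of_nonneg hz])
    have h3 : ((v.ord (P.ψ ρ) - Dx v).toNat : ℤ) ≤ (E.count q : ℤ) := by exact_mod_cast h2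
    rwa [Int.toNat_of_nonneg hz] at h3

include R hDx in
/-- the degree of the zero cycle of the Gauss tuple -/
theorem mw17gb_card {n : ℕ} (hn : 2 * g + 1 ≤ n) {ρ : V27pB T}
    (hρ0 : ρ ≠ 0) (hρ : ∀ v : Place K F, v ≠ P.P0 → Dx v ≤ v.ord (P.ψ ρ))
    (dm : Mw17Idx δ n → V27pB T)
    (hdm : ∀ i, P.ψ (dm i) =
      P.ψ ρ * mw17gaDdx K (P.ψ (V27pB.x (T := T))) (P.ψ (mw17Mon T i)))
    (E : Multiset (Mw17Pt T))
    (hE : Ideal.span (Set.range (mw17gbG T dm)) = (mw17gbKers E).prod) :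
    (E.card : ℤ) = v27pOrd ρ + Dx P.P0 - (2 * (g : ℤ) - 2) := by
  classical
  have hx := mw17gb_transcendental P
  haveI := mw17gb_finiteDimensional P
  obtain ⟨Dρ, hDρ, hdeg0⟩ := R.hasDiv.exists_divisor (P.ψ ρ) (P.ψ_ne_zero hρ0)
  have hDxdeg : Divisor.degree Dx = 2 * (g : ℤ) - 2 :=
    (mw17kn_main R (P.ψ V27pB.x) hx Dx hDx).1
  set Z : Divisor K F := Dρ - Dx - Finsupp.single P.P0 (Dρ P.P0 - Dx P.P0) with hZ
  have hZ0 : Z P.P0 = 0 := by
    rw [hZ, Finsupp.sub_apply, Finsupp.sub_apply, Finsupp.single_eq_same]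
    ring
  have hZv : ∀ v : Place K F, v ≠ P.P0 → Z v = v.ord (P.ψ ρ) - Dx v := by
    intro v hv
    rw [hZ, Finsupp.sub_apply, Finsupp.sub_apply, Finsupp.single_eq_of_ne hv, hDρ v]
    ring
  have hdegZ : Divisor.degree Z = v27pOrd ρ + Dx P.P0 - (2 * (g : ℤ) - 2) := by
    rw [hZ, map_sub, map_sub, Divisor.degree_single, P.hdeg, hdeg0, hDxdeg, hDρ P.P0,
      mw17gb_ord_P0 P hρ0]
    push_cast
    ring
  have hcount : ∀ q : Mw17Pt T, (E.count q : ℤ) = Z (v27spPlace P q) := fun q => by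
    rw [hZv _ (v27spPlace_ne P q)]
    exact mw17gb_count P R Dx hDx hn hρ0 hρ dm hdm E hE q
  have hsupp : Z.support = E.toFinset.image (v27spPlace P) := by
    ext v
    rw [Finsupp.mem_support_iff, Finset.mem_image]
    constructor
    · intro hv
      have hvne : v ≠ P.P0 := fun e => hv (by rw [e, hZ0])
      obtain ⟨q, rfl⟩ := v27sp_exists_eq P v hvne
      refine ⟨q, ?_, rfl⟩
      rw [Multiset.mem_toFinset, ← Multiset.count_pos]
      have h1 := hcount q
      have : (E.count q : ℤ) ≠ 0 := by rw [h1]; exact hv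
      have : E.count q ≠ 0 := by exact_mod_cast this
      omega
    · rintro ⟨q, hq, rfl⟩
      rw [Multiset.mem_toFinset, ← Multiset.count_pos] at hq
      rw [← hcount q]
      have : E.count q ≠ 0 := by omega
      exact_mod_cast this
  rw [← hdegZ]
  have hdeg : Divisor.degree Z = ∑ v ∈ Z.support, Z v * (v.deg : ℤ) := by
    rw [Divisor.degree, Finsupp.liftAddHom_apply, Finsupp.sum]
    rfl
  rw [hdeg, hsupp, Finset.sum_image (fun q _ q' _ h => v27spPlace_injective P h),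
    ← Multiset.toFinset_sum_count_eq, Nat.cast_sum]
  refine Finset.sum_congr rfl fun q _ => ?_
  rw [v27sp_deg P q, ← hcount q]
  simp

include R in
/-- **the Gauss tuple in the table ring**: a denominator `ρ`, the derivatives `dm_i = ρ dφ_i/dx`,
the Gauss tuple `G_(i,j) = mon_i dm_j - mon_j dm_i`, its exact zero cycle `E`, its exact top order
`k₁`, and `k₁ - |E| = 2n + 2g - 2`. -/
theorem mw17gb_main {n : ℕ} (hn : 2 * g + 1 ≤ n) :
    ∃ (ρ : V27pB T) (dm : Mw17Idx δ n → V27pB T) (E : Multiset (Mw17Pt T)) (k₁ : ℕ),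
      ρ ≠ 0 ∧
      (∀ i, P.ψ ρ • D K F (P.ψ (mw17Mon T i)) =
        P.ψ (dm i) • D K F (P.ψ (V27pB.x (T := T)))) ∧
      Ideal.span (Set.range (mw17gbG T dm)) =
        (E.map fun q : Mw17Pt T => RingHom.ker (q : V27pB T →+* K)).prod ∧
      (∀ q ∈ E, q ρ = 0) ∧
      (∀ p, V27pLe (mw17gbG T dm p) k₁) ∧
      (∃ p, mw17gbG T dm p ≠ 0 ∧ v27pOrd (mw17gbG T dm p) = k₁) ∧
      k₁ + 2 = E.card + 2 * n + 2 * g := by
  classical
  have hx := mw17gb_transcendental P
  haveI := mw17gb_finiteDimensional P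
  obtain ⟨Dx, hDx⟩ := mw17kn_exists_divisor (P.ψ (V27pB.x (T := T))) hx
  obtain ⟨ρ, hρ0, hρ⟩ := mw17gb_exists_rho P R Dx hDx
  choose dm hdm using fun i : Mw17Idx δ n => mw17gb_exists_dm P Dx hDx hρ (mw17Mon T i)
  obtain ⟨k₁, hk₁, hle, htop⟩ := mw17gb_top P R Dx hDx hn hρ0 dm hdm
  have hI : Ideal.span (Set.range (mw17gbG T dm)) ≠ ⊥ := by
    obtain ⟨p, hp, -⟩ := htop
    intro h
    apply hp
    have h3 : mw17gbG T dm p ∈ Ideal.span (Set.range (mw17gbG T dm)) :=
      Ideal.subset_span ⟨p, rfl⟩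
    rw [h] at h3
    simpa using h3
  obtain ⟨E, hE⟩ := mw17gb_exists_cycle (K := K)
    (fun M hM => by
      haveI := hM
      obtain ⟨q, hq⟩ := v27pt_exists_point (K := K) M
      exact ⟨q, hq⟩) hI
  have hcard := mw17gb_card P R Dx hDx hn hρ0 hρ dm hdm E hE
  refine ⟨ρ, dm, E, k₁, hρ0, mw17gb_smul_D P dm hdm, hE, ?_, hle, htop, ?_⟩
  · intro q hq
    have h1 := mw17gb_count P R Dx hDx hn hρ0 hρ dm hdm E hE q
    have h2 : 0 < E.count q := Multiset.count_pos.2 hq
    have h3 := mw17gb_Dx_nonneg P Dx hDx _ (v27spPlace_ne P q)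
    have h4 : 0 < (v27spPlace P q).ord (P.ψ ρ) := by
      have : (0 : ℤ) < E.count q := by exact_mod_cast h2
      linarith
    exact (v27sp_ord_pos_iff P q hρ0).1 h4
  · have : ((k₁ + 2 : ℕ) : ℤ) = ((E.card + 2 * n + 2 * g : ℕ) : ℤ) := by
      push_cast
      linarith
    exact_mod_cast this

include R in
/-- the package in unfolded form (the literal consumed by the global tangent estimate) -/
theorem mw17gb_package (n : ℕ) (hn : 2 * g + 1 ≤ n) :
    ∃ (ρ₁ : V27pB T) (bt : Mw17Idx δ n → V27pB T) (E : Multiset (Mw17Pt T)) (k₁ : ℕ), ρ₁ ≠ 0 ∧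
      (∀ i, P.ψ ρ₁ • D K F (P.ψ (mw17Mon T i)) = P.ψ (bt i) • D K F (P.ψ V27pB.x)) ∧
      (∀ p : Mw17Idx δ n × Mw17Idx δ n,
        V27pLe (mw17Mon T p.1 * bt p.2 - mw17Mon T p.2 * bt p.1) k₁) ∧
      (∃ p : Mw17Idx δ n × Mw17Idx δ n, mw17Mon T p.1 * bt p.2 - mw17Mon T p.2 * bt p.1 ≠ 0 ∧
        v27pOrd (mw17Mon T p.1 * bt p.2 - mw17Mon T p.2 * bt p.1) = k₁) ∧
      Ideal.span (Set.range fun p : Mw17Idx δ n × Mw17Idx δ n =>
          mw17Mon T p.1 * bt p.2 - mw17Mon T p.2 * bt p.1) =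
        (E.map fun q : Mw17Pt T => RingHom.ker (q : V27pB T →+* K)).prod ∧
      k₁ + 2 = E.card + 2 * n + 2 * g := by
  obtain ⟨ρ, dm, E, k₁, h1, h2, h3, -, h5, h6, h7⟩ := mw17gb_main P R hn
  exact ⟨ρ, dm, E, k₁, h1, h2, h5, h6, h3, h7⟩

include R in
/-- the package with the additional information that the zero cycle lies on the zeros of `ρ₁` -/
theorem mw17gb_package' (n : ℕ) (hn : 2 * g + 1 ≤ n) :
    ∃ (ρ₁ : V27pB T) (bt : Mw17Idx δ n → V27pB T) (E : Multiset (Mw17Pt T)) (k₁ : ℕ), ρ₁ ≠ 0 ∧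
      (∀ i, P.ψ ρ₁ • D K F (P.ψ (mw17Mon T i)) = P.ψ (bt i) • D K F (P.ψ V27pB.x)) ∧
      (∀ p : Mw17Idx δ n × Mw17Idx δ n,
        V27pLe (mw17Mon T p.1 * bt p.2 - mw17Mon T p.2 * bt p.1) k₁) ∧
      (∃ p : Mw17Idx δ n × Mw17Idx δ n, mw17Mon T p.1 * bt p.2 - mw17Mon T p.2 * bt p.1 ≠ 0 ∧
        v27pOrd (mw17Mon T p.1 * bt p.2 - mw17Mon T p.2 * bt p.1) = k₁) ∧
      Ideal.span (Set.range fun p : Mw17Idx δ n × Mw17Idx δ n =>
          mw17Mon T p.1 * bt p.2 - mw17Mon T p.2 * bt p.1) =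
        (E.map fun q : Mw17Pt T => RingHom.ker (q : V27pB T →+* K)).prod ∧
      k₁ + 2 = E.card + 2 * n + 2 * g ∧ ∀ q ∈ E, q ρ₁ = 0 := by
  obtain ⟨ρ, dm, E, k₁, h1, h2, h3, h4, h5, h6, h7⟩ := mw17gb_main P R hn
  exact ⟨ρ, dm, E, k₁, h1, h2, h5, h6, h3, h7, h4⟩

/-- pointwise form of the zero cycle: the tuple lies in `𝔪_q ^ e` iff `e ≤ count q E` -/
theorem mw17gb_tuple_mem_pow_iff [DecidableEq (Mw17Pt T)] {ι : Type*} (a : ι → V27pB T)
    (E : Multiset (Mw17Pt T))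
    (hE : Ideal.span (Set.range a) =
      (E.map fun q : Mw17Pt T => RingHom.ker (q : V27pB T →+* K)).prod) (q : Mw17Pt T) (e : ℕ) :
    (∀ i, a i ∈ RingHom.ker (q : V27pB T →+* K) ^ e) ↔ e ≤ E.count q := by
  rw [← mw17gb_prod_le_pow_iff v27pi_not_isField E q e, mw17gbKers, ← hE, Ideal.span_le,
    Set.range_subset_iff]
  rfl

end Gauss

end Fermat.Agent.MW17
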