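import Fermat.Agent.MW17.PnTable

/-!
# Program MW (S17), heights half (A): general position on the table ring

For a point `χ : Mw17Pt T` and a finite set `S` of other points there is a section
`t ∈ L_n` (`n ≥ N`, `n ≥ δ.bound`, `n ≥ 1`) vanishing at `χ`, of exact pole order `n`, with a
simple zero at `χ` (`sec t ∉ (ker χ)^2`) and without zeros in `S`.  No Riemann-Roch is needed:
the subspace `L_n(-χ)` contains explicit elements violating each of the finitely many linear
conditions, and a vector space over an infinite field is not a finite union of proper subspaces.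
-/

set_option autoImplicit false

noncomputable section

namespace Fermat.Agent.MW17

open Fermat.Agent.V

variable {K : Type*} [Field K] {δ : V27pShape} (T : V27pTable K δ)

/-! ### sections with one non-zero coefficient -/

theorem mw17gen_sec_single {m : ℕ} [DecidableEq (Mw17Idx δ m)] (i : Mw17Idx δ m) (c : K) :
    mw17Sec T m (Pi.single i c) = c • mw17Mon T i := by
  rw [mw17Sec, Finset.sum_eq_single i]
  · rw [Pi.single_eq_same]
  · intro j _ hj
    rw [Pi.single_eq_of_ne hj, zero_smul]
  · intro h
    exact absurd (Finset.mem_univ i) h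

theorem mw17gen_ord_smul {b : V27pB T} {c : K} (hc : c ≠ 0) : v27pOrd (c • b) = v27pOrd b := by
  by_cases hb : b = 0
  · rw [hb, smul_zero]
  · have h1 : algebraMap K (V27pB T) c ≠ 0 := by
      intro h
      apply hc
      have := congrArg (fun f : V27pB T => (f 0).coeff 0) h
      simpa [V27pB.algebraMap_apply] using this
    rw [Algebra.smul_def, v27pOrd_mul h1 hb, v27pOrd_algebraMap, Nat.zero_add]

/-- a section has exact order `m` as soon as its top coefficient does not vanish -/
theorem mw17gen_ord_sec_eq {m : ℕ} (i₀ : Mw17Idx δ m) (h₀ : mw17Wt i₀ = m)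
    (u : Mw17Idx δ m → K) (hu : u i₀ ≠ 0) : v27pOrd (mw17Sec T m u) = m := by
  classical
  apply le_antisymm ((v27pOrd_le_iff _ _).mpr (mw17tb_sec_le T m u))
  by_contra hlt
  push Not at hlt
  -- the rest of the sum has smaller order
  set rest : V27pB T := ∑ i ∈ Finset.univ.erase i₀, u i • mw17Mon T i with hrest
  have hsplit : mw17Sec T m u = u i₀ • mw17Mon T i₀ + rest := by
    rw [mw17Sec, hrest]
    exact (Finset.add_sum_erase Finset.univ (fun i => u i • mw17Mon T i)
      (Finset.mem_univ i₀)).symm
  have hrest_lt : rest = 0 ∨ v27pOrd rest < m := by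
    by_cases hr : rest = 0
    · exact Or.inl hr
    right
    have hle : ∀ i ∈ Finset.univ.erase i₀, u i • mw17Mon T i ∈ v27pL T (m - 1) := by
      intro i hi
      refine Submodule.smul_mem _ _ ?_
      rw [mem_v27pL_iff_ord, mw17tb_ord_mon]
      have h1 : mw17Wt i ≠ mw17Wt i₀ := fun h =>
        (Finset.ne_of_mem_erase hi) (mw17tb_wt_injective h)
      have h2 := mw17Wt_le i
      omega
    have h3 : rest ∈ v27pL T (m - 1) := Submodule.sum_mem _ hle
    rw [mem_v27pL_iff_ord] at h3
    have hmpos : 0 < m := by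
      by_contra h0
      have hm : m = 0 := by omega
      -- for `m = 0` the only index is `i₀`
      apply hr
      rw [hrest]
      refine Finset.sum_eq_zero fun i hi => ?_
      exfalso
      apply Finset.ne_of_mem_erase hi
      apply mw17tb_wt_injective
      have := mw17Wt_le i
      omega
    omega
  have htop : v27pOrd (u i₀ • mw17Mon T i₀) = m := by
    rw [mw17gen_ord_smul T hu, mw17tb_ord_mon, h₀]
  have h4 : u i₀ • mw17Mon T i₀ = mw17Sec T m u - rest := by rw [hsplit]; ring
  have h5 := v27pOrd_sub_le (mw17Sec T m u) rest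
  rw [← h4, htop] at h5
  rcases hrest_lt with h6 | h6
  · rw [h6, sub_zero] at h4
    rw [← h4, htop] at hlt
    exact lt_irrefl _ hlt
  · rcases le_max_iff.mp h5 with h7 | h7 <;> omega


/-! ### points and their maximal ideals -/

/-- two points agreeing on the monomials of `L_n` are equal -/
theorem mw17gen_point_ext {n : ℕ} (hN : δ.N ≤ n) (hn : δ.bound ≤ n) {χ Q : Mw17Pt T}
    (h : ∀ i : Mw17Idx δ n, χ (mw17Mon T i) = Q (mw17Mon T i)) : χ = Q := by
  apply AlgHom.ext_of_adjoin_eq_top (mw17tb_adjoin_eq_top T hN hn)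
  rintro _ ⟨i, rfl⟩
  exact h i

/-- the maximal ideal of a point is generated by the `mon_i - mon_i(χ)` -/
theorem mw17gen_ker_eq_span {n : ℕ} (hN : δ.N ≤ n) (hn : δ.bound ≤ n) (χ : Mw17Pt T) :
    RingHom.ker χ = Ideal.span (Set.range fun i : Mw17Idx δ n =>
      mw17Mon T i - algebraMap K (V27pB T) (χ (mw17Mon T i))) := by
  set J : Ideal (V27pB T) := Ideal.span (Set.range fun i : Mw17Idx δ n =>
      mw17Mon T i - algebraMap K (V27pB T) (χ (mw17Mon T i))) with hJ
  have hJle : J ≤ RingHom.ker χ := by
    rw [hJ, Ideal.span_le]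
    rintro _ ⟨i, rfl⟩
    rw [SetLike.mem_coe, RingHom.mem_ker, map_sub, AlgHom.commutes]
    exact sub_self _
  refine le_antisymm ?_ hJle
  -- every element is congruent to a constant modulo `J`
  have key : ∀ b : V27pB T, ∃ c : K, b - algebraMap K (V27pB T) c ∈ J := by
    intro b
    have hb : b ∈ Algebra.adjoin K (Set.range (mw17Mon T (m := n))) := by
      rw [mw17tb_adjoin_eq_top T hN hn]
      exact Algebra.mem_top
    induction hb using Algebra.adjoin_induction with
    | mem x hx =>
      obtain ⟨i, rfl⟩ := hx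
      exact ⟨χ (mw17Mon T i), Ideal.subset_span ⟨i, rfl⟩⟩
    | algebraMap r =>
      exact ⟨r, by rw [sub_self]; exact J.zero_mem⟩
    | add x y _ _ hx hy =>
      obtain ⟨c, hc⟩ := hx
      obtain ⟨d, hd⟩ := hy
      refine ⟨c + d, ?_⟩
      have : x + y - algebraMap K (V27pB T) (c + d) =
          (x - algebraMap K (V27pB T) c) + (y - algebraMap K (V27pB T) d) := by
        rw [map_add]; ring
      rw [this]
      exact J.add_mem hc hd
    | mul x y _ _ hx hy =>
      obtain ⟨c, hc⟩ := hx
      obtain ⟨d, hd⟩ := hy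
      refine ⟨c * d, ?_⟩
      have : x * y - algebraMap K (V27pB T) (c * d) =
          (x - algebraMap K (V27pB T) c) * y +
            algebraMap K (V27pB T) c * (y - algebraMap K (V27pB T) d) := by
        rw [map_mul]; ring
      rw [this]
      exact J.add_mem (J.mul_mem_right _ hc) (J.mul_mem_left _ hd)
  intro b hb
  obtain ⟨c, hc⟩ := key b
  have h1 : χ (b - algebraMap K (V27pB T) c) = 0 := hJle hc
  rw [map_sub, (RingHom.mem_ker).mp hb, AlgHom.commutes, zero_sub, neg_eq_zero] at h1
  have h2 : c = 0 := h1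
  rw [h2, map_zero, sub_zero] at hc
  exact hc

/-- the maximal ideal of a point is not idempotent -/
theorem mw17gen_ker_sq_ne {n : ℕ} (hN : δ.N ≤ n) (hn : δ.bound ≤ n) (χ : Mw17Pt T) :
    RingHom.ker χ ^ 2 ≠ RingHom.ker χ := by
  intro h
  have hfg : (RingHom.ker χ).FG := by
    rw [mw17gen_ker_eq_span T hN hn χ]
    exact Submodule.fg_span (Set.finite_range _)
  have hid : IsIdempotentElem (RingHom.ker χ) := by
    rw [IsIdempotentElem, ← sq]
    exact h
  rcases (Ideal.isIdempotentElem_iff_eq_bot_or_top _ hfg).mp hid with h0 | h1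
  · have hx : V27pB.x - algebraMap K (V27pB T) (χ V27pB.x) ∈ RingHom.ker χ := by
      rw [RingHom.mem_ker, map_sub, AlgHom.commutes]
      exact sub_self _
    rw [h0, Ideal.mem_bot, sub_eq_zero] at hx
    have h2 := v27pOrd_x (T := T)
    rw [hx, v27pOrd_algebraMap] at h2
    exact δ.hN.ne h2
  · have h2 : (1 : V27pB T) ∈ RingHom.ker χ := by
      rw [h1]
      exact Submodule.mem_top
    rw [RingHom.mem_ker, map_one] at h2
    exact one_ne_zero h2


/-! ### general position -/

variable [Infinite K]

/-- the `P0` case: a section of exact order `m` without zeros in a given finite set -/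
theorem mw17gen_exists_off {m : ℕ} (hm : δ.bound ≤ m) (S : Finset (Mw17Pt T)) :
    ∃ t : Mw17Idx δ m → K, v27pOrd (mw17Sec T m t) = m ∧ ∀ Q ∈ S, Q (mw17Sec T m t) ≠ 0 := by
  classical
  set top := mw17tbTop δ m with htop
  have htopwt : mw17Wt top = m := mw17tbTop_wt hm
  -- the linear conditions to avoid
  let f : Option S → Module.Dual K (Mw17Idx δ m → K) := fun o =>
    match o with
    | none => LinearMap.proj top
    | some Q => (Q.1 : Mw17Pt T).toLinearMap ∘ₗ mw17SecL T m
  have hf : ∀ o, ∃ t, f o t ≠ 0 := by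
    intro o
    cases o with
    | none =>
      refine ⟨Pi.single top 1, ?_⟩
      change (Pi.single top (1 : K) : Mw17Idx δ m → K) top ≠ 0
      rw [Pi.single_eq_same]
      exact one_ne_zero
    | some Q =>
      refine ⟨Pi.single (mw17IdxZero δ m) 1, ?_⟩
      change (Q.1 : Mw17Pt T) (mw17Sec T m (Pi.single (mw17IdxZero δ m) 1)) ≠ 0
      rw [mw17gen_sec_single, one_smul, mw17Mon_zero, map_one]
      exact one_ne_zero
  obtain ⟨t, ht⟩ := Module.Dual.exists_forall_ne_zero_of_forall_exists f hf
  refine ⟨t, mw17gen_ord_sec_eq T top htopwt t (ht none), fun Q hQ => ?_⟩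
  exact ht (some ⟨Q, hQ⟩)

/-- **general position**: a section of `L_n` vanishing at `χ`, of exact order `n`, with a simple
zero at `χ` and no zero in a finite set `S` of other points -/
theorem mw17gen_exists {n : ℕ} (hN : δ.N ≤ n) (hn : δ.bound ≤ n) (hn1 : 1 ≤ n) (χ : Mw17Pt T)
    (S : Finset (Mw17Pt T)) (hS : χ ∉ S) :
    ∃ t : Mw17Idx δ n → K, χ (mw17Sec T n t) = 0 ∧ v27pOrd (mw17Sec T n t) = n ∧
      (∀ Q ∈ S, Q (mw17Sec T n t) ≠ 0) ∧ mw17Sec T n t ∉ RingHom.ker χ ^ 2 := by
  classical
  set top := mw17tbTop δ n with htop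
  have htopwt : mw17Wt top = n := mw17tbTop_wt hn
  set i0 := mw17IdxZero δ n with hi0
  have htop0 : top ≠ i0 := by
    intro h
    have h1 : mw17Wt top = mw17Wt i0 := by rw [h]
    rw [htopwt] at h1
    have h2 : mw17Wt i0 = 0 := by
      simp [hi0, mw17Wt, mw17IdxZero, δ.d_zero]
    omega
  -- the ambient space `L_n(-χ)` in coordinates
  set ℓ : (Mw17Idx δ n → K) →ₗ[K] K := χ.toLinearMap ∘ₗ mw17SecL T n with hℓ
  set V : Submodule K (Mw17Idx δ n → K) := LinearMap.ker ℓ with hV
  -- the basic elements of `V`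
  set v : Mw17Idx δ n → (Mw17Idx δ n → K) := fun i =>
    Pi.single i 1 - Pi.single i0 (χ (mw17Mon T i)) with hv
  have hsecv : ∀ i, mw17Sec T n (v i) =
      mw17Mon T i - algebraMap K (V27pB T) (χ (mw17Mon T i)) := by
    intro i
    have h1 : mw17Sec T n (v i) = mw17SecL T n (v i) := rfl
    rw [h1, hv, map_sub]
    change mw17Sec T n _ - mw17Sec T n _ = _
    rw [mw17gen_sec_single, mw17gen_sec_single, one_smul, hi0, mw17Mon_zero,
      Algebra.smul_def, mul_one]
  have hvV : ∀ i, v i ∈ V := by
    intro i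
    rw [hV, LinearMap.mem_ker, hℓ]
    change χ (mw17Sec T n (v i)) = 0
    rw [hsecv, map_sub, AlgHom.commutes]
    exact sub_self _
  -- the submodules to avoid
  let p : Option (Option S) → Submodule K V := fun o =>
    match o with
    | none => (LinearMap.ker (LinearMap.proj top : (Mw17Idx δ n → K) →ₗ[K] K)).comap V.subtype
    | some none => (((RingHom.ker χ ^ 2 : Ideal (V27pB T)).restrictScalars K).comap
        (mw17SecL T n)).comap V.subtype
    | some (some Q) => (LinearMap.ker ((Q.1 : Mw17Pt T).toLinearMap ∘ₗ mw17SecL T n)).comap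
        V.subtype
  have hp : ∀ o, p o ≠ ⊤ := by
    intro o h
    have hall : ∀ x : V, x ∈ p o := fun x => by rw [h]; exact Submodule.mem_top
    match o with
    | none =>
      have h1 := hall ⟨v top, hvV top⟩
      change (v top) top = 0 at h1
      rw [hv] at h1
      simp only [Pi.sub_apply, Pi.single_eq_same, Pi.single_eq_of_ne htop0, sub_zero] at h1
      exact one_ne_zero h1
    | some none =>
      -- all generators of `ker χ` would lie in `(ker χ)^2`
      apply mw17gen_ker_sq_ne T hN hn χ
      apply le_antisymm (Ideal.pow_le_self two_ne_zero)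
      rw [mw17gen_ker_eq_span T hN hn χ, Ideal.span_le]
      rintro _ ⟨i, rfl⟩
      have h1 := hall ⟨v i, hvV i⟩
      change mw17Sec T n (v i) ∈ RingHom.ker χ ^ 2 at h1
      rw [hsecv, mw17gen_ker_eq_span T hN hn χ] at h1
      exact h1
    | some (some Q) =>
      apply hS
      have hQχ : χ = Q.1 := by
        apply mw17gen_point_ext T hN hn
        intro i
        have h1 := hall ⟨v i, hvV i⟩
        change (Q.1 : Mw17Pt T) (mw17Sec T n (v i)) = 0 at h1
        rw [hsecv, map_sub, AlgHom.commutes, sub_eq_zero] at h1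
        exact h1.symm
      rw [hQχ]
      exact Q.2
  obtain ⟨x, hx⟩ := Submodule.exists_forall_notMem_of_forall_ne_top p hp
  refine ⟨x.1, ?_, ?_, ?_, ?_⟩
  · have h1 : ℓ x.1 = 0 := LinearMap.mem_ker.mp x.2
    exact h1
  · apply mw17gen_ord_sec_eq T top htopwt
    intro h0
    exact hx none h0
  · intro Q hQ h0
    exact hx (some (some ⟨Q, hQ⟩)) h0
  · intro h0
    exact hx (some none) h0

end Fermat.Agent.MW17
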