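import Mathlib

/-!
# S17 heights, §5 (JET): the first jet of a function at a point, abstract part

`B` a commutative `K`-algebra, `q : B →ₐ[K] K` a `K`-point with maximal ideal `𝔪 = ker q`,
`τ ∈ 𝔪` a local parameter (its class spans `𝔪 / 𝔪²`).  Every `b : B` is
`b ≡ q b + jet b · τ  mod 𝔪²` for a unique `jet b : K`; `jet` is `K`-linear and satisfies the
Leibniz rule `jet (a b) = q a · jet b + q b · jet a`.
-/

set_option autoImplicit false

noncomputable section

namespace Fermat.Agent.MW17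

variable {K B : Type*} [Field K] [CommRing B] [Algebra K B]

/-- the maximal ideal of the `K`-point `q`. -/
abbrev mw17jtM (q : B →ₐ[K] K) : Ideal B := RingHom.ker (q : B →+* K)

theorem mw17jt_mem_M (q : B →ₐ[K] K) (b : B) : b ∈ mw17jtM q ↔ q b = 0 := by
  rw [RingHom.mem_ker]; rfl

theorem mw17jt_sub_mem_M (q : B →ₐ[K] K) (b : B) : b - algebraMap K B (q b) ∈ mw17jtM q := by
  rw [mw17jt_mem_M, map_sub, AlgHom.commutes]
  simp

theorem mw17jt_smul_mem (I : Ideal B) (c : K) {b : B} (hb : b ∈ I) : c • b ∈ I := by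
  rw [Algebra.smul_def]
  exact I.mul_mem_left _ hb

theorem mw17jt_sq_le (q : B →ₐ[K] K) : mw17jtM q ^ 2 ≤ mw17jtM q :=
  Ideal.pow_le_self two_ne_zero

/-- `τ` is a local parameter at the point `q`. -/
def Mw17jtParam (q : B →ₐ[K] K) (τ : B) : Prop :=
  q τ = 0 ∧ (∀ b : B, q b = 0 → ∃ c : K, b - c • τ ∈ mw17jtM q ^ 2) ∧ τ ∉ mw17jtM q ^ 2

theorem mw17jt_unique_aux {q : B →ₐ[K] K} {τ : B} (h : Mw17jtParam q τ) {b : B} {c c' : K}
    (hc : b - c • τ ∈ mw17jtM q ^ 2) (hc' : b - c' • τ ∈ mw17jtM q ^ 2) : c = c' := by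
  by_contra hne
  have h1 : (c' - c) • τ ∈ mw17jtM q ^ 2 := by
    have := (mw17jtM q ^ 2).sub_mem hc hc'
    have e : b - c • τ - (b - c' • τ) = (c' - c) • τ := by rw [sub_smul]; ring
    rwa [e] at this
  have h2 : τ ∈ mw17jtM q ^ 2 := by
    have := mw17jt_smul_mem (mw17jtM q ^ 2) (c' - c)⁻¹ h1
    rwa [smul_smul, inv_mul_cancel₀ (sub_ne_zero.2 (Ne.symm hne)), one_smul] at this
  exact h.2.2 h2

open Classical in
/-- the first jet, as a function. -/
def mw17jtJetFun (q : B →ₐ[K] K) (τ : B) (b : B) : K :=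
  if h : ∃ c : K, b - algebraMap K B (q b) - c • τ ∈ mw17jtM q ^ 2 then h.choose else 0

theorem mw17jt_jetFun_spec {q : B →ₐ[K] K} {τ : B} (h : Mw17jtParam q τ) (b : B) :
    b - algebraMap K B (q b) - mw17jtJetFun q τ b • τ ∈ mw17jtM q ^ 2 := by
  have hex : ∃ c : K, b - algebraMap K B (q b) - c • τ ∈ mw17jtM q ^ 2 :=
    h.2.1 _ ((mw17jt_mem_M q _).1 (mw17jt_sub_mem_M q b))
  rw [mw17jtJetFun, dif_pos hex]
  exact hex.choose_spec

theorem mw17jt_jetFun_unique {q : B →ₐ[K] K} {τ : B} (h : Mw17jtParam q τ) (b : B) (c : K)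
    (hc : b - algebraMap K B (q b) - c • τ ∈ mw17jtM q ^ 2) : mw17jtJetFun q τ b = c :=
  mw17jt_unique_aux h (mw17jt_jetFun_spec h b) hc

/-- THE FIRST JET at `q` with respect to the parameter `τ` (zero if `τ` is not a parameter). -/
def mw17jtJet (q : B →ₐ[K] K) (τ : B) : B →ₗ[K] K := by
  classical
  exact
    if h : Mw17jtParam q τ then
      { toFun := mw17jtJetFun q τ
        map_add' := fun a b => by
          apply mw17jt_jetFun_unique h
          have ha := mw17jt_jetFun_spec h a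
          have hb := mw17jt_jetFun_spec h b
          have := (mw17jtM q ^ 2).add_mem ha hb
          have e : a + b - algebraMap K B (q (a + b)) -
              (mw17jtJetFun q τ a + mw17jtJetFun q τ b) • τ =
              (a - algebraMap K B (q a) - mw17jtJetFun q τ a • τ) +
              (b - algebraMap K B (q b) - mw17jtJetFun q τ b • τ) := by
            rw [map_add, map_add, add_smul]; ring
          rwa [e]
        map_smul' := fun c a => by
          apply mw17jt_jetFun_unique h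
          have ha := mw17jt_smul_mem _ c (mw17jt_jetFun_spec h a)
          have e : c • a - algebraMap K B (q (c • a)) -
              ((RingHom.id K) c • mw17jtJetFun q τ a) • τ =
              c • (a - algebraMap K B (q a) - mw17jtJetFun q τ a • τ) := by
            rw [map_smul, smul_sub, smul_sub, RingHom.id_apply, smul_assoc, Algebra.smul_def c (algebraMap K B (q a)),
              ← map_mul, smul_eq_mul]
          rwa [e] }
    else 0

theorem mw17jt_jet_apply {q : B →ₐ[K] K} {τ : B} (h : Mw17jtParam q τ) (b : B) :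
    mw17jtJet q τ b = mw17jtJetFun q τ b := by
  rw [mw17jtJet, dif_pos h]; rfl

/-- `b ≡ q b + jet b · τ` modulo `𝔪²`. -/
theorem mw17jt_jet_spec {q : B →ₐ[K] K} {τ : B} (h : Mw17jtParam q τ) (b : B) :
    b - algebraMap K B (q b) - mw17jtJet q τ b • τ ∈ mw17jtM q ^ 2 := by
  rw [mw17jt_jet_apply h]; exact mw17jt_jetFun_spec h b

theorem mw17jt_jet_unique {q : B →ₐ[K] K} {τ : B} (h : Mw17jtParam q τ) (b : B) (c : K)
    (hc : b - algebraMap K B (q b) - c • τ ∈ mw17jtM q ^ 2) : mw17jtJet q τ b = c := by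
  rw [mw17jt_jet_apply h]; exact mw17jt_jetFun_unique h b c hc

/-- THE LEIBNIZ RULE. -/
theorem mw17jt_jet_mul {q : B →ₐ[K] K} {τ : B} (h : Mw17jtParam q τ) (a b : B) :
    mw17jtJet q τ (a * b) = q a * mw17jtJet q τ b + q b * mw17jtJet q τ a := by
  apply mw17jt_jet_unique h
  have ha := mw17jt_jet_spec h a
  have hb := mw17jt_jet_spec h b
  set ja := mw17jtJet q τ a
  set jb := mw17jtJet q τ b
  have hα : a - algebraMap K B (q a) ∈ mw17jtM q := mw17jt_sub_mem_M q a
  have hβ : b - algebraMap K B (q b) ∈ mw17jtM q := mw17jt_sub_mem_M q b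
  have h1 : algebraMap K B (q a) * (b - algebraMap K B (q b) - jb • τ) ∈ mw17jtM q ^ 2 :=
    Ideal.mul_mem_left _ _ hb
  have h2 : algebraMap K B (q b) * (a - algebraMap K B (q a) - ja • τ) ∈ mw17jtM q ^ 2 :=
    Ideal.mul_mem_left _ _ ha
  have h3 : (a - algebraMap K B (q a)) * (b - algebraMap K B (q b)) ∈ mw17jtM q ^ 2 := by
    rw [pow_two]; exact Ideal.mul_mem_mul hα hβ
  have e : a * b - algebraMap K B (q (a * b)) - (q a * jb + q b * ja) • τ =
      algebraMap K B (q a) * (b - algebraMap K B (q b) - jb • τ) +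
      algebraMap K B (q b) * (a - algebraMap K B (q a) - ja • τ) +
      (a - algebraMap K B (q a)) * (b - algebraMap K B (q b)) := by
    rw [map_mul, map_mul, add_smul, mul_smul, mul_smul, Algebra.smul_def (q a),
      Algebra.smul_def (q b)]
    ring
  rw [e]
  exact Ideal.add_mem _ (Ideal.add_mem _ h1 h2) h3

theorem mw17jt_jet_param {q : B →ₐ[K] K} {τ : B} (h : Mw17jtParam q τ) :
    mw17jtJet q τ τ = 1 := by
  apply mw17jt_jet_unique h
  rw [h.1, map_zero, one_smul]
  simp

theorem mw17jt_jet_algebraMap {q : B →ₐ[K] K} {τ : B} (h : Mw17jtParam q τ) (c : K) :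
    mw17jtJet q τ (algebraMap K B c) = 0 := by
  apply mw17jt_jet_unique h
  rw [AlgHom.commutes, zero_smul]
  simp

theorem mw17jt_jet_one {q : B →ₐ[K] K} {τ : B} (h : Mw17jtParam q τ) :
    mw17jtJet q τ 1 = 0 := by
  rw [← map_one (algebraMap K B)]; exact mw17jt_jet_algebraMap h 1

/-- `q` is a zero of order at least two of `b` iff `b` vanishes at `q` together with its jet. -/
theorem mw17jt_jet_eq_zero_iff {q : B →ₐ[K] K} {τ : B} (h : Mw17jtParam q τ) (b : B) :
    (q b = 0 ∧ mw17jtJet q τ b = 0) ↔ b ∈ mw17jtM q ^ 2 := by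
  constructor
  · rintro ⟨h0, h1⟩
    have := mw17jt_jet_spec h b
    rwa [h0, h1, map_zero, zero_smul, sub_zero, sub_zero] at this
  · intro hb
    have h0 : q b = 0 := (mw17jt_mem_M q b).1 (mw17jt_sq_le q hb)
    refine ⟨h0, mw17jt_jet_unique h b 0 ?_⟩
    rwa [h0, map_zero, zero_smul, sub_zero, sub_zero]

theorem mw17jt_jet_of_mem_sq {q : B →ₐ[K] K} {τ : B} (h : Mw17jtParam q τ) {b : B}
    (hb : b ∈ mw17jtM q ^ 2) : mw17jtJet q τ b = 0 :=
  ((mw17jt_jet_eq_zero_iff h b).2 hb).2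

/-- Leibniz at a zero of the first factor. -/
theorem mw17jt_jet_mul_of_zero {q : B →ₐ[K] K} {τ : B} (h : Mw17jtParam q τ) {a : B}
    (ha : q a = 0) (b : B) : mw17jtJet q τ (a * b) = mw17jtJet q τ a * q b := by
  rw [mw17jt_jet_mul h, ha, zero_mul, zero_add, mul_comm]

/-- Leibniz for finite products. -/
theorem mw17jt_jet_prod {q : B →ₐ[K] K} {τ : B} (h : Mw17jtParam q τ) {ι : Type*}
    [DecidableEq ι] (s : Finset ι) (f : ι → B) :
    mw17jtJet q τ (∏ i ∈ s, f i) =
      ∑ i ∈ s, mw17jtJet q τ (f i) * ∏ j ∈ s.erase i, q (f j) := by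
  induction s using Finset.induction_on with
  | empty => simp [mw17jt_jet_one h]
  | insert a s has ih =>
    rw [Finset.prod_insert has, mw17jt_jet_mul h, ih, Finset.sum_insert has,
      Finset.erase_insert has, map_prod, Finset.mul_sum]
    rw [add_comm, mul_comm]
    congr 1
    refine Finset.sum_congr rfl fun i hi => ?_
    have hia : i ≠ a := fun e => has (e ▸ hi)
    rw [Finset.erase_insert_of_ne (Ne.symm hia), Finset.prod_insert]
    · ring
    · exact fun hmem => has (Finset.mem_of_mem_erase hmem)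

/-- the jet of a product at a zero `i₀` of one factor: only one term survives. -/
theorem mw17jt_jet_prod_of_zero {q : B →ₐ[K] K} {τ : B} (h : Mw17jtParam q τ) {ι : Type*}
    [DecidableEq ι] (s : Finset ι) (f : ι → B) {i₀ : ι} (hi₀ : i₀ ∈ s) (h0 : q (f i₀) = 0) :
    mw17jtJet q τ (∏ i ∈ s, f i) =
      mw17jtJet q τ (f i₀) * ∏ j ∈ s.erase i₀, q (f j) := by
  rw [mw17jt_jet_prod h, Finset.sum_eq_single_of_mem i₀ hi₀]
  intro i hi hne
  have : i₀ ∈ s.erase i := Finset.mem_erase.2 ⟨Ne.symm hne, hi₀⟩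
  rw [Finset.prod_eq_zero this h0, mul_zero]

/-- the jet of a multiset product with one factor vanishing at `q`. -/
theorem mw17jt_jet_multiset_prod_cons {q : B →ₐ[K] K} {τ : B} (h : Mw17jtParam q τ) {a : B}
    (ha : q a = 0) (m : Multiset B) :
    mw17jtJet q τ (a ::ₘ m).prod = mw17jtJet q τ a * (m.map q).prod := by
  rw [Multiset.prod_cons, mw17jt_jet_mul_of_zero h ha, map_multiset_prod]

/-! ### parameters on a Dedekind domain -/

/-- on a Dedekind domain every element of `𝔪 \ 𝔪²` is a local parameter. -/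
theorem mw17jt_param_of_not_mem_sq [IsDedekindDomain B] (q : B →ₐ[K] K) {τ : B}
    (hτ0 : q τ = 0) (hτ : τ ∉ mw17jtM q ^ 2) : Mw17jtParam q τ := by
  refine ⟨hτ0, fun b hb => ?_, hτ⟩
  have hsurj : Function.Surjective (q : B →+* K) := fun c =>
    ⟨algebraMap K B c, by simp⟩
  have hmax : (mw17jtM q).IsMaximal := RingHom.ker_isMaximal_of_surjective _ hsurj
  have hprime : (mw17jtM q).IsPrime := hmax.isPrime
  have hbot : mw17jtM q ≠ ⊥ := by
    intro hbot
    apply hτ
    have : τ ∈ mw17jtM q := (mw17jt_mem_M q τ).2 hτ0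
    rw [hbot, Ideal.mem_bot] at this
    rw [this]; exact Ideal.zero_mem _
  have hτ1 : τ ∈ mw17jtM q ^ 1 := by rw [pow_one]; exact (mw17jt_mem_M q τ).2 hτ0
  have hb1 : b ∈ mw17jtM q ^ 1 := by rw [pow_one]; exact (mw17jt_mem_M q b).2 hb
  obtain ⟨d, e, he, hde⟩ := Ideal.exists_mul_add_mem_pow_succ hbot τ b hτ1 hτ hb1
  refine ⟨q d, ?_⟩
  have h1 : τ * (d - algebraMap K B (q d)) ∈ mw17jtM q ^ 2 := by
    rw [pow_two]
    exact Ideal.mul_mem_mul ((mw17jt_mem_M q τ).2 hτ0) (mw17jt_sub_mem_M q d)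
  have e1 : b - q d • τ = τ * (d - algebraMap K B (q d)) + e := by
    rw [← hde, Algebra.smul_def]; ring
  rw [e1]
  exact Ideal.add_mem _ h1 he

/-! ### the coefficientwise jet on polynomials over `B` -/

section Poly

variable {σ : Type*}

/-- the coefficientwise jet on `MvPolynomial σ B`. -/
def mw17jtJetPoly (q : B →ₐ[K] K) (τ : B) (P : MvPolynomial σ B) : MvPolynomial σ K :=
  ∑ m ∈ P.support, MvPolynomial.monomial m (mw17jtJet q τ (P.coeff m))

theorem mw17jt_jetPoly_coeff (q : B →ₐ[K] K) (τ : B) (P : MvPolynomial σ B) (m : σ →₀ ℕ) :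
    (mw17jtJetPoly q τ P).coeff m = mw17jtJet q τ (P.coeff m) := by
  classical
  rw [mw17jtJetPoly, MvPolynomial.coeff_sum]
  simp only [MvPolynomial.coeff_monomial]
  rw [Finset.sum_ite_eq' P.support m]
  split_ifs with hm
  · rfl
  · rw [MvPolynomial.notMem_support_iff.1 hm, map_zero]

theorem mw17jt_jetPoly_add (q : B →ₐ[K] K) (τ : B) (P Q : MvPolynomial σ B) :
    mw17jtJetPoly q τ (P + Q) = mw17jtJetPoly q τ P + mw17jtJetPoly q τ Q := by
  ext m
  simp only [mw17jt_jetPoly_coeff, MvPolynomial.coeff_add, map_add]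

theorem mw17jt_jetPoly_zero (q : B →ₐ[K] K) (τ : B) :
    mw17jtJetPoly q τ (0 : MvPolynomial σ B) = 0 := by
  ext m
  simp only [mw17jt_jetPoly_coeff, MvPolynomial.coeff_zero, map_zero]

theorem mw17jt_jetPoly_sum {ι : Type*} (q : B →ₐ[K] K) (τ : B) (s : Finset ι)
    (P : ι → MvPolynomial σ B) :
    mw17jtJetPoly q τ (∑ i ∈ s, P i) = ∑ i ∈ s, mw17jtJetPoly q τ (P i) := by
  ext m
  simp only [mw17jt_jetPoly_coeff, MvPolynomial.coeff_sum, map_sum]

theorem mw17jt_jetPoly_C (q : B →ₐ[K] K) (τ : B) (b : B) :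
    mw17jtJetPoly q τ (MvPolynomial.C b : MvPolynomial σ B) =
      MvPolynomial.C (mw17jtJet q τ b) := by
  classical
  ext m
  rw [mw17jt_jetPoly_coeff, MvPolynomial.coeff_C, MvPolynomial.coeff_C]
  split_ifs
  · rfl
  · exact map_zero _

/-- THE LEIBNIZ RULE for polynomials with coefficients in `B`. -/
theorem mw17jt_jetPoly_mul {q : B →ₐ[K] K} {τ : B} (h : Mw17jtParam q τ)
    (P Q : MvPolynomial σ B) :
    mw17jtJetPoly q τ (P * Q) =
      MvPolynomial.map (q : B →+* K) P * mw17jtJetPoly q τ Q +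
      MvPolynomial.map (q : B →+* K) Q * mw17jtJetPoly q τ P := by
  classical
  ext m
  rw [mw17jt_jetPoly_coeff, MvPolynomial.coeff_add, MvPolynomial.coeff_mul,
    MvPolynomial.coeff_mul, MvPolynomial.coeff_mul, map_sum]
  have hswap : ∑ x ∈ Finset.HasAntidiagonal.antidiagonal m,
      MvPolynomial.coeff x.1 (MvPolynomial.map (q : B →+* K) Q) *
        MvPolynomial.coeff x.2 (mw17jtJetPoly q τ P) =
      ∑ x ∈ Finset.HasAntidiagonal.antidiagonal m,
        MvPolynomial.coeff x.2 (MvPolynomial.map (q : B →+* K) Q) *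
          MvPolynomial.coeff x.1 (mw17jtJetPoly q τ P) := by
    refine Finset.sum_equiv (Equiv.prodComm _ _) (fun x => ?_) (fun x _ => rfl)
    rw [Equiv.prodComm_apply]
    exact Finset.HasAntidiagonal.swap_mem_antidiagonal.symm
  rw [hswap, ← Finset.sum_add_distrib]
  refine Finset.sum_congr rfl fun x _ => ?_
  rw [mw17jt_jet_mul h, mw17jt_jetPoly_coeff, mw17jt_jetPoly_coeff, MvPolynomial.coeff_map,
    MvPolynomial.coeff_map]
  rfl

/-- polynomials with constant coefficients have zero jet. -/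
theorem mw17jt_jetPoly_map_algebraMap {q : B →ₐ[K] K} {τ : B} (h : Mw17jtParam q τ)
    (r : MvPolynomial σ K) :
    mw17jtJetPoly q τ (MvPolynomial.map (algebraMap K B) r) = 0 := by
  ext m
  rw [mw17jt_jetPoly_coeff, MvPolynomial.coeff_map, mw17jt_jet_algebraMap h,
    MvPolynomial.coeff_zero]

/-- `K[s]`-linearity of the coefficientwise jet. -/
theorem mw17jt_jetPoly_smul {q : B →ₐ[K] K} {τ : B} (h : Mw17jtParam q τ)
    (r : MvPolynomial σ K) (P : MvPolynomial σ B) :
    mw17jtJetPoly q τ (MvPolynomial.map (algebraMap K B) r * P) = r * mw17jtJetPoly q τ P := by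
  rw [mw17jt_jetPoly_mul h, mw17jt_jetPoly_map_algebraMap h, mul_zero, add_zero,
    MvPolynomial.map_map]
  congr 1
  have : ((q : B →+* K).comp (algebraMap K B)) = RingHom.id K := by
    ext c; simp
  rw [this, MvPolynomial.map_id]

/-- specialising the variables commutes with the jet. -/
theorem mw17jt_jetPoly_eval (q : B →ₐ[K] K) (τ : B) (P : MvPolynomial σ B) (s₀ : σ → K) :
    MvPolynomial.eval s₀ (mw17jtJetPoly q τ P) =
      mw17jtJet q τ (MvPolynomial.eval (fun i => algebraMap K B (s₀ i)) P) := by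
  classical
  rw [mw17jtJetPoly, map_sum]
  conv_rhs => rw [MvPolynomial.eval_eq, map_sum]
  refine Finset.sum_congr rfl fun m _ => ?_
  rw [MvPolynomial.eval_monomial]
  have e : ∏ i ∈ m.support, (algebraMap K B (s₀ i)) ^ m i =
      algebraMap K B (∏ i ∈ m.support, s₀ i ^ m i) := by
    rw [map_prod]; simp only [map_pow]
  rw [e, mul_comm (MvPolynomial.coeff m P), ← Algebra.smul_def, map_smul, smul_eq_mul,
    Finsupp.prod, mul_comm]

end Poly

end Fermat.Agent.MW17
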