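import Mathlib
import Fermat.Agent.MW17.Jet
import Fermat.Agent.V.Pts.Places
import Fermat.Agent.V.Pres.OnePoint

/-!
# S17 heights, §5 (JET), part 2 : the ramification set of a coordinate function

`B` a Dedekind `K`-algebra with fraction field `M`, `x : B`.  `mw17jtRam x` is the set of points
`q : B →ₐ[K] K` at which `x - x(q)` is NOT a local parameter; off this set the first jet
`mw17jtJetX x q` with respect to `x - x(q)` satisfies all the rules of `MW17/Jet.lean`.
The set is finite as soon as the places of `M` at which some `x - a` vanishes to order `≥ 2`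
lie in a finite set (uniform Riemann-Hurwitz, `mwgt_ram` of `MW/GT/Ram.lean`).
-/

set_option autoImplicit false
set_option linter.unusedSectionVars false

noncomputable section

namespace Fermat.Agent.MW17

open AlgebraicCurve IsDedekindDomain Fermat.Agent.S24 Fermat.Agent.V

section Abstract

variable {K B : Type*} [Field K] [CommRing B] [Algebra K B]

/-- the points where `x - x(q)` is not a local parameter. -/
def mw17jtRam (x : B) : Set (B →ₐ[K] K) :=
  {q | x - algebraMap K B (q x) ∈ mw17jtM q ^ 2}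

/-- the local parameter `x - x(q)`. -/
def mw17jtTau (x : B) (q : B →ₐ[K] K) : B := x - algebraMap K B (q x)

theorem mw17jt_tau_apply (x : B) (q : B →ₐ[K] K) : q (mw17jtTau x q) = 0 := by
  simp [mw17jtTau]

/-- the first jet with respect to `x - x(q)`. -/
def mw17jtJetX (x : B) (q : B →ₐ[K] K) : B →ₗ[K] K := mw17jtJet q (mw17jtTau x q)

theorem mw17jt_param_x [IsDedekindDomain B] (x : B) {q : B →ₐ[K] K} (hq : q ∉ mw17jtRam x) :
    Mw17jtParam q (mw17jtTau x q) :=
  mw17jt_param_of_not_mem_sq q (mw17jt_tau_apply x q) hq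

theorem mw17jt_jetX_x [IsDedekindDomain B] (x : B) {q : B →ₐ[K] K} (hq : q ∉ mw17jtRam x) :
    mw17jtJetX x q x = 1 := by
  have h := mw17jt_param_x x hq
  have e : x = mw17jtTau x q + algebraMap K B (q x) := by simp [mw17jtTau]
  have e2 : mw17jtJetX x q x =
      mw17jtJet q (mw17jtTau x q) (mw17jtTau x q + algebraMap K B (q x)) :=
    congrArg (mw17jtJet q (mw17jtTau x q)) e
  rw [e2, map_add, mw17jt_jet_param h, mw17jt_jet_algebraMap h, add_zero]

theorem mw17jt_jetX_mul [IsDedekindDomain B] (x : B) {q : B →ₐ[K] K} (hq : q ∉ mw17jtRam x)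
    (a b : B) : mw17jtJetX x q (a * b) = q a * mw17jtJetX x q b + q b * mw17jtJetX x q a :=
  mw17jt_jet_mul (mw17jt_param_x x hq) a b

/-- `q` is a SIMPLE zero of `b` iff `b(q) = 0` and the jet does not vanish. -/
theorem mw17jt_jetX_eq_zero_iff [IsDedekindDomain B] (x : B) {q : B →ₐ[K] K}
    (hq : q ∉ mw17jtRam x) (b : B) :
    (q b = 0 ∧ mw17jtJetX x q b = 0) ↔ b ∈ mw17jtM q ^ 2 :=
  mw17jt_jet_eq_zero_iff (mw17jt_param_x x hq) b

end Abstract

section Places

variable {K M B : Type*} [Field K] [IsAlgClosed K] [Field M] [Algebra K M] [CommRing B]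
  [IsDedekindDomain B] [Algebra K B] [Algebra B M] [IsScalarTower K B M] [IsFractionRing B M]

/-- an element of `𝔪_q²` vanishes to order at least two at the place of `q`. -/
theorem mw17jt_two_le_ord (hnf : ¬ IsField B) (q : B →ₐ[K] K) {b : B} (hb : b ≠ 0)
    (hb2 : b ∈ mw17jtM q ^ 2) : 2 ≤ (v27ptPlace M hnf q).ord (algebraMap B M b) := by
  unfold v27ptPlace
  rw [v27c_ord_eq_multiplicity (K := K) (M := M) (v27ptPrime hnf q) hb]
  have hdvd : (v27ptPrime hnf q).asIdeal ^ 2 ∣ Ideal.span {b} := by
    rw [Ideal.dvd_iff_le, Ideal.span_singleton_le_iff_mem]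
    exact hb2
  have hsr : Ideal.span {b} ≠ 0 := Submodule.span_singleton_eq_bot.mp.mt hb
  have hfm : FiniteMultiplicity (v27ptPrime hnf q).asIdeal (Ideal.span {b}) :=
    FiniteMultiplicity.of_prime_left (v27ptPrime hnf q).prime hsr
  have := hfm.le_multiplicity_of_pow_dvd hdvd
  exact_mod_cast this

/-- **`Ram(x)` is finite**, given the uniform Riemann-Hurwitz finite set of places. -/
theorem mw17jt_ram_finite (hnf : ¬ IsField B) (x : B)
    (hx : ∀ a : K, x ≠ algebraMap K B a)
    (hram : ∃ S : Finset (Place K M), ∀ (v : Place K M) (a : K),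
      2 ≤ v.ord (algebraMap B M x - algebraMap K M a) → v ∈ S) :
    (mw17jtRam (K := K) x).Finite := by
  obtain ⟨S, hS⟩ := hram
  have hsub : mw17jtRam (K := K) x ⊆ (v27ptPlace (K := K) M hnf) ⁻¹' (S : Set (Place K M)) := by
    intro q hq
    have hne : x - algebraMap K B (q x) ≠ 0 := sub_ne_zero.2 (hx _)
    have h2 := mw17jt_two_le_ord (M := M) hnf q hne hq
    rw [map_sub, ← IsScalarTower.algebraMap_apply] at h2
    exact hS _ _ h2
  exact (S.finite_toSet.preimage
    ((v27pt_place_injective (K := K) (M := M) hnf).injOn)).subset hsub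

end Places

end Fermat.Agent.MW17
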