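import Mathlib
import Fermat.Agent.MW17.Setup
import Fermat.Agent.MW17.JetRam

/-!
# S17 heights, §5 (JET), part 3 : jets of sections on the presented curve

`φ'(R) = (jet_R (x^r e_j))` and `jet_R (sec u) = Σ u_i φ'(R)_i`, with respect to the local
parameter `x - x(R)` (`R ∉ Ram(x)`).
-/

set_option autoImplicit false
set_option linter.unusedSectionVars false

noncomputable section

namespace Fermat.Agent.MW17

open Fermat.Agent.V Polynomial

variable {K : Type*} [Field K] {δ : V27pShape} (T : V27pTable K δ)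

/-- the ramification set of the coordinate `x` of the presented curve. -/
def mw17jtRamX : Set (Mw17Pt T) := mw17jtRam (K := K) (V27pB.x : V27pB T)

/-- the first jet at `q` with respect to `x - x(q)`. -/
def mw17jtJetT (q : Mw17Pt T) : V27pB T →ₗ[K] K := mw17jtJetX (V27pB.x : V27pB T) q

/-- `ψ_m'(q)` : the jets of the monomial basis of `L_m` at `q`. -/
def mw17jtPsiD (m : ℕ) (q : Mw17Pt T) : Mw17Idx δ m → K := fun i => mw17jtJetT T q (mw17Mon T i)

/-- the jet of a section is the pairing of its coefficient vector with `ψ_m'(q)`. -/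
theorem mw17jt_jet_sec (m : ℕ) (u : Mw17Idx δ m → K) (q : Mw17Pt T) :
    mw17jtJetT T q (mw17Sec T m u) = ∑ i, u i * mw17jtPsiD T m q i := by
  simp [mw17Sec, mw17jtPsiD, map_sum, map_smul]

theorem mw17jt_psiD_incl {m m' : ℕ} (h : m ≤ m') (q : Mw17Pt T) (i : Mw17Idx δ m) :
    mw17jtPsiD T m' q (mw17IdxIncl h i) = mw17jtPsiD T m q i := rfl

variable [IsDedekindDomain (V27pB T)]

theorem mw17jt_param_T {q : Mw17Pt T} (hq : q ∉ mw17jtRamX T) :
    Mw17jtParam q (mw17jtTau (V27pB.x : V27pB T) q) :=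
  mw17jt_param_x _ hq

theorem mw17jt_psiD_zero (m : ℕ) {q : Mw17Pt T} (hq : q ∉ mw17jtRamX T) :
    mw17jtPsiD T m q (mw17IdxZero δ m) = 0 := by
  rw [mw17jtPsiD, mw17Mon_zero]
  exact mw17jt_jet_one (mw17jt_param_T T hq)

theorem mw17jt_jetT_x {q : Mw17Pt T} (hq : q ∉ mw17jtRamX T) :
    mw17jtJetT T q (V27pB.x : V27pB T) = 1 :=
  mw17jt_jetX_x _ hq

/-- Leibniz on the presented curve. -/
theorem mw17jt_jetT_mul {q : Mw17Pt T} (hq : q ∉ mw17jtRamX T) (a b : V27pB T) :
    mw17jtJetT T q (a * b) = q a * mw17jtJetT T q b + q b * mw17jtJetT T q a :=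
  mw17jt_jetX_mul _ hq a b

/-- `q` is a zero of order `≥ 2` of the section iff value and jet vanish. -/
theorem mw17jt_sec_double_iff {q : Mw17Pt T} (hq : q ∉ mw17jtRamX T) (m : ℕ)
    (u : Mw17Idx δ m → K) :
    ((∑ i, u i * mw17Psi T m q i = 0) ∧ (∑ i, u i * mw17jtPsiD T m q i = 0)) ↔
      mw17Sec T m u ∈ mw17jtM q ^ 2 := by
  rw [← mw17Sec_apply, ← mw17jt_jet_sec]
  exact mw17jt_jetX_eq_zero_iff _ hq _

end Fermat.Agent.MW17
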