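import Mathlib
import Fermat.Agent.MW17.Setup
import Fermat.Agent.MW17.JetSec
import Fermat.Agent.HT.Loc

/-!
# Program MW (S17), heights half (A): the LOCAL interface statements, as `Prop`-valued definitions

Owner: helper16 (architect).  Namespace `Fermat.Agent.MW17`, prefix `mw17` / `Mw17`.
See `blueprints/S17-heights.md` (origin/helper16), §5, and the board post that announces this file.

Every producer proves `theorem … : Mw17Xxx T n t …` for the `Prop` below, every consumer takes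
it as a hypothesis `(h : Mw17Xxx T n t …)`; the top assembly composes.  Nothing is proved here.

Fixed data: `n` (a non-gap, `n ≥ 4 g + 1`), `t : Mw17Idx δ n` the TOP index (`mw17Wt t = n`),
`φ := mw17Psi T n`, `φ(P0) := Pi.single t 1`; sections live in `L_m`, `m = n * m₁`.

* `Mw17IsZeros T b Z`     : `Z` is the zero multiset of `b` (with multiplicities);
* `mw17Phi T n t`         : `Option (Mw17Pt T) → (Mw17Idx δ n → K)`, `none = P0`;
* `mw17Dl T n t w P R`    : the chordal distance `δ_w(P,R)` in the embedding `φ`;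
* `mw17Tw T n w R`        : the tangent quantity `t_w(R) = ‖φR ∧ φ'R‖ / ‖φR‖²`;
* `Mw17StarOff T n t m₁`  : (★-off), both halves;
* `Mw17MLoc T n m₁`       : (M), both halves (`‖u‖^n ≍ |c| ∏ ‖φP‖`, some `c ≠ 0`);
* `Mw17StarTan T n t m₁`  : (★-tan), both halves;
* `Mw17P0Loc T n t`       : `δ_w(P0,R)^n ≍ ‖φR‖⁻¹`;
* `Mw17GData T n t m₁`    : the algebraic core (RES-POLY + (G1)–(G4)) in the form consumed by (M), (★-off), (★-tan);
* `Mw17MLocF T n t m₁ F`  : (M) for the constant `c` of `Mw17GData.prod`.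
-/

set_option autoImplicit false

noncomputable section

namespace Fermat.Agent.MW17

open Fermat.Agent.V Fermat.Agent.HT Polynomial

variable {K : Type*} [Field K] {δ : V27pShape} (T : V27pTable K δ)

/-- `Z` is the zero multiset of `b`: it has `v27pOrd b` elements and computes the determinant of
the multiplication by any `s` on `B ⧸ (b)` (helper4's `mwcr_det_eq_zeros_prod`, helper17's `mwrpRho`). -/
def Mw17IsZeros (b : V27pB T) (Z : Multiset (Mw17Pt T)) : Prop :=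
  Z.card = v27pOrd b ∧
    ∀ s : V27pB T, LinearMap.det (LinearMap.mulLeft K (Ideal.Quotient.mk (Ideal.span {b}) s)) =
      (Z.map fun q : Mw17Pt T => q s).prod

open Classical in
/-- `φ` on the completed curve: `none = P0 ↦ e_top`, `some q ↦ ψ_n(q)`. -/
def mw17Phi (n : ℕ) (t : Mw17Idx δ n) : Option (Mw17Pt T) → Mw17Idx δ n → K
  | none => Pi.single t 1
  | some q => mw17Psi T n q

@[simp] theorem mw17Phi_none (n : ℕ) (t : Mw17Idx δ n) :
    mw17Phi T n t none = Pi.single t 1 := by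
  unfold mw17Phi; congr

@[simp] theorem mw17Phi_some (n : ℕ) (t : Mw17Idx δ n) (q : Mw17Pt T) :
    mw17Phi T n t (some q) = mw17Psi T n q := rfl

theorem mw17Phi_ne_zero (n : ℕ) (t : Mw17Idx δ n) (P : Option (Mw17Pt T)) :
    mw17Phi T n t P ≠ 0 := by
  cases P with
  | none =>
    rw [mw17Phi_none]
    intro h
    have := congrFun h t
    simp at this
  | some q => exact mw17Psi_ne_zero T n q

/-- the chordal distance `δ_w(P,R)` in the embedding `φ` (`P, R` on the completed curve). -/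
def mw17Dl (n : ℕ) (t : Mw17Idx δ n) (w : AbsoluteValue K ℝ) (P R : Option (Mw17Pt T)) : ℝ :=
  htlDist w (mw17Phi T n t P) (mw17Phi T n t R)

/-- the tangent quantity `t_w(R) = ‖φR ∧ φ'R‖_w / ‖φR‖_w ^ 2`, jets w.r.t. `x - x(R)`. -/
def mw17Tw (n : ℕ) (w : AbsoluteValue K ℝ) (R : Mw17Pt T) : ℝ :=
  htlSup w (htlWedge (mw17Psi T n R) (mw17jtPsiD T n R)) / htlSup w (mw17Psi T n R) ^ 2

/-- the right-hand side of (★-off):
`‖u‖ ‖φR‖^{m₁} δ(P0,R)^{m - |Z|} ∏_{P ∈ Z} δ(P,R)`, `m = n * m₁`. -/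
def mw17StarRhs (n : ℕ) (t : Mw17Idx δ n) (m₁ : ℕ) (w : AbsoluteValue K ℝ)
    (u : Mw17Idx δ (n * m₁) → K) (Z : Multiset (Mw17Pt T)) (R : Mw17Pt T) : ℝ :=
  htlSup w u * htlSup w (mw17Psi T n R) ^ m₁ *
    mw17Dl T n t w none (some R) ^ (n * m₁ - Z.card) *
    (Z.map fun P : Mw17Pt T => mw17Dl T n t w (some P) (some R)).prod

/-- **(★-off)**, both halves.  `u ≠ 0` arbitrary (degenerate `u` allowed: `|Z| < m`), `R` ANY finite
point (if `R ∈ Z` both sides vanish). -/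
def Mw17StarOff (n : ℕ) (t : Mw17Idx δ n) (m₁ : ℕ) : Prop :=
  ∃ C : HtConst K, ∀ (w : HtAbs K) (u : Mw17Idx δ (n * m₁) → K), u ≠ 0 →
    ∀ Z : Multiset (Mw17Pt T), Mw17IsZeros T (mw17Sec T (n * m₁) u) Z → ∀ R : Mw17Pt T,
      w.1 (R (mw17Sec T (n * m₁) u)) ≤ C.val w.1 * mw17StarRhs T n t m₁ w.1 u Z R ∧
      mw17StarRhs T n t m₁ w.1 u Z R ≤ C.val w.1 * w.1 (R (mw17Sec T (n * m₁) u))

/-- **(M)**, both halves: `‖u‖^n ≍ |c| ∏_{P ∈ Z} ‖φP‖` for SOME `c ≠ 0` depending on `u` only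
(`c = ± lc (sec u) ^ n * λ ^ (m - |Z|)`, helper5's `mw17lc`; the consumers only use `c ≠ 0`:
product formula). -/
def Mw17MLoc (n : ℕ) (m₁ : ℕ) : Prop :=
  ∃ C : HtConst K, ∀ (u : Mw17Idx δ (n * m₁) → K), u ≠ 0 →
    ∀ Z : Multiset (Mw17Pt T), Mw17IsZeros T (mw17Sec T (n * m₁) u) Z →
      ∃ c : K, c ≠ 0 ∧ ∀ w : HtAbs K,
        htlSup w.1 u ^ n ≤ C.val w.1 *
          (w.1 c * (Z.map fun P : Mw17Pt T => htlSup w.1 (mw17Psi T n P)).prod) ∧
        w.1 c * (Z.map fun P : Mw17Pt T => htlSup w.1 (mw17Psi T n P)).prod ≤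
          C.val w.1 * htlSup w.1 u ^ n

/-- **(★-tan)**, both halves: `R` a zero of `sec u` (zero multiset `R ::ₘ Z'`), `R ∉ Ram(x)`.
(If `R ∈ Z'` both sides vanish.) -/
def Mw17StarTan (n : ℕ) (t : Mw17Idx δ n) (m₁ : ℕ) : Prop :=
  ∃ C : HtConst K, ∀ (w : HtAbs K) (u : Mw17Idx δ (n * m₁) → K), u ≠ 0 →
    ∀ (R : Mw17Pt T) (Z' : Multiset (Mw17Pt T)),
      Mw17IsZeros T (mw17Sec T (n * m₁) u) (R ::ₘ Z') → R ∉ mw17jtRamX T →
      w.1 (mw17jtJetT T R (mw17Sec T (n * m₁) u)) ≤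
        C.val w.1 * (mw17Tw T n w.1 R *
          (htlSup w.1 u * htlSup w.1 (mw17Psi T n R) ^ m₁ *
            mw17Dl T n t w.1 none (some R) ^ (n * m₁ - (Z'.card + 1)) *
            (Z'.map fun P : Mw17Pt T => mw17Dl T n t w.1 (some P) (some R)).prod)) ∧
      mw17Tw T n w.1 R *
          (htlSup w.1 u * htlSup w.1 (mw17Psi T n R) ^ m₁ *
            mw17Dl T n t w.1 none (some R) ^ (n * m₁ - (Z'.card + 1)) *
            (Z'.map fun P : Mw17Pt T => mw17Dl T n t w.1 (some P) (some R)).prod) ≤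
        C.val w.1 * w.1 (mw17jtJetT T R (mw17Sec T (n * m₁) u))

/-- `δ_w(P0,R)^n ≍ ‖φR‖⁻¹` (projective normality at levels `n` and `n - 1`). -/
def Mw17P0Loc (n : ℕ) (t : Mw17Idx δ n) : Prop :=
  ∃ C : HtConst K, ∀ (w : HtAbs K) (R : Mw17Pt T),
    mw17Dl T n t w.1 none (some R) ^ n * htlSup w.1 (mw17Psi T n R) ≤ C.val w.1 ∧
    1 ≤ C.val w.1 * (mw17Dl T n t w.1 none (some R) ^ n * htlSup w.1 (mw17Psi T n R))


/-! ### The algebraic core `(G1)+(G2)+(G3)+(G4)` in the form the analytic leaves consume -/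

/-- the linear form `s ↦ ⟨s, a⟩ = Σ_i a_i s_i` as a polynomial (same body as helper6's `htggLin`). -/
def mw17LinForm {σ : Type*} [Fintype σ] (a : σ → K) : MvPolynomial σ K :=
  ∑ i, MvPolynomial.C (a i) * MvPolynomial.X i

/-- **(G-DATA)**: the single algebraic input of (M), (★-off) and (★-tan)
(= RES-POLY + (G1)–(G4) of the blueprint, in the form the analytic leaves consume).
`s`-variables: ALL ordered pairs `Mw17Idx δ n × Mw17Idx δ n`.  For `y z : Mw17Idx δ n → K` the section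
`ℓ_y(s) = Σ_{a,b} s_{ab} (y_a mon_b - y_b mon_a)` has coefficient vector `T^s_y` with
`⟨T^s_y, z⟩ = ⟨s, y ∧ z⟩ = Σ_p s_p · htlWedge y z p`.
* `F(u, y)`: the resultant polynomial, bihomogeneous of bidegree `(n, m)`, `m = n m₁`;
* `G(u; s)(y) = Σ_{ν ∈ Nu} p_ν(u, y) s^ν`, `p_ν` bihomogeneous of bidegree `(n - 1, m - m₁)` in `(u, y)`
  ((G4) + PN3: the coefficients of `G`, elements of `L_{mn-m}`, written as forms in `φ`);
* `prod`: for `u ≠ 0` with zero multiset `Z` there is ONE `c ≠ 0` with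
  (R-prod) `F(u, y) = c · y_t^{m - |Z|} · ∏_{q ∈ Z} ⟨y, φq⟩` for all `y`, and
  (G12) for EVERY finite point `R`, as polynomials in `s`:
  `u(R) · G(u; s)(φR) = c · ⟨s, φR ∧ e_t⟩^{m - |Z|} · ∏_{q ∈ Z} ⟨s, φR ∧ φq⟩`  (`= F(u, T^s_{φR})`);
* `nonvan` (G3): for `u ≠ 0` and every `R` on the COMPLETED curve (`none = P0`, `φ(P0) = e_t`) some
  coefficient `p_ν(u, φR)` does not vanish. -/
structure Mw17GData (n : ℕ) (t : Mw17Idx δ n) (m₁ : ℕ) where
  F : MvPolynomial (Mw17Idx δ (n * m₁) ⊕ Mw17Idx δ n) K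
  Nu : Finset (Mw17Idx δ n × Mw17Idx δ n →₀ ℕ)
  p : (Mw17Idx δ n × Mw17Idx δ n →₀ ℕ) → MvPolynomial (Mw17Idx δ (n * m₁) ⊕ Mw17Idx δ n) K
  hF : MvPolynomial.IsWeightedHomogeneous
    (htlBiw (Mw17Idx δ (n * m₁)) (Mw17Idx δ n)) F (n, n * m₁)
  hp : ∀ ν ∈ Nu, MvPolynomial.IsWeightedHomogeneous
    (htlBiw (Mw17Idx δ (n * m₁)) (Mw17Idx δ n)) (p ν) (n - 1, n * m₁ - m₁)
  prod : ∀ u : Mw17Idx δ (n * m₁) → K, u ≠ 0 → ∀ Z : Multiset (Mw17Pt T),
    Mw17IsZeros T (mw17Sec T (n * m₁) u) Z → ∃ c : K, c ≠ 0 ∧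
      (∀ y : Mw17Idx δ n → K, MvPolynomial.eval (Sum.elim u y) F =
        c * y t ^ (n * m₁ - Z.card) *
          (Z.map fun q : Mw17Pt T => ∑ j, y j * mw17Psi T n q j).prod) ∧
      (∀ R : Mw17Pt T,
        MvPolynomial.C (R (mw17Sec T (n * m₁) u)) *
            ∑ ν ∈ Nu, MvPolynomial.monomial ν
              (MvPolynomial.eval (Sum.elim u (mw17Psi T n R)) (p ν)) =
          MvPolynomial.C c *
            mw17LinForm (htlWedge (mw17Psi T n R) (mw17Phi T n t none)) ^ (n * m₁ - Z.card) *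
            (Z.map fun q : Mw17Pt T =>
              mw17LinForm (htlWedge (mw17Psi T n R) (mw17Psi T n q))).prod)
  nonvan : ∀ u : Mw17Idx δ (n * m₁) → K, u ≠ 0 → ∀ R : Option (Mw17Pt T),
    ∃ ν ∈ Nu, MvPolynomial.eval (Sum.elim u (mw17Phi T n t R)) (p ν) ≠ 0

/-- **(M) with the constant of (G-DATA)**: the form consumed by (★-off)/(★-tan) (same `c` as in
`Mw17GData.prod`). -/
def Mw17MLocF (n : ℕ) (t : Mw17Idx δ n) (m₁ : ℕ)
    (F : MvPolynomial (Mw17Idx δ (n * m₁) ⊕ Mw17Idx δ n) K) : Prop :=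
  ∃ C : HtConst K, ∀ (u : Mw17Idx δ (n * m₁) → K), u ≠ 0 →
    ∀ (Z : Multiset (Mw17Pt T)) (c : K), Z.card ≤ n * m₁ → c ≠ 0 →
      (∀ y : Mw17Idx δ n → K, MvPolynomial.eval (Sum.elim u y) F =
        c * y t ^ (n * m₁ - Z.card) *
          (Z.map fun q : Mw17Pt T => ∑ j, y j * mw17Psi T n q j).prod) →
      ∀ w : HtAbs K,
        htlSup w.1 u ^ n ≤ C.val w.1 *
          (w.1 c * (Z.map fun P : Mw17Pt T => htlSup w.1 (mw17Psi T n P)).prod) ∧
        w.1 c * (Z.map fun P : Mw17Pt T => htlSup w.1 (mw17Psi T n P)).prod ≤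
          C.val w.1 * htlSup w.1 u ^ n

end Fermat.Agent.MW17
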