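import Fermat.Agent.MW17.Setup
import Fermat.Agent.V.Pres.Count

/-!
# Program MW (S17), heights half (A): projective normality in table language

Everything on the table ring `B = V27pB T` (main: `V/Pres/{Ring,Ord,Count}`), with helper16's
`MW17/Setup.lean`.  `c := δ.bound` : every integer `≥ c` is a pole order.

* `mw17tb_le_of_ord`   : a subspace containing elements of every pole order `≤ m` contains `L_m`;
* `mw17tb_span_mon`    : the monomials `x^r e_j` of weight `≤ m` span `L_m`;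
* `mw17tb_mul_eq`      : `L_a * L_b = L_{a+b}` for `a, b ≥ 2c`; `mw17tb_pow_eq`;
* `mw17tb_exists_homogeneous` : every element of `L_{kn}` is a form of degree `k` in the monomial
  basis of `L_n` (`n ≥ 2c`);
* the inputs of `HT/Cone.lean` for `φ := mw17Mon T (m := n)`.
-/

set_option autoImplicit false

noncomputable section

namespace Fermat.Agent.MW17

open Fermat.Agent.V

variable {K : Type*} [Field K] {δ : V27pShape} (T : V27pTable K δ)

/-! ### monomials -/

theorem mw17tb_mon_eq_smul {m : ℕ} (i : Mw17Idx δ m) :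
    mw17Mon T i = (Polynomial.X ^ (i.1.2 : ℕ) : Polynomial K) • V27pB.e (T := T) i.1.1 := by
  rw [mw17Mon, V27pB.x, ← map_pow, Algebra.smul_def]

theorem mw17tb_ord_mon {m : ℕ} (i : Mw17Idx δ m) : v27pOrd (mw17Mon T i) = mw17Wt i := by
  rw [mw17tb_mon_eq_smul, v27pOrd_smul_e _ (pow_ne_zero _ Polynomial.X_ne_zero),
    Polynomial.natDegree_X_pow]
  rfl

theorem mw17tb_mon_ne_zero {m : ℕ} (i : Mw17Idx δ m) : mw17Mon T i ≠ 0 := by
  rw [mw17tb_mon_eq_smul]
  intro h
  have h1 := congrFun h i.1.1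
  rw [V27pB.smul_e_apply, if_pos rfl] at h1
  exact pow_ne_zero _ Polynomial.X_ne_zero h1

theorem mw17tb_mon_mem {m : ℕ} (i : Mw17Idx δ m) : mw17Mon T i ∈ v27pL T m := by
  rw [mem_v27pL_iff_ord, mw17tb_ord_mon]
  exact mw17Wt_le i

/-- an index of given weight -/
theorem mw17tb_exists_idx_of_weight {m : ℕ} (j : ZMod δ.N) (r : ℕ) (h : δ.N * r + δ.d j ≤ m) :
    ∃ i : Mw17Idx δ m, mw17Wt i = δ.N * r + δ.d j := by
  have hr : r < m + 1 := by
    have := δ.hN
    have h1 : r ≤ δ.N * r := Nat.le_mul_of_pos_left r this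
    omega
  exact ⟨⟨(j, ⟨r, hr⟩), h⟩, rfl⟩

/-- the pole order of a non-zero element of `L_m` is the weight of a monomial of `L_m` -/
theorem mw17tb_exists_idx_of_ord {m : ℕ} {b : V27pB T} (hb : b ≠ 0) (hm : v27pOrd b ≤ m) :
    ∃ i : Mw17Idx δ m, mw17Wt i = v27pOrd b := by
  obtain ⟨j, _, hj⟩ := v27p_exists_top hb
  obtain ⟨i, hi⟩ := mw17tb_exists_idx_of_weight (m := m) j (b j).natDegree (by omega)
  exact ⟨i, by rw [hi, hj]⟩

/-- every integer `≥ δ.bound` is a pole order -/
theorem mw17tb_exists_idx_of_bound {m k : ℕ} (hk : δ.bound ≤ k) (hkm : k ≤ m) :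
    ∃ i : Mw17Idx δ m, mw17Wt i = k := by
  set j : ZMod δ.N := (k : ZMod δ.N) with hj
  have h1 : δ.d j ≤ k := (δ.d_le_bound j).trans hk
  have h2 : δ.N ∣ k - δ.d j := by
    have h3 : (((k - δ.d j : ℕ)) : ZMod δ.N) = 0 := by
      rw [Nat.cast_sub h1, δ.d_cong, hj, sub_self]
    exact (ZMod.natCast_eq_zero_iff _ _).mp h3
  obtain ⟨r, hr⟩ := h2
  obtain ⟨i, hi⟩ := mw17tb_exists_idx_of_weight (m := m) j r (by omega)
  exact ⟨i, by rw [hi]; omega⟩


/-! ### generation by pole orders -/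

variable {T}

/-- (T2) a subspace containing an element of every pole order occurring in `L_m` contains `L_m` -/
theorem mw17tb_le_of_ord (M : Submodule K (V27pB T)) (m : ℕ)
    (hM : ∀ b : V27pB T, b ≠ 0 → v27pOrd b ≤ m → ∃ f ∈ M, f ≠ 0 ∧ v27pOrd f = v27pOrd b) :
    v27pL T m ≤ M := by
  have key : ∀ n : ℕ, ∀ b : V27pB T, v27pOrd b ≤ m → v27pOrd b = n → b ∈ M := by
    intro n
    induction n using Nat.strong_induction_on with
    | _ n ih =>
      intro b hbm hbn
      by_cases hb : b = 0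
      · rw [hb]
        exact M.zero_mem
      obtain ⟨f, hfM, hf0, hford⟩ := hM b hb hbm
      obtain ⟨c, hc⟩ := v27pOrd_hone hb hf0 hford.symm
      have hsplit : b = (b - c • f) + c • f := by ring
      rw [hsplit]
      refine M.add_mem ?_ (M.smul_mem c hfM)
      rcases hc with hc | hc
      · rw [hc]
        exact M.zero_mem
      · exact ih _ (hbn ▸ hc) _ (hc.le.trans hbm) rfl
  intro b hb
  exact key _ b (mem_v27pL_iff_ord.mp hb) rfl

variable (T)

/-- (T1) the monomials of weight `≤ m` span `L_m` -/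
theorem mw17tb_span_mon (m : ℕ) :
    Submodule.span K (Set.range (mw17Mon T (m := m))) = v27pL T m := by
  apply le_antisymm
  · rw [Submodule.span_le]
    rintro _ ⟨i, rfl⟩
    exact mw17tb_mon_mem T i
  · refine mw17tb_le_of_ord _ m fun b hb hbm => ?_
    obtain ⟨i, hi⟩ := mw17tb_exists_idx_of_ord T hb hbm
    exact ⟨mw17Mon T i, Submodule.subset_span ⟨i, rfl⟩, mw17tb_mon_ne_zero T i, by
      rw [mw17tb_ord_mon, hi]⟩


/-! ### products of the spaces `L_m` -/

theorem mw17tb_mul_le (a b : ℕ) : v27pL T a * v27pL T b ≤ v27pL T (a + b) := by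
  rw [Submodule.mul_le]
  intro f hf h hh
  exact V27pLe.mul hf hh

theorem mw17tb_one_mem (m : ℕ) : (1 : V27pB T) ∈ v27pL T m := by
  rw [mem_v27pL_iff_ord, v27pOrd_one]
  exact Nat.zero_le m

/-- (T3) `L_a * L_b = L_{a+b}` for `a, b ≥ 2 * δ.bound` -/
theorem mw17tb_mul_eq {a b : ℕ} (ha : 2 * δ.bound ≤ a) (hb : 2 * δ.bound ≤ b) :
    v27pL T a * v27pL T b = v27pL T (a + b) := by
  apply le_antisymm (mw17tb_mul_le T a b)
  refine mw17tb_le_of_ord _ (a + b) fun f hf hfm => ?_
  by_cases h1 : v27pOrd f ≤ a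
  · refine ⟨f, ?_, hf, rfl⟩
    have := Submodule.mul_mem_mul (mem_v27pL_iff_ord.mpr h1) (mw17tb_one_mem T b)
    rwa [mul_one] at this
  by_cases h2 : v27pOrd f ≤ b
  · refine ⟨f, ?_, hf, rfl⟩
    have := Submodule.mul_mem_mul (mw17tb_one_mem T a) (mem_v27pL_iff_ord.mpr h2)
    rwa [one_mul] at this
  push Not at h1 h2
  -- split `k = i + j` with `δ.bound ≤ i ≤ a`, `δ.bound ≤ j ≤ b`
  obtain ⟨i, j, hi, hia, hj, hjb, hij⟩ : ∃ i j : ℕ, δ.bound ≤ i ∧ i ≤ a ∧ δ.bound ≤ j ∧ j ≤ b ∧
      i + j = v27pOrd f := by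
    by_cases h3 : a + δ.bound ≤ v27pOrd f
    · exact ⟨a, v27pOrd f - a, by omega, le_rfl, by omega, by omega, by omega⟩
    · exact ⟨v27pOrd f - δ.bound, δ.bound, by omega, by omega, le_rfl, by omega, by omega⟩
  obtain ⟨i', hi'⟩ := mw17tb_exists_idx_of_bound (δ := δ) (m := a) hi hia
  obtain ⟨j', hj'⟩ := mw17tb_exists_idx_of_bound (δ := δ) (m := b) hj hjb
  refine ⟨mw17Mon T i' * mw17Mon T j',
    Submodule.mul_mem_mul (mw17tb_mon_mem T i') (mw17tb_mon_mem T j'),
    mul_ne_zero (mw17tb_mon_ne_zero T i') (mw17tb_mon_ne_zero T j'), ?_⟩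
  rw [v27pOrd_mul (mw17tb_mon_ne_zero T i') (mw17tb_mon_ne_zero T j'), mw17tb_ord_mon,
    mw17tb_ord_mon, hi', hj', hij]

theorem mw17tb_L_zero : v27pL T 0 = 1 := by
  apply le_antisymm
  · refine mw17tb_le_of_ord _ 0 fun f hf hfm => ?_
    refine ⟨1, Submodule.one_le.mp le_rfl, one_ne_zero, ?_⟩
    rw [v27pOrd_one]
    omega
  · rw [Submodule.one_le]
    exact mw17tb_one_mem T 0

/-- (T3') `L_n ^ k = L_{k n}` for `n ≥ 2 * δ.bound` -/
theorem mw17tb_pow_eq {n : ℕ} (hn : 2 * δ.bound ≤ n) (k : ℕ) :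
    v27pL T n ^ k = v27pL T (k * n) := by
  induction k with
  | zero => rw [pow_zero, Nat.zero_mul, mw17tb_L_zero]
  | succ k ih =>
    rcases Nat.eq_zero_or_pos k with rfl | hk
    · rw [zero_add, pow_one, Nat.one_mul]
    · rw [pow_succ, ih, mw17tb_mul_eq T (by nlinarith) hn]
      congr 1
      ring


/-! ### forms in the monomial basis -/

/-- pure algebra: an element of the `k`-th power of the span of a family is a form of degree `k`
in the family -/
theorem mw17tb_exists_homogeneous_of_mem_pow {A ι : Type*} [CommRing A] [Algebra K A]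
    (φ : ι → A) (k : ℕ) (f : A) (hf : f ∈ Submodule.span K (Set.range φ) ^ k) :
    ∃ p : MvPolynomial ι K, p.IsHomogeneous k ∧ MvPolynomial.aeval φ p = f := by
  -- the image of the forms of degree `k`
  have key : ∀ k : ℕ, Submodule.span K (Set.range φ) ^ k ≤
      (MvPolynomial.homogeneousSubmodule ι K k).map (MvPolynomial.aeval φ).toLinearMap := by
    intro k
    induction k with
    | zero =>
      rw [pow_zero, Submodule.one_le]
      exact ⟨1, MvPolynomial.isHomogeneous_one ι K, map_one (MvPolynomial.aeval φ)⟩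
    | succ k ih =>
      rw [pow_succ, Submodule.mul_le]
      intro a ha b hb
      obtain ⟨p, hp, rfl⟩ := ih ha
      refine Submodule.span_induction (p := fun b _ => (MvPolynomial.aeval φ).toLinearMap p * b ∈
        (MvPolynomial.homogeneousSubmodule ι K (k + 1)).map (MvPolynomial.aeval φ).toLinearMap)
        ?_ ?_ ?_ ?_ hb
      · rintro _ ⟨i, rfl⟩
        refine ⟨p * MvPolynomial.X i, ?_, ?_⟩
        · exact MvPolynomial.IsHomogeneous.mul hp (MvPolynomial.isHomogeneous_X K i)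
        · simp
      · rw [mul_zero]
        exact Submodule.zero_mem _
      · intro x y _ _ hx hy
        rw [mul_add]
        exact Submodule.add_mem _ hx hy
      · intro c x _ hx
        rw [mul_smul_comm]
        exact Submodule.smul_mem _ c hx
  obtain ⟨p, hp, hpf⟩ := key k hf
  exact ⟨p, hp, hpf⟩

/-- (T4) **projective normality on the table ring**: every element of `L_{k n}` is a form of
degree `k` in the monomial basis of `L_n` (`n ≥ 2 * δ.bound`) -/
theorem mw17tb_exists_homogeneous {n : ℕ} (hn : 2 * δ.bound ≤ n) (k : ℕ) (b : V27pB T)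
    (hb : V27pLe b (k * n)) :
    ∃ p : MvPolynomial (Mw17Idx δ n) K, p.IsHomogeneous k ∧
      MvPolynomial.aeval (mw17Mon T (m := n)) p = b := by
  apply mw17tb_exists_homogeneous_of_mem_pow
  rw [mw17tb_span_mon, mw17tb_pow_eq T hn]
  exact hb

/-- converse: a form of degree `k` in the monomials of `L_n` lies in `L_{k n}` (any `n`) -/
theorem mw17tb_aeval_le (n k : ℕ) (p : MvPolynomial (Mw17Idx δ n) K) (hp : p.IsHomogeneous k) :
    V27pLe (MvPolynomial.aeval (mw17Mon T (m := n)) p) (k * n) := by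
  classical
  have hmon : ∀ s : Mw17Idx δ n →₀ ℕ, V27pLe
      (s.prod fun i e => mw17Mon T i ^ e) (s.degree * n) := by
    intro s
    induction s using Finsupp.induction with
    | zero =>
      rw [Finsupp.prod_zero_index]
      exact mw17tb_one_mem T _
    | single_add i e s hi he ih =>
      rw [Finsupp.prod_add_index' (fun _ => pow_zero _) (fun _ _ _ => pow_add _ _ _),
        Finsupp.prod_single_index (h := fun i e => mw17Mon T i ^ e) (pow_zero _), map_add,
        Finsupp.degree_single, Nat.add_mul]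
      refine V27pLe.mul ?_ ih
      have h1 : ∀ e : ℕ, V27pLe (mw17Mon T i ^ e) (e * n) := by
        intro e
        induction e with
        | zero =>
          rw [pow_zero]
          exact mw17tb_one_mem T _
        | succ e ihe =>
          rw [pow_succ, Nat.succ_mul]
          exact V27pLe.mul ihe (mw17tb_mon_mem T i)
      exact h1 e
  rw [MvPolynomial.aeval_def, MvPolynomial.eval₂_eq]
  refine Submodule.sum_mem (v27pL T (k * n)) fun s hs => ?_
  rw [← Algebra.smul_def]
  refine Submodule.smul_mem _ _ ?_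
  have hdeg : s.degree = k := by
    rw [Finsupp.degree_eq_weight_one]
    exact hp (MvPolynomial.mem_support_iff.mp hs)
  have h2 := hmon s
  rw [hdeg] at h2
  rw [Finsupp.prod] at h2
  exact h2


/-! ### the top monomial -/

theorem mw17tb_wt_injective {m : ℕ} : Function.Injective (mw17Wt (δ := δ) (m := m)) := by
  intro i j h
  obtain ⟨h1, h2⟩ := δ.weight_inj (show δ.N * (i.1.2 : ℕ) + δ.d i.1.1 = δ.N * (j.1.2 : ℕ) +
    δ.d j.1.1 from h)
  apply Subtype.ext
  exact Prod.ext h1 (Fin.ext h2)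

/-- (T5) the index of the monomial of exact order `n` (`n ≥ δ.bound`; junk otherwise) -/
def mw17tbTop (δ : V27pShape) (n : ℕ) : Mw17Idx δ n :=
  if h : ∃ i : Mw17Idx δ n, mw17Wt i = n then h.choose else mw17IdxZero δ n

theorem mw17tbTop_wt {n : ℕ} (hn : δ.bound ≤ n) : mw17Wt (mw17tbTop δ n) = n := by
  have h : ∃ i : Mw17Idx δ n, mw17Wt i = n := mw17tb_exists_idx_of_bound hn le_rfl
  rw [mw17tbTop, dif_pos h]
  exact h.choose_spec

theorem mw17tb_wt_lt_of_ne_top {n : ℕ} (hn : δ.bound ≤ n) (i : Mw17Idx δ n)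
    (hi : i ≠ mw17tbTop δ n) : mw17Wt i < n := by
  refine lt_of_le_of_ne (mw17Wt_le i) fun h => hi ?_
  apply mw17tb_wt_injective
  rw [h, mw17tbTop_wt hn]

theorem mw17tb_ord_top {n : ℕ} (hn : δ.bound ≤ n) :
    v27pOrd (mw17Mon T (mw17tbTop δ n)) = n := by
  rw [mw17tb_ord_mon, mw17tbTop_wt hn]

/-! ### the inputs of `HT/Cone.lean` for `φ := mw17Mon T (m := n)` -/

/-- (T6a) the monomials of `L_n` generate `B` as a `K`-algebra (`n ≥ N`, `n ≥ δ.bound`) -/
theorem mw17tb_adjoin_eq_top {n : ℕ} (hN : δ.N ≤ n) (hn : δ.bound ≤ n) :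
    Algebra.adjoin K (Set.range (mw17Mon T (m := n))) = ⊤ := by
  rw [eq_top_iff]
  intro b _
  -- `x` and the `e j` are monomials of `L_n`
  have hNpos := δ.hN
  have hx : V27pB.x (T := T) ∈ Algebra.adjoin K (Set.range (mw17Mon T (m := n))) := by
    refine Algebra.subset_adjoin ⟨⟨((0 : ZMod δ.N), ⟨1, by omega⟩), ?_⟩, ?_⟩
    · simp only [δ.d_zero]
      omega
    · simp [mw17Mon, V27pB.e_zero]
  have he : ∀ j, V27pB.e (T := T) j ∈ Algebra.adjoin K (Set.range (mw17Mon T (m := n))) := by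
    intro j
    refine Algebra.subset_adjoin ⟨⟨(j, ⟨0, by omega⟩), ?_⟩, ?_⟩
    · have := δ.d_le_bound j
      simp only
      omega
    · simp [mw17Mon]
  have hpoly : ∀ p : Polynomial K, algebraMap (Polynomial K) (V27pB T) p ∈
      Algebra.adjoin K (Set.range (mw17Mon T (m := n))) := by
    intro p
    have h1 : algebraMap (Polynomial K) (V27pB T) p = Polynomial.aeval (V27pB.x (T := T)) p := by
      rw [V27pB.x, Polynomial.aeval_algebraMap_apply, Polynomial.aeval_X_left_apply]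
    rw [h1, Polynomial.aeval_eq_sum_range]
    refine Subalgebra.sum_mem _ fun r _ => ?_
    exact Subalgebra.smul_mem _ (Subalgebra.pow_mem _ hx r) _
  rw [V27pB.eq_sum_smul_e b]
  refine Subalgebra.sum_mem _ fun j _ => ?_
  rw [Algebra.smul_def]
  exact Subalgebra.mul_mem _ (hpoly (b j)) (he j)

theorem mw17tb_ord_pow {a : V27pB T} (ha : a ≠ 0) (k : ℕ) : v27pOrd (a ^ k) = k * v27pOrd a := by
  induction k with
  | zero => rw [pow_zero, v27pOrd_one, Nat.zero_mul]
  | succ k ih => rw [pow_succ, v27pOrd_mul (pow_ne_zero k ha) ha, ih, Nat.succ_mul]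

/-- (T6b) the hypothesis `hpow` of `htcn_exists_(bi)certificate(_top)` -/
theorem mw17tb_hpow {n : ℕ} (hn : 2 * δ.bound ≤ n) (l : Mw17Idx δ n)
    (hl : l ≠ mw17tbTop δ n) :
    ∃ n' : ℕ, 0 < n' ∧ ∃ p : MvPolynomial (Mw17Idx δ n) K, p.IsHomogeneous (n' - 1) ∧
      MvPolynomial.aeval (mw17Mon T (m := n)) p = mw17Mon T l ^ n' := by
  have hb : δ.bound ≤ n := by omega
  have hlt := mw17tb_wt_lt_of_ne_top hb l hl
  have hn0 : 0 < n := by omega
  refine ⟨n, hn0, ?_⟩
  apply mw17tb_exists_homogeneous T hn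
  rw [← v27pOrd_le_iff, mw17tb_ord_pow T (mw17tb_mon_ne_zero T l), mw17tb_ord_mon, Nat.mul_comm]
  exact Nat.mul_le_mul_right n (by omega)


/-! ### values at points: the comparison of `ψ_{kn}` with the forms of degree `k` in `ψ_n` -/

theorem mw17tb_apply_aeval (n : ℕ) (q : Mw17Pt T) (p : MvPolynomial (Mw17Idx δ n) K) :
    q (MvPolynomial.aeval (mw17Mon T (m := n)) p) = MvPolynomial.eval (mw17Psi T n q) p := by
  rw [MvPolynomial.comp_aeval_apply]
  rfl

/-- (T1') every element of `L_m` is a section `mw17Sec T m u` -/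
theorem mw17tb_exists_sec {m : ℕ} {b : V27pB T} (hb : V27pLe b m) :
    ∃ u : Mw17Idx δ m → K, mw17Sec T m u = b := by
  have h1 : b ∈ Submodule.span K (Set.range (mw17Mon T (m := m))) := by
    rw [mw17tb_span_mon]
    exact hb
  obtain ⟨u, hu⟩ := (Submodule.mem_span_range_iff_exists_fun K).mp h1
  exact ⟨u, hu⟩

theorem mw17tb_sec_le (m : ℕ) (u : Mw17Idx δ m → K) : V27pLe (mw17Sec T m u) m := by
  have : mw17Sec T m u ∈ v27pL T m :=
    Submodule.sum_mem _ fun i _ => Submodule.smul_mem _ _ (mw17tb_mon_mem T i)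
  exact this

/-- (N1) each coordinate of `ψ_{kn}` is a form of degree `k` in `ψ_n` -/
theorem mw17tb_psi_eq_eval {n : ℕ} (hn : 2 * δ.bound ≤ n) (k : ℕ) (i : Mw17Idx δ (k * n)) :
    ∃ p : MvPolynomial (Mw17Idx δ n) K, p.IsHomogeneous k ∧
      ∀ q : Mw17Pt T, mw17Psi T (k * n) q i = MvPolynomial.eval (mw17Psi T n q) p := by
  obtain ⟨p, hp, hpi⟩ := mw17tb_exists_homogeneous T hn k (mw17Mon T i) (mw17tb_mon_mem T i)
  refine ⟨p, hp, fun q => ?_⟩
  rw [← mw17tb_apply_aeval, hpi]
  rfl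

/-- (N2) each form of degree `k` in `ψ_n` is a fixed linear combination of the coordinates of
`ψ_{kn}` -/
theorem mw17tb_eval_eq_sum (n k : ℕ) (p : MvPolynomial (Mw17Idx δ n) K) (hp : p.IsHomogeneous k) :
    ∃ c : Mw17Idx δ (k * n) → K, ∀ q : Mw17Pt T,
      MvPolynomial.eval (mw17Psi T n q) p = ∑ i, c i * mw17Psi T (k * n) q i := by
  obtain ⟨c, hc⟩ := mw17tb_exists_sec T (mw17tb_aeval_le T n k p hp)
  refine ⟨c, fun q => ?_⟩
  rw [← mw17tb_apply_aeval, ← hc, mw17Sec_apply]

end Fermat.Agent.MW17
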