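import Mathlib
import Fermat.Agent.MW17.Spec
import Fermat.Agent.MW17.PnTable

/-!
# Program MW (S17), heights half (A): the local statement `Mw17P0Loc`

Owner: helper28.  Namespace `Fermat.Agent.MW17`, prefix `mw17pz`.
See `blueprints/S17-heights.md` (origin/helper16) and `MW17/Spec.lean`.

`δ_w(P0, R)^n ≍ ‖φR‖_w⁻¹` where `φ = ψ_n`, `φ(P0) = e_t`, `t` the top index (`mw17Wt t = n`).

With `S := ‖e_t ∧ φR‖ = sup_{i ≠ t} |ψ_i R|` one has `δ(P0,R) = S / ‖φR‖` and

* `S ^ n ≤ C ‖φR‖ ^ (n-1)` : for `i ≠ t` the monomial `mon_i` has pole order `≤ n - 1`, so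
  `mon_i ^ n ∈ L_{(n-1) n}` is a form of degree `n - 1` in the monomial basis of `L_n`
  (projective normality at level `n`);
* `‖φR‖ ^ (n-1) ≤ C S ^ n` : `mon_t ^ (n-1) ∈ L_{n (n-1)}` is a form of degree `n` in the monomial
  basis of `L_{n-1}` (projective normality at level `n - 1`), whose values at `R` are among the
  `ψ_i R`, `i ≠ t`; for `i ≠ t` use `1 ≤ S`.
-/

set_option autoImplicit false

noncomputable section

namespace Fermat.Agent.MW17

open Fermat.Agent.V Fermat.Agent.HT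

variable {K : Type*} [Field K]

/-! ### the wedge with a basis vector -/

section Single

variable {ι : Type*} [Finite ι] [DecidableEq ι]

theorem mw17pz_sup_single (w : AbsoluteValue K ℝ) (t : ι) :
    htlSup w (Pi.single t (1 : K)) = 1 := by
  apply le_antisymm
  · refine htlSup_le zero_le_one fun i => ?_
    by_cases h : i = t
    · subst h
      rw [Pi.single_eq_same, map_one]
    · rw [Pi.single_eq_of_ne h, map_zero]
      exact zero_le_one
  · have := htl_le_sup w (Pi.single t (1 : K)) t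
    rwa [Pi.single_eq_same, map_one] at this

/-- the coordinates `i ≠ t` of `y` are coordinates of `e_t ∧ y` -/
theorem mw17pz_le_sup_wedge (w : AbsoluteValue K ℝ) (t : ι) (y : ι → K) (i : ι) (hi : i ≠ t) :
    w (y i) ≤ htlSup w (htlWedge (Pi.single t (1 : K)) y) := by
  have := htl_le_sup w (htlWedge (Pi.single t (1 : K)) y) (t, i)
  rwa [htlWedge_apply, Pi.single_eq_same, Pi.single_eq_of_ne hi, one_mul, zero_mul, sub_zero]
    at this

omit [Finite ι] in
/-- every coordinate of `e_t ∧ y` is `0` or `± y i` with `i ≠ t` -/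
theorem mw17pz_wedge_single_cases (t : ι) (y : ι → K) (p : ι × ι) :
    htlWedge (Pi.single t (1 : K)) y p = 0 ∨
      ∃ i, i ≠ t ∧ (htlWedge (Pi.single t (1 : K)) y p = y i ∨
        htlWedge (Pi.single t (1 : K)) y p = -y i) := by
  obtain ⟨a, b⟩ := p
  rw [htlWedge_apply]
  by_cases ha : a = t
  · by_cases hb : b = t
    · left
      rw [ha, hb]
      ring
    · right
      refine ⟨b, hb, Or.inl ?_⟩
      rw [ha, Pi.single_eq_same, Pi.single_eq_of_ne hb]
      ring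
  · by_cases hb : b = t
    · right
      refine ⟨a, ha, Or.inr ?_⟩
      rw [hb, Pi.single_eq_same, Pi.single_eq_of_ne ha]
      ring
    · left
      rw [Pi.single_eq_of_ne ha, Pi.single_eq_of_ne hb]
      ring

/-- a bound for the coordinates `i ≠ t` of `y` bounds `‖e_t ∧ y‖` -/
theorem mw17pz_sup_wedge_le (w : AbsoluteValue K ℝ) (t : ι) (y : ι → K) {B : ℝ} (hB : 0 ≤ B)
    (h : ∀ i, i ≠ t → w (y i) ≤ B) :
    htlSup w (htlWedge (Pi.single t (1 : K)) y) ≤ B := by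
  refine htlSup_le hB fun p => ?_
  rcases mw17pz_wedge_single_cases t y p with h0 | ⟨i, hi, h1 | h1⟩
  · rw [h0, map_zero]
    exact hB
  · rw [h1]
    exact h i hi
  · rw [h1, map_neg_eq_map]
    exact h i hi

/-- `‖e_t ∧ y‖` is attained at a coordinate `i ≠ t` of `y`, or vanishes -/
theorem mw17pz_sup_wedge_eq [Nonempty ι] (w : AbsoluteValue K ℝ) (t : ι) (y : ι → K) :
    htlSup w (htlWedge (Pi.single t (1 : K)) y) = 0 ∨
      ∃ i, i ≠ t ∧ htlSup w (htlWedge (Pi.single t (1 : K)) y) = w (y i) := by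
  obtain ⟨p, hp⟩ := htl_exists_eq_sup w (htlWedge (Pi.single t (1 : K)) y)
  rcases mw17pz_wedge_single_cases t y p with h0 | ⟨i, hi, h1 | h1⟩
  · left
    rw [hp, h0, map_zero]
  · right
    exact ⟨i, hi, by rw [hp, h1]⟩
  · right
    exact ⟨i, hi, by rw [hp, h1, map_neg_eq_map]⟩

end Single

variable {δ : V27pShape} (T : V27pTable K δ)

/-! ### the two comparisons -/

/-- a non-top index has weight `< n` -/
theorem mw17pz_wt_lt {n : ℕ} (t : Mw17Idx δ n) (ht : mw17Wt t = n) (i : Mw17Idx δ n)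
    (hi : i ≠ t) : mw17Wt i < n := by
  refine lt_of_le_of_ne (mw17Wt_le i) fun h => hi ?_
  apply mw17tb_wt_injective
  rw [h, ht]

/-- the distance to `P0` as a quotient -/
theorem mw17pz_dl_eq (n : ℕ) (t : Mw17Idx δ n) (w : AbsoluteValue K ℝ) (R : Mw17Pt T) :
    mw17Dl T n t w none (some R) =
      htlSup w (htlWedge (Pi.single t (1 : K)) (mw17Psi T n R)) / htlSup w (mw17Psi T n R) := by
  rw [mw17Dl, mw17Phi_none, mw17Phi_some, htlDist]
  congr 1
  rw [mw17pz_sup_single w t, one_mul]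

/-- (upper) `|ψ_i R|^n ≤ C ‖φR‖^{n-1}` for `i ≠ t` -/
theorem mw17pz_upper {n : ℕ} (hn : 2 * δ.bound ≤ n) (t : Mw17Idx δ n) (ht : mw17Wt t = n) :
    ∃ C : HtConst K, ∀ (w : AbsoluteValue K ℝ) (R : Mw17Pt T) (i : Mw17Idx δ n), i ≠ t →
      w (mw17Psi T n R i) ^ n ≤ C.val w * htlSup w (mw17Psi T n R) ^ (n - 1) := by
  classical
  -- for each `i ≠ t` a form of degree `n - 1`
  have hform : ∀ i : Mw17Idx δ n, i ≠ t → ∃ p : MvPolynomial (Mw17Idx δ n) K,
      p.IsHomogeneous (n - 1) ∧ MvPolynomial.aeval (mw17Mon T (m := n)) p = mw17Mon T i ^ n := by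
    intro i hi
    apply mw17tb_exists_homogeneous T hn
    rw [← v27pOrd_le_iff, mw17tb_ord_pow T (mw17tb_mon_ne_zero T i), mw17tb_ord_mon, Nat.mul_comm]
    have := mw17pz_wt_lt t ht i hi
    exact Nat.mul_le_mul_right n (by omega)
  choose p hp hpe using hform
  let Cf : Mw17Idx δ n → HtConst K := fun i =>
    if h : i ≠ t then htlPolyConst (p i h) else HtConst.one
  obtain ⟨C, hC⟩ := htl_val_finset Finset.univ Cf
  refine ⟨C, fun w R i hi => ?_⟩
  have h1 : w (mw17Psi T n R i) ^ n = w (MvPolynomial.eval (mw17Psi T n R) (p i hi)) := by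
    rw [← mw17tb_apply_aeval, hpe i hi, map_pow, map_pow]
    rfl
  rw [h1]
  refine le_trans (htl_eval_le' (hp i hi) w (mw17Psi T n R)) ?_
  refine mul_le_mul_of_nonneg_right ?_ (pow_nonneg (htlSup_nonneg _ _) _)
  have := hC i (Finset.mem_univ i) w
  simpa only [Cf, dif_pos hi] using this

/-- (lower, top coordinate) `|ψ_t R|^{n-1} ≤ C ‖ψ_{n-1} R‖^n` -/
theorem mw17pz_lower_top {n : ℕ} (hn : 2 * δ.bound + 1 ≤ n) (t : Mw17Idx δ n) :
    ∃ C : HtConst K, ∀ (w : AbsoluteValue K ℝ) (R : Mw17Pt T),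
      w (mw17Psi T n R t) ^ (n - 1) ≤ C.val w * htlSup w (mw17Psi T (n - 1) R) ^ n := by
  have hform : ∃ p : MvPolynomial (Mw17Idx δ (n - 1)) K, p.IsHomogeneous n ∧
      MvPolynomial.aeval (mw17Mon T (m := n - 1)) p = mw17Mon T t ^ (n - 1) := by
    apply mw17tb_exists_homogeneous T (by omega)
    rw [← v27pOrd_le_iff, mw17tb_ord_pow T (mw17tb_mon_ne_zero T t), mw17tb_ord_mon, Nat.mul_comm]
    exact Nat.mul_le_mul_right (n - 1) (mw17Wt_le t)
  obtain ⟨p, hp, hpe⟩ := hform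
  refine ⟨htlPolyConst p, fun w R => ?_⟩
  have h1 : w (mw17Psi T n R t) ^ (n - 1) = w (MvPolynomial.eval (mw17Psi T (n - 1) R) p) := by
    rw [← mw17tb_apply_aeval, hpe, map_pow, map_pow]
    rfl
  rw [h1]
  exact htl_eval_le' hp w (mw17Psi T (n - 1) R)

/-- `‖ψ_{n-1} R‖ ≤ ‖e_t ∧ ψ_n R‖` -/
theorem mw17pz_psi_pred_le {n : ℕ} (hn : 1 ≤ n) (t : Mw17Idx δ n) (ht : mw17Wt t = n)
    (w : AbsoluteValue K ℝ) (R : Mw17Pt T) :
    htlSup w (mw17Psi T (n - 1) R) ≤
      htlSup w (htlWedge (Pi.single t (1 : K)) (mw17Psi T n R)) := by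
  refine htlSup_le (htlSup_nonneg _ _) fun i => ?_
  have hle : n - 1 ≤ n := Nat.sub_le n 1
  have hne : mw17IdxIncl hle i ≠ t := by
    intro h
    have h1 : mw17Wt (mw17IdxIncl hle i) = mw17Wt i := rfl
    have h2 := mw17Wt_le i
    rw [h, ht] at h1
    omega
  have e : mw17Psi T (n - 1) R i = mw17Psi T n R (mw17IdxIncl hle i) := rfl
  rw [e]
  exact mw17pz_le_sup_wedge w t (mw17Psi T n R) (mw17IdxIncl hle i) hne

/-- `1 ≤ ‖e_t ∧ ψ_n R‖` -/
theorem mw17pz_one_le {n : ℕ} (hn : 1 ≤ n) (t : Mw17Idx δ n) (ht : mw17Wt t = n)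
    (w : AbsoluteValue K ℝ) (R : Mw17Pt T) :
    1 ≤ htlSup w (htlWedge (Pi.single t (1 : K)) (mw17Psi T n R)) := by
  have hne : mw17IdxZero δ n ≠ t := by
    intro h
    have h1 : mw17Wt (mw17IdxZero δ n) = 0 := by
      simp [mw17Wt, mw17IdxZero, δ.d_zero]
    rw [h, ht] at h1
    omega
  have := mw17pz_le_sup_wedge w t (mw17Psi T n R) (mw17IdxZero δ n) hne
  rwa [mw17Psi_zero, map_one] at this

/-! ### the statement -/

/-- **`Mw17P0Loc`**: `δ_w(P0,R)^n ≍ ‖φR‖⁻¹`. -/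
theorem mw17pz_main {n : ℕ} (hn : 2 * δ.bound + 1 ≤ n) (t : Mw17Idx δ n) (ht : mw17Wt t = n) :
    Mw17P0Loc T n t := by
  obtain ⟨C₁, hC₁⟩ := mw17pz_upper T (by omega) t ht
  obtain ⟨C₂, hC₂⟩ := mw17pz_lower_top T hn t
  have hn1 : 1 ≤ n := by omega
  refine ⟨C₁.mul C₂, fun w R => ?_⟩
  set S := htlSup w.1 (htlWedge (Pi.single t (1 : K)) (mw17Psi T n R)) with hS
  set F := htlSup w.1 (mw17Psi T n R) with hF
  have hFpos : 0 < F := htlSup_pos_iff.2 (mw17Psi_ne_zero T n R)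
  have hS1 : 1 ≤ S := mw17pz_one_le T hn1 t ht w.1 R
  have hSpos : 0 < S := lt_of_lt_of_le one_pos hS1
  have hdl : mw17Dl T n t w.1 none (some R) = S / F := mw17pz_dl_eq T n t w.1 R
  -- rewrite the quantity
  have hq : mw17Dl T n t w.1 none (some R) ^ n * F = S ^ n / F ^ (n - 1) := by
    rw [hdl, div_pow]
    have hFn : F ^ n = F ^ (n - 1) * F := by
      rw [← pow_succ]
      congr 1
      omega
    rw [hFn]
    field_simp
  rw [hq]
  have hFn1 : 0 < F ^ (n - 1) := pow_pos hFpos _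
  constructor
  · -- upper
    rw [div_le_iff₀ hFn1]
    have hup : S ^ n ≤ C₁.val w.1 * F ^ (n - 1) := by
      rcases mw17pz_sup_wedge_eq w.1 t (mw17Psi T n R) with h0 | ⟨i, hi, hi'⟩
      · exact absurd (hS ▸ h0) hSpos.ne'
      · rw [hS, hi']
        exact hC₁ w.1 R i hi
    refine le_trans hup (mul_le_mul_of_nonneg_right (htl_val_le_mul_left _ _ _) hFn1.le)
  · -- lower
    have hlow : F ^ (n - 1) ≤ C₂.val w.1 * S ^ n := by
      have hB : 0 ≤ C₂.val w.1 * S ^ n :=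
        mul_nonneg (htl_val_nonneg _ _) (pow_nonneg hSpos.le _)
      -- coordinatewise
      have hcoord : ∀ i : Mw17Idx δ n, w.1 (mw17Psi T n R i) ^ (n - 1) ≤ C₂.val w.1 * S ^ n := by
        intro i
        by_cases hi : i = t
        · subst hi
          refine le_trans (hC₂ w.1 R) ?_
          refine mul_le_mul_of_nonneg_left ?_ (htl_val_nonneg _ _)
          exact pow_le_pow_left₀ (htlSup_nonneg _ _) (mw17pz_psi_pred_le T hn1 i ht w.1 R) n
        · have h1 : w.1 (mw17Psi T n R i) ≤ S := mw17pz_le_sup_wedge w.1 t _ i hi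
          calc w.1 (mw17Psi T n R i) ^ (n - 1) ≤ S ^ (n - 1) :=
                pow_le_pow_left₀ (w.1.nonneg _) h1 _
            _ ≤ S ^ n := pow_le_pow_right₀ hS1 (Nat.sub_le n 1)
            _ ≤ C₂.val w.1 * S ^ n := htl_le_val_mul _ _ (pow_nonneg hSpos.le _)
      obtain ⟨i, hi⟩ := htl_exists_eq_sup w.1 (mw17Psi T n R)
      rw [hF, hi]
      exact hcoord i
    rw [mul_div_assoc', le_div_iff₀ hFn1, one_mul]
    refine le_trans hlow ?_
    exact mul_le_mul_of_nonneg_right (htl_val_le_mul_right _ _ _) (pow_nonneg hSpos.le _)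

/-- the version for the canonical top index of `MW17/PnTable.lean` -/
theorem mw17pz_main_top {n : ℕ} (hn : 2 * δ.bound + 1 ≤ n) :
    Mw17P0Loc T n (mw17tbTop δ n) :=
  mw17pz_main T hn (mw17tbTop δ n) (mw17tbTop_wt (by omega))

/-- `‖e_t ∧ ψ_n R‖ = ‖ψ_{n-1} R‖` : the numerator of `δ_w(P0,R)` is the sup norm of `ψ_{n-1} R` -/
theorem mw17pz_sup_wedge_eq_pred {n : ℕ} (hn : 1 ≤ n) (t : Mw17Idx δ n) (ht : mw17Wt t = n)
    (w : AbsoluteValue K ℝ) (R : Mw17Pt T) :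
    htlSup w (htlWedge (Pi.single t (1 : K)) (mw17Psi T n R)) =
      htlSup w (mw17Psi T (n - 1) R) := by
  refine le_antisymm ?_ (mw17pz_psi_pred_le T hn t ht w R)
  refine mw17pz_sup_wedge_le w t _ (htlSup_nonneg _ _) fun i hi => ?_
  have hlt := mw17pz_wt_lt t ht i hi
  have hNpos := δ.hN
  have hwt : δ.N * (i.1.2 : ℕ) + δ.d i.1.1 < n := hlt
  have hr : (i.1.2 : ℕ) < n - 1 + 1 := by
    have h1 : (i.1.2 : ℕ) ≤ δ.N * (i.1.2 : ℕ) := Nat.le_mul_of_pos_left _ hNpos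
    omega
  let i' : Mw17Idx δ (n - 1) := ⟨(i.1.1, ⟨(i.1.2 : ℕ), hr⟩), by simp only; omega⟩
  have e : mw17Psi T n R i = mw17Psi T (n - 1) R i' := rfl
  rw [e]
  exact htl_le_sup w _ i'

/-- `δ_w(P0,R) = ‖ψ_{n-1} R‖ / ‖ψ_n R‖` -/
theorem mw17pz_dl_eq_pred {n : ℕ} (hn : 1 ≤ n) (t : Mw17Idx δ n) (ht : mw17Wt t = n)
    (w : AbsoluteValue K ℝ) (R : Mw17Pt T) :
    mw17Dl T n t w none (some R) =
      htlSup w (mw17Psi T (n - 1) R) / htlSup w (mw17Psi T n R) := by
  rw [mw17pz_dl_eq, mw17pz_sup_wedge_eq_pred T hn t ht]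

end Fermat.Agent.MW17
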