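import Mathlib
import Fermat.Agent.MW.Res.Val

/-!
# Program MW (S17), heights half (A), leaf (INST), abstract part: a multiplicative leading coefficient
(prefix `mw17in` / `Mw17in`)

`B` a domain, a `K`-algebra, with an additive, ultrametric "pole order" `ord : B → ℕ` whose graded
pieces are at most one dimensional (`hone`) and whose values generate `ℤ` (`a₀`, `b₀` with
`ord a₀ = ord b₀ + 1`; think of `π = b₀ / a₀` as a uniformiser at infinity).  Then

  `lc b := ` the constant `c` with `b * b₀ ^ n - c • a₀ ^ n` of order `< n * ord a₀`, `n = ord b`,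

(the leading coefficient of `b * π ^ n`) is exactly multiplicative, and `(ord, lc)` is a
`MwrsVal K B` in the sense of helper5's `MW/Res/Val.lean`.
-/

set_option autoImplicit false
set_option linter.unusedSectionVars false

noncomputable section

namespace Fermat.Agent.MW17

open Fermat.Agent.MW

/-- a pole order with one dimensional graded pieces and a "uniformiser" `b₀ / a₀` -/
structure Mw17inOrd (K B : Type*) [Field K] [CommRing B] [Algebra K B] where
  /-- the pole order -/
  ord : B → ℕ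
  ord_mul : ∀ a b : B, a ≠ 0 → b ≠ 0 → ord (a * b) = ord a + ord b
  ord_add_le : ∀ a b : B, ord (a + b) ≤ max (ord a) (ord b)
  ord_algebraMap : ∀ c : K, ord (algebraMap K B c) = 0
  hone : ∀ a b : B, a ≠ 0 → b ≠ 0 → ord a = ord b →
    ∃ c : K, a - c • b = 0 ∨ ord (a - c • b) < ord a
  /-- numerator of the inverse uniformiser -/
  a₀ : B
  /-- denominator of the inverse uniformiser -/
  b₀ : B
  ha₀ : a₀ ≠ 0
  hb₀ : b₀ ≠ 0
  hab : ord a₀ = ord b₀ + 1

namespace Mw17inOrd

variable {K B : Type*} [Field K] [CommRing B] [IsDomain B] [Algebra K B] (D : Mw17inOrd K B)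

include D

theorem algebraMap_ne_zero {c : K} (hc : c ≠ 0) : algebraMap K B c ≠ 0 := by
  rw [ne_eq, ← map_zero (algebraMap K B), (algebraMap K B).injective.eq_iff]
  exact hc

theorem smul_ne_zero {c : K} (hc : c ≠ 0) {a : B} (ha : a ≠ 0) : c • a ≠ 0 := by
  rw [Algebra.smul_def]
  exact mul_ne_zero (D.algebraMap_ne_zero hc) ha

theorem ord_smul {c : K} (hc : c ≠ 0) (a : B) : D.ord (c • a) = D.ord a := by
  by_cases ha : a = 0
  · rw [ha, smul_zero]
  · rw [Algebra.smul_def, D.ord_mul _ _ (D.algebraMap_ne_zero hc) ha, D.ord_algebraMap, zero_add]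

theorem ord_neg (a : B) : D.ord (-a) = D.ord a := by
  have := D.ord_smul (c := (-1 : K)) (by norm_num) a
  rwa [neg_one_smul] at this

theorem ord_one : D.ord 1 = 0 := by
  have := D.ord_algebraMap 1
  rwa [map_one] at this

theorem ord_pow {a : B} (ha : a ≠ 0) (k : ℕ) : D.ord (a ^ k) = k * D.ord a := by
  induction k with
  | zero => rw [pow_zero, zero_mul, D.ord_one]
  | succ k ih =>
    rw [pow_succ, D.ord_mul _ _ (pow_ne_zero k ha) ha, ih]
    ring

/-- `r` is negligible with respect to the order `n` -/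
def Small (n : ℕ) (r : B) : Prop := r = 0 ∨ D.ord r < n

theorem small_zero (n : ℕ) : D.Small n 0 := Or.inl rfl

theorem small_add {n : ℕ} {x y : B} (hx : D.Small n x) (hy : D.Small n y) :
    D.Small n (x + y) := by
  rcases hx with rfl | hx
  · rwa [zero_add]
  rcases hy with rfl | hy
  · rw [add_zero]; exact Or.inr hx
  exact Or.inr (lt_of_le_of_lt (D.ord_add_le x y) (max_lt hx hy))

theorem small_neg {n : ℕ} {x : B} (hx : D.Small n x) : D.Small n (-x) := by
  rcases hx with rfl | hx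
  · rw [neg_zero]; exact D.small_zero n
  · exact Or.inr (by rwa [D.ord_neg])

theorem small_sub {n : ℕ} {x y : B} (hx : D.Small n x) (hy : D.Small n y) :
    D.Small n (x - y) := by
  rw [sub_eq_add_neg]
  exact D.small_add hx (D.small_neg hy)

theorem small_smul {n : ℕ} (c : K) {x : B} (hx : D.Small n x) : D.Small n (c • x) := by
  by_cases hc : c = 0
  · rw [hc, zero_smul]; exact D.small_zero n
  rcases hx with rfl | hx
  · rw [smul_zero]; exact D.small_zero n
  · exact Or.inr (by rwa [D.ord_smul hc])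

theorem small_mul_left {n : ℕ} {a : B} (ha : a ≠ 0) {x : B} (hx : D.Small n x) :
    D.Small (D.ord a + n) (a * x) := by
  rcases hx with rfl | hx
  · rw [mul_zero]; exact D.small_zero _
  by_cases hx0 : x = 0
  · rw [hx0, mul_zero]; exact D.small_zero _
  · right
    rw [D.ord_mul a x ha hx0]
    omega

theorem small_mul {n m : ℕ} {x y : B} (hx : D.Small n x) (hy : D.Small m y) :
    D.Small (n + m) (x * y) := by
  rcases hx with rfl | hx
  · rw [zero_mul]; exact D.small_zero _
  by_cases hx0 : x = 0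
  · rw [hx0, zero_mul]; exact D.small_zero _
  rcases hy with rfl | hy
  · rw [mul_zero]; exact D.small_zero _
  by_cases hy0 : y = 0
  · rw [hy0, mul_zero]; exact D.small_zero _
  right
  rw [D.ord_mul x y hx0 hy0]
  omega

theorem small_mono {n m : ℕ} (h : n ≤ m) {x : B} (hx : D.Small n x) : D.Small m x := by
  rcases hx with rfl | hx
  · exact D.small_zero m
  · exact Or.inr (lt_of_lt_of_le hx h)

theorem not_small_self {a : B} (ha : a ≠ 0) : ¬ D.Small (D.ord a) a := by
  rintro (h | h)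
  · exact ha h
  · exact lt_irrefl _ h

theorem ord_add_small {a r : B} (hr : D.Small (D.ord a) r) : D.ord (a + r) = D.ord a := by
  rcases hr with rfl | hr
  · rw [add_zero]
  refine le_antisymm ((D.ord_add_le a r).trans (max_le le_rfl hr.le)) ?_
  by_contra hlt
  rw [not_le] at hlt
  have h1 : D.ord a ≤ max (D.ord (a + r)) (D.ord (-r)) := by
    have := D.ord_add_le (a + r) (-r)
    rwa [add_neg_cancel_right] at this
  rw [D.ord_neg] at h1
  exact absurd h1 (not_le.2 (max_lt hlt hr))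

theorem add_small_ne_zero {a r : B} (ha : a ≠ 0) (hr : D.Small (D.ord a) r) : a + r ≠ 0 := by
  intro h
  have h1 : r = -a := by linear_combination h
  rw [h1] at hr
  have := D.small_neg hr
  rw [neg_neg] at this
  exact D.not_small_self ha this

theorem ord_a₀_pos : 0 < D.ord D.a₀ := by rw [D.hab]; omega

/-- the order of `b * b₀ ^ ord b` -/
theorem ord_mul_pow {b : B} (hb : b ≠ 0) :
    D.ord (b * D.b₀ ^ D.ord b) = D.ord b * D.ord D.a₀ := by
  rw [D.ord_mul _ _ hb (pow_ne_zero _ D.hb₀), D.ord_pow D.hb₀, D.hab]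
  ring

theorem ord_a₀_pow (n : ℕ) : D.ord (D.a₀ ^ n) = n * D.ord D.a₀ := D.ord_pow D.ha₀ n

/-- `c` is the leading coefficient of `b` -/
def Rel (b : B) (c : K) : Prop :=
  D.Small (D.ord b * D.ord D.a₀) (b * D.b₀ ^ D.ord b - c • D.a₀ ^ D.ord b)

theorem rel_exists {b : B} (hb : b ≠ 0) : ∃ c : K, D.Rel b c := by
  have h1 : b * D.b₀ ^ D.ord b ≠ 0 := mul_ne_zero hb (pow_ne_zero _ D.hb₀)
  have h2 : D.a₀ ^ D.ord b ≠ 0 := pow_ne_zero _ D.ha₀
  obtain ⟨c, hc⟩ := D.hone _ _ h1 h2 (by rw [D.ord_mul_pow hb, D.ord_a₀_pow])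
  refine ⟨c, ?_⟩
  unfold Rel Small
  rw [D.ord_mul_pow hb] at hc
  exact hc

theorem rel_ne_zero {b : B} (hb : b ≠ 0) {c : K} (h : D.Rel b c) : c ≠ 0 := by
  rintro rfl
  unfold Rel at h
  rw [zero_smul, sub_zero, ← D.ord_mul_pow hb] at h
  exact D.not_small_self (mul_ne_zero hb (pow_ne_zero _ D.hb₀)) h

theorem rel_unique {b : B} {c c' : K} (h : D.Rel b c) (h' : D.Rel b c') : c = c' := by
  by_contra hne
  have h1 := D.small_sub h' h
  have h2 : b * D.b₀ ^ D.ord b - c' • D.a₀ ^ D.ord b - (b * D.b₀ ^ D.ord b - c • D.a₀ ^ D.ord b) =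
      (c - c') • D.a₀ ^ D.ord b := by
    rw [sub_smul]; ring
  rw [h2] at h1
  have h3 : D.ord ((c - c') • D.a₀ ^ D.ord b) = D.ord b * D.ord D.a₀ := by
    rw [D.ord_smul (sub_ne_zero.mpr hne), D.ord_a₀_pow]
  rw [← h3] at h1
  exact D.not_small_self (D.smul_ne_zero (sub_ne_zero.mpr hne) (pow_ne_zero _ D.ha₀)) h1

theorem rel_mul {a b : B} (ha : a ≠ 0) (hb : b ≠ 0) {c c' : K} (h : D.Rel a c) (h' : D.Rel b c') :
    D.Rel (a * b) (c * c') := by
  unfold Rel at *
  rw [D.ord_mul a b ha hb]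
  set n := D.ord a
  set m := D.ord b
  set A := D.ord D.a₀
  set r := a * D.b₀ ^ n - c • D.a₀ ^ n with hr
  set r' := b * D.b₀ ^ m - c' • D.a₀ ^ m with hr'
  have hc : c ≠ 0 := D.rel_ne_zero ha h
  have hc' : c' ≠ 0 := D.rel_ne_zero hb h'
  have hkey : a * b * D.b₀ ^ (n + m) - (c * c') • D.a₀ ^ (n + m) =
      (c • D.a₀ ^ n) * r' + (c' • D.a₀ ^ m) * r + r * r' := by
    rw [hr, hr', pow_add, pow_add]
    simp only [Algebra.smul_def, map_mul]
    ring
  rw [hkey, add_mul]
  have e1 : D.ord (c • D.a₀ ^ n) = n * A := by rw [D.ord_smul hc, D.ord_a₀_pow]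
  have e2 : D.ord (c' • D.a₀ ^ m) = m * A := by rw [D.ord_smul hc', D.ord_a₀_pow]
  refine D.small_add (D.small_add ?_ ?_) ?_
  · have := D.small_mul_left (D.smul_ne_zero hc (pow_ne_zero n D.ha₀)) h'
    rwa [e1] at this
  · have := D.small_mul_left (D.smul_ne_zero hc' (pow_ne_zero m D.ha₀)) h
    rw [e2] at this
    rwa [add_comm (n * A)]
  · exact D.small_mul h h'

theorem rel_algebraMap {c : K} : D.Rel (algebraMap K B c) c := by
  unfold Rel
  rw [D.ord_algebraMap, pow_zero, pow_zero, mul_one, Algebra.smul_def, mul_one, sub_self]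
  exact D.small_zero _

theorem rel_add_small {a r : B} (hr : D.Small (D.ord a) r) {c : K}
    (h : D.Rel a c) : D.Rel (a + r) c := by
  unfold Rel at *
  rw [D.ord_add_small hr]
  have : (a + r) * D.b₀ ^ D.ord a - c • D.a₀ ^ D.ord a =
      (a * D.b₀ ^ D.ord a - c • D.a₀ ^ D.ord a) + D.b₀ ^ D.ord a * r := by ring
  rw [this]
  refine D.small_add h ?_
  have h1 := D.small_mul_left (pow_ne_zero (D.ord a) D.hb₀) hr
  rw [D.ord_pow D.hb₀] at h1
  have h2 : D.ord a * D.ord D.b₀ + D.ord a = D.ord a * D.ord D.a₀ := by rw [D.hab]; ring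
  rwa [h2] at h1

open Classical in
/-- the leading coefficient -/
def lc (b : B) : K := if h : b = 0 then 0 else (D.rel_exists h).choose

theorem lc_zero : D.lc 0 = 0 := by
  unfold lc
  rw [dif_pos rfl]

theorem lc_spec {b : B} (hb : b ≠ 0) : D.Rel b (D.lc b) := by
  unfold lc
  rw [dif_neg hb]
  exact (D.rel_exists hb).choose_spec

theorem lc_eq_of_rel {b : B} (hb : b ≠ 0) {c : K} (h : D.Rel b c) : D.lc b = c :=
  D.rel_unique (D.lc_spec hb) h

theorem lc_ne_zero {b : B} (hb : b ≠ 0) : D.lc b ≠ 0 := D.rel_ne_zero hb (D.lc_spec hb)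

theorem lc_eq_zero_iff (b : B) : D.lc b = 0 ↔ b = 0 := by
  constructor
  · intro h
    by_contra hb
    exact D.lc_ne_zero hb h
  · rintro rfl
    exact D.lc_zero

theorem lc_mul (a b : B) : D.lc (a * b) = D.lc a * D.lc b := by
  by_cases ha : a = 0
  · rw [ha, zero_mul, D.lc_zero, zero_mul]
  by_cases hb : b = 0
  · rw [hb, mul_zero, D.lc_zero, mul_zero]
  exact D.lc_eq_of_rel (mul_ne_zero ha hb) (D.rel_mul ha hb (D.lc_spec ha) (D.lc_spec hb))

theorem lc_algebraMap (c : K) : D.lc (algebraMap K B c) = c := by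
  by_cases hc : c = 0
  · rw [hc, map_zero, D.lc_zero]
  · exact D.lc_eq_of_rel (D.algebraMap_ne_zero hc) D.rel_algebraMap

theorem lc_smul (c : K) (a : B) : D.lc (c • a) = c * D.lc a := by
  rw [Algebra.smul_def, D.lc_mul, D.lc_algebraMap]

theorem lc_add_small {a r : B} (ha : a ≠ 0) (hr : D.Small (D.ord a) r) :
    D.lc (a + r) = D.lc a :=
  D.lc_eq_of_rel (D.add_small_ne_zero ha hr) (D.rel_add_small hr (D.lc_spec ha))

theorem ord_sub_lt (a b : B) (hab : a ≠ b) (ho : D.ord a = D.ord b) (hl : D.lc a = D.lc b) :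
    D.ord (a - b) < D.ord a := by
  have ha : a ≠ 0 := by
    rintro rfl
    rw [D.lc_zero, eq_comm, D.lc_eq_zero_iff] at hl
    exact hab hl.symm
  have hb : b ≠ 0 := by
    rintro rfl
    rw [D.lc_zero, D.lc_eq_zero_iff] at hl
    exact hab hl
  have h1 := D.lc_spec ha
  have h2 := D.lc_spec hb
  unfold Rel at h1 h2
  rw [← ho, ← hl] at h2
  have h3 := D.small_sub h1 h2
  have h4 : a * D.b₀ ^ D.ord a - D.lc a • D.a₀ ^ D.ord a -
      (b * D.b₀ ^ D.ord a - D.lc a • D.a₀ ^ D.ord a) = (a - b) * D.b₀ ^ D.ord a := by ring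
  rw [h4] at h3
  have hne : a - b ≠ 0 := sub_ne_zero.mpr hab
  rcases h3 with h3 | h3
  · exact absurd h3 (mul_ne_zero hne (pow_ne_zero _ D.hb₀))
  · rw [D.ord_mul _ _ hne (pow_ne_zero _ D.hb₀), D.ord_pow D.hb₀, D.hab] at h3
    have : D.ord a * (D.ord D.b₀ + 1) = D.ord a + D.ord a * D.ord D.b₀ := by ring
    rw [this] at h3
    omega

/-- the `MwrsVal` structure (helper5's `MW/Res/Val.lean`) of a pole order with uniformiser -/
def toVal : MwrsVal K B where
  ord := D.ord
  lc := D.lc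
  lc_eq_zero := D.lc_eq_zero_iff
  ord_mul := D.ord_mul
  lc_mul := D.lc_mul
  ord_algebraMap := D.ord_algebraMap
  lc_algebraMap := D.lc_algebraMap
  ord_add_le := D.ord_add_le
  ord_sub_lt := D.ord_sub_lt

@[simp] theorem toVal_ord : D.toVal.ord = D.ord := rfl

@[simp] theorem toVal_lc : D.toVal.lc = D.lc := rfl

end Mw17inOrd

end Fermat.Agent.MW17
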