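import Mathlib
import Fermat.Agent.MW17.InstLc
import Fermat.Agent.MW17.Setup
import Fermat.Agent.MW.Res.Zeros
import Fermat.Agent.V.Pres.InstFrac

/-!
# Program MW (S17), heights half (A), leaf (INST): the instance layer on `B = V27pB T`
(prefix `mw17in` / `Mw17in`; blueprint `S17-heights.md` §2, helper16's message 3258 (e))

* `mw17inOrd T`, `mw17inVal T : MwrsVal K (V27pB T)` – `ord = v27pOrd`, `lc = mw17inLc T` exactly
  multiplicative (abstract construction of `MW17/InstLc.lean`; no hypothesis on `K`);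
* coordinates of monomials and sections: `mw17in_sec_coeff`, `mw17in_le_sec`, `mw17in_exists_sec`,
  `mw17in_sec_injective`;
* `mw17inLcm T m` – the linear form `lc_m` on coefficient vectors: `mw17inLcm_ne_zero_iff`,
  `mw17inLcm_eq_lc`, and its polynomial `mw17inLcmPoly`;
* (`K` algebraically closed, `B` Dedekind) `mw17in_hfin`, `mw17in_hres` for (CRT); the canonical
  zero cycle `mw17inZeros T b`, `mw17in_card_zeros`, `mw17in_det_eq_zeros_prod`,
  `mw17in_mem_zeros_iff`, `mw17in_eq_of_prod_eq` (helper16's predicate `Mw17IsZeros` of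
  `MW17/Spec.lean` is treated in `MW17/InstZeros.lean`);
* `mw17in_enough_points` – `(∀ χ, χ b = 0) → b = 0`.
-/

set_option autoImplicit false
set_option linter.unusedSectionVars false

noncomputable section

namespace Fermat.Agent.MW17

open Fermat.Agent.V Fermat.Agent.MW Polynomial

variable {K : Type*} [Field K] {δ : V27pShape} (T : V27pTable K δ)

/-! ### the valuation at infinity with its multiplicative leading coefficient -/

/-- the pole order data of a table ring; the "uniformiser" comes from `v27pOrd_hgcd` -/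
def mw17inOrd : Mw17inOrd K (V27pB T) where
  ord := v27pOrd
  ord_mul := fun _ _ ha hb => v27pOrd_mul ha hb
  ord_add_le := v27pOrd_add_le
  ord_algebraMap := v27pOrd_algebraMap
  hone := fun _ _ ha hb h => v27pOrd_hone ha hb h
  a₀ := (v27pOrd_hgcd (T := T)).choose
  b₀ := (v27pOrd_hgcd (T := T)).choose_spec.choose
  ha₀ := (v27pOrd_hgcd (T := T)).choose_spec.choose_spec.1
  hb₀ := (v27pOrd_hgcd (T := T)).choose_spec.choose_spec.2.1
  hab := (v27pOrd_hgcd (T := T)).choose_spec.choose_spec.2.2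

/-- **the `MwrsVal` instance on the table ring**: `ord = v27pOrd`, `lc` multiplicative -/
def mw17inVal : MwrsVal K (V27pB T) := (mw17inOrd T).toVal

/-- the multiplicative leading coefficient at infinity -/
def mw17inLc (b : V27pB T) : K := (mw17inOrd T).lc b

@[simp] theorem mw17inVal_ord (b : V27pB T) : (mw17inVal T).ord b = v27pOrd b := rfl

@[simp] theorem mw17inVal_lc (b : V27pB T) : (mw17inVal T).lc b = mw17inLc T b := rfl

theorem mw17inLc_mul (a b : V27pB T) : mw17inLc T (a * b) = mw17inLc T a * mw17inLc T b :=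
  (mw17inOrd T).lc_mul a b

theorem mw17inLc_eq_zero_iff (b : V27pB T) : mw17inLc T b = 0 ↔ b = 0 :=
  (mw17inOrd T).lc_eq_zero_iff b

theorem mw17inLc_algebraMap (c : K) : mw17inLc T (algebraMap K (V27pB T) c) = c :=
  (mw17inOrd T).lc_algebraMap c

theorem mw17inLc_smul (c : K) (b : V27pB T) : mw17inLc T (c • b) = c * mw17inLc T b :=
  (mw17inOrd T).lc_smul c b

/-- the leading coefficient only depends on the top term -/
theorem mw17inLc_add_small {a r : V27pB T} (ha : a ≠ 0) (hr : r = 0 ∨ v27pOrd r < v27pOrd a) :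
    mw17inLc T (a + r) = mw17inLc T a :=
  (mw17inOrd T).lc_add_small ha hr

/-- every large enough order occurs (hypothesis `hgap` of helper5's `mwrs_res_of_gap`) -/
theorem mw17in_exists_ord (m : ℕ) (hm : δ.N * (Finset.univ.sup δ.d) ≤ m) :
    ∃ b : V27pB T, b ≠ 0 ∧ v27pOrd b = m := by
  set j : ZMod δ.N := (m : ZMod δ.N)
  have hdj : δ.d j ≤ m := by
    have h1 : δ.d j ≤ Finset.univ.sup δ.d := Finset.le_sup (f := δ.d) (Finset.mem_univ j)
    have h2 : Finset.univ.sup δ.d ≤ δ.N * Finset.univ.sup δ.d :=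
      Nat.le_mul_of_pos_left _ δ.hN
    omega
  have hdvd : δ.N ∣ m - δ.d j := by
    have h1 : (((m - δ.d j : ℕ)) : ZMod δ.N) = 0 := by
      rw [Nat.cast_sub hdj, δ.d_cong, sub_self]
    exact (ZMod.natCast_eq_zero_iff _ _).mp h1
  obtain ⟨r, hr⟩ := hdvd
  refine ⟨(X ^ r : K[X]) • V27pB.e j, ?_, ?_⟩
  · intro h
    have := congrFun h j
    rw [V27pB.smul_e_apply, if_pos rfl] at this
    exact pow_ne_zero r X_ne_zero this
  · rw [v27pOrd_smul_e _ (pow_ne_zero r X_ne_zero), natDegree_X_pow]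
    omega

/-! ### coordinates of monomials and sections -/

theorem mw17in_sum_apply {ι : Type*} (s : Finset ι) (f : ι → V27pB T) (k : ZMod δ.N) :
    (∑ i ∈ s, f i) k = ∑ i ∈ s, f i k :=
  map_sum (Pi.evalAddMonoidHom (fun _ : ZMod δ.N => K[X]) k) (fun i => (f i : ZMod δ.N → K[X])) s

theorem mw17in_mon_eq {m : ℕ} (i : Mw17Idx δ m) :
    mw17Mon T i = (X ^ (i.1.2 : ℕ) : K[X]) • V27pB.e i.1.1 := by
  unfold mw17Mon V27pB.x
  rw [← map_pow, Algebra.smul_def]

theorem mw17in_mon_apply {m : ℕ} (i : Mw17Idx δ m) (k : ZMod δ.N) :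
    (mw17Mon T i) k = if k = i.1.1 then X ^ (i.1.2 : ℕ) else 0 := by
  rw [mw17in_mon_eq, V27pB.smul_e_apply]

theorem mw17in_mon_ne_zero {m : ℕ} (i : Mw17Idx δ m) : mw17Mon T i ≠ 0 := by
  intro h
  have := congrFun h i.1.1
  rw [mw17in_mon_apply, if_pos rfl] at this
  exact pow_ne_zero _ X_ne_zero this

theorem mw17in_ord_mon {m : ℕ} (i : Mw17Idx δ m) : v27pOrd (mw17Mon T i) = mw17Wt i := by
  rw [mw17in_mon_eq, v27pOrd_smul_e _ (pow_ne_zero _ X_ne_zero), natDegree_X_pow]
  rfl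

/-- the coefficients of a section -/
theorem mw17in_sec_coeff_sum {m : ℕ} (u : Mw17Idx δ m → K) (j : ZMod δ.N) (r : ℕ) :
    ((mw17Sec T m u) j).coeff r =
      ∑ i : Mw17Idx δ m, if (j = i.1.1 ∧ r = (i.1.2 : ℕ)) then u i else 0 := by
  unfold mw17Sec
  rw [mw17in_sum_apply, finsetSum_coeff]
  refine Finset.sum_congr rfl fun i _ => ?_
  rw [V27pB.smul_def', mw17in_mon_apply, coeff_C_mul]
  by_cases hj : j = i.1.1
  · rw [if_pos hj, coeff_X_pow]
    by_cases hr : r = (i.1.2 : ℕ)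
    · rw [if_pos hr, if_pos ⟨hj, hr⟩, mul_one]
    · rw [if_neg hr, if_neg (fun h => hr h.2), mul_zero]
  · rw [if_neg hj, if_neg (fun h => hj h.1), coeff_zero, mul_zero]

theorem mw17in_idx_ext {m : ℕ} {i i' : Mw17Idx δ m} (h1 : i.1.1 = i'.1.1)
    (h2 : (i.1.2 : ℕ) = (i'.1.2 : ℕ)) : i = i' := by
  apply Subtype.ext
  apply Prod.ext h1
  exact Fin.ext h2

/-- the coefficient of a section at a monomial of the index set -/
theorem mw17in_sec_coeff {m : ℕ} (u : Mw17Idx δ m → K) (i : Mw17Idx δ m) :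
    ((mw17Sec T m u) i.1.1).coeff (i.1.2 : ℕ) = u i := by
  rw [mw17in_sec_coeff_sum, Finset.sum_eq_single i]
  · rw [if_pos ⟨rfl, rfl⟩]
  · intro i' _ hne
    rw [if_neg]
    rintro ⟨h1, h2⟩
    exact hne (mw17in_idx_ext h1 h2).symm
  · intro h
    exact absurd (Finset.mem_univ _) h

/-- a section of `L_m` has pole order `≤ m` -/
theorem mw17in_le_sec (m : ℕ) (u : Mw17Idx δ m → K) : V27pLe (mw17Sec T m u) m := by
  intro j r hr
  rw [mw17in_sec_coeff_sum]
  refine Finset.sum_eq_zero fun i _ => ?_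
  rw [if_neg]
  rintro ⟨h1, h2⟩
  have := i.2
  rw [← h1, ← h2] at this
  omega

theorem mw17in_ord_sec_le (m : ℕ) (u : Mw17Idx δ m → K) : v27pOrd (mw17Sec T m u) ≤ m :=
  (v27pOrd_le_iff _ _).mpr (mw17in_le_sec T m u)

/-- the index of the monomial `x ^ r * e j` -/
def mw17inIdx {m : ℕ} (j : ZMod δ.N) (r : ℕ) (h : δ.N * r + δ.d j ≤ m) : Mw17Idx δ m :=
  ⟨(j, ⟨r, by
    have h1 : r ≤ δ.N * r := Nat.le_mul_of_pos_left _ δ.hN
    omega⟩), h⟩

@[simp] theorem mw17inIdx_fst {m : ℕ} (j : ZMod δ.N) (r : ℕ) (h : δ.N * r + δ.d j ≤ m) :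
    (mw17inIdx (m := m) j r h).1.1 = j := rfl

@[simp] theorem mw17inIdx_snd {m : ℕ} (j : ZMod δ.N) (r : ℕ) (h : δ.N * r + δ.d j ≤ m) :
    ((mw17inIdx (m := m) j r h).1.2 : ℕ) = r := rfl

theorem mw17inIdx_wt {m : ℕ} (j : ZMod δ.N) (r : ℕ) (h : δ.N * r + δ.d j ≤ m) :
    mw17Wt (mw17inIdx (m := m) j r h) = δ.N * r + δ.d j := rfl

/-- the coefficient vector of an element of `L_m` -/
def mw17inCoef (m : ℕ) (b : V27pB T) : Mw17Idx δ m → K := fun i => (b i.1.1).coeff (i.1.2 : ℕ)

/-- every element of pole order `≤ m` is a section of `L_m` -/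
theorem mw17in_sec_coef {m : ℕ} {b : V27pB T} (hb : V27pLe b m) :
    mw17Sec T m (mw17inCoef T m b) = b := by
  refine V27pB.ext fun j => ?_
  ext r
  by_cases h : δ.N * r + δ.d j ≤ m
  · have := mw17in_sec_coeff T (mw17inCoef T m b) (mw17inIdx j r h)
    simpa [mw17inCoef] using this
  · push Not at h
    rw [mw17in_le_sec T m _ j r h, hb j r h]

theorem mw17in_exists_sec {m : ℕ} {b : V27pB T} (hb : V27pLe b m) :
    ∃ u : Mw17Idx δ m → K, mw17Sec T m u = b :=
  ⟨_, mw17in_sec_coef T hb⟩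

theorem mw17in_coef_sec (m : ℕ) (u : Mw17Idx δ m → K) : mw17inCoef T m (mw17Sec T m u) = u := by
  funext i
  exact mw17in_sec_coeff T u i

theorem mw17in_sec_injective (m : ℕ) : Function.Injective (mw17Sec T m) := by
  intro u u' h
  rw [← mw17in_coef_sec T m u, ← mw17in_coef_sec T m u', h]

theorem mw17in_sec_eq_zero_iff (m : ℕ) (u : Mw17Idx δ m → K) : mw17Sec T m u = 0 ↔ u = 0 := by
  constructor
  · intro h
    apply mw17in_sec_injective T m
    rw [h]
    simp [mw17Sec]
  · rintro rfl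
    simp [mw17Sec]

theorem mw17in_le_iff_exists_sec (m : ℕ) (b : V27pB T) :
    V27pLe b m ↔ ∃ u : Mw17Idx δ m → K, mw17Sec T m u = b :=
  ⟨fun h => mw17in_exists_sec T h, fun ⟨u, hu⟩ => hu ▸ mw17in_le_sec T m u⟩

/-- the order of a section is exactly `m` iff its top coefficient does not vanish -/
theorem mw17in_ord_sec_eq_iff {m : ℕ} (i₀ : Mw17Idx δ m) (h₀ : mw17Wt i₀ = m)
    (u : Mw17Idx δ m → K) :
    (mw17Sec T m u ≠ 0 ∧ v27pOrd (mw17Sec T m u) = m) ↔ u i₀ ≠ 0 := by
  have hc := mw17in_sec_coeff T u i₀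
  constructor
  · rintro ⟨hne, hord⟩
    have := (v27pOrd_eq_iff i₀.1.1 (i₀.1.2 : ℕ) h₀ hne).mp hord
    rw [← hc]
    exact this.2
  · intro hu
    rw [← hc] at hu
    exact ⟨v27p_ne_zero_of_coeff _ _ hu,
      v27pOrd_eq_of (mw17in_le_sec T m u) i₀.1.1 (i₀.1.2 : ℕ) h₀ hu⟩

/-- a section of exact order `m` has a top index -/
theorem mw17in_exists_top {m : ℕ} {u : Mw17Idx δ m → K} (hne : mw17Sec T m u ≠ 0)
    (hord : v27pOrd (mw17Sec T m u) = m) : ∃ i₀ : Mw17Idx δ m, mw17Wt i₀ = m := by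
  obtain ⟨j, -, htop⟩ := v27p_exists_top hne
  rw [hord] at htop
  exact ⟨mw17inIdx j _ htop.le, htop⟩

theorem mw17in_wt_inj {m : ℕ} {i i' : Mw17Idx δ m} (h : mw17Wt i = mw17Wt i') : i = i' := by
  obtain ⟨h1, h2⟩ := δ.weight_inj h
  exact mw17in_idx_ext h1 h2

/-! ### the linear form `lc_m`

Stated for ANY `V : MwrsVal K (V27pB T)` whose order is `v27pOrd` (`hV`), so that it serves both
`mw17inVal T` (this file) and helper5's `mw17lcVal T` (`MW17/Lc.lean`). -/

section Lcm

variable {T}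
variable (V : MwrsVal K (V27pB T))

/-- the coefficient of `lc_m` at the index `i` -/
def mw17inLcmCoef (m : ℕ) (i : Mw17Idx δ m) : K :=
  if mw17Wt i = m then V.lc (mw17Mon T i) else 0

/-- **the linear form `lc_m`** on coefficient vectors of `L_m`: `lc` of the section if its order
is exactly `m`, zero otherwise -/
def mw17inLcm (m : ℕ) : (Mw17Idx δ m → K) →ₗ[K] K :=
  ∑ i : Mw17Idx δ m, mw17inLcmCoef V m i • LinearMap.proj i

theorem mw17inLcm_apply (m : ℕ) (u : Mw17Idx δ m → K) :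
    mw17inLcm V m u = ∑ i : Mw17Idx δ m, mw17inLcmCoef V m i * u i := by
  simp [mw17inLcm, LinearMap.sum_apply]

theorem mw17inLcm_eq_top {m : ℕ} (i₀ : Mw17Idx δ m) (h₀ : mw17Wt i₀ = m)
    (u : Mw17Idx δ m → K) :
    mw17inLcm V m u = V.lc (mw17Mon T i₀) * u i₀ := by
  rw [mw17inLcm_apply, Finset.sum_eq_single i₀]
  · rw [mw17inLcmCoef, if_pos h₀]
  · intro i _ hne
    rw [mw17inLcmCoef, if_neg, zero_mul]
    intro h
    exact hne (mw17in_wt_inj (h.trans h₀.symm))
  · intro h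
    exact absurd (Finset.mem_univ _) h

theorem mw17inLcm_eq_zero_of_gap {m : ℕ} (hgap : ∀ i : Mw17Idx δ m, mw17Wt i ≠ m)
    (u : Mw17Idx δ m → K) : mw17inLcm V m u = 0 := by
  rw [mw17inLcm_apply]
  refine Finset.sum_eq_zero fun i _ => ?_
  rw [mw17inLcmCoef, if_neg (hgap i), zero_mul]

/-- **`lc_m u ≠ 0` iff the section `u` has exact order `m`** -/
theorem mw17inLcm_ne_zero_iff (m : ℕ) (u : Mw17Idx δ m → K) :
    mw17inLcm V m u ≠ 0 ↔ (mw17Sec T m u ≠ 0 ∧ v27pOrd (mw17Sec T m u) = m) := by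
  by_cases hex : ∃ i₀ : Mw17Idx δ m, mw17Wt i₀ = m
  · obtain ⟨i₀, h₀⟩ := hex
    rw [mw17inLcm_eq_top V i₀ h₀, mw17in_ord_sec_eq_iff T i₀ h₀, mul_ne_zero_iff]
    constructor
    · exact fun h => h.2
    · intro h
      exact ⟨V.lc_ne_zero (mw17in_mon_ne_zero T i₀), h⟩
  · push Not at hex
    rw [mw17inLcm_eq_zero_of_gap V hex]
    constructor
    · intro h
      exact absurd rfl h
    · rintro ⟨hne, hord⟩
      obtain ⟨i₀, h₀⟩ := mw17in_exists_top T hne hord
      exact absurd h₀ (hex i₀)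

/-- **`lc_m u = lc (sec u)` when the section has exact order `m`** -/
theorem mw17inLcm_eq_lc (hV : ∀ b, V.ord b = v27pOrd b) (m : ℕ) (u : Mw17Idx δ m → K)
    (hord : v27pOrd (mw17Sec T m u) = m) :
    mw17inLcm V m u = V.lc (mw17Sec T m u) := by
  by_cases hne : mw17Sec T m u = 0
  · rw [hne, V.lc_zero]
    by_contra h
    exact ((mw17inLcm_ne_zero_iff V m u).mp h).1 hne
  obtain ⟨i₀, h₀⟩ := mw17in_exists_top T hne hord
  have hu : u i₀ ≠ 0 := (mw17in_ord_sec_eq_iff T i₀ h₀ u).mp ⟨hne, hord⟩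
  rw [mw17inLcm_eq_top V i₀ h₀]
  -- split off the top term
  set u' : Mw17Idx δ m → K := Function.update u i₀ 0 with hu'
  have hsplit : mw17Sec T m u = u i₀ • mw17Mon T i₀ + mw17Sec T m u' := by
    have h1 : u = Pi.single i₀ (u i₀) + u' := by
      funext i
      by_cases hi : i = i₀
      · subst hi; simp [hu']
      · simp [hu', hi]
    have h2 : mw17Sec T m (Pi.single i₀ (u i₀)) = u i₀ • mw17Mon T i₀ := by
      unfold mw17Sec
      rw [Finset.sum_eq_single i₀]
      · rw [Pi.single_eq_same]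
      · intro i _ hi
        rw [Pi.single_eq_of_ne hi, zero_smul]
      · intro h
        exact absurd (Finset.mem_univ _) h
    conv_lhs => rw [h1]
    rw [mw17Sec_add, h2]
  have htop_ne : u i₀ • mw17Mon T i₀ ≠ 0 := V.smul_ne_zero hu (mw17in_mon_ne_zero T i₀)
  have htop_ord : V.ord (u i₀ • mw17Mon T i₀) = m := by
    rw [V.ord_smul hu, hV, mw17in_ord_mon, h₀]
  have hsmall : V.Small (V.ord (u i₀ • mw17Mon T i₀)) (mw17Sec T m u') := by
    rw [htop_ord]
    by_cases h0 : mw17Sec T m u' = 0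
    · exact Or.inl h0
    right
    rw [hV]
    have hle := mw17in_ord_sec_le T m u'
    rcases lt_or_eq_of_le hle with h | h
    · exact h
    · exfalso
      have := (mw17in_ord_sec_eq_iff T i₀ h₀ u').mp ⟨h0, h⟩
      exact this (by simp [hu'])
  rw [hsplit, V.lc_add_small htop_ne hsmall, V.lc_smul, mul_comm]

/-- the polynomial of the linear form `lc_m` -/
def mw17inLcmPoly (m : ℕ) : MvPolynomial (Mw17Idx δ m) K :=
  ∑ i : Mw17Idx δ m, MvPolynomial.C (mw17inLcmCoef V m i) * MvPolynomial.X i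

theorem mw17inLcmPoly_eval (m : ℕ) (u : Mw17Idx δ m → K) :
    MvPolynomial.eval u (mw17inLcmPoly V m) = mw17inLcm V m u := by
  rw [mw17inLcm_apply, mw17inLcmPoly, map_sum]
  refine Finset.sum_congr rfl fun i _ => ?_
  rw [map_mul, MvPolynomial.eval_C, MvPolynomial.eval_X]

theorem mw17inLcmPoly_isHomogeneous (m : ℕ) : (mw17inLcmPoly V m).IsHomogeneous 1 := by
  unfold mw17inLcmPoly
  refine MvPolynomial.IsHomogeneous.sum _ _ _ fun i _ => ?_
  have := (MvPolynomial.isHomogeneous_C (Mw17Idx δ m) (mw17inLcmCoef V m i)).mul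
    (MvPolynomial.isHomogeneous_X K i)
  simpa using this

theorem mw17inLcmPoly_ne_zero {m : ℕ} (i₀ : Mw17Idx δ m) (h₀ : mw17Wt i₀ = m) :
    mw17inLcmPoly V m ≠ 0 := by
  intro h
  have h1 := mw17inLcmPoly_eval V m (Pi.single i₀ 1)
  rw [h, map_zero, mw17inLcm_eq_top V i₀ h₀, Pi.single_eq_same, mul_one] at h1
  exact V.lc_ne_zero (mw17in_mon_ne_zero T i₀) h1.symm

/-- every `m ≥ N * max d` is a pole order (non-gap), realised by a monomial of the index set -/
theorem mw17in_exists_idx_wt (m : ℕ) (hm : δ.N * (Finset.univ.sup δ.d) ≤ m) :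
    ∃ i₀ : Mw17Idx δ m, mw17Wt i₀ = m := by
  set j : ZMod δ.N := (m : ZMod δ.N)
  have hdj : δ.d j ≤ m := by
    have h1 : δ.d j ≤ Finset.univ.sup δ.d := Finset.le_sup (f := δ.d) (Finset.mem_univ j)
    have h2 : Finset.univ.sup δ.d ≤ δ.N * Finset.univ.sup δ.d :=
      Nat.le_mul_of_pos_left _ δ.hN
    omega
  have hdvd : δ.N ∣ m - δ.d j := by
    have h1 : (((m - δ.d j : ℕ)) : ZMod δ.N) = 0 := by
      rw [Nat.cast_sub hdj, δ.d_cong, sub_self]
    exact (ZMod.natCast_eq_zero_iff _ _).mp h1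
  obtain ⟨r, hr⟩ := hdvd
  have hw : δ.N * r + δ.d j = m := by omega
  exact ⟨mw17inIdx j r hw.le, hw⟩

theorem mw17inLcmPoly_ne_zero_of_le (m : ℕ) (hm : δ.N * (Finset.univ.sup δ.d) ≤ m) :
    mw17inLcmPoly V m ≠ 0 := by
  obtain ⟨i₀, h₀⟩ := mw17in_exists_idx_wt (δ := δ) m hm
  exact mw17inLcmPoly_ne_zero V i₀ h₀

/-- the three facts consumed by helper17's `mwrp_main` (hypotheses `hφ`, `hφle`) in one statement -/
theorem mw17in_lcm_spec (hV : ∀ b, V.ord b = v27pOrd b) (m : ℕ) (u : Mw17Idx δ m → K)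
    (h : MvPolynomial.eval u (mw17inLcmPoly V m) ≠ 0) :
    mw17Sec T m u ≠ 0 ∧ V.ord (mw17Sec T m u) = m ∧
      V.lc (mw17Sec T m u) = MvPolynomial.eval u (mw17inLcmPoly V m) := by
  rw [mw17inLcmPoly_eval] at h ⊢
  obtain ⟨h1, h2⟩ := (mw17inLcm_ne_zero_iff V m u).mp h
  exact ⟨h1, by rw [hV, h2], (mw17inLcm_eq_lc V hV m u h2).symm⟩

end Lcm

/-! ### points, zero cycles (`K` algebraically closed, `B` Dedekind) -/

section Closed

variable [IsAlgClosed K]

/-- **enough points**: an element vanishing at every point is zero -/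
theorem mw17in_enough_points (b : V27pB T) (h : ∀ χ : Mw17Pt T, χ b = 0) : b = 0 := by
  by_contra hb
  have hJR : IsJacobsonRing (V27pB T) := isJacobsonRing_of_finiteType (A := K)
  have hJ : Ideal.jacobson (⊥ : Ideal (V27pB T)) = ⊥ :=
    IsJacobsonRing.out hJR (Ideal.isRadical_bot (R := V27pB T))
  have hmem : b ∉ Ideal.jacobson (⊥ : Ideal (V27pB T)) := by
    rw [hJ, Ideal.mem_bot]
    exact hb
  unfold Ideal.jacobson at hmem
  rw [Ideal.mem_sInf] at hmem
  push Not at hmem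
  obtain ⟨P, ⟨-, hP⟩, hbP⟩ := hmem
  have := hP
  obtain ⟨q, hq⟩ := v27pt_exists_point (K := K) P
  apply hbP
  rw [← hq, RingHom.mem_ker]
  exact h q

theorem mw17in_exists_point_ne_zero {b : V27pB T} (hb : b ≠ 0) : ∃ χ : Mw17Pt T, χ b ≠ 0 := by
  by_contra h
  push Not at h
  exact hb (mw17in_enough_points T b h)

variable [IsDedekindDomain (V27pB T)]

/-- `hfin` of helper7's one point model / of (CRT) -/
theorem mw17in_hfin :
    ∀ P : Ideal (V27pB T), P.IsMaximal → Module.Finite K (V27pB T ⧸ P) := v27pi_hfin T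

/-- `hres` of (CRT) -/
theorem mw17in_hres :
    ∀ P : Ideal (V27pB T), P.IsMaximal → Function.Surjective (algebraMap K (V27pB T ⧸ P)) :=
  mwcr_hres (mw17in_hfin T)

/-- the zero cycle of `b` -/
def mw17inZeros (b : V27pB T) : Multiset (Mw17Pt T) :=
  mwcrZeros K (mw17in_hres T) (Ideal.span {b})

theorem mw17in_card_zeros {b : V27pB T} (hb : b ≠ 0) :
    Multiset.card (mw17inZeros T b) = v27pOrd b := by
  have hsr : Ideal.span {b} ≠ 0 := Submodule.span_singleton_eq_bot.mp.mt hb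
  rw [mw17inZeros, ← (mwcr_finrank_eq_card_zeros K (mw17in_hres T) _ hsr).2]
  exact v27ifr_hq T b hb

theorem mw17in_det_eq_zeros_prod {b : V27pB T} (hb : b ≠ 0) (t : V27pB T) :
    LinearMap.det (LinearMap.mulLeft K (Ideal.Quotient.mk (Ideal.span {b}) t)) =
      ((mw17inZeros T b).map fun q : Mw17Pt T => q t).prod := by
  have hsr : Ideal.span {b} ≠ 0 := Submodule.span_singleton_eq_bot.mp.mt hb
  exact mwcr_det_eq_zeros_prod K (mw17in_hres T) _ hsr t

/-- **the points of the zero cycle are the zeros** -/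
theorem mw17in_mem_zeros_iff {b : V27pB T} (hb : b ≠ 0) (q : Mw17Pt T) :
    q ∈ mw17inZeros T b ↔ q b = 0 :=
  mwcr_mem_zeros_span_iff K (mw17in_hres T) hb q

theorem mw17inZeros_mul {a b : V27pB T} (ha : a ≠ 0) (hb : b ≠ 0) :
    mw17inZeros T (a * b) = mw17inZeros T a + mw17inZeros T b :=
  mwcrZeros_span_mul K (mw17in_hres T) ha hb

theorem mw17inZeros_algebraMap {c : K} (hc : c ≠ 0) :
    mw17inZeros T (algebraMap K (V27pB T) c) = 0 :=
  mwcrZeros_span_unit K (mw17in_hres T) ((IsUnit.mk0 c hc).map _)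

/-- helper5's `mwrsRho` in terms of the zero cycle -/
theorem mw17in_rho_eq_zeros_prod {b : V27pB T} (hb : b ≠ 0) (t : V27pB T) :
    Algebra.norm K (Ideal.Quotient.mk (Ideal.span {b}) t) =
      ((mw17inZeros T b).map fun q : Mw17Pt T => q t).prod := by
  rw [← mw17in_det_eq_zeros_prod T hb t, Algebra.norm_apply]
  rfl

/-! ### uniqueness of the zero cycle -/

omit [IsDedekindDomain (V27pB T)] in
/-- two multisets of points with the same products of values have the same values -/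
theorem mw17in_map_eq_of_prod_eq {Z Z' : Multiset (Mw17Pt T)}
    (h : ∀ t : V27pB T, (Z.map fun q : Mw17Pt T => q t).prod = (Z'.map fun q : Mw17Pt T => q t).prod)
    (t : V27pB T) :
    Z.map (fun q : Mw17Pt T => q t) = Z'.map (fun q : Mw17Pt T => q t) := by
  have key : ∀ W : Multiset (Mw17Pt T), ∀ c : K,
      ((W.map fun q : Mw17Pt T => (X - C (-(q t)) : K[X])).prod).eval c =
        (W.map fun q : Mw17Pt T => q (t + algebraMap K (V27pB T) c)).prod := by
    intro W c
    rw [eval_multiset_prod, Multiset.map_map]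
    congr 1
    refine Multiset.map_congr rfl fun q _ => ?_
    simp only [Function.comp_apply, eval_sub, eval_X, eval_C, map_add, AlgHom.commutes,
      Algebra.algebraMap_self_apply]
    ring
  have hpoly : (Z.map fun q : Mw17Pt T => (X - C (-(q t)) : K[X])).prod =
      (Z'.map fun q : Mw17Pt T => (X - C (-(q t)) : K[X])).prod := by
    apply Polynomial.funext
    intro c
    rw [key Z c, key Z' c, h]
  have hroots := congrArg Polynomial.roots hpoly
  have e : ∀ W : Multiset (Mw17Pt T),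
      (W.map fun q : Mw17Pt T => (X - C (-(q t)) : K[X])) =
        (W.map fun q : Mw17Pt T => -(q t)).map (fun a => (X - C a : K[X])) := by
    intro W
    rw [Multiset.map_map]
    rfl
  rw [e Z, e Z', roots_multiset_prod_X_sub_C, roots_multiset_prod_X_sub_C] at hroots
  have := congrArg (Multiset.map (fun a : K => -a)) hroots
  simpa [Multiset.map_map, Function.comp_def] using this

omit [IsDedekindDomain (V27pB T)] in
open Classical in
/-- a multiset of points is determined by the products of its values -/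
theorem mw17in_eq_of_prod_eq {Z Z' : Multiset (Mw17Pt T)}
    (h : ∀ t : V27pB T, (Z.map fun q : Mw17Pt T => q t).prod = (Z'.map fun q : Mw17Pt T => q t).prod) :
    Z = Z' := by
  ext q₀
  -- a function vanishing at `q₀` and at no other point of `Z + Z'`
  set S : Finset (Mw17Pt T) := (Z + Z').toFinset.erase q₀ with hS
  have hex : ∃ t : V27pB T, q₀ t = 0 ∧ ∀ q ∈ S, q t ≠ 0 := by
    by_contra hno
    push Not at hno
    have hsub : ((RingHom.ker (q₀ : V27pB T →+* K) : Ideal (V27pB T)) : Set (V27pB T)) ⊆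
        ⋃ q ∈ (↑S : Set (Mw17Pt T)), (RingHom.ker (q : V27pB T →+* K) : Ideal (V27pB T)) := by
      intro t ht
      obtain ⟨q, hq, hq0⟩ := hno t ht
      exact Set.mem_biUnion hq hq0
    obtain ⟨q, hqS, hle⟩ := (Ideal.subset_union_prime (R := V27pB T) (s := S)
      (f := fun q : Mw17Pt T => RingHom.ker (q : V27pB T →+* K)) q₀ q₀
      (fun q _ _ _ => (mwcr_ker_isMaximal q).isPrime)).mp hsub
    have hker : RingHom.ker (q₀ : V27pB T →+* K) = RingHom.ker (q : V27pB T →+* K) :=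
      (mwcr_ker_isMaximal q₀).eq_of_le (mwcr_ker_isMaximal q).ne_top hle
    have : q₀ = q := mwcr_ker_injective hker
    rw [hS, Finset.mem_erase] at hqS
    exact hqS.1 this.symm
  obtain ⟨t, ht0, htS⟩ := hex
  have hmap := mw17in_map_eq_of_prod_eq T h t
  have hcount : ∀ W : Multiset (Mw17Pt T), W ≤ Z + Z' →
      Multiset.count (0 : K) (W.map fun q : Mw17Pt T => q t) = Multiset.count q₀ W := by
    intro W hW
    rw [Multiset.count_map, Multiset.count_eq_card_filter_eq]
    congr 1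
    refine Multiset.filter_congr fun q hq => ?_
    constructor
    · intro h0
      by_contra hne
      have hqS : q ∈ S := by
        rw [hS, Finset.mem_erase, Multiset.mem_toFinset]
        exact ⟨fun h => hne h.symm, Multiset.mem_of_le hW hq⟩
      exact htS q hqS h0.symm
    · intro h0
      rw [← h0, ht0]
  rw [← hcount Z (Multiset.le_add_right Z Z'), ← hcount Z' (Multiset.le_add_left Z' Z), hmap]

end Closed

end Fermat.Agent.MW17
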