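import Mathlib
import Fermat.Agent.MW17.Inst
import Fermat.Agent.MW17.Spec

/-!
# Program MW (S17), heights half (A), leaf (INST), third file: the predicate `Mw17IsZeros`
(prefix `mw17in`)

`Mw17IsZeros T b Z` is defined in helper16's `MW17/Spec.lean`.  Here: it holds for the canonical zero
cycle `mw17inZeros T b` of `MW17/Inst.lean`, and it determines `Z`.
-/

set_option autoImplicit false
set_option linter.unusedSectionVars false

noncomputable section

namespace Fermat.Agent.MW17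

open Fermat.Agent.V Fermat.Agent.MW Polynomial

variable {K : Type*} [Field K] {δ : V27pShape} (T : V27pTable K δ)
  [IsAlgClosed K] [IsDedekindDomain (V27pB T)]

/-- **the zero cycle exists** -/
theorem mw17in_isZeros {b : V27pB T} (hb : b ≠ 0) : Mw17IsZeros T b (mw17inZeros T b) :=
  ⟨mw17in_card_zeros T hb, mw17in_det_eq_zeros_prod T hb⟩

theorem mw17in_exists_zeros {b : V27pB T} (hb : b ≠ 0) :
    ∃ Z : Multiset (Mw17Pt T), Mw17IsZeros T b Z := ⟨_, mw17in_isZeros T hb⟩

/-- **the zero cycle is unique**: any `Z` with `Mw17IsZeros T b Z` is the canonical one -/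
theorem mw17in_isZeros_unique {b : V27pB T} (hb : b ≠ 0) {Z : Multiset (Mw17Pt T)}
    (hZ : Mw17IsZeros T b Z) : Z = mw17inZeros T b :=
  mw17in_eq_of_prod_eq T fun t => by rw [← hZ.2 t, mw17in_det_eq_zeros_prod T hb t]

theorem Mw17IsZeros.mem_iff {b : V27pB T} (hb : b ≠ 0) {Z : Multiset (Mw17Pt T)}
    (hZ : Mw17IsZeros T b Z) (q : Mw17Pt T) : q ∈ Z ↔ q b = 0 := by
  rw [mw17in_isZeros_unique T hb hZ]
  exact mw17in_mem_zeros_iff T hb q

theorem Mw17IsZeros.unique {b : V27pB T} (hb : b ≠ 0) {Z Z' : Multiset (Mw17Pt T)}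
    (hZ : Mw17IsZeros T b Z) (hZ' : Mw17IsZeros T b Z') : Z = Z' := by
  rw [mw17in_isZeros_unique T hb hZ, mw17in_isZeros_unique T hb hZ']

theorem Mw17IsZeros.mul {a b : V27pB T} (ha : a ≠ 0) (hb : b ≠ 0) {Z Z' : Multiset (Mw17Pt T)}
    (hZ : Mw17IsZeros T a Z) (hZ' : Mw17IsZeros T b Z') : Mw17IsZeros T (a * b) (Z + Z') := by
  rw [mw17in_isZeros_unique T ha hZ, mw17in_isZeros_unique T hb hZ', ← mw17inZeros_mul T ha hb]
  exact mw17in_isZeros T (mul_ne_zero ha hb)

theorem mw17in_isZeros_iff {b : V27pB T} (hb : b ≠ 0) (Z : Multiset (Mw17Pt T)) :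
    Mw17IsZeros T b Z ↔ Z = mw17inZeros T b :=
  ⟨mw17in_isZeros_unique T hb, fun h => h ▸ mw17in_isZeros T hb⟩

/-! ### multiplicities -/

omit [IsAlgClosed K] in
theorem mw17in_ker_ne_bot (q : Mw17Pt T) : RingHom.ker (q : V27pB T →+* K) ≠ ⊥ := by
  intro h0
  have hmax := mwcr_ker_isMaximal q
  rw [h0] at hmax
  exact v27pi_not_isField (T := T) (Ring.isField_iff_maximal_bot.mpr hmax)

/-- the multiplicity of a point in the zero cycle is the multiplicity of its maximal ideal in `(b)` -/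
theorem mw17in_count_zeros_eq_multiplicity [DecidableEq (Mw17Pt T)] {b : V27pB T} (hb : b ≠ 0)
    (q : Mw17Pt T) :
    Multiset.count q (mw17inZeros T b) =
      multiplicity (RingHom.ker (q : V27pB T →+* K)) (Ideal.span {b}) := by
  have hsr : Ideal.span {b} ≠ 0 := Submodule.span_singleton_eq_bot.mp.mt hb
  have := mwcr_count_zeros K (mw17in_hres T) hsr q (mw17in_ker_ne_bot T q)
  rw [← this, mw17inZeros]
  congr

/-- `k ≤ mult_q(b) ↔ b ∈ 𝔪_q ^ k` -/
theorem mw17in_le_count_zeros_iff [DecidableEq (Mw17Pt T)] {b : V27pB T} (hb : b ≠ 0)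
    (q : Mw17Pt T) (k : ℕ) :
    k ≤ Multiset.count q (mw17inZeros T b) ↔ b ∈ RingHom.ker (q : V27pB T →+* K) ^ k := by
  have hsr : Ideal.span {b} ≠ 0 := Submodule.span_singleton_eq_bot.mp.mt hb
  have hprime : Prime (RingHom.ker (q : V27pB T →+* K)) :=
    Ideal.prime_of_isPrime (mw17in_ker_ne_bot T q) (mwcr_ker_isMaximal q).isPrime
  have hfm : FiniteMultiplicity (RingHom.ker (q : V27pB T →+* K)) (Ideal.span {b}) :=
    FiniteMultiplicity.of_prime_left hprime hsr
  rw [mw17in_count_zeros_eq_multiplicity T hb q, ← hfm.pow_dvd_iff_le_multiplicity,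
    Ideal.dvd_iff_le, Ideal.span_singleton_le_iff_mem]

section Place

variable (M : Type*) [Field M] [Algebra (V27pB T) M] [IsFractionRing (V27pB T) M] [Algebra K M]
  [IsScalarTower K (V27pB T) M]

/-- **the multiplicity of a point in the zero cycle of `b` is the order of `b` at its place** -/
theorem mw17in_count_zeros_eq_ord [DecidableEq (Mw17Pt T)] {b : V27pB T} (hb : b ≠ 0)
    (q : Mw17Pt T) :
    ((Multiset.count q (mw17inZeros T b) : ℕ) : ℤ) =
      (v27ptPlace M (v27pi_not_isField (T := T)) q).ord (algebraMap (V27pB T) M b) := by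
  have h1 := mwcr_count_zeros_span_eq_ord (K := K) (M := M) (mw17in_hfin T)
    (v27pi_not_isField (T := T)) hb q
  have h2 : mwcrPrime (v27pi_not_isField (T := T)) q = v27ptPrime (v27pi_not_isField (T := T)) q :=
    IsDedekindDomain.HeightOneSpectrum.ext rfl
  rw [v27ptPlace, ← h2, ← h1, mw17inZeros]
  congr

end Place

theorem Mw17IsZeros.count_eq_multiplicity [DecidableEq (Mw17Pt T)] {b : V27pB T} (hb : b ≠ 0)
    {Z : Multiset (Mw17Pt T)} (hZ : Mw17IsZeros T b Z) (q : Mw17Pt T) :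
    Multiset.count q Z = multiplicity (RingHom.ker (q : V27pB T →+* K)) (Ideal.span {b}) := by
  rw [mw17in_isZeros_unique T hb hZ]
  exact mw17in_count_zeros_eq_multiplicity T hb q

theorem Mw17IsZeros.le_count_iff [DecidableEq (Mw17Pt T)] {b : V27pB T} (hb : b ≠ 0)
    {Z : Multiset (Mw17Pt T)} (hZ : Mw17IsZeros T b Z) (q : Mw17Pt T) (k : ℕ) :
    k ≤ Multiset.count q Z ↔ b ∈ RingHom.ker (q : V27pB T →+* K) ^ k := by
  rw [mw17in_isZeros_unique T hb hZ]
  exact mw17in_le_count_zeros_iff T hb q k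

theorem Mw17IsZeros.count_eq_ord (M : Type*) [Field M] [Algebra (V27pB T) M]
    [IsFractionRing (V27pB T) M] [Algebra K M] [IsScalarTower K (V27pB T) M]
    [DecidableEq (Mw17Pt T)] {b : V27pB T} (hb : b ≠ 0)
    {Z : Multiset (Mw17Pt T)} (hZ : Mw17IsZeros T b Z) (q : Mw17Pt T) :
    ((Multiset.count q Z : ℕ) : ℤ) =
      (v27ptPlace M (v27pi_not_isField (T := T)) q).ord (algebraMap (V27pB T) M b) := by
  rw [mw17in_isZeros_unique T hb hZ]
  exact mw17in_count_zeros_eq_ord T M hb q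

/-- a SIMPLE zero: if `R ::ₘ Z'` is the zero cycle of `b` and `R ∉ Z'`, then `b ∉ 𝔪_R ^ 2`
(so helper14's first jet of `b` at `R` does not vanish) -/
theorem Mw17IsZeros.not_mem_sq_of_cons {b : V27pB T} (hb : b ≠ 0) {R : Mw17Pt T}
    {Z' : Multiset (Mw17Pt T)} (hZ : Mw17IsZeros T b (R ::ₘ Z')) (hR : R ∉ Z') :
    b ∉ RingHom.ker (R : V27pB T →+* K) ^ 2 := by
  classical
  intro h
  have h2 := (hZ.le_count_iff T hb R 2).mpr h
  rw [Multiset.count_cons_self, Multiset.count_eq_zero_of_notMem hR] at h2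
  omega

/-- a zero of the zero cycle is a zero of `b`, i.e. `b ∈ 𝔪_R` -/
theorem Mw17IsZeros.mem_ker_of_cons {b : V27pB T} (hb : b ≠ 0) {R : Mw17Pt T}
    {Z' : Multiset (Mw17Pt T)} (hZ : Mw17IsZeros T b (R ::ₘ Z')) : R b = 0 :=
  (hZ.mem_iff T hb R).mp (Multiset.mem_cons_self R Z')

/-- the zero cycle of a nonzero constant is empty -/
theorem Mw17IsZeros.of_algebraMap {c : K} (hc : c ≠ 0) {Z : Multiset (Mw17Pt T)}
    (hZ : Mw17IsZeros T (algebraMap K (V27pB T) c) Z) : Z = 0 := by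
  have hb : algebraMap K (V27pB T) c ≠ 0 := by
    rw [ne_eq, ← map_zero (algebraMap K (V27pB T)), (algebraMap K (V27pB T)).injective.eq_iff]
    exact hc
  rw [mw17in_isZeros_unique T hb hZ, mw17inZeros_algebraMap T hc]

/-- the product formula for helper5's `mwrsRho` / helper17's `mwrpRho` from an abstract zero cycle -/
theorem Mw17IsZeros.norm_eq {b : V27pB T} {Z : Multiset (Mw17Pt T)} (hZ : Mw17IsZeros T b Z)
    (t : V27pB T) :
    Algebra.norm K (Ideal.Quotient.mk (Ideal.span {b}) t) =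
      (Z.map fun q : Mw17Pt T => q t).prod := by
  rw [← hZ.2 t, Algebra.norm_apply]
  rfl

end Fermat.Agent.MW17
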