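import Mathlib
import Fermat.Agent.MW17.InstZeros
import Fermat.Agent.MW17.JetSec

/-!
# S17 heights, §5 (JET) × (INST): simple zeros have a nonvanishing jet (prefix `mw17jz`)

`Z` an (abstract) zero cycle of `b ≠ 0` in the table ring (`Mw17IsZeros T b Z`, helper16's
`MW17/Spec.lean`; by helper4's `mw17in_isZeros_unique` it is the canonical one).  Then

* `Z.count q = multiplicity (ker q) (span {b})`;
* `k ≤ Z.count q ↔ b ∈ (ker q) ^ k`, in particular `2 ≤ Z.count q ↔ b ∈ 𝔪_q²`;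
* if `R` is a SIMPLE zero (`Z = R ::ₘ Z'`, `R ∉ Z'`) off `Ram(x)` then the first jet of `b` at `R`
  does not vanish (`mw17jz_jet_ne_zero`): the input of (GS-tan).
-/

set_option autoImplicit false
set_option linter.unusedSectionVars false

noncomputable section

namespace Fermat.Agent.MW17

open Fermat.Agent.V Fermat.Agent.MW

variable {K : Type*} [Field K] {δ : V27pShape} (T : V27pTable K δ)
  [IsAlgClosed K] [IsDedekindDomain (V27pB T)]

omit [IsAlgClosed K] [IsDedekindDomain (V27pB T)] in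
/-- the maximal ideal of a point of the table ring is not zero. -/
theorem mw17jz_ker_ne_bot (q : Mw17Pt T) : RingHom.ker (q : V27pB T →+* K) ≠ ⊥ := fun h0 => by
  have hmax := mwcr_ker_isMaximal (K := K) (B := V27pB T) q
  rw [h0] at hmax
  exact v27pi_not_isField (T := T) (Ring.isField_iff_maximal_bot.mpr hmax)

/-- **the multiplicity of a point in an abstract zero cycle** -/
theorem mw17jz_count_eq_multiplicity [inst : DecidableEq (Mw17Pt T)] {b : V27pB T} (hb : b ≠ 0)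
    {Z : Multiset (Mw17Pt T)} (hZ : Mw17IsZeros T b Z) (q : Mw17Pt T) :
    Z.count q = multiplicity (RingHom.ker (q : V27pB T →+* K)) (Ideal.span {b}) := by
  have hinst : inst = Classical.decEq _ := Subsingleton.elim _ _
  subst hinst
  have hsr : Ideal.span {b} ≠ 0 := Submodule.span_singleton_eq_bot.mp.mt hb
  rw [mw17in_isZeros_unique T hb hZ]
  exact mwcr_count_zeros K (mw17in_hres T) hsr q (mw17jz_ker_ne_bot T q)

/-- **`k ≤ mult_q Z(b) ↔ b ∈ 𝔪_q^k`** -/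
theorem mw17jz_le_count_iff [DecidableEq (Mw17Pt T)] {b : V27pB T} (hb : b ≠ 0)
    {Z : Multiset (Mw17Pt T)} (hZ : Mw17IsZeros T b Z) (q : Mw17Pt T) (k : ℕ) :
    k ≤ Z.count q ↔ b ∈ RingHom.ker (q : V27pB T →+* K) ^ k := by
  have hsr : Ideal.span {b} ≠ 0 := Submodule.span_singleton_eq_bot.mp.mt hb
  have hmax := mwcr_ker_isMaximal (K := K) (B := V27pB T) q
  have hprime : Prime (RingHom.ker (q : V27pB T →+* K)) :=
    Ideal.prime_of_isPrime (mw17jz_ker_ne_bot T q) hmax.isPrime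
  have hfm : FiniteMultiplicity (RingHom.ker (q : V27pB T →+* K)) (Ideal.span {b}) :=
    FiniteMultiplicity.of_prime_left hprime hsr
  rw [mw17jz_count_eq_multiplicity T hb hZ q, ← hfm.pow_dvd_iff_le_multiplicity,
    Ideal.dvd_iff_le, Ideal.span_singleton_le_iff_mem]

/-- **`2 ≤ mult_q Z(b) ↔ b ∈ 𝔪_q²`** (helper16's 3312 request). -/
theorem mw17jz_two_le_count_iff [DecidableEq (Mw17Pt T)] {b : V27pB T} (hb : b ≠ 0)
    {Z : Multiset (Mw17Pt T)} (hZ : Mw17IsZeros T b Z) (q : Mw17Pt T) :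
    2 ≤ Z.count q ↔ b ∈ mw17jtM q ^ 2 :=
  mw17jz_le_count_iff T hb hZ q 2

/-- off `Ram(x)`: `q` is a zero of multiplicity at least two iff `b` and its jet vanish at `q`. -/
theorem mw17jz_two_le_count_iff_jet [DecidableEq (Mw17Pt T)] {b : V27pB T} (hb : b ≠ 0)
    {Z : Multiset (Mw17Pt T)} (hZ : Mw17IsZeros T b Z) {q : Mw17Pt T} (hq : q ∉ mw17jtRamX T) :
    2 ≤ Z.count q ↔ (q b = 0 ∧ mw17jtJetT T q b = 0) := by
  rw [mw17jz_two_le_count_iff T hb hZ q]
  exact (mw17jt_jetX_eq_zero_iff (V27pB.x : V27pB T) hq b).symm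

/-- off `Ram(x)`: `q` is a SIMPLE zero iff `b` vanishes at `q` and its jet does not. -/
theorem mw17jz_count_eq_one_iff_jet [DecidableEq (Mw17Pt T)] {b : V27pB T} (hb : b ≠ 0)
    {Z : Multiset (Mw17Pt T)} (hZ : Mw17IsZeros T b Z) {q : Mw17Pt T} (hq : q ∉ mw17jtRamX T) :
    Z.count q = 1 ↔ (q b = 0 ∧ mw17jtJetT T q b ≠ 0) := by
  have h2 := mw17jz_two_le_count_iff_jet T hb hZ hq
  have h1 : 1 ≤ Z.count q ↔ q b = 0 := by
    rw [Multiset.one_le_count_iff_mem]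
    exact hZ.mem_iff T hb q
  constructor
  · intro h
    have hq0 : q b = 0 := h1.1 (by omega)
    refine ⟨hq0, fun hj => ?_⟩
    have := h2.2 ⟨hq0, hj⟩
    omega
  · rintro ⟨hq0, hj⟩
    have h1' := h1.2 hq0
    have : ¬ 2 ≤ Z.count q := fun h => hj (h2.1 h).2
    omega

omit [IsAlgClosed K] [IsDedekindDomain (V27pB T)] in
/-- an element with a nonempty zero cycle is not zero (`v27pOrd 0 = 0`). -/
theorem mw17jz_ne_zero_of_cons {b : V27pB T} {R : Mw17Pt T} {Z' : Multiset (Mw17Pt T)}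
    (hZ : Mw17IsZeros T b (R ::ₘ Z')) : b ≠ 0 := fun h0 => by
  have h1 := hZ.1
  rw [h0, v27pOrd_zero, Multiset.card_cons] at h1
  exact Nat.succ_ne_zero _ h1

/-- the value at a zero: `R (b) = 0` for `R` in the zero cycle. -/
theorem mw17jz_apply_eq_zero {b : V27pB T} {R : Mw17Pt T} {Z' : Multiset (Mw17Pt T)}
    (hZ : Mw17IsZeros T b (R ::ₘ Z')) : R b = 0 :=
  (hZ.mem_iff T (mw17jz_ne_zero_of_cons T hZ) R).1 (Multiset.mem_cons_self R Z')

/-- **A SIMPLE ZERO OFF `Ram(x)` HAS A NONVANISHING JET** (the input of (GS-tan)). -/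
theorem mw17jz_jet_ne_zero {b : V27pB T} {R : Mw17Pt T} {Z' : Multiset (Mw17Pt T)}
    (hZ : Mw17IsZeros T b (R ::ₘ Z')) (hR : R ∉ Z') (hram : R ∉ mw17jtRamX T) :
    mw17jtJetT T R b ≠ 0 := by
  classical
  have hc : (R ::ₘ Z').count R = 1 := by
    rw [Multiset.count_cons_self, Multiset.count_eq_zero_of_notMem hR]
  exact ((mw17jz_count_eq_one_iff_jet T (mw17jz_ne_zero_of_cons T hZ) hZ hram).1 hc).2

/-- conversely: a zero with nonvanishing jet is simple. -/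
theorem mw17jz_not_mem_of_jet_ne_zero {b : V27pB T} {R : Mw17Pt T} {Z' : Multiset (Mw17Pt T)}
    (hZ : Mw17IsZeros T b (R ::ₘ Z')) (hram : R ∉ mw17jtRamX T)
    (hj : mw17jtJetT T R b ≠ 0) : R ∉ Z' := fun hmem => by
  classical
  have hc := (mw17jz_count_eq_one_iff_jet T (mw17jz_ne_zero_of_cons T hZ) hZ hram).2
    ⟨mw17jz_apply_eq_zero T hZ, hj⟩
  rw [Multiset.count_cons_self] at hc
  have : 1 ≤ Z'.count R := Multiset.one_le_count_iff_mem.2 hmem
  omega

/-- the section form: `b = mw17Sec T m u`. -/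
theorem mw17jz_jet_sec_ne_zero {m : ℕ} {u : Mw17Idx δ m → K} {R : Mw17Pt T}
    {Z' : Multiset (Mw17Pt T)} (hZ : Mw17IsZeros T (mw17Sec T m u) (R ::ₘ Z')) (hR : R ∉ Z')
    (hram : R ∉ mw17jtRamX T) : mw17jtJetT T R (mw17Sec T m u) ≠ 0 :=
  mw17jz_jet_ne_zero T hZ hR hram

/-- the same in coordinates: `Σ_i u_i φ'_i(R) ≠ 0`. -/
theorem mw17jz_sum_psiD_ne_zero {m : ℕ} {u : Mw17Idx δ m → K} {R : Mw17Pt T}
    {Z' : Multiset (Mw17Pt T)} (hZ : Mw17IsZeros T (mw17Sec T m u) (R ::ₘ Z')) (hR : R ∉ Z')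
    (hram : R ∉ mw17jtRamX T) : ∑ i, u i * mw17jtPsiD T m R i ≠ 0 := by
  rw [← mw17jt_jet_sec]
  exact mw17jz_jet_sec_ne_zero T hZ hR hram

end Fermat.Agent.MW17
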