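import Mathlib
import Fermat.Agent.MW17.Setup
import Fermat.Agent.V.Coord.Point
import Fermat.Agent.HT.Glob.NorthcottSys

/-!
# Program MW (S17), heights half (A): Northcott for the points of the presented curve

Owner: helper3.  Namespace `Fermat.Agent.MW17`, prefix `mw17np_`.

For a table `T` over `Q̄`, `n` at least `δ.N` and all `δ.d j` (so that `x` and the `e_j` are among
the monomials of `L_n`), a place system `W` on `Q̄` : there are only finitely many finite points
`q` whose coordinates `x(q), e_j(q)` have degree `≤ d` and with `htgaHt W (ψ_n q) ≤ B`.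
-/

set_option autoImplicit false
set_option linter.unusedSectionVars false
set_option linter.unusedVariables false

noncomputable section

namespace Fermat.Agent.MW17

open Fermat.Agent.V Fermat.Agent.HT Polynomial

local notation "Qb" => AlgebraicClosure ℚ

variable {δ : V27pShape}

/-- the index in `L_n` of the coordinate `x` (`none`) resp. `e_j` (`some j`) -/
def mw17npIdx (n : ℕ) (hn : δ.N ≤ n) (hd : ∀ j, δ.d j ≤ n) : V27coP δ → Mw17Idx δ n
  | none => ⟨((0 : ZMod δ.N), ⟨1, by have := δ.hN; omega⟩), by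
      simp only [δ.d_zero]; omega⟩
  | some j => ⟨(j, (0 : Fin (n + 1))), by simpa using hd j⟩

variable {K : Type*} [Field K] (T : V27pTable K δ)

theorem mw17np_psi_idx (n : ℕ) (hn : δ.N ≤ n) (hd : ∀ j, δ.d j ≤ n) (q : Mw17Pt T)
    (o : V27coP δ) : mw17Psi T n q (mw17npIdx n hn hd o) = v27cbPt T q o := by
  cases o with
  | none => simp [mw17Psi, mw17Mon, mw17npIdx, V27pB.e_zero]
  | some j => simp [mw17Psi, mw17Mon, mw17npIdx]

theorem mw17np_psi_injective (n : ℕ) (hn : δ.N ≤ n) (hd : ∀ j, δ.d j ≤ n) :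
    Function.Injective fun q : Mw17Pt T => mw17Psi T n q ∘ mw17npIdx n hn hd := by
  intro q q' h
  have h1 : v27cbPt T q = v27cbPt T q' := by
    funext o
    have := congrFun h o
    simp only [Function.comp_apply] at this
    rwa [mw17np_psi_idx, mw17np_psi_idx] at this
  rw [← v27cbHom_pt T q, ← v27cbHom_pt T q']
  congr 1

end Fermat.Agent.MW17

namespace Fermat.Agent.MW17

open Fermat.Agent.V Fermat.Agent.HT Polynomial

local notation "Qb" => AlgebraicClosure ℚ

variable {δ : V27pShape} (T : V27pTable Qb δ)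
  (W : Option Nat.Primes → AbsoluteValue Qb ℝ) (ι : Qb →+* ℂ)

/-- **Northcott for the finite points of the presented curve.** -/
theorem mw17np_finite (S : HtgaSys W) (h0 : ∀ a, W none a = ‖ι a‖)
    (hna : ∀ p, IsNonarchimedean (W (some p)))
    (hext : ∀ (p : Nat.Primes) (n : ℤ),
      W (some p) (n : Qb) = ((padicNorm (p : ℕ) (n : ℚ) : ℚ) : ℝ))
    (n : ℕ) (hn : δ.N ≤ n) (hd : ∀ j, δ.d j ≤ n) (d : ℕ) (B : ℝ) :
    {q : Mw17Pt T | (∀ o : V27coP δ, (minpoly ℚ (v27cbPt T q o)).natDegree ≤ d) ∧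
      htgaHt W (mw17Psi T n q) ≤ B}.Finite := by
  have h := htgn_northcott_points W ι S h0 hna hext (Pt := Mw17Pt T) (κ := Mw17Idx δ n)
    (κ' := V27coP δ) (mw17Psi T n) (mw17IdxZero δ n) (mw17Psi_zero T n)
    (mw17npIdx n hn hd) (mw17np_psi_injective T n hn hd) d B
  simp only [mw17np_psi_idx] at h
  exact h

/-- the same for coordinate points. -/
theorem mw17np_finite_coord (S : HtgaSys W) (h0 : ∀ a, W none a = ‖ι a‖)
    (hna : ∀ p, IsNonarchimedean (W (some p)))
    (hext : ∀ (p : Nat.Primes) (n : ℤ),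
      W (some p) (n : Qb) = ((padicNorm (p : ℕ) (n : ℚ) : ℚ) : ℝ))
    (n : ℕ) (hn : δ.N ≤ n) (hd : ∀ j, δ.d j ≤ n) (d : ℕ) (B : ℝ) :
    {q : V27coP δ → Qb | ∃ hq : V27coPt T.c q, (∀ o, (minpoly ℚ (q o)).natDegree ≤ d) ∧
      htgaHt W (mw17Psi T n (v27cbHom T q hq)) ≤ B}.Finite := by
  have h := mw17np_finite T W ι S h0 hna hext n hn hd d B
  refine Set.Finite.subset (h.image (v27cbPt T)) ?_
  rintro q ⟨hq, hqd, hqB⟩
  refine ⟨v27cbHom T q hq, ⟨?_, hqB⟩, v27cbPt_hom T q hq⟩
  intro o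
  rw [v27cbPt_hom T q hq]
  exact hqd o

end Fermat.Agent.MW17
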