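import Fermat.Agent.V.RR.Pack
import Mathlib.GroupTheory.CosetCover

/-!
# Program MW (S17), curve side: the moving lemma (MOVE)

On the Riemann–Roch package `V27RR K F g` of main (`V/RR/Pack.lean`), over an infinite constant
field:

* `mw17mv_exists_section` : for `deg D ≥ 2g` and a finite set `Sig` of places of degree one there
  is `f ∈ L(D)`, `f ≠ 0`, with `ord_v f = -D(v)` for all `v ∈ Sig` (the linear system `|D|` has a
  member avoiding `Sig`);
* `mw17mv_exists_effective` : the effective divisor `E = D + div f`, `E ∼ D`, `E(v) = 0` on `Sig`;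
* `mw17mv_exists_rep` : every divisor `Z` of degree `0` is linearly equivalent to `A - B` with
  `A, B ≥ 0` of degree exactly `m` (any `m ≥ 2g`), both avoiding `Sig`, and `B ∼ m·P1`;
* `mw17mv_exists_rep_pic0` : the same for a class `x : Pic0 K F`;
* `mw17mv_exists_rep_pair` : two classes `x, y` get representatives with disjoint supports, both
  off `Sig` (all places of degree one, e.g. `K` algebraically closed).
-/

set_option autoImplicit false

noncomputable section

namespace Fermat.Agent.MW17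

open AlgebraicCurve Module Fermat.Agent.V.RR

variable {K F : Type*} [Field K] [Field F] [Algebra K F] {g : ℕ}

/-- membership in `L(D)` for a nonzero function. -/
theorem mw17mv_mem_iff {D : Divisor K F} {f : F} (hf : f ≠ 0) :
    f ∈ riemannRochSpace D ↔ ∀ v : Place K F, -D v ≤ v.ord f := by
  rw [mem_riemannRochSpace_iff]
  exact ⟨fun h v => (h v).resolve_left hf, fun h v => Or.inr (h v)⟩

/-- if `f ∈ L(D)` is nonzero and not in `L(D - v)` then `ord_v f = -D(v)`. -/
theorem mw17mv_ord_eq_of_notMem {D : Divisor K F} {f : F} (hf0 : f ≠ 0)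
    (hf : f ∈ riemannRochSpace D) (v : Place K F)
    (hv : f ∉ riemannRochSpace (D - Finsupp.single v 1)) : v.ord f = -D v := by
  classical
  rw [mw17mv_mem_iff hf0] at hf
  by_contra hne
  apply hv
  rw [mw17mv_mem_iff hf0]
  intro w
  by_cases hw : w = v
  · subst hw
    rw [Finsupp.sub_apply, Finsupp.single_eq_same]
    have := hf w
    omega
  · rw [Finsupp.sub_apply, Finsupp.single_eq_of_ne hw, sub_zero]
    exact hf w

/-- **(MOVE), section form.** For `deg D ≥ 2g` the linear system `|D|` has a member avoiding any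
finite set of places of degree one. -/
theorem mw17mv_exists_section (R : V27RR K F g) [Infinite K] (D : Divisor K F)
    (hdeg : 2 * (g : ℤ) ≤ Divisor.degree D) (Sig : Finset (Place K F))
    (hSig : ∀ v ∈ Sig, v.deg = 1) :
    ∃ f : F, f ≠ 0 ∧ f ∈ riemannRochSpace D ∧ ∀ v ∈ Sig, v.ord f = -D v := by
  classical
  set E := riemannRochSpace D with hE
  -- the hyperplanes `L(D - v) ∩ L(D)` inside `L(D)`
  let p : Place K F → Submodule K E := fun v =>
    Submodule.comap E.subtype (riemannRochSpace (D - Finsupp.single v 1))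
  let s : Finset (Submodule K E) := insert ⊥ (Sig.image p)
  have hg0 : (0 : ℤ) ≤ g := Int.natCast_nonneg g
  have hs : (⊤ : Submodule K E) ∉ s := by
    intro htop
    rcases Finset.mem_insert.mp htop with h | h
    · -- `L(D) ≠ 0`
      obtain ⟨f, hf0, hf⟩ := R.exists_ne_zero_mem (D := D) (by linarith)
      have hmem : (⟨f, hf⟩ : E) ∈ (⊤ : Submodule K E) := Submodule.mem_top
      rw [h, Submodule.mem_bot] at hmem
      exact hf0 (congrArg Subtype.val hmem)
    · obtain ⟨v, hv, hpv⟩ := Finset.mem_image.mp h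
      obtain ⟨f, hf0, hf, hord⟩ := R.exists_ord_eq (D := D) v (by
        rw [hSig v hv]
        push_cast
        linarith)
      have hmem : (⟨f, hf⟩ : E) ∈ p v := by
        rw [hpv]
        exact Submodule.mem_top
      have hmem' : f ∈ riemannRochSpace (D - Finsupp.single v 1) := hmem
      rw [mw17mv_mem_iff hf0] at hmem'
      have := hmem' v
      rw [Finsupp.sub_apply, Finsupp.single_eq_same, hord] at this
      omega
  have hne := Subspace.biUnion_ne_univ_of_top_notMem hs
  obtain ⟨x, hx⟩ := (Set.ne_univ_iff_exists_notMem _).mp hne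
  have hx' : ∀ q ∈ s, x ∉ q := by
    intro q hq hxq
    exact hx (Set.mem_biUnion hq hxq)
  have hx0 : (x : F) ≠ 0 := by
    intro h0
    apply hx' ⊥ (Finset.mem_insert_self _ _)
    rw [Submodule.mem_bot]
    exact Subtype.ext h0
  refine ⟨x, hx0, x.2, fun v hv => ?_⟩
  refine mw17mv_ord_eq_of_notMem hx0 x.2 v ?_
  intro hmem
  exact hx' (p v) (Finset.mem_insert_of_mem (Finset.mem_image_of_mem p hv)) hmem

/-- **(MOVE), divisor form.** For `deg D ≥ 2g` there is an effective divisor `E ∼ D` avoiding any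
finite set of places of degree one. -/
theorem mw17mv_exists_effective (R : V27RR K F g) [Infinite K] (D : Divisor K F)
    (hdeg : 2 * (g : ℤ) ≤ Divisor.degree D) (Sig : Finset (Place K F))
    (hSig : ∀ v ∈ Sig, v.deg = 1) :
    ∃ E : Divisor K F, 0 ≤ E ∧ Divisor.IsPrincipal (E - D) ∧
      Divisor.degree E = Divisor.degree D ∧ ∀ v ∈ Sig, E v = 0 := by
  obtain ⟨f, hf0, hf, hord⟩ := mw17mv_exists_section R D hdeg Sig hSig
  have := R.hasDiv
  obtain ⟨Df, hDf, hDf0⟩ := HasPrincipalDivisors.exists_divisor (K := K) f hf0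
  rw [mw17mv_mem_iff hf0] at hf
  refine ⟨D + Df, ?_, ⟨f, hf0, fun v => ?_⟩, ?_, fun v hv => ?_⟩
  · rw [Finsupp.le_def]
    intro v
    rw [Finsupp.zero_apply, Finsupp.add_apply, hDf v]
    have := hf v
    linarith
  · rw [add_sub_cancel_left, hDf v]
  · rw [map_add, hDf0, add_zero]
  · rw [Finsupp.add_apply, hDf v, hord v hv, add_neg_cancel]

/-- **(MOVE), representative form.** Every divisor `Z` of degree `0` is linearly equivalent to
`A - B` with `A, B` effective of degree exactly `m ≥ 2g`, both avoiding a prescribed finite set of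
places of degree one; `B` is linearly equivalent to `m · P1`. -/
theorem mw17mv_exists_rep (R : V27RR K F g) [Infinite K] (P1 : Place K F) (hP1 : P1.deg = 1)
    (m : ℕ) (hm : 2 * g ≤ m) (Z : Divisor K F) (hZ : Divisor.degree Z = 0)
    (Sig : Finset (Place K F)) (hSig : ∀ v ∈ Sig, v.deg = 1) :
    ∃ A B : Divisor K F, 0 ≤ A ∧ 0 ≤ B ∧ Divisor.degree A = m ∧ Divisor.degree B = m ∧
      (∀ v ∈ Sig, A v = 0 ∧ B v = 0) ∧ Divisor.IsPrincipal (A - B - Z) ∧
      Divisor.IsPrincipal (B - (m : ℤ) • Finsupp.single P1 1) := by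
  have hdegP : Divisor.degree ((m : ℤ) • (Finsupp.single P1 1 : Divisor K F)) = m := by
    rw [map_zsmul, Divisor.degree_single, hP1]
    simp
  have hm' : 2 * (g : ℤ) ≤ m := by exact_mod_cast hm
  obtain ⟨A, hA0, hAp, hAd, hAS⟩ := mw17mv_exists_effective R
    (Z + (m : ℤ) • (Finsupp.single P1 1 : Divisor K F))
    (by rw [map_add, hZ, hdegP, zero_add]; exact hm') Sig hSig
  obtain ⟨B, hB0, hBp, hBd, hBS⟩ := mw17mv_exists_effective R
    ((m : ℤ) • (Finsupp.single P1 1 : Divisor K F)) (by rw [hdegP]; exact hm') Sig hSig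
  refine ⟨A, B, hA0, hB0, ?_, ?_, fun v hv => ⟨hAS v hv, hBS v hv⟩, ?_, hBp⟩
  · rw [hAd, map_add, hZ, hdegP, zero_add]
  · rw [hBd, hdegP]
  · have h := (Divisor.principal (K := K) (F := F)).sub_mem
      (Divisor.mem_principal.mpr hAp) (Divisor.mem_principal.mpr hBp)
    have e : A - (Z + (m : ℤ) • (Finsupp.single P1 1 : Divisor K F)) -
        (B - (m : ℤ) • (Finsupp.single P1 1 : Divisor K F)) = A - B - Z := by abel
    rw [e] at h
    exact Divisor.mem_principal.mp h

/-- the class of a degree zero divisor only depends on the divisor up to principal divisors. -/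
theorem mw17mv_mk_eq_of_isPrincipal {Z Z' : Divisor K F}
    (hZ : Z ∈ Divisor.degZero (K := K) (F := F)) (hZ' : Z' ∈ Divisor.degZero (K := K) (F := F))
    (h : Divisor.IsPrincipal (Z' - Z)) :
    Pic0.mk (⟨Z', hZ'⟩ : Divisor.degZero (K := K) (F := F)) = Pic0.mk ⟨Z, hZ⟩ := by
  unfold Pic0.mk
  rw [QuotientAddGroup.eq_iff_sub_mem, AddSubgroup.mem_addSubgroupOf]
  exact Divisor.mem_principal.mpr h

/-- **(MOVE), class form.** Every class of `Pic0` has a representative `A - B`, `A, B` effective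
of degree exactly `m ≥ 2g`, avoiding a prescribed finite set of places of degree one, with
`B ∼ m · P1`. -/
theorem mw17mv_exists_rep_pic0 (R : V27RR K F g) [Infinite K] (P1 : Place K F) (hP1 : P1.deg = 1)
    (m : ℕ) (hm : 2 * g ≤ m) (x : Pic0 K F)
    (Sig : Finset (Place K F)) (hSig : ∀ v ∈ Sig, v.deg = 1) :
    ∃ (A B : Divisor K F) (hAB : A - B ∈ Divisor.degZero (K := K) (F := F)),
      0 ≤ A ∧ 0 ≤ B ∧ Divisor.degree A = m ∧ Divisor.degree B = m ∧
      (∀ v ∈ Sig, A v = 0 ∧ B v = 0) ∧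
      Divisor.IsPrincipal (B - (m : ℤ) • Finsupp.single P1 1) ∧
      x = Pic0.mk ⟨A - B, hAB⟩ := by
  obtain ⟨⟨Z, hZ⟩, rfl⟩ := Pic0.mk_surjective x
  obtain ⟨A, B, hA0, hB0, hAd, hBd, hS, hp, hBp⟩ :=
    mw17mv_exists_rep R P1 hP1 m hm Z (Divisor.mem_degZero.mp hZ) Sig hSig
  have hAB : A - B ∈ Divisor.degZero (K := K) (F := F) := by
    rw [Divisor.mem_degZero, map_sub, hAd, hBd, sub_self]
  exact ⟨A, B, hAB, hA0, hB0, hAd, hBd, hS, hBp, (mw17mv_mk_eq_of_isPrincipal hZ hAB hp).symm⟩

/-- **(MOVE), two classes.** If all places have degree one (e.g. `K` algebraically closed), two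
classes `x, y` have representatives `A - B`, `A' - B'` of size `(m, m)` with DISJOINT supports,
both avoiding a prescribed finite set. -/
theorem mw17mv_exists_rep_pair (R : V27RR K F g) [Infinite K] (hdeg1 : ∀ v : Place K F, v.deg = 1)
    (P1 : Place K F) (m : ℕ) (hm : 2 * g ≤ m) (x y : Pic0 K F) (Sig : Finset (Place K F)) :
    ∃ (A B A' B' : Divisor K F) (hAB : A - B ∈ Divisor.degZero (K := K) (F := F))
      (hAB' : A' - B' ∈ Divisor.degZero (K := K) (F := F)),
      0 ≤ A ∧ 0 ≤ B ∧ 0 ≤ A' ∧ 0 ≤ B' ∧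
      Divisor.degree A = m ∧ Divisor.degree B = m ∧ Divisor.degree A' = m ∧
      Divisor.degree B' = m ∧
      (∀ v ∈ Sig, A v = 0 ∧ B v = 0 ∧ A' v = 0 ∧ B' v = 0) ∧
      (∀ v, (A v ≠ 0 ∨ B v ≠ 0) → A' v = 0 ∧ B' v = 0) ∧
      Divisor.IsPrincipal (B - (m : ℤ) • Finsupp.single P1 1) ∧
      Divisor.IsPrincipal (B' - (m : ℤ) • Finsupp.single P1 1) ∧
      x = Pic0.mk ⟨A - B, hAB⟩ ∧ y = Pic0.mk ⟨A' - B', hAB'⟩ := by
  classical
  obtain ⟨A, B, hAB, hA0, hB0, hAd, hBd, hS, hBp, hx⟩ :=
    mw17mv_exists_rep_pic0 R P1 (hdeg1 P1) m hm x Sig (fun v _ => hdeg1 v)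
  obtain ⟨A', B', hAB', hA0', hB0', hAd', hBd', hS', hBp', hy⟩ :=
    mw17mv_exists_rep_pic0 R P1 (hdeg1 P1) m hm y (Sig ∪ A.support ∪ B.support)
      (fun v _ => hdeg1 v)
  refine ⟨A, B, A', B', hAB, hAB', hA0, hB0, hA0', hB0', hAd, hBd, hAd', hBd', ?_, ?_, hBp, hBp',
    hx, hy⟩
  · intro v hv
    have h1 := hS v hv
    have h2 := hS' v (Finset.mem_union_left _ (Finset.mem_union_left _ hv))
    exact ⟨h1.1, h1.2, h2.1, h2.2⟩
  · intro v hv
    rcases hv with h | h
    · exact hS' v (Finset.mem_union_left _ (Finset.mem_union_right _ (Finsupp.mem_support_iff.mpr h)))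
    · exact hS' v (Finset.mem_union_right _ (Finsupp.mem_support_iff.mpr h))

end Fermat.Agent.MW17
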