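import Mathlib

/-!
# Program MW (S17), §7, abstract half: the pairing on classes

`Pt` = finite points, `none : Option Pt` = the point `P0`.  `b : Option Pt → Pt → ℝ` a function
(symmetric on finite points), extended bilinearly to `B A W` for divisors `A` (may contain `P0`)
and `W` (finite points only).  Given
* (MOVE) every class has a degree-zero representative of bounded size, made of finite points and
  avoiding any prescribed finite set;
* (PRINC) `B (A - A') W` is bounded for linearly equivalent `A, A'` and `W` of degree `0`,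
  of bounded sizes, `W` disjoint from `A` and `A'`;
we construct `mw17paPair : J → J → ℝ`, prove that `B A W` computes it up to a constant on ALL
disjoint representatives of bounded size (evaluation lemma), that it is symmetric and biadditive
up to constants, and that `mw17paH x := mw17paPair x x` satisfies the parallelogram law up to a
constant.
-/

set_option autoImplicit false

noncomputable section

namespace Fermat.Agent.MW17

open Finsupp

variable {α Pt : Type*}

/-! ### size and degree of integer divisors -/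

/-- the size `Σ |Z(P)|` -/
def mw17paSize (Z : α →₀ ℤ) : ℕ := Z.sum fun _ a => a.natAbs

/-- the degree, as an additive map -/
def mw17paDeg : (α →₀ ℤ) →+ ℤ := Finsupp.liftAddHom fun _ => AddMonoidHom.id ℤ

theorem mw17paDeg_apply (Z : α →₀ ℤ) : mw17paDeg Z = Z.sum fun _ a => a := by
  unfold mw17paDeg
  rw [Finsupp.liftAddHom_apply]
  rfl

@[simp] theorem mw17paSize_zero : mw17paSize (0 : α →₀ ℤ) = 0 := by
  simp [mw17paSize]

theorem mw17paSize_eq_sum (Z : α →₀ ℤ) (s : Finset α) (hs : Z.support ⊆ s) :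
    mw17paSize Z = ∑ i ∈ s, (Z i).natAbs :=
  Finsupp.sum_of_support_subset Z hs _ (fun _ _ => by simp)

theorem mw17paSize_add_le (Z Z' : α →₀ ℤ) :
    mw17paSize (Z + Z') ≤ mw17paSize Z + mw17paSize Z' := by
  classical
  set s := Z.support ∪ Z'.support with hs
  rw [mw17paSize_eq_sum (Z + Z') s (Finsupp.support_add.trans (le_of_eq hs.symm)),
    mw17paSize_eq_sum Z s Finset.subset_union_left,
    mw17paSize_eq_sum Z' s Finset.subset_union_right, ← Finset.sum_add_distrib]
  exact Finset.sum_le_sum fun i _ => by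
    rw [Finsupp.add_apply]; exact Int.natAbs_add_le _ _

@[simp] theorem mw17paSize_neg (Z : α →₀ ℤ) : mw17paSize (-Z) = mw17paSize Z := by
  classical
  rw [mw17paSize_eq_sum (-Z) Z.support (by rw [Finsupp.support_neg]),
    mw17paSize_eq_sum Z Z.support le_rfl]
  exact Finset.sum_congr rfl fun i _ => by rw [Finsupp.neg_apply, Int.natAbs_neg]

theorem mw17paSize_sub_le (Z Z' : α →₀ ℤ) :
    mw17paSize (Z - Z') ≤ mw17paSize Z + mw17paSize Z' := by
  rw [sub_eq_add_neg]
  exact (mw17paSize_add_le _ _).trans (by rw [mw17paSize_neg])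

/-- finite-point divisors as divisors -/
def mw17paIota : (Pt →₀ ℤ) →+ (Option Pt →₀ ℤ) :=
  Finsupp.mapDomain.addMonoidHom (some : Pt → Option Pt)

theorem mw17paIota_apply (Z : Pt →₀ ℤ) : mw17paIota Z = Finsupp.mapDomain some Z := rfl

theorem mw17paIota_some (Z : Pt →₀ ℤ) (P : Pt) : mw17paIota Z (some P) = Z P := by
  rw [mw17paIota_apply]
  exact Finsupp.mapDomain_apply (Option.some_injective Pt) Z P

theorem mw17paIota_none (Z : Pt →₀ ℤ) : mw17paIota Z none = 0 := by
  rw [mw17paIota_apply]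
  exact Finsupp.mapDomain_of_notMem_range Z none (by simp)

theorem mw17pa_sum_iota {M : Type*} [AddCommMonoid M] (Z : Pt →₀ ℤ) (f : Option Pt → ℤ → M)
    (_h0 : ∀ P, f P 0 = 0) :
    (mw17paIota Z).sum f = Z.sum fun P a => f (some P) a := by
  rw [mw17paIota_apply]
  exact Finsupp.sum_mapDomain_index_inj (Option.some_injective Pt)

@[simp] theorem mw17paSize_iota (Z : Pt →₀ ℤ) : mw17paSize (mw17paIota Z) = mw17paSize Z := by
  unfold mw17paSize
  rw [mw17pa_sum_iota Z _ (fun _ => by simp)]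

@[simp] theorem mw17paDeg_iota (Z : Pt →₀ ℤ) : mw17paDeg (mw17paIota Z) = mw17paDeg Z := by
  rw [mw17paDeg_apply, mw17paDeg_apply, mw17pa_sum_iota Z _ (fun _ => rfl)]

theorem mw17pa_some_mem_support_iota (Z : Pt →₀ ℤ) (P : Pt) :
    some P ∈ (mw17paIota Z).support ↔ P ∈ Z.support := by
  rw [Finsupp.mem_support_iff, Finsupp.mem_support_iff, mw17paIota_some]

/-! ### the bilinear extension -/

/-- `b(P, W) = Σ_R W(R) b(P,R)` -/
def mw17paRow (b : Option Pt → Pt → ℝ) (W : Pt →₀ ℤ) (P : Option Pt) : ℝ :=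
  W.sum fun R c => (c : ℝ) * b P R

/-- `B(A, W) = Σ_P Σ_R A(P) W(R) b(P,R)` -/
def mw17paB (b : Option Pt → Pt → ℝ) (A : Option Pt →₀ ℤ) (W : Pt →₀ ℤ) : ℝ :=
  A.sum fun P a => (a : ℝ) * mw17paRow b W P

variable (b : Option Pt → Pt → ℝ)

theorem mw17paRow_add (W W' : Pt →₀ ℤ) (P : Option Pt) :
    mw17paRow b (W + W') P = mw17paRow b W P + mw17paRow b W' P := by
  unfold mw17paRow
  exact Finsupp.sum_add_index' (fun _ => by simp) (fun _ _ _ => by push_cast; ring)

theorem mw17paRow_neg (W : Pt →₀ ℤ) (P : Option Pt) :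
    mw17paRow b (-W) P = - mw17paRow b W P := by
  unfold mw17paRow
  rw [Finsupp.sum_neg_index (fun _ => by simp)]
  rw [← Finsupp.sum_neg]
  exact Finsupp.sum_congr fun _ _ => by push_cast; ring

theorem mw17paB_add_left (A A' : Option Pt →₀ ℤ) (W : Pt →₀ ℤ) :
    mw17paB b (A + A') W = mw17paB b A W + mw17paB b A' W := by
  unfold mw17paB
  exact Finsupp.sum_add_index' (fun _ => by simp) (fun _ _ _ => by push_cast; ring)

theorem mw17paB_neg_left (A : Option Pt →₀ ℤ) (W : Pt →₀ ℤ) :
    mw17paB b (-A) W = - mw17paB b A W := by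
  unfold mw17paB
  rw [Finsupp.sum_neg_index (fun _ => by simp)]
  rw [← Finsupp.sum_neg]
  exact Finsupp.sum_congr fun _ _ => by push_cast; ring

theorem mw17paB_sub_left (A A' : Option Pt →₀ ℤ) (W : Pt →₀ ℤ) :
    mw17paB b (A - A') W = mw17paB b A W - mw17paB b A' W := by
  rw [sub_eq_add_neg, mw17paB_add_left, mw17paB_neg_left, ← sub_eq_add_neg]

theorem mw17paB_add_right (A : Option Pt →₀ ℤ) (W W' : Pt →₀ ℤ) :
    mw17paB b A (W + W') = mw17paB b A W + mw17paB b A W' := by
  unfold mw17paB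
  rw [← Finsupp.sum_add]
  exact Finsupp.sum_congr fun _ _ => by rw [mw17paRow_add]; ring

theorem mw17paB_neg_right (A : Option Pt →₀ ℤ) (W : Pt →₀ ℤ) :
    mw17paB b A (-W) = - mw17paB b A W := by
  unfold mw17paB
  rw [← Finsupp.sum_neg]
  exact Finsupp.sum_congr fun _ _ => by rw [mw17paRow_neg]; ring

theorem mw17paB_sub_right (A : Option Pt →₀ ℤ) (W W' : Pt →₀ ℤ) :
    mw17paB b A (W - W') = mw17paB b A W - mw17paB b A W' := by
  rw [sub_eq_add_neg, mw17paB_add_right, mw17paB_neg_right, ← sub_eq_add_neg]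

/-- symmetry on finite-point divisors -/
theorem mw17paB_symm (hsymm : ∀ P R, b (some P) R = b (some R) P) (Z W : Pt →₀ ℤ) :
    mw17paB b (mw17paIota Z) W = mw17paB b (mw17paIota W) Z := by
  unfold mw17paB
  rw [mw17pa_sum_iota Z _ (fun _ => by simp), mw17pa_sum_iota W _ (fun _ => by simp)]
  unfold mw17paRow
  simp only [Finsupp.mul_sum]
  rw [Finsupp.sum_comm]
  exact Finsupp.sum_congr fun R _ => Finsupp.sum_congr fun P _ => by rw [hsymm]; ring

/-! ### hypotheses, representatives, the pairing -/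

variable {J : Type*} [AddCommGroup J]

/-- `W` is disjoint from (the finite part of) `A` -/
def Mw17paOff (A : Option Pt →₀ ℤ) (W : Pt →₀ ℤ) : Prop :=
  ∀ R ∈ W.support, some R ∉ A.support

theorem mw17paOff_iota {Z W : Pt →₀ ℤ} (h : Disjoint Z.support W.support) :
    Mw17paOff (mw17paIota Z) W := by
  intro R hR hR'
  rw [mw17pa_some_mem_support_iota] at hR'
  exact Finset.disjoint_left.mp h hR' hR

theorem Mw17paOff.add_left {A A' : Option Pt →₀ ℤ} {W : Pt →₀ ℤ} (h : Mw17paOff A W)
    (h' : Mw17paOff A' W) : Mw17paOff (A + A') W := by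
  classical
  intro R hR hmem
  rcases Finset.mem_union.mp (Finsupp.support_add hmem) with h1 | h1
  · exact h R hR h1
  · exact h' R hR h1

theorem Mw17paOff.neg_left {A : Option Pt →₀ ℤ} {W : Pt →₀ ℤ} (h : Mw17paOff A W) :
    Mw17paOff (-A) W := by
  intro R hR hmem
  rw [Finsupp.support_neg] at hmem
  exact h R hR hmem

theorem Mw17paOff.sub_left {A A' : Option Pt →₀ ℤ} {W : Pt →₀ ℤ} (h : Mw17paOff A W)
    (h' : Mw17paOff A' W) : Mw17paOff (A - A') W := by
  rw [sub_eq_add_neg]; exact h.add_left h'.neg_left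

theorem Mw17paOff.add_right {A : Option Pt →₀ ℤ} {W W' : Pt →₀ ℤ} (h : Mw17paOff A W)
    (h' : Mw17paOff A W') : Mw17paOff A (W + W') := by
  classical
  intro R hR
  rcases Finset.mem_union.mp (Finsupp.support_add hR) with h1 | h1
  · exact h R h1
  · exact h' R h1

theorem Mw17paOff.neg_right {A : Option Pt →₀ ℤ} {W : Pt →₀ ℤ} (h : Mw17paOff A W) :
    Mw17paOff A (-W) := by
  intro R hR
  rw [Finsupp.support_neg] at hR
  exact h R hR

theorem Mw17paOff.sub_right {A : Option Pt →₀ ℤ} {W W' : Pt →₀ ℤ} (h : Mw17paOff A W)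
    (h' : Mw17paOff A W') : Mw17paOff A (W - W') := by
  rw [sub_eq_add_neg]; exact h.add_right h'.neg_right

/-- the hypotheses of the abstract pairing -/
structure Mw17paHyp (b : Option Pt → Pt → ℝ) (cl : (Option Pt →₀ ℤ) →+ J) : Prop where
  symm : ∀ P R, b (some P) R = b (some R) P
  move : ∃ s₀ : ℕ, ∀ (x : J) (S : Finset Pt), ∃ Z : Pt →₀ ℤ, mw17paDeg Z = 0 ∧
    cl (mw17paIota Z) = x ∧ mw17paSize Z ≤ s₀ ∧ Disjoint Z.support S
  princ : ∀ s : ℕ, ∃ C : ℝ, ∀ (A A' : Option Pt →₀ ℤ) (W : Pt →₀ ℤ),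
    mw17paDeg A = 0 → mw17paDeg A' = 0 → mw17paDeg W = 0 → cl A = cl A' →
    mw17paSize A ≤ s → mw17paSize A' ≤ s → mw17paSize W ≤ s →
    Mw17paOff A W → Mw17paOff A' W → |mw17paB b (A - A') W| ≤ C

namespace Mw17paHyp

variable {b} {cl : (Option Pt →₀ ℤ) →+ J} (H : Mw17paHyp b cl)

/-- the size bound of (MOVE) -/
def s₀ : ℕ := Classical.choose H.move

theorem move_spec (x : J) (S : Finset Pt) : ∃ Z : Pt →₀ ℤ, mw17paDeg Z = 0 ∧
    cl (mw17paIota Z) = x ∧ mw17paSize Z ≤ H.s₀ ∧ Disjoint Z.support S :=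
  Classical.choose_spec H.move x S

/-- a representative of `x` off `S` -/
def rep (x : J) (S : Finset Pt) : Pt →₀ ℤ := Classical.choose (H.move_spec x S)

theorem rep_deg (x : J) (S : Finset Pt) : mw17paDeg (H.rep x S) = 0 :=
  (Classical.choose_spec (H.move_spec x S)).1

theorem rep_cl (x : J) (S : Finset Pt) : cl (mw17paIota (H.rep x S)) = x :=
  (Classical.choose_spec (H.move_spec x S)).2.1

theorem rep_size (x : J) (S : Finset Pt) : mw17paSize (H.rep x S) ≤ H.s₀ :=
  (Classical.choose_spec (H.move_spec x S)).2.2.1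

theorem rep_disjoint (x : J) (S : Finset Pt) : Disjoint (H.rep x S).support S :=
  (Classical.choose_spec (H.move_spec x S)).2.2.2

/-- the constant of (PRINC) -/
def cst (s : ℕ) : ℝ := Classical.choose (H.princ s)

theorem princ_spec (s : ℕ) (A A' : Option Pt →₀ ℤ) (W : Pt →₀ ℤ)
    (hA : mw17paDeg A = 0) (hA' : mw17paDeg A' = 0) (hW : mw17paDeg W = 0) (hcl : cl A = cl A')
    (h1 : mw17paSize A ≤ s) (h2 : mw17paSize A' ≤ s) (h3 : mw17paSize W ≤ s)
    (ho : Mw17paOff A W) (ho' : Mw17paOff A' W) : |mw17paB b (A - A') W| ≤ H.cst s :=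
  Classical.choose_spec (H.princ s) A A' W hA hA' hW hcl h1 h2 h3 ho ho'

theorem cst_nonneg (s : ℕ) : 0 ≤ H.cst s := by
  have := H.princ_spec s 0 0 0 (map_zero _) (map_zero _) (map_zero _) rfl (by simp) (by simp)
    (by simp) (fun R hR => by simp at hR) (fun R hR => by simp at hR)
  exact (abs_nonneg _).trans this

/-- the pairing -/
def pair (x y : J) : ℝ :=
  mw17paB b (mw17paIota (H.rep x ∅)) (H.rep y (H.rep x ∅).support)

/-- the height -/
def height (x : J) : ℝ := H.pair x x

/-- **evaluation lemma**: `B A W` computes the pairing, up to a constant depending only on the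
sizes, for every pair of disjoint representatives (`P0` allowed in `A`). -/
theorem eval (s : ℕ) (A : Option Pt →₀ ℤ) (W : Pt →₀ ℤ) (hA : mw17paDeg A = 0)
    (hW : mw17paDeg W = 0) (h1 : mw17paSize A ≤ s) (h2 : mw17paSize W ≤ s)
    (ho : Mw17paOff A W) :
    |mw17paB b A W - H.pair (cl A) (cl (mw17paIota W))| ≤ 3 * H.cst (max s H.s₀) := by
  classical
  set x := cl A with hx
  set y := cl (mw17paIota W) with hy
  set Zx := H.rep x ∅ with hZx
  set Zy := H.rep y Zx.support with hZy
  set Z'' := H.rep x (W.support ∪ Zy.support) with hZ''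
  set s' := max s H.s₀ with hs'
  have hs1 : s ≤ s' := le_max_left _ _
  have hs0 : H.s₀ ≤ s' := le_max_right _ _
  have hd'' := H.rep_disjoint x (W.support ∪ Zy.support)
  have hdW : Disjoint Z''.support W.support :=
    hd''.mono_right Finset.subset_union_left
  have hdZy : Disjoint Z''.support Zy.support :=
    hd''.mono_right Finset.subset_union_right
  have hdxy : Disjoint Zy.support Zx.support := H.rep_disjoint y Zx.support
  -- term 1
  have t1 : |mw17paB b (A - mw17paIota Z'') W| ≤ H.cst s' :=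
    H.princ_spec s' A (mw17paIota Z'') W hA (by rw [mw17paDeg_iota]; exact H.rep_deg _ _) hW
      (by rw [H.rep_cl]) (h1.trans hs1)
      (by rw [mw17paSize_iota]; exact (H.rep_size _ _).trans hs0) (h2.trans hs1) ho
      (mw17paOff_iota hdW)
  -- term 2
  have t2 : |mw17paB b (mw17paIota W - mw17paIota Zy) Z''| ≤ H.cst s' :=
    H.princ_spec s' (mw17paIota W) (mw17paIota Zy) Z'' (by rw [mw17paDeg_iota]; exact hW)
      (by rw [mw17paDeg_iota]; exact H.rep_deg _ _) (H.rep_deg _ _)
      (by rw [H.rep_cl]) (by rw [mw17paSize_iota]; exact h2.trans hs1)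
      (by rw [mw17paSize_iota]; exact (H.rep_size _ _).trans hs0)
      ((H.rep_size _ _).trans hs0) (mw17paOff_iota hdW.symm) (mw17paOff_iota hdZy.symm)
  -- term 3
  have t3 : |mw17paB b (mw17paIota Z'' - mw17paIota Zx) Zy| ≤ H.cst s' :=
    H.princ_spec s' (mw17paIota Z'') (mw17paIota Zx) Zy
      (by rw [mw17paDeg_iota]; exact H.rep_deg _ _)
      (by rw [mw17paDeg_iota]; exact H.rep_deg _ _) (H.rep_deg _ _)
      (by rw [H.rep_cl, H.rep_cl]) (by rw [mw17paSize_iota]; exact (H.rep_size _ _).trans hs0)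
      (by rw [mw17paSize_iota]; exact (H.rep_size _ _).trans hs0)
      ((H.rep_size _ _).trans hs0) (mw17paOff_iota hdZy) (mw17paOff_iota hdxy.symm)
  have key : mw17paB b A W - H.pair x y =
      mw17paB b (A - mw17paIota Z'') W + mw17paB b (mw17paIota W - mw17paIota Zy) Z''
        + mw17paB b (mw17paIota Z'' - mw17paIota Zx) Zy := by
    have e2 : mw17paB b (mw17paIota W - mw17paIota Zy) Z'' =
        mw17paB b (mw17paIota Z'') W - mw17paB b (mw17paIota Z'') Zy := by
      rw [mw17paB_sub_left, mw17paB_symm b H.symm W Z'', mw17paB_symm b H.symm Zy Z'']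
    rw [e2, mw17paB_sub_left, mw17paB_sub_left]
    unfold pair
    ring
  rw [key]
  calc |mw17paB b (A - mw17paIota Z'') W + mw17paB b (mw17paIota W - mw17paIota Zy) Z''
        + mw17paB b (mw17paIota Z'' - mw17paIota Zx) Zy|
      ≤ |mw17paB b (A - mw17paIota Z'') W| + |mw17paB b (mw17paIota W - mw17paIota Zy) Z''|
        + |mw17paB b (mw17paIota Z'' - mw17paIota Zx) Zy| := abs_add_three _ _ _
    _ ≤ 3 * H.cst s' := by linarith

/-- evaluation lemma for two finite-point representatives -/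
theorem eval_iota (s : ℕ) (Z W : Pt →₀ ℤ) (hZ : mw17paDeg Z = 0)
    (hW : mw17paDeg W = 0) (h1 : mw17paSize Z ≤ s) (h2 : mw17paSize W ≤ s)
    (hd : Disjoint Z.support W.support) :
    |mw17paB b (mw17paIota Z) W - H.pair (cl (mw17paIota Z)) (cl (mw17paIota W))|
      ≤ 3 * H.cst (max s H.s₀) :=
  H.eval s (mw17paIota Z) W (by rw [mw17paDeg_iota]; exact hZ) hW
    (by rw [mw17paSize_iota]; exact h1) h2 (mw17paOff_iota hd)

/-- symmetry up to a constant -/
theorem pair_symm (x y : J) : |H.pair y x - H.pair x y| ≤ 3 * H.cst (max H.s₀ H.s₀) := by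
  set Zy := H.rep y ∅ with hZy
  set Zx := H.rep x Zy.support with hZx
  have hd : Disjoint Zx.support Zy.support := H.rep_disjoint x Zy.support
  have h := H.eval_iota H.s₀ Zx Zy (H.rep_deg _ _) (H.rep_deg _ _) (H.rep_size _ _)
    (H.rep_size _ _) hd
  rw [H.rep_cl, H.rep_cl, mw17paB_symm b H.symm Zx Zy] at h
  exact h

/-- additivity in the first variable up to a constant -/
theorem pair_add_left (x x' y : J) :
    |H.pair (x + x') y - (H.pair x y + H.pair x' y)|
      ≤ 3 * H.cst (max (2 * H.s₀) H.s₀) + 6 * H.cst (max H.s₀ H.s₀) := by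
  classical
  set Zx := H.rep x ∅ with hZx
  set Zx' := H.rep x' ∅ with hZx'
  set Zy := H.rep y (Zx.support ∪ Zx'.support) with hZy
  have d := H.rep_disjoint y (Zx.support ∪ Zx'.support)
  have dyx : Disjoint Zy.support Zx.support := d.mono_right Finset.subset_union_left
  have dyx' : Disjoint Zy.support Zx'.support := d.mono_right Finset.subset_union_right
  have sx : mw17paSize Zx ≤ H.s₀ := H.rep_size x ∅
  have sx' : mw17paSize Zx' ≤ H.s₀ := H.rep_size x' ∅
  have sy : mw17paSize Zy ≤ H.s₀ := H.rep_size y (Zx.support ∪ Zx'.support)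
  have cx : cl (mw17paIota Zx) = x := H.rep_cl _ _
  have cx' : cl (mw17paIota Zx') = x' := H.rep_cl _ _
  have cy : cl (mw17paIota Zy) = y := H.rep_cl _ _
  have e1 := H.eval_iota (2 * H.s₀) (Zx + Zx') Zy
    (by rw [map_add, H.rep_deg, H.rep_deg, add_zero]) (H.rep_deg _ _)
    ((mw17paSize_add_le _ _).trans (by omega)) (sy.trans (by omega))
    ((d.symm).mono_left Finsupp.support_add)
  have e2 := H.eval_iota H.s₀ Zx Zy (H.rep_deg _ _) (H.rep_deg _ _) sx sy dyx.symm
  have e3 := H.eval_iota H.s₀ Zx' Zy (H.rep_deg _ _) (H.rep_deg _ _) sx' sy dyx'.symm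
  simp only [map_add] at e1
  rw [cx, cx', cy] at e1
  rw [cx, cy] at e2
  rw [cx', cy] at e3
  rw [mw17paB_add_left] at e1
  rw [abs_le] at e1 e2 e3 ⊢
  constructor <;> linarith [e1.1, e1.2, e2.1, e2.2, e3.1, e3.2]

/-- compatibility with negation in the first variable up to a constant -/
theorem pair_neg_left (x y : J) :
    |H.pair (-x) y + H.pair x y| ≤ 6 * H.cst (max H.s₀ H.s₀) := by
  set Zx := H.rep x ∅ with hZx
  set Zy := H.rep y Zx.support with hZy
  have d : Disjoint Zy.support Zx.support := H.rep_disjoint y Zx.support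
  have sx := H.rep_size x ∅
  have sy := H.rep_size y Zx.support
  have cx : cl (mw17paIota Zx) = x := H.rep_cl _ _
  have cy : cl (mw17paIota Zy) = y := H.rep_cl _ _
  have e1 := H.eval_iota H.s₀ (-Zx) Zy (by rw [map_neg, H.rep_deg, neg_zero]) (H.rep_deg _ _)
    (by rw [mw17paSize_neg]; exact sx) sy (by rw [Finsupp.support_neg]; exact d.symm)
  have e2 := H.eval_iota H.s₀ Zx Zy (H.rep_deg _ _) (H.rep_deg _ _) sx sy d.symm
  simp only [map_neg] at e1
  rw [cx, cy] at e1 e2
  rw [mw17paB_neg_left] at e1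
  rw [abs_le] at e1 e2 ⊢
  constructor <;> linarith [e1.1, e1.2, e2.1, e2.2]

/-- **parallelogram law** up to a constant. -/
theorem parallelogram (x y : J) :
    |H.height (x + y) + H.height (x - y) - 2 * (H.height x + H.height y)|
      ≤ 6 * H.cst (max (2 * H.s₀) H.s₀) + 12 * H.cst (max H.s₀ H.s₀) := by
  classical
  set Zx := H.rep x ∅ with hZx
  set Zy := H.rep y Zx.support with hZy
  set Zx' := H.rep x (Zx.support ∪ Zy.support) with hZx'
  set Zy' := H.rep y (Zx.support ∪ Zy.support ∪ Zx'.support) with hZy'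
  have d1 := H.rep_disjoint x (Zx.support ∪ Zy.support)
  have d2 := H.rep_disjoint y (Zx.support ∪ Zy.support ∪ Zx'.support)
  have dx'x : Disjoint Zx'.support Zx.support := d1.mono_right Finset.subset_union_left
  have dx'y : Disjoint Zx'.support Zy.support := d1.mono_right Finset.subset_union_right
  have dy'x : Disjoint Zy'.support Zx.support :=
    d2.mono_right (Finset.subset_union_left.trans Finset.subset_union_left)
  have dy'y : Disjoint Zy'.support Zy.support :=
    d2.mono_right (Finset.subset_union_right.trans Finset.subset_union_left)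
  have hsz : ∀ Z Z' : Pt →₀ ℤ, mw17paSize Z ≤ H.s₀ → mw17paSize Z' ≤ H.s₀ →
      mw17paSize (Z + Z') ≤ 2 * H.s₀ ∧ mw17paSize (Z - Z') ≤ 2 * H.s₀ := by
    intro Z Z' h h'
    exact ⟨(mw17paSize_add_le _ _).trans (by omega), (mw17paSize_sub_le _ _).trans (by omega)⟩
  have hdis : ∀ Z Z' : Pt →₀ ℤ, Disjoint (Z.support ∪ Z'.support) (Zx'.support ∪ Zy'.support) →
      ∀ U V : Pt →₀ ℤ, U.support ⊆ Z.support ∪ Z'.support →
        V.support ⊆ Zx'.support ∪ Zy'.support → Disjoint U.support V.support :=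
    fun _ _ h _ _ hU hV => h.mono hU hV
  have hbig : Disjoint (Zx.support ∪ Zy.support) (Zx'.support ∪ Zy'.support) := by
    rw [Finset.disjoint_union_left, Finset.disjoint_union_right, Finset.disjoint_union_right]
    exact ⟨⟨dx'x.symm, dy'x.symm⟩, ⟨dx'y.symm, dy'y.symm⟩⟩
  have sx := H.rep_size x ∅
  have sy := H.rep_size y Zx.support
  have sx' := H.rep_size x (Zx.support ∪ Zy.support)
  have sy' := H.rep_size y (Zx.support ∪ Zy.support ∪ Zx'.support)
  -- the four evaluations
  have e1 := H.eval_iota (2 * H.s₀) (Zx + Zy) (Zx' + Zy')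
    (by rw [map_add, H.rep_deg, H.rep_deg, add_zero])
    (by rw [map_add, H.rep_deg, H.rep_deg, add_zero]) (hsz _ _ sx sy).1 (hsz _ _ sx' sy').1
    (hdis Zx Zy hbig _ _ Finsupp.support_add Finsupp.support_add)
  have e2 := H.eval_iota (2 * H.s₀) (Zx - Zy) (Zx' - Zy')
    (by rw [map_sub, H.rep_deg, H.rep_deg, sub_zero])
    (by rw [map_sub, H.rep_deg, H.rep_deg, sub_zero]) (hsz _ _ sx sy).2 (hsz _ _ sx' sy').2
    (hdis Zx Zy hbig _ _ Finsupp.support_sub Finsupp.support_sub)
  have e3 := H.eval_iota H.s₀ Zx Zx' (H.rep_deg _ _) (H.rep_deg _ _) sx sx' dx'x.symm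
  have e4 := H.eval_iota H.s₀ Zy Zy' (H.rep_deg _ _) (H.rep_deg _ _) sy sy' dy'y.symm
  have cx : cl (mw17paIota Zx) = x := H.rep_cl _ _
  have cy : cl (mw17paIota Zy) = y := H.rep_cl _ _
  have cx' : cl (mw17paIota Zx') = x := H.rep_cl _ _
  have cy' : cl (mw17paIota Zy') = y := H.rep_cl _ _
  simp only [map_add, map_sub] at e1 e2
  rw [cx, cy, cx', cy'] at e1 e2
  rw [cx, cx'] at e3
  rw [cy, cy'] at e4
  -- exact bilinearity
  have hbil : mw17paB b (mw17paIota Zx + mw17paIota Zy) (Zx' + Zy')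
      + mw17paB b (mw17paIota Zx - mw17paIota Zy) (Zx' - Zy')
      = 2 * (mw17paB b (mw17paIota Zx) Zx' + mw17paB b (mw17paIota Zy) Zy') := by
    rw [mw17paB_add_left, mw17paB_sub_left, mw17paB_add_right, mw17paB_add_right,
      mw17paB_sub_right, mw17paB_sub_right]
    ring
  have hc1 := H.cst_nonneg (max (2 * H.s₀) H.s₀)
  have hc2 := H.cst_nonneg (max H.s₀ H.s₀)
  unfold height
  rw [abs_le] at e1 e2 e3 e4 ⊢
  constructor <;> linarith [e1.1, e1.2, e2.1, e2.2, e3.1, e3.2, e4.1, e4.2]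

end Mw17paHyp

/-- **§7, abstract output**: a function on classes satisfying the parallelogram law up to a
constant, which is computed (up to constants depending on the sizes only) by `B` on any pair of
disjoint representatives. -/
theorem mw17pa_main {b : Option Pt → Pt → ℝ} {cl : (Option Pt →₀ ℤ) →+ J}
    (H : Mw17paHyp b cl) :
    ∃ h : J → ℝ, (∃ C : ℝ, ∀ x y : J, |h (x + y) + h (x - y) - 2 * (h x + h y)| ≤ C) ∧
      ∀ s : ℕ, ∃ C : ℝ, ∀ (A : Option Pt →₀ ℤ) (W : Pt →₀ ℤ), mw17paDeg A = 0 →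
        mw17paDeg W = 0 → mw17paSize A ≤ s → mw17paSize W ≤ s → Mw17paOff A W →
        cl (mw17paIota W) = cl A → |mw17paB b A W - h (cl A)| ≤ C := by
  refine ⟨H.height, ⟨_, H.parallelogram⟩, fun s => ⟨3 * H.cst (max s H.s₀),
    fun A W hA hW h1 h2 ho hcl => ?_⟩⟩
  have := H.eval s A W hA hW h1 h2 ho
  rw [hcl] at this
  exact this

end Fermat.Agent.MW17
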