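import Fermat.Agent.MW17.GoodPts
import Fermat.Agent.MW17.Pair.Cl
import Fermat.Agent.V.Coord.Point

/-!
# Program MW (S17): good classes of `J₀(N)(K)` as tuples of points `Mw17Pt T`, with helper29's class
map and the degree bound (prefix `mw17gq_`)

Owner: helper2.  `MW17/GoodPts.lean` restated in the language the height half uses:
points are `K`-algebra homs `Mw17Pt T = V27pB T →ₐ[ℚ̄] ℚ̄` (`MW17/Setup.lean`), places are
`v27spPlace P q` / `mw17prPl P (some q)`, classes are `mw17prCl P A` (`MW17/Pair/Cl.lean`, helper29),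
the divisor of a tuple is `Σ_b [Q b] − g·[P0]` (`mw17gqTup`, definitionally helper29's `mw17muTup`).
-/

set_option autoImplicit false
set_option linter.unusedSectionVars false
set_option linter.unusedVariables false
set_option linter.style.haveILetI false

noncomputable section

namespace Fermat.Agent.MW17

open AlgebraicCurve ModularCurve Module Polynomial Fermat.Agent.V Fermat.Agent.V.Dict
  Fermat.Agent.G Fermat.Agent.S24 Fermat.Agent.MW

/-- the formal sum `Σ_b [Q b] − g·[P0]` of a tuple of points (`none = P0`);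
definitionally equal to helper29's `mw17muTup Q`. -/
def mw17gqTup {Pt : Type*} {g : ℕ} (Q : Fin g → Pt) : Option Pt →₀ ℤ :=
  (∑ b, Finsupp.single (some (Q b)) (1 : ℤ)) - Finsupp.single none (g : ℤ)

theorem mw17gqTup_deg {Pt : Type*} {g : ℕ} (Q : Fin g → Pt) : mw17paDeg (mw17gqTup Q) = 0 := by
  unfold mw17gqTup
  rw [map_sub, map_sum]
  simp

variable (N : ℕ) [NeZero N] {δ : V27pShape} {T : V27pTable (AlgebraicClosure ℚ) δ}
  [IsDedekindDomain (V27pB T)]

/-- the divisor of `mw17gqTup Q` -/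
theorem mw17gq_div_tup (P : V27Presented (AlgebraicClosure ℚ) (modularFunctionFieldBar N) T)
    {g : ℕ} (Q : Fin g → Mw17Pt T) :
    mw17prDiv P (mw17gqTup Q) = v27dcSum (fun b => v27spPlace P (Q b)) -
      (g : ℤ) • Finsupp.single P.P0 (1 : ℤ) := by
  unfold mw17gqTup v27dcSum
  rw [map_sub, map_sum, mw17prDiv_single, mw17prPl_none]
  congr 1
  · refine Finset.sum_congr rfl fun b _ => ?_
    rw [mw17prDiv_single, mw17prPl_some]
  · rw [Finsupp.smul_single, smul_eq_mul, mul_one]

/-- the class of `mw17gqTup Q` -/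
theorem mw17gq_cl_tup (P : V27Presented (AlgebraicClosure ℚ) (modularFunctionFieldBar N) T)
    {g : ℕ} (Q : Fin g → Mw17Pt T)
    (h0 : Divisor.degree (v27dcSum (fun b => v27spPlace P (Q b)) -
      (g : ℤ) • Finsupp.single P.P0 (1 : ℤ)) = 0) :
    mw17prCl P (mw17gqTup Q) = Pic0.mk ⟨v27dcSum (fun b => v27spPlace P (Q b)) -
      (g : ℤ) • Finsupp.single P.P0 (1 : ℤ), h0⟩ := by
  rw [mw17prCl_apply]
  congr 1
  apply Subtype.ext
  show mw17prDiv P (mw17gqTup Q) - mw17paDeg (mw17gqTup Q) • _ = _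
  rw [mw17gqTup_deg, zero_smul, sub_zero, mw17gq_div_tup]

/-- **good classes of `J₀(N)(K)` as tuples of points, with the degree bound.** -/
theorem mw17gq_good (P : V27Presented (AlgebraicClosure ℚ) (modularFunctionFieldBar N) T)
    (Sig : Finset (Place (AlgebraicClosure ℚ) (modularFunctionFieldBar N)))
    (K : IntermediateField ℚ (AlgebraicClosure ℚ)) [FiniteDimensional ℚ K] :
    ∃ d : ℕ, ∀ y ∈ FixedPoints.addSubgroup ↥K.fixingSubgroup (JZero N),
      y ∈ mwgtGood N P.P0 Sig →
      ∃ Q : Fin (genusFF (AlgebraicClosure ℚ) ↥(modularFunctionFieldBar N)) → Mw17Pt T,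
        Function.Injective Q ∧
        (∀ i, v27spPlace P (Q i) ∉ Sig) ∧
        finrank (AlgebraicClosure ℚ)
          (riemannRochSpace (v27dcSum fun i => v27spPlace P (Q i))) = 1 ∧
        y = mw17prCl P (mw17gqTup Q) ∧
        ∀ i o, (minpoly ℚ (v27cbPt T (Q i) o)).natDegree ≤ d := by
  obtain ⟨d, hd⟩ := mw17gp_good N P Sig K
  refine ⟨d, fun y hyK hyg => ?_⟩
  obtain ⟨E, hE, hinj, hSig, hl, ⟨h0, hy⟩, hdeg⟩ := hd y hyK hyg
  refine ⟨fun i => v27cbHom T (E i) (hE i), ?_, hSig, hl, ?_, ?_⟩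
  · intro i j hij
    apply hinj
    have := congrArg (v27cbPt T) hij
    rwa [v27cbPt_hom, v27cbPt_hom] at this
  · rw [hy]
    exact (mw17gq_cl_tup N P _ h0).symm
  · intro i o
    rw [v27cbPt_hom]
    exact hdeg i o

end Fermat.Agent.MW17
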