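import Fermat.Agent.V.RR.Pack
import Fermat.Prelude.Def_AlgebraicCurve_BaseChangeGalois
import Fermat.Prelude.Def_ModularCurve_ArithmeticGalois

/-!
# Program MW (S17), curve side: an effective divisor with `l(D) = 1` is alone in its class (STABLE)

* `mw17sr_unique` : `D ≥ 0`, `l(D) = 1`, `D' ≥ 0`, `D' ∼ D`  ⟹  `D' = D`;
* `mw17sr_smul_eq` : such a `D` is fixed by every semilinear automorphism `γ` of `F / K` which
  fixes its class (`γ • D - D` principal);
* `mw17sr_fixed_of_class` : the same with the class written as `[D - (deg D) • P0]` in `Pic0`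
  and `γ • P0 = P0`.  This is the Northcott consumer: for `x ∈ J(K')` the good divisor `D` with
  `x = [D - g P0]`, `l(D) = 1`, is stable under `Gal(Q̄/K')`, so its points have boundedly many
  conjugates.
-/

set_option autoImplicit false

noncomputable section

namespace Fermat.Agent.MW17

open AlgebraicCurve Module Fermat.Agent.V.RR Fermat.Agent.S24

variable {K F : Type*} [Field K] [Field F] [Algebra K F]

/-- the constant function `1` lies in `L(D)` for `D ≥ 0`. -/
theorem mw17sr_one_mem {D : Divisor K F} (hD : 0 ≤ D) : (1 : F) ∈ riemannRochSpace D := by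
  rw [mem_riemannRochSpace_iff]
  intro v
  right
  have h := Finsupp.le_def.mp hD v
  rw [Finsupp.zero_apply] at h
  rw [Place.ord_one]
  linarith

/-- if `D ≥ 0` and `l(D) = 1` then `L(D)` consists of the constants: its nonzero elements have
trivial divisor. -/
theorem mw17sr_ord_eq_zero {D : Divisor K F} (hD : 0 ≤ D)
    (hl : finrank K (riemannRochSpace D) = 1) {f : F} (hf : f ∈ riemannRochSpace D)
    (v : Place K F) : v.ord f = 0 := by
  have h1 : (⟨1, mw17sr_one_mem hD⟩ : riemannRochSpace D) ≠ 0 := by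
    intro h
    exact one_ne_zero (congrArg Subtype.val h)
  obtain ⟨c, hc⟩ := (finrank_eq_one_iff_of_nonzero' _ h1).mp hl ⟨f, hf⟩
  have hf' : f = algebraMap K F c := by
    have := congrArg Subtype.val hc
    rw [Submodule.coe_smul, Algebra.smul_def, mul_one] at this
    exact this.symm
  rw [hf', PlaceOrd.ord_algebraMap]

/-- **(STABLE), uniqueness.** An effective divisor with `l(D) = 1` is the only effective divisor
in its linear equivalence class. -/
theorem mw17sr_unique {D D' : Divisor K F} (hD : 0 ≤ D)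
    (hl : finrank K (riemannRochSpace D) = 1) (hD' : 0 ≤ D')
    (hcls : Divisor.IsPrincipal (D' - D)) : D' = D := by
  obtain ⟨f, hf0, hf⟩ := hcls
  have hmem : f ∈ riemannRochSpace D := by
    rw [mem_riemannRochSpace_iff]
    intro v
    right
    have h := Finsupp.le_def.mp hD' v
    rw [Finsupp.zero_apply] at h
    have h2 := hf v
    rw [Finsupp.sub_apply] at h2
    linarith
  ext v
  have h2 := hf v
  rw [Finsupp.sub_apply, mw17sr_ord_eq_zero hD hl hmem v] at h2
  linarith

/-- a semilinear automorphism maps effective divisors to effective divisors. -/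
theorem mw17sr_smul_nonneg (γ : SemilinearAut K F) {D : Divisor K F} (hD : 0 ≤ D) :
    0 ≤ γ • D := by
  rw [Finsupp.le_def]
  intro v
  rw [Finsupp.zero_apply, SemilinearAut.divisor_smul_apply]
  have h := Finsupp.le_def.mp hD (γ⁻¹ • v)
  rwa [Finsupp.zero_apply] at h

/-- **(STABLE).** An effective divisor with `l(D) = 1` is fixed by every semilinear automorphism
fixing its class. -/
theorem mw17sr_smul_eq {D : Divisor K F} (hD : 0 ≤ D)
    (hl : finrank K (riemannRochSpace D) = 1) (γ : SemilinearAut K F)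
    (hcls : Divisor.IsPrincipal (γ • D - D)) : γ • D = D :=
  mw17sr_unique hD hl (mw17sr_smul_nonneg γ hD) hcls

/-- the degree zero divisor `D - (deg D) • P0`. -/
theorem mw17sr_sub_mem_degZero (P0 : Place K F) (hP0 : P0.deg = 1) (D : Divisor K F) :
    D - Divisor.degree D • (Finsupp.single P0 1 : Divisor K F) ∈
      Divisor.degZero (K := K) (F := F) := by
  rw [Divisor.mem_degZero, map_sub, map_zsmul, Divisor.degree_single, hP0]
  simp

/-- **(STABLE), class form.** If `γ` fixes the place `P0` (of degree one) and the class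
`x = [D - (deg D) P0]` with `D ≥ 0`, `l(D) = 1`, then `γ • D = D`. -/
theorem mw17sr_fixed_of_class (P0 : Place K F) (hP0 : P0.deg = 1) (γ : SemilinearAut K F)
    (hγP0 : γ • P0 = P0) {D : Divisor K F} (hD : 0 ≤ D)
    (hl : finrank K (riemannRochSpace D) = 1)
    (hx : γ • (Pic0.mk ⟨_, mw17sr_sub_mem_degZero P0 hP0 D⟩ : Pic0 K F) =
      Pic0.mk ⟨_, mw17sr_sub_mem_degZero P0 hP0 D⟩) : γ • D = D := by
  apply mw17sr_smul_eq hD hl γ
  rw [SemilinearAut.pic0_smul_mk] at hx
  unfold Pic0.mk at hx
  rw [QuotientAddGroup.eq_iff_sub_mem, AddSubgroup.mem_addSubgroupOf] at hx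
  have hx' : Divisor.IsPrincipal
      (γ • (D - Divisor.degree D • (Finsupp.single P0 1 : Divisor K F)) -
        (D - Divisor.degree D • (Finsupp.single P0 1 : Divisor K F))) :=
    Divisor.mem_principal.mp hx
  have e : γ • (D - Divisor.degree D • (Finsupp.single P0 1 : Divisor K F)) -
      (D - Divisor.degree D • (Finsupp.single P0 1 : Divisor K F)) = γ • D - D := by
    rw [smul_sub, smul_comm γ (Divisor.degree D), SemilinearAut.smul_single, hγP0]
    abel
  rwa [e] at hx'

/-- **(STABLE) for `J₀(N)`.** With the Prelude's arithmetic Galois action on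
`JZero N = Pic0 Q̄ (Q̄ · F₀)`: if `σ ∈ Gal(Q̄/ℚ)` fixes the place `P0` and the class
`[D - (deg D) P0]`, `D ≥ 0`, `l(D) = 1`, then `σ` fixes the divisor `D`. -/
theorem mw17sr_fixed_JZero (N : ℕ)
    (P0 : Place (AlgebraicClosure ℚ) (ModularCurve.modularFunctionFieldBar N)) (hP0 : P0.deg = 1)
    (σ : AlgebraicClosure ℚ ≃ₐ[ℚ] AlgebraicClosure ℚ)
    (hσP0 : ModularCurve.arithmeticGalois (ModularCurve.modularFunctionFieldFull N) σ • P0 = P0)
    {D : Divisor (AlgebraicClosure ℚ) (ModularCurve.modularFunctionFieldBar N)} (hD : 0 ≤ D)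
    (hl : finrank (AlgebraicClosure ℚ) (riemannRochSpace D) = 1)
    (hx : σ • (Pic0.mk ⟨_, mw17sr_sub_mem_degZero P0 hP0 D⟩ : ModularCurve.JZero N) =
      Pic0.mk ⟨_, mw17sr_sub_mem_degZero P0 hP0 D⟩) :
    ModularCurve.arithmeticGalois (ModularCurve.modularFunctionFieldFull N) σ • D = D :=
  mw17sr_fixed_of_class P0 hP0 _ hσP0 hD hl hx

end Fermat.Agent.MW17
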