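import Fermat.Agent.MW17.RatMin
import Fermat.Agent.MW17.Deg
import Fermat.Agent.MW17.StableRep
import Fermat.Agent.MW.GT.Cover
import Fermat.Agent.V.Dict.Classes

/-!
# Program MW (S17): good classes of `J₀(N)(K)` in coordinates, with the degree bound
(prefix `mw17gp_`)

Owner: helper2.  The bridge from helper27's Place-language good classes `mwgtGood N P0 Sig`
(`MW/GT/Cover.lean`) to the coordinate points `V27coPt T.c` of a presentation
`P : V27Presented ℚ̄ (modularFunctionFieldBar N) T`, for classes rational over a number field `K`: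

`mw17gp_good` : there is `d` (depending on `P`, `K` only) such that every
`y ∈ J₀(N)(K) ∩ mwgtGood N P.P0 Sig` is the class of `Σ_i [placeOf (E i)] − g·P0` for `g` pairwise
distinct coordinate points `E i`, off `Sig`, with `l(Σ_i [placeOf (E i)]) = 1`, ALL OF WHOSE
COORDINATES HAVE DEGREE `≤ d` OVER `ℚ`.  This is the input of Northcott in bounded degree (§8.5).
-/

set_option autoImplicit false
set_option linter.unusedSectionVars false
set_option linter.unusedVariables false
set_option linter.style.haveILetI false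

noncomputable section

namespace Fermat.Agent.MW17

open AlgebraicCurve ModularCurve Module Polynomial Fermat.Agent.V Fermat.Agent.V.Dict
  Fermat.Agent.G Fermat.Agent.S24 Fermat.Agent.MW

variable (N : ℕ) [NeZero N] {δ : V27pShape} {T : V27pTable (AlgebraicClosure ℚ) δ}
  [IsDedekindDomain (V27pB T)]

/-- all places of `F_ℚ̄(N)` have degree one -/
theorem mw17gp_deg_eq_one (v : Place (AlgebraicClosure ℚ) (modularFunctionFieldBar N)) :
    v.deg = 1 :=
  (isSepGen_jBar N).deg_eq_one v

/-- **good classes in coordinates, with the degree bound.** -/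
theorem mw17gp_good (P : V27Presented (AlgebraicClosure ℚ) (modularFunctionFieldBar N) T)
    (Sig : Finset (Place (AlgebraicClosure ℚ) (modularFunctionFieldBar N)))
    (K : IntermediateField ℚ (AlgebraicClosure ℚ)) [FiniteDimensional ℚ K] :
    ∃ d : ℕ, ∀ y ∈ FixedPoints.addSubgroup ↥K.fixingSubgroup (JZero N),
      y ∈ mwgtGood N P.P0 Sig →
      ∃ (E : Fin (genusFF (AlgebraicClosure ℚ) ↥(modularFunctionFieldBar N)) →
          V27coP δ → AlgebraicClosure ℚ) (hE : ∀ i, V27coPt T.c (E i)),
        Function.Injective E ∧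
        (∀ i, P.placeOf (E i) (hE i) ∉ Sig) ∧
        finrank (AlgebraicClosure ℚ)
          (riemannRochSpace (v27dcSum fun i => P.placeOf (E i) (hE i))) = 1 ∧
        (∃ h0 : Divisor.degree (v27dcSum (fun i => P.placeOf (E i) (hE i)) -
            (genusFF (AlgebraicClosure ℚ) ↥(modularFunctionFieldBar N) : ℤ) •
              Finsupp.single P.P0 (1 : ℤ)) = 0,
          y = Pic0.mk ⟨v27dcSum (fun i => P.placeOf (E i) (hE i)) -
            (genusFF (AlgebraicClosure ℚ) ↥(modularFunctionFieldBar N) : ℤ) •
              Finsupp.single P.P0 (1 : ℤ), h0⟩) ∧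
        ∀ i o, (minpoly ℚ (E i o)).natDegree ≤ d := by
  classical
  have halg : Algebra.IsAlgebraic ℚ (AlgebraicClosure ℚ) := AlgebraicClosure.isAlgebraic ℚ
  obtain ⟨K₁, hK₁, hrat⟩ := mw17rm_exists N P
  haveI := hK₁
  set K' : IntermediateField ℚ (AlgebraicClosure ℚ) := K ⊔ K₁ with hK'
  haveI : FiniteDimensional ℚ K' := IntermediateField.finiteDimensional_sup K K₁
  set g := genusFF (AlgebraicClosure ℚ) ↥(modularFunctionFieldBar N) with hg
  refine ⟨g * Module.finrank ℚ K', ?_⟩
  intro y hyK hygood
  obtain ⟨E₀, h0, hE₀nn, hE₀le, hE₀deg, hE₀l, hE₀P0, hE₀Sig, rfl⟩ := hygood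
  have hdeg1 := mw17gp_deg_eq_one N
  -- the tuple of places
  obtain ⟨V, hV⟩ := v27dc_exists_tuple hdeg1 g E₀ (fun v => by
    have := Finsupp.le_def.mp hE₀nn v; simpa using this) hE₀deg
  have hVpos : ∀ i, 0 < E₀ (V i) := by
    intro i
    rw [← hV]
    exact (v27dcSum_pos_iff V (V i)).mpr ⟨i, rfl⟩
  have hVne : ∀ i, V i ≠ P.P0 := by
    intro i h
    have := hVpos i
    rw [h, hE₀P0] at this
    exact lt_irrefl _ this
  have hVinj : Function.Injective V := by
    intro i j hij
    by_contra hne
    have h1 : (2 : ℤ) ≤ v27dcSum V (V i) := by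
      rw [v27dcSum_apply]
      have : ({i, j} : Finset _) ⊆ Finset.univ.filter fun k => V k = V i := by
        intro k hk
        rw [Finset.mem_insert, Finset.mem_singleton] at hk
        rcases hk with rfl | rfl
        · exact Finset.mem_filter.mpr ⟨Finset.mem_univ _, rfl⟩
        · exact Finset.mem_filter.mpr ⟨Finset.mem_univ _, hij.symm⟩
      have h2 := Finset.card_le_card this
      rw [Finset.card_pair hne] at h2
      exact_mod_cast h2
    rw [hV] at h1
    have := hE₀le (V i)
    omega
  -- coordinates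
  choose q hq hVq using fun i => P.exists_placeOf (hVne i)
  have hqinj : Function.Injective q := by
    intro i j hij
    apply hVinj
    rw [hVq i, hVq j]
    congr 1
  have hsum : v27dcSum (fun i => P.placeOf (q i) (hq i)) = E₀ := by
    rw [← hV]
    congr 1
    funext i
    exact (hVq i).symm
  refine ⟨q, hq, hqinj, ?_, ?_, ?_, ?_⟩
  · intro i hi
    have h1 := hE₀Sig _ hi
    have h2 := hVpos i
    rw [hVq i] at h2
    rw [h1] at h2
    exact lt_irrefl _ h2
  · rw [hsum]; exact hE₀l
  · refine ⟨by rw [hsum]; exact h0, ?_⟩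
    congr 1
    apply Subtype.ext
    show E₀ - _ = v27dcSum _ - _
    rw [hsum]
  · -- the degree bound
    intro i o
    -- stability of `E₀` under `G_{K'}`
    have hstab : ∀ σ ∈ K'.fixingSubgroup,
        arithmeticGalois (modularFunctionFieldFull N) σ • E₀ = E₀ := by
      intro σ hσ
      have hσK : σ ∈ K.fixingSubgroup := gop_mem_fixing_of_le le_sup_left σ hσ
      have hσK₁ : σ ∈ K₁.fixingSubgroup := gop_mem_fixing_of_le le_sup_right σ hσ
      obtain ⟨-, -, hP0, -, -, -⟩ := hrat σ hσK₁
      refine mw17sr_fixed_JZero N P.P0 (hdeg1 _) σ hP0 hE₀nn hE₀l ?_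
      rw [FixedPoints.mem_addSubgroup] at hyK
      have h1 := hyK ⟨σ, hσK⟩
      have e : (Pic0.mk ⟨_, mw17sr_sub_mem_degZero P.P0 (hdeg1 _) E₀⟩ : JZero N) =
          Pic0.mk ⟨E₀ - (g : ℤ) • Finsupp.single P.P0 (1 : ℤ), h0⟩ := by
        congr 1
        apply Subtype.ext
        show E₀ - Divisor.degree E₀ • _ = E₀ - _
        rw [hE₀deg]
      rw [e]
      exact h1
    -- the finite set of `o`-coordinates is `G_{K'}`-stable
    have hS : ∀ σ ∈ K'.fixingSubgroup, ∀ b ∈ Finset.univ.image (fun k => q k o),
        σ b ∈ Finset.univ.image (fun k => q k o) := by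
      intro σ hσ b hb
      obtain ⟨k, -, rfl⟩ := Finset.mem_image.1 hb
      have hσK₁ : σ ∈ K₁.fixingSubgroup := gop_mem_fixing_of_le le_sup_right σ hσ
      obtain ⟨-, -, -, hc, hψ, -⟩ := hrat σ hσK₁
      have hfix := hstab σ hσ
      rw [← hsum] at hfix
      obtain ⟨k', hk'⟩ := mw17rp_orbit_mem P _ hc hψ q hq hfix k
      have : σ (q k o) = q k' o := by
        rw [← hk']
        rfl
      rw [this]
      exact Finset.mem_image_of_mem _ (Finset.mem_univ k')
    have h1 := mw17dg_natDegree_minpoly_le K' (Finset.univ.image (fun k => q k o)) hS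
      (Finset.mem_image_of_mem _ (Finset.mem_univ i))
    refine h1.trans (Nat.mul_le_mul_right _ ?_)
    exact Finset.card_image_le.trans (by simp)

end Fermat.Agent.MW17
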