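import Mathlib
import Fermat.Agent.MW17.JetRam
import Fermat.Agent.S24.RiemannHurwitz

/-!
# S17 heights, §5/§8 (JET-DIFF): the first jet is the value of `d/dx`

`F / K` a function field with separating variable `x` (`IsSepGen K x`), `v` a place at which
`x - a` is a uniformizer.  If `f ≡ b + c (x - a)` modulo order two at `v` and `D f = g • D x`
in `Ω[F⁄K]`, then `g` is regular at `v` with value `c` (JD1).  In the language of a Dedekind
one-point model `B ⊆ M = Frac B` this reads `bt(q) = r(q) · jet_q(b)` whenever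
`r • D b = bt • D x` (JD2).
-/

set_option autoImplicit false
set_option linter.unusedSectionVars false
set_option linter.style.haveILetI false

noncomputable section

namespace Fermat.Agent.MW17

open AlgebraicCurve IsDedekindDomain KaehlerDifferential Fermat.Agent.S24 Fermat.Agent.V

section PlaceForm

variable {K F : Type*} [Field K] [Field F] [Algebra K F] [IsAlgClosed K] [CharZero K]

/-- (JD1) `df/dx` is regular at `v` with value the first Taylor coefficient. -/
theorem mw17jd_ddx_value {x : F} (hx : IsSepGen K x) (v : Place K F) (a : K)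
    (hva : v.ord (x - algebraMap K F a) = 1) (f : F) (b c : K)
    (hf : f - algebraMap K F b - c • (x - algebraMap K F a) = 0 ∨
      2 ≤ v.ord (f - algebraMap K F b - c • (x - algebraMap K F a)))
    (g : F) (hg : D K F f = g • D K F x) :
    g - algebraMap K F c = 0 ∨ 0 < v.ord (g - algebraMap K F c) := by
  haveI := hx.finite
  haveI := hx.separable
  haveI : Nontrivial Ω[F⁄K] := nontrivial_kaehler_of_isSepGen hx
  haveI : v.DCoordGenerates := place_dCoordGenerates v hx.transcendental
  have hdx : D K F x ≠ 0 := kaehlerRank_D_ne_zero hx.transcendental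
  set m : F := f - algebraMap K F b - c • (x - algebraMap K F a) with hm
  -- `D m = (g - c) • D x`
  have hDm : D K F m = (g - algebraMap K F c) • D K F x := by
    rw [hm, map_sub, map_sub, Derivation.map_smul, map_sub, Derivation.map_algebraMap,
      Derivation.map_algebraMap, hg, sub_zero, sub_zero, sub_smul, algebraMap_smul]
  by_cases hgc : g - algebraMap K F c = 0
  · exact Or.inl hgc
  right
  rcases hf with hf | hf
  · exfalso
    rw [hf, map_zero] at hDm
    exact hgc ((smul_eq_zero.1 hDm.symm).resolve_right hdx)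
  · -- `ord (D m) = ord m - 1 ≥ 1` and `ord (D x) = 0`
    have hm0 : m ≠ algebraMap K F 0 := by
      rw [map_zero]
      intro h0
      rw [h0, v.ord_zero] at hf
      omega
    have he : 0 < (v.ord m).toNat := by omega
    have h1 : v.ord (m - algebraMap K F 0) = ((v.ord m).toNat : ℕ) := by
      rw [map_zero, sub_zero]; omega
    have hordm := place_ordDifferential_D_of_zero v hx.transcendental 0 he h1 hm0
    have hordx : v.ordDifferential (D K F x) = 0 := by
      rw [rh_ordDifferential_of_center hx v a (by omega), hva]; rfl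
    have hcoeff : v.differentialCoeff (D K F x) ≠ 0 := rh_differentialCoeff_ne_zero v hdx
    rw [hDm, v.ordDifferential_smul hgc hcoeff, hordx, add_zero] at hordm
    omega

end PlaceForm

section ModelForm

variable {K M B : Type*} [Field K] [IsAlgClosed K] [Field M] [Algebra K M] [CommRing B]
  [IsDedekindDomain B] [Algebra K B] [Algebra B M] [IsScalarTower K B M] [IsFractionRing B M]

/-- converse of `mw17jt_two_le_ord`. -/
theorem mw17jd_mem_sq_of_two_le_ord (hnf : ¬ IsField B) (q : B →ₐ[K] K) {b : B} (hb : b ≠ 0)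
    (h : 2 ≤ (v27ptPlace M hnf q).ord (algebraMap B M b)) : b ∈ mw17jtM q ^ 2 := by
  unfold v27ptPlace at h
  rw [v27c_ord_eq_multiplicity (K := K) (M := M) (v27ptPrime hnf q) hb] at h
  have h2 : 2 ≤ multiplicity (v27ptPrime hnf q).asIdeal (Ideal.span {b}) := by exact_mod_cast h
  have hdvd : (v27ptPrime hnf q).asIdeal ^ 2 ∣ Ideal.span {b} :=
    pow_dvd_of_le_multiplicity h2
  rw [Ideal.dvd_iff_le, Ideal.span_singleton_le_iff_mem] at hdvd
  exact hdvd

/-- an element vanishes to order `≥ 2` at the place of `q` iff it lies in `𝔪_q²`. -/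
theorem mw17jd_two_le_ord_iff (hnf : ¬ IsField B) (q : B →ₐ[K] K) {b : B} (hb : b ≠ 0) :
    2 ≤ (v27ptPlace M hnf q).ord (algebraMap B M b) ↔ b ∈ mw17jtM q ^ 2 :=
  ⟨mw17jd_mem_sq_of_two_le_ord hnf q hb, mw17jt_two_le_ord hnf q hb⟩

/-- `q ∈ Ram(x)` iff `x - x(q)` vanishes to order `≥ 2` at the place of `q`. -/
theorem mw17jd_mem_ram_iff (hnf : ¬ IsField B) (x : B) (hx : ∀ a : K, x ≠ algebraMap K B a)
    (q : B →ₐ[K] K) :
    q ∈ mw17jtRam x ↔
      2 ≤ (v27ptPlace M hnf q).ord (algebraMap B M x - algebraMap K M (q x)) := by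
  have hne : x - algebraMap K B (q x) ≠ 0 := sub_ne_zero.2 (hx _)
  rw [IsScalarTower.algebraMap_apply K B M, ← map_sub, mw17jd_two_le_ord_iff hnf q hne]
  rfl

/-- (JD3) off `Ram(x)` the function `x - x(q)` is a uniformizer at the place of `q`. -/
theorem mw17jd_ord_tau_eq_one (hnf : ¬ IsField B) (x : B) (hx : ∀ a : K, x ≠ algebraMap K B a)
    {q : B →ₐ[K] K} (hq : q ∉ mw17jtRam x) :
    (v27ptPlace M hnf q).ord (algebraMap B M x - algebraMap K M (q x)) = 1 := by
  have hne : x - algebraMap K B (q x) ≠ 0 := sub_ne_zero.2 (hx _)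
  have h1 : 0 < (v27ptPlace M hnf q).ord (algebraMap B M (x - algebraMap K B (q x))) := by
    rw [v27pt_place_ord_pos_iff hnf q hne]
    simp
  have h2 : ¬ 2 ≤ (v27ptPlace M hnf q).ord (algebraMap B M x - algebraMap K M (q x)) :=
    fun h => hq ((mw17jd_mem_ram_iff hnf x hx q).2 h)
  rw [map_sub, ← IsScalarTower.algebraMap_apply] at h1
  omega

variable [CharZero K]

/-- (JD2) **the first jet is the value of `d/dx`**: if `r · db = bt · dx` in `Ω[M⁄K]` with
`b, r, bt ∈ B`, then `bt(q) = r(q) · jet_q(b)` at every point `q ∉ Ram(x)`. -/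
theorem mw17jd_jet_eq_ddx (hnf : ¬ IsField B) (x : B) (hx : IsSepGen K (algebraMap B M x))
    {q : B →ₐ[K] K} (hq : q ∉ mw17jtRam x) (b r bt : B)
    (h : algebraMap B M r • D K M (algebraMap B M b) =
      algebraMap B M bt • D K M (algebraMap B M x)) :
    q bt = q r * mw17jtJetX x q b := by
  haveI := hx.finite
  haveI := hx.separable
  have hinj : Function.Injective (algebraMap B M) := IsFractionRing.injective B M
  have hdx : D K M (algebraMap B M x) ≠ 0 := kaehlerRank_D_ne_zero hx.transcendental
  have hxK : ∀ a : K, x ≠ algebraMap K B a := by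
    intro a h0
    apply hx.transcendental
    rw [h0, ← IsScalarTower.algebraMap_apply]
    exact isAlgebraic_algebraMap a
  set v := v27ptPlace M hnf q with hv
  set c : K := mw17jtJetX x q b with hc
  have hva := mw17jd_ord_tau_eq_one (M := M) hnf x hxK hq
  -- the Taylor expansion of `b` at `q`
  have hpar := mw17jt_param_x x hq
  have hspec : b - algebraMap K B (q b) - c • mw17jtTau x q ∈ mw17jtM q ^ 2 :=
    mw17jt_jet_spec hpar b
  have hmap : algebraMap B M (b - algebraMap K B (q b) - c • mw17jtTau x q) =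
      algebraMap B M b - algebraMap K M (q b) -
        c • (algebraMap B M x - algebraMap K M (q x)) := by
    rw [map_sub, map_sub, ← IsScalarTower.algebraMap_apply, mw17jtTau, Algebra.smul_def,
      map_mul, map_sub, ← IsScalarTower.algebraMap_apply, ← IsScalarTower.algebraMap_apply,
      Algebra.smul_def]
  have hf : algebraMap B M b - algebraMap K M (q b) -
        c • (algebraMap B M x - algebraMap K M (q x)) = 0 ∨
      2 ≤ v.ord (algebraMap B M b - algebraMap K M (q b) -
        c • (algebraMap B M x - algebraMap K M (q x))) := by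
    by_cases h0 : b - algebraMap K B (q b) - c • mw17jtTau x q = 0
    · left; rw [← hmap, h0, map_zero]
    · right; rw [← hmap]; exact mw17jt_two_le_ord hnf q h0 hspec
  by_cases hr : r = 0
  · -- then `bt = 0`
    rw [hr, map_zero, zero_smul] at h
    have : algebraMap B M bt = 0 := (smul_eq_zero.1 h.symm).resolve_right hdx
    have hbt : bt = 0 := hinj (by rw [this, map_zero])
    rw [hbt, hr, map_zero, zero_mul]
  have hr' : algebraMap B M r ≠ 0 := fun h0 => hr (hinj (by rw [h0, map_zero]))
  have hg : D K M (algebraMap B M b) =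
      ((algebraMap B M r)⁻¹ * algebraMap B M bt) • D K M (algebraMap B M x) := by
    rw [mul_smul, ← h, smul_smul, inv_mul_cancel₀ hr', one_smul]
  have key := mw17jd_ddx_value hx v (q x) hva (algebraMap B M b) (q b) c hf _ hg
  -- `bt - c • r` vanishes at `q`
  have hmap2 : algebraMap B M (bt - c • r) =
      algebraMap B M r * ((algebraMap B M r)⁻¹ * algebraMap B M bt - algebraMap K M c) := by
    rw [map_sub, Algebra.smul_def, map_mul, ← IsScalarTower.algebraMap_apply, mul_sub,
      ← mul_assoc, mul_inv_cancel₀ hr', one_mul, mul_comm]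
  have hzero : q (bt - c • r) = 0 := by
    by_cases h0 : bt - c • r = 0
    · rw [h0, map_zero]
    · rw [← v27pt_place_ord_pos_iff (M := M) hnf q h0, hmap2]
      rcases key with key | key
      · exfalso
        apply h0
        apply hinj
        rw [hmap2, key, mul_zero, map_zero]
      · have hne : (algebraMap B M r)⁻¹ * algebraMap B M bt - algebraMap K M c ≠ 0 := by
          intro h1
          rw [h1, (v27ptPlace M hnf q).ord_zero] at key
          exact lt_irrefl _ key
        rw [(v27ptPlace M hnf q).ord_mul hr' hne]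
        have := v27pt_place_ord_nonneg (M := M) hnf q r
        have key' : 0 < (v27ptPlace M hnf q).ord
            ((algebraMap B M r)⁻¹ * algebraMap B M bt - algebraMap K M c) := key
        omega
  rw [map_sub, map_smul, smul_eq_mul, sub_eq_zero] at hzero
  rw [hzero, mul_comm]

/-- "vanishes at `v`": zero, or of positive order. -/
def Mw17jdVan (v : Place K M) (f : M) : Prop := f = 0 ∨ 0 < v.ord f

theorem mw17jd_van_zero (v : Place K M) : Mw17jdVan v 0 := Or.inl rfl

theorem mw17jd_van_add (v : Place K M) {f g : M} (hf : Mw17jdVan v f) (hg : Mw17jdVan v g) :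
    Mw17jdVan v (f + g) := by
  rcases hf with rfl | hf
  · rwa [zero_add]
  rcases hg with rfl | hg
  · rw [add_zero]; exact Or.inr hf
  by_cases h0 : f + g = 0
  · exact Or.inl h0
  · exact Or.inr (lt_of_lt_of_le (lt_min hf hg) (PlaceOrd.min_le_ord_add v h0))

theorem mw17jd_van_mul (v : Place K M) {f g : M} (hf : 0 ≤ v.ord f) (hg : Mw17jdVan v g) :
    Mw17jdVan v (f * g) := by
  rcases hg with rfl | hg
  · rw [mul_zero]; exact Or.inl rfl
  by_cases hf0 : f = 0
  · rw [hf0, zero_mul]; exact Or.inl rfl
  have hg0 : g ≠ 0 := by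
    rintro rfl
    rw [v.ord_zero] at hg
    exact lt_irrefl _ hg
  right
  rw [v.ord_mul hf0 hg0]
  omega

theorem mw17jd_van_sum (v : Place K M) {ι : Type*} (s : Finset ι) (f : ι → M)
    (hf : ∀ i ∈ s, Mw17jdVan v (f i)) : Mw17jdVan v (∑ i ∈ s, f i) := by
  classical
  induction s using Finset.induction_on with
  | empty => rw [Finset.sum_empty]; exact mw17jd_van_zero v
  | insert a s has ih =>
    rw [Finset.sum_insert has]
    exact mw17jd_van_add v (hf a (Finset.mem_insert_self a s))
      (ih fun i hi => hf i (Finset.mem_insert_of_mem hi))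

/-- an element of `B` vanishing at the place of `q` vanishes at `q`. -/
theorem mw17jd_apply_eq_zero_of_van (hnf : ¬ IsField B) (q : B →ₐ[K] K) (b : B)
    (h : Mw17jdVan (v27ptPlace M hnf q) (algebraMap B M b)) : q b = 0 := by
  by_cases hb : b = 0
  · rw [hb, map_zero]
  rcases h with h | h
  · exact absurd (IsFractionRing.injective B M (by rw [h, map_zero])) hb
  · exact (v27pt_place_ord_pos_iff (M := M) hnf q hb).1 h

/-- `db/dx - jet_q(b)` vanishes at the place of `q` (`q ∉ Ram(x)`, `b ∈ B`). -/
theorem mw17jd_ddx_van (hnf : ¬ IsField B) (x : B) (hx : IsSepGen K (algebraMap B M x))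
    {q : B →ₐ[K] K} (hq : q ∉ mw17jtRam x) (b : B) (g : M)
    (hg : D K M (algebraMap B M b) = g • D K M (algebraMap B M x)) :
    Mw17jdVan (v27ptPlace M hnf q) (g - algebraMap K M (mw17jtJetX x q b)) := by
  have hxK : ∀ a : K, x ≠ algebraMap K B a := by
    intro a h0
    apply hx.transcendental
    rw [h0, ← IsScalarTower.algebraMap_apply]
    exact isAlgebraic_algebraMap a
  set c : K := mw17jtJetX x q b with hc
  have hva := mw17jd_ord_tau_eq_one (M := M) hnf x hxK hq
  have hpar := mw17jt_param_x x hq
  have hspec : b - algebraMap K B (q b) - c • mw17jtTau x q ∈ mw17jtM q ^ 2 :=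
    mw17jt_jet_spec hpar b
  have hmap : algebraMap B M (b - algebraMap K B (q b) - c • mw17jtTau x q) =
      algebraMap B M b - algebraMap K M (q b) -
        c • (algebraMap B M x - algebraMap K M (q x)) := by
    rw [map_sub, map_sub, ← IsScalarTower.algebraMap_apply, mw17jtTau, Algebra.smul_def,
      map_mul, map_sub, ← IsScalarTower.algebraMap_apply, ← IsScalarTower.algebraMap_apply,
      Algebra.smul_def]
  have hf : algebraMap B M b - algebraMap K M (q b) -
        c • (algebraMap B M x - algebraMap K M (q x)) = 0 ∨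
      2 ≤ (v27ptPlace M hnf q).ord (algebraMap B M b - algebraMap K M (q b) -
        c • (algebraMap B M x - algebraMap K M (q x))) := by
    by_cases h0 : b - algebraMap K B (q b) - c • mw17jtTau x q = 0
    · left; rw [← hmap, h0, map_zero]
    · right; rw [← hmap]; exact mw17jt_two_le_ord hnf q h0 hspec
  exact mw17jd_ddx_value hx _ (q x) hva (algebraMap B M b) (q b) c hf g hg

/-- (JD2') the general form: if `r · Σ a_i db_i = bt · dx` in `Ω[M⁄K]` (`a_i, b_i, r, bt ∈ B`)
then `bt(q) = r(q) · Σ a_i(q) · jet_q(b_i)` at every `q ∉ Ram(x)`.  (Wronskians: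
`a = (φ_a, -φ_b)`, `b = (φ_b, φ_a)`.) -/
theorem mw17jd_jet_eq_ddx_sum (hnf : ¬ IsField B) (x : B)
    (hx : IsSepGen K (algebraMap B M x)) {q : B →ₐ[K] K} (hq : q ∉ mw17jtRam x)
    {ι : Type*} (s : Finset ι) (a b : ι → B) (r bt : B)
    (h : algebraMap B M r • ∑ i ∈ s, algebraMap B M (a i) • D K M (algebraMap B M (b i)) =
      algebraMap B M bt • D K M (algebraMap B M x)) :
    q bt = q r * ∑ i ∈ s, q (a i) * mw17jtJetX x q (b i) := by
  haveI := hx.finite
  haveI := hx.separable
  have hdx : D K M (algebraMap B M x) ≠ 0 := kaehlerRank_D_ne_zero hx.transcendental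
  set v := v27ptPlace M hnf q with hv
  -- the derivatives `g i = d(b i)/dx`
  have hex : ∀ i, ∃ g : M, D K M (algebraMap B M (b i)) = g • D K M (algebraMap B M x) :=
    fun i => kaehlerRank_exists_eq_smul (K := K) (x := algebraMap B M x) _
  choose g hg using hex
  have hvan : ∀ i, Mw17jdVan v (g i - algebraMap K M (mw17jtJetX x q (b i))) := fun i =>
    mw17jd_ddx_van hnf x hx hq (b i) (g i) (hg i)
  -- `bt = r Σ a_i g_i` in `M`
  have hbt : algebraMap B M bt = algebraMap B M r * ∑ i ∈ s, algebraMap B M (a i) * g i := by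
    have h1 : (algebraMap B M r * ∑ i ∈ s, algebraMap B M (a i) * g i) •
        D K M (algebraMap B M x) = algebraMap B M bt • D K M (algebraMap B M x) := by
      rw [← h, mul_smul, Finset.sum_smul]
      congr 1
      refine Finset.sum_congr rfl fun i _ => ?_
      rw [mul_smul, ← hg i]
    have h2 : (algebraMap B M r * ∑ i ∈ s, algebraMap B M (a i) * g i - algebraMap B M bt) •
        D K M (algebraMap B M x) = 0 := by rw [sub_smul, h1, sub_self]
    have h3 := (smul_eq_zero.1 h2).resolve_right hdx
    exact (sub_eq_zero.1 h3).symm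
  -- `bt - r Σ c_i a_i` vanishes at `v`
  have hkey : Mw17jdVan v (algebraMap B M
      (bt - r * ∑ i ∈ s, mw17jtJetX x q (b i) • a i)) := by
    have e : algebraMap B M (bt - r * ∑ i ∈ s, mw17jtJetX x q (b i) • a i) =
        algebraMap B M r * ∑ i ∈ s, algebraMap B M (a i) *
          (g i - algebraMap K M (mw17jtJetX x q (b i))) := by
      rw [map_sub, hbt, map_mul, map_sum, ← mul_sub, ← Finset.sum_sub_distrib]
      congr 1
      refine Finset.sum_congr rfl fun i _ => ?_
      rw [Algebra.smul_def, map_mul, ← IsScalarTower.algebraMap_apply]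
      ring
    rw [e]
    refine mw17jd_van_mul v (v27pt_place_ord_nonneg (M := M) hnf q r) ?_
    refine mw17jd_van_sum v s _ fun i _ => ?_
    exact mw17jd_van_mul v (v27pt_place_ord_nonneg (M := M) hnf q (a i)) (hvan i)
  have hzero := mw17jd_apply_eq_zero_of_van hnf q _ hkey
  rw [map_sub, map_mul, map_sum, sub_eq_zero] at hzero
  rw [hzero]
  congr 1
  refine Finset.sum_congr rfl fun i _ => ?_
  rw [map_smul, smul_eq_mul, mul_comm]

/-- (JD2'', Wronskian form) if `ρ · (a db - b da) = W dx` then
`W(q) = ρ(q) · (a(q) jet_q(b) - b(q) jet_q(a))`. -/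
theorem mw17jd_wronskian (hnf : ¬ IsField B) (x : B) (hx : IsSepGen K (algebraMap B M x))
    {q : B →ₐ[K] K} (hq : q ∉ mw17jtRam x) (a b ρ W : B)
    (h : algebraMap B M ρ • (algebraMap B M a • D K M (algebraMap B M b) -
        algebraMap B M b • D K M (algebraMap B M a)) =
      algebraMap B M W • D K M (algebraMap B M x)) :
    q W = q ρ * (q a * mw17jtJetX x q b - q b * mw17jtJetX x q a) := by
  have h' : algebraMap B M ρ • ∑ i ∈ (Finset.univ : Finset (Fin 2)),
      algebraMap B M (![a, -b] i) • D K M (algebraMap B M (![b, a] i)) =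
      algebraMap B M W • D K M (algebraMap B M x) := by
    rw [← h, Fin.sum_univ_two]
    simp only [Matrix.cons_val_zero, Matrix.cons_val_one, map_neg, neg_smul]
    rw [sub_eq_add_neg]
  have := mw17jd_jet_eq_ddx_sum hnf x hx hq Finset.univ ![a, -b] ![b, a] ρ W h'
  rw [this, Fin.sum_univ_two]
  simp only [Matrix.cons_val_zero, Matrix.cons_val_one, map_neg]
  ring

end ModelForm

end Fermat.Agent.MW17
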