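import Mathlib
import Fermat.Agent.MW17.JetSec
import Fermat.Agent.V.Sem.PtPlace
import Fermat.Agent.V.Pres.IntRing
import Fermat.Agent.MW.GT.Ram
import Fermat.Agent.MW.GT.X0

/-!
# S17 heights, §5 (JET): `Ram(x)` is finite on a presented curve (prefix `mw17jr`)

`P : V27Presented K F T` a presentation of the function field `F` by the table ring, `K`
algebraically closed of characteristic zero.  The set `mw17jtRamX T` of the points where `x - x(q)`
is not a local parameter is finite; more precisely its image under `q ↦ v27spPlace P q` lies in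
the finite set of places of helper27's `mwgt_ram` (the uniform Riemann–Hurwitz bound).  For
`X₀(N)` over `ℚ̄` no hypothesis is left (`t = j`, `div(dj)` = helper27's `mwgt_divisor_dj`).
-/

set_option autoImplicit false
set_option linter.unusedSectionVars false
set_option linter.style.haveILetI false

noncomputable section

namespace Fermat.Agent.MW17

open AlgebraicCurve KaehlerDifferential Fermat.Agent.V Fermat.Agent.S24 Fermat.Agent.MW

variable {K F : Type*} [Field K] [Field F] [Algebra K F] {δ : V27pShape} {T : V27pTable K δ}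
  [IsDedekindDomain (V27pB T)] (P : V27Presented K F T)

/-- `x` has a pole at `P0`. -/
theorem mw17jr_ord_x_neg : P.P0.ord (P.ψ (V27pB.x (T := T))) < 0 := by
  by_contra h
  push Not at h
  exact v27sp_x_not_mem P (PlaceOrd.mem_of_ord_nonneg _ h)

/-- `x` is transcendental over the constants. -/
theorem mw17jr_x_transcendental : Transcendental K (P.ψ (V27pB.x (T := T))) :=
  v27ir_transcendental P.P0 (mw17jr_ord_x_neg P)

include P in
/-- `x` is not a constant. -/
theorem mw17jr_x_ne_const (a : K) : (V27pB.x (T := T)) ≠ algebraMap K (V27pB T) a := fun h => by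
  apply mw17jr_x_transcendental P
  rw [h, AlgHom.commutes]
  exact isAlgebraic_algebraMap a

/-- `x` is a separating generator as soon as there is one. -/
theorem mw17jr_isSepGen_x [CharZero K] {t : F} (ht : IsSepGen K t) :
    IsSepGen K (P.ψ (V27pB.x (T := T))) :=
  ht.of_transcendental (mw17jr_x_transcendental P)

variable [IsAlgClosed K] [CharZero K]

/-- a point of `Ram(x)`: `x - x(q)` vanishes to order at least two at the place of `q`. -/
theorem mw17jr_two_le_ord {q : Mw17Pt T} (hq : q ∈ mw17jtRamX T) :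
    2 ≤ (v27spPlace P q).ord (P.ψ V27pB.x - algebraMap K F (q V27pB.x)) := by
  letI := v27spAlg P
  haveI := v27sp_isScalarTower P
  haveI := v27sp_isFractionRing P
  have hne : (V27pB.x (T := T)) - algebraMap K (V27pB T) (q V27pB.x) ≠ 0 :=
    sub_ne_zero.2 (mw17jr_x_ne_const P _)
  have h2 := mw17jt_two_le_ord (M := F) (v27pi_not_isField (T := T)) q hne hq
  rw [map_sub, ← IsScalarTower.algebraMap_apply] at h2
  exact h2

/-- **the places of the points of `Ram(x)` lie in a finite set** (helper27's `mwgt_ram`). -/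
theorem mw17jr_ram_sig {t : F} (ht : IsSepGen K t) (D0 : Divisor K F)
    (hD0 : ∀ v : Place K F, D0 v = v.ordDifferential (D K F t)) :
    ∃ S : Finset (Place K F), ∀ q : Mw17Pt T, q ∈ mw17jtRamX T → v27spPlace P q ∈ S := by
  obtain ⟨S, -, hS⟩ := mwgt_ram ht D0 hD0 (mw17jr_x_transcendental P)
  exact ⟨S, fun q hq => hS _ _ (mw17jr_two_le_ord P hq)⟩

/-- the contrapositive form consumed by the assembly: off `S` the point is unramified. -/
theorem mw17jr_ram_sig' {t : F} (ht : IsSepGen K t) (D0 : Divisor K F)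
    (hD0 : ∀ v : Place K F, D0 v = v.ordDifferential (D K F t)) :
    ∃ S : Finset (Place K F), ∀ q : Mw17Pt T, v27spPlace P q ∉ S → q ∉ mw17jtRamX T := by
  obtain ⟨S, hS⟩ := mw17jr_ram_sig P ht D0 hD0
  exact ⟨S, fun q hq hmem => hq (hS q hmem)⟩

include P in
/-- **`Ram(x)` is finite.** -/
theorem mw17jr_ramX_finite {t : F} (ht : IsSepGen K t) (D0 : Divisor K F)
    (hD0 : ∀ v : Place K F, D0 v = v.ordDifferential (D K F t)) :
    (mw17jtRamX T).Finite := by
  obtain ⟨S, hS⟩ := mw17jr_ram_sig P ht D0 hD0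
  exact (S.finite_toSet.preimage ((v27spPlace_injective P).injOn)).subset fun q hq => hS q hq

include P in
/-- a finite set of POINTS containing `Ram(x)`. -/
theorem mw17jr_exists_finset {t : F} (ht : IsSepGen K t) (D0 : Divisor K F)
    (hD0 : ∀ v : Place K F, D0 v = v.ordDifferential (D K F t)) :
    ∃ S : Finset (Mw17Pt T), ∀ q : Mw17Pt T, q ∉ S → q ∉ mw17jtRamX T :=
  ⟨(mw17jr_ramX_finite P ht D0 hD0).toFinset, fun _ hq hmem =>
    hq ((mw17jr_ramX_finite P ht D0 hD0).mem_toFinset.2 hmem)⟩

end Fermat.Agent.MW17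

/-! ### `X₀(N)` over `ℚ̄` -/

namespace Fermat.Agent.MW17

open AlgebraicCurve KaehlerDifferential ModularCurve Fermat.Agent.V Fermat.Agent.S24
  Fermat.Agent.MW

variable (N : ℕ) [NeZero N] {δ : V27pShape} {T : V27pTable (AlgebraicClosure ℚ) δ}
  [IsDedekindDomain (V27pB T)]
  (P : V27Presented (AlgebraicClosure ℚ) ↥(modularFunctionFieldBar N) T)

/-- `x` is a separating generator of the function field of `X₀(N)`. -/
theorem mw17jr_isSepGen_x_X0 : IsSepGen (AlgebraicClosure ℚ) (P.ψ (V27pB.x (T := T))) :=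
  mw17jr_isSepGen_x P (isSepGen_jBar N)

/-- **the places of the points of `Ram(x)` on `X₀(N)` lie in a finite set.** -/
theorem mw17jr_ram_sig_X0 :
    ∃ S : Finset (Place (AlgebraicClosure ℚ) ↥(modularFunctionFieldBar N)),
      ∀ q : Mw17Pt T, q ∈ mw17jtRamX T → v27spPlace P q ∈ S := by
  obtain ⟨D0, hD0⟩ := mwgt_divisor_dj N
  exact mw17jr_ram_sig P (isSepGen_jBar N) D0 hD0

theorem mw17jr_ram_sig_X0' :
    ∃ S : Finset (Place (AlgebraicClosure ℚ) ↥(modularFunctionFieldBar N)),
      ∀ q : Mw17Pt T, v27spPlace P q ∉ S → q ∉ mw17jtRamX T := by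
  obtain ⟨D0, hD0⟩ := mwgt_divisor_dj N
  exact mw17jr_ram_sig' P (isSepGen_jBar N) D0 hD0

include P in
/-- **`Ram(x)` is finite on `X₀(N)`.** -/
theorem mw17jr_ramX_finite_X0 : (mw17jtRamX T).Finite := by
  obtain ⟨D0, hD0⟩ := mwgt_divisor_dj N
  exact mw17jr_ramX_finite P (isSepGen_jBar N) D0 hD0

end Fermat.Agent.MW17
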