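import Fermat.Agent.HT.ConeLoc
import Fermat.Agent.MW17.PnTable

/-!
# Program MW (S17), heights half (A): LOC-2 on the presented curve

helper6's `HT/ConeLoc.lean` (`htcn_loc2_top'`, `htcn_loc2_single_top`) instantiated at
`F := V27pB T`, `φ := mw17Mon T (m := n)`; the structural inputs come from `MW17/PnTable.lean`.
This is the literal of blueprint v1.1 (b): `ι₂ = Mw17Idx δ n`, `y = ψ_n(q)`.
-/

set_option autoImplicit false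

noncomputable section

namespace Fermat.Agent.MW17

open Fermat.Agent.V Fermat.Agent.HT MvPolynomial

variable {K : Type*} [Field K] [IsAlgClosed K] {δ : V27pShape} (T : V27pTable K δ)
  {ι₁ ι' : Type*} [Fintype ι₁] [Fintype ι']

/-- **LOC-2 on the curve**: bihomogeneous `p j` of bidegree `(N₁, N₂)` in
`(u, y) ∈ K^ι₁ × K^(Mw17Idx δ n)` without base point on `(K^ι₁ ∖ 0) × {ψ_n(q)}` and on
`(K^ι₁ ∖ 0) × {e_top}`. -/
theorem mw17tb_loc2 {n : ℕ} (hN : δ.N ≤ n) (hn : 2 * δ.bound ≤ n) {N₁ N₂ : ℕ}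
    (p : ι' → MvPolynomial (ι₁ ⊕ Mw17Idx δ n) K)
    (hp : ∀ j, IsWeightedHomogeneous (htnsBiw ι₁ (Mw17Idx δ n)) (p j) (N₁, N₂))
    (haff : ∀ u : ι₁ → K, u ≠ 0 → ∀ q : Mw17Pt T, ∃ j,
      eval (Sum.elim u (mw17Psi T n q)) (p j) ≠ 0)
    (hinf : ∀ u : ι₁ → K, u ≠ 0 → ∃ j,
      eval (Sum.elim u (Pi.single (mw17tbTop δ n) (1 : K))) (p j) ≠ 0) :
    ∃ C : HtConst K, ∀ (w : AbsoluteValue K ℝ) (u : ι₁ → K) (q : Mw17Pt T), u ≠ 0 →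
      (⨆ i, w (u i)) ^ N₁ * (⨆ l, w (mw17Psi T n q l)) ^ N₂ ≤
        C.val w * ⨆ j, w (eval (Sum.elim u (mw17Psi T n q)) (p j)) :=
  htcn_loc2_top (mw17Mon T (m := n)) (mw17tb_adjoin_eq_top T hN (by omega)) (mw17IdxZero δ n)
    (mw17tbTop δ n) (mw17Mon_zero T n) (fun l hl => mw17tb_hpow T hn l hl) p hp haff hinf

/-- `mw17tb_loc2` for all `u` (`0 < N₁`) -/
theorem mw17tb_loc2' {n : ℕ} (hN : δ.N ≤ n) (hn : 2 * δ.bound ≤ n) {N₁ N₂ : ℕ} (hN₁ : 0 < N₁)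
    (p : ι' → MvPolynomial (ι₁ ⊕ Mw17Idx δ n) K)
    (hp : ∀ j, IsWeightedHomogeneous (htnsBiw ι₁ (Mw17Idx δ n)) (p j) (N₁, N₂))
    (haff : ∀ u : ι₁ → K, u ≠ 0 → ∀ q : Mw17Pt T, ∃ j,
      eval (Sum.elim u (mw17Psi T n q)) (p j) ≠ 0)
    (hinf : ∀ u : ι₁ → K, u ≠ 0 → ∃ j,
      eval (Sum.elim u (Pi.single (mw17tbTop δ n) (1 : K))) (p j) ≠ 0) :
    ∃ C : HtConst K, ∀ (w : AbsoluteValue K ℝ) (u : ι₁ → K) (q : Mw17Pt T),
      (⨆ i, w (u i)) ^ N₁ * (⨆ l, w (mw17Psi T n q l)) ^ N₂ ≤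
        C.val w * ⨆ j, w (eval (Sum.elim u (mw17Psi T n q)) (p j)) :=
  htcn_loc2_top' (mw17Mon T (m := n)) (mw17tb_adjoin_eq_top T hN (by omega)) (mw17IdxZero δ n)
    (mw17tbTop δ n) (mw17Mon_zero T n) (fun l hl => mw17tb_hpow T hn l hl) hN₁ p hp haff hinf

/-- **LOC-2 without `u`**: forms `p j` of degree `N'` in `ψ_n` without common zero on the
complete curve. -/
theorem mw17tb_loc2_single {n : ℕ} (hN : δ.N ≤ n) (hn : 2 * δ.bound ≤ n) {N' : ℕ}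
    (p : ι' → MvPolynomial (Mw17Idx δ n) K) (hp : ∀ j, (p j).IsHomogeneous N')
    (haff : ∀ q : Mw17Pt T, ∃ j, eval (mw17Psi T n q) (p j) ≠ 0)
    (hinf : ∃ j, eval (Pi.single (mw17tbTop δ n) (1 : K)) (p j) ≠ 0) :
    ∃ C : HtConst K, ∀ (w : AbsoluteValue K ℝ) (q : Mw17Pt T),
      (⨆ l, w (mw17Psi T n q l)) ^ N' ≤
        C.val w * ⨆ j, w (eval (mw17Psi T n q) (p j)) :=
  htcn_loc2_single_top (mw17Mon T (m := n)) (mw17tb_adjoin_eq_top T hN (by omega))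
    (mw17IdxZero δ n) (mw17tbTop δ n) (mw17Mon_zero T n) (fun l hl => mw17tb_hpow T hn l hl)
    p hp haff hinf

end Fermat.Agent.MW17
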