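import Mathlib
import Fermat.Agent.MW17.Spec
import Fermat.Agent.MW17.Cone

/-!
# Program MW (S17), heights half (A): LOC-2 in the `Mw17GData.nonvan` literal

Owner: helper26.  Namespace `Fermat.Agent.MW17`, prefix `mw17ls`.

A thin adapter: helper19's `mw17cn_loc2_bi` (LOC-2 on the table ring `V27pB T`) restated for a family
`p : κ → MvPolynomial (Mw17Idx δ m ⊕ Mw17Idx δ n) K` indexed by a `Finset κ`, bihomogeneous for
helper13's weight `htlBiw`, with the nonvanishing hypothesis in exactly the form of the field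
`Mw17GData.nonvan` of helper16's `MW17/Spec.lean` (`R : Option (Mw17Pt T)`, `mw17Phi T n t R`).

* `mw17ls_le`      : the easy upper bound `|p_ν(u,y)| ≤ C ‖u‖^a ‖y‖^b`, one constant for all `ν ∈ Nu`;
* `mw17ls_ge_sup`  : `‖u‖^a ‖φR‖^b ≤ C · ⨆ ν : Nu, |p_ν(u, φR)|`  (`u ≠ 0`, `R` a finite point);
* `mw17ls_ge`      : the same with `∃ ν ∈ Nu` instead of the supremum;
* `mw17ls_main`    : both directions with one constant;
* `mw17ls_of_data` : `mw17ls_main` for `D : Mw17GData T n t m₁`, bidegree `(n - 1, n * m₁ - m₁)`;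
* `mw17ls_coeff`   : the coefficients of `∑ ν ∈ Nu, monomial ν (c ν)`.
-/

set_option autoImplicit false

noncomputable section

namespace Fermat.Agent.MW17

open Fermat.Agent.V Fermat.Agent.HT MvPolynomial

variable {K : Type*} [Field K] {δ : V27pShape} (T : V27pTable K δ)

section Upper

variable {κ : Type*} {n m a b : ℕ}

/-- the upper bound, one constant for the whole finite family -/
theorem mw17ls_le (Nu : Finset κ) (p : κ → MvPolynomial (Mw17Idx δ m ⊕ Mw17Idx δ n) K)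
    (hp : ∀ ν ∈ Nu, IsWeightedHomogeneous (htlBiw (Mw17Idx δ m) (Mw17Idx δ n)) (p ν) (a, b)) :
    ∃ C : HtConst K, ∀ (w : AbsoluteValue K ℝ) (u : Mw17Idx δ m → K) (y : Mw17Idx δ n → K),
      ∀ ν ∈ Nu, w (eval (Sum.elim u y) (p ν)) ≤ C.val w * (htlSup w u ^ a * htlSup w y ^ b) := by
  obtain ⟨C, hC⟩ := htl_val_finset Nu (fun ν => htlPolyConst (p ν))
  refine ⟨C, fun w u y ν hν => ?_⟩
  refine (htl_eval_le_bi (hp ν hν) w u y).trans ?_
  exact mul_le_mul_of_nonneg_right (hC ν hν w)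
    (mul_nonneg (pow_nonneg (htlSup_nonneg _ _) _) (pow_nonneg (htlSup_nonneg _ _) _))

/-- the coefficients of `∑ ν ∈ Nu, monomial ν (c ν)` -/
theorem mw17ls_coeff {σ : Type*} (Nu : Finset (σ →₀ ℕ)) (c : (σ →₀ ℕ) → K) (μ : σ →₀ ℕ)
    [Decidable (μ ∈ Nu)] :
    coeff μ (∑ ν ∈ Nu, monomial ν (c ν)) = if μ ∈ Nu then c μ else 0 := by
  classical
  rw [coeff_sum]
  simp only [coeff_monomial]
  rw [Finset.sum_ite_eq' Nu μ]
  congr

/-- the coefficient at `μ ∈ Nu` -/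
theorem mw17ls_coeff_of_mem {σ : Type*} (Nu : Finset (σ →₀ ℕ)) (c : (σ →₀ ℕ) → K) {μ : σ →₀ ℕ}
    (hμ : μ ∈ Nu) : coeff μ (∑ ν ∈ Nu, monomial ν (c ν)) = c μ := by
  classical
  rw [mw17ls_coeff, if_pos hμ]

/-- the coefficient at `μ ∉ Nu` -/
theorem mw17ls_coeff_of_notMem {σ : Type*} (Nu : Finset (σ →₀ ℕ)) (c : (σ →₀ ℕ) → K) {μ : σ →₀ ℕ}
    (hμ : μ ∉ Nu) : coeff μ (∑ ν ∈ Nu, monomial ν (c ν)) = 0 := by
  classical
  rw [mw17ls_coeff, if_neg hμ]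

end Upper

section Lower

variable [IsAlgClosed K] {κ : Type*} {n m a b : ℕ}

/-- **LOC-2, `nonvan` literal, supremum form.** -/
theorem mw17ls_ge_sup (hn : δ.N + 2 * δ.bound ≤ n) (t : Mw17Idx δ n) (ht : mw17Wt t = n)
    (Nu : Finset κ) (p : κ → MvPolynomial (Mw17Idx δ m ⊕ Mw17Idx δ n) K)
    (hp : ∀ ν ∈ Nu, IsWeightedHomogeneous (htlBiw (Mw17Idx δ m) (Mw17Idx δ n)) (p ν) (a, b))
    (nonvan : ∀ u : Mw17Idx δ m → K, u ≠ 0 → ∀ R : Option (Mw17Pt T),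
      ∃ ν ∈ Nu, eval (Sum.elim u (mw17Phi T n t R)) (p ν) ≠ 0) :
    ∃ C : HtConst K, ∀ (w : AbsoluteValue K ℝ) (u : Mw17Idx δ m → K) (R : Mw17Pt T), u ≠ 0 →
      htlSup w u ^ a * htlSup w (mw17Psi T n R) ^ b ≤
        C.val w * ⨆ ν : Nu, w (eval (Sum.elim u (mw17Psi T n R)) (p ν)) := by
  classical
  refine mw17cn_loc2_bi T hn t ht (fun j : Nu => p j.1) (fun j => hp j.1 j.2) ?_ ?_
  · intro u hu q
    obtain ⟨ν, hν, h⟩ := nonvan u hu (some q)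
    exact ⟨⟨ν, hν⟩, h⟩
  · intro u hu
    obtain ⟨ν, hν, h⟩ := nonvan u hu none
    refine ⟨⟨ν, hν⟩, ?_⟩
    rw [mw17Phi_none] at h
    convert h

/-- **LOC-2, `nonvan` literal, existential form.** -/
theorem mw17ls_ge (hn : δ.N + 2 * δ.bound ≤ n) (t : Mw17Idx δ n) (ht : mw17Wt t = n)
    (Nu : Finset κ) (p : κ → MvPolynomial (Mw17Idx δ m ⊕ Mw17Idx δ n) K)
    (hp : ∀ ν ∈ Nu, IsWeightedHomogeneous (htlBiw (Mw17Idx δ m) (Mw17Idx δ n)) (p ν) (a, b))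
    (nonvan : ∀ u : Mw17Idx δ m → K, u ≠ 0 → ∀ R : Option (Mw17Pt T),
      ∃ ν ∈ Nu, eval (Sum.elim u (mw17Phi T n t R)) (p ν) ≠ 0) :
    ∃ C : HtConst K, ∀ (w : AbsoluteValue K ℝ) (u : Mw17Idx δ m → K) (R : Mw17Pt T), u ≠ 0 →
      ∃ ν ∈ Nu, htlSup w u ^ a * htlSup w (mw17Psi T n R) ^ b ≤
        C.val w * w (eval (Sum.elim u (mw17Psi T n R)) (p ν)) := by
  obtain ⟨C, hC⟩ := mw17ls_ge_sup T hn t ht Nu p hp nonvan
  refine ⟨C, fun w u R hu => ?_⟩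
  obtain ⟨ν₀, hν₀, -⟩ := nonvan u hu none
  have : Nonempty Nu := ⟨⟨ν₀, hν₀⟩⟩
  obtain ⟨j, hj⟩ := exists_eq_ciSup_of_finite
    (f := fun ν : Nu => w (eval (Sum.elim u (mw17Psi T n R)) (p ν)))
  refine ⟨j.1, j.2, ?_⟩
  have := hC w u R hu
  rw [← hj] at this
  exact this

/-- **LOC-2, `nonvan` literal, both directions with one constant.** -/
theorem mw17ls_main (hn : δ.N + 2 * δ.bound ≤ n) (t : Mw17Idx δ n) (ht : mw17Wt t = n)
    (Nu : Finset κ) (p : κ → MvPolynomial (Mw17Idx δ m ⊕ Mw17Idx δ n) K)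
    (hp : ∀ ν ∈ Nu, IsWeightedHomogeneous (htlBiw (Mw17Idx δ m) (Mw17Idx δ n)) (p ν) (a, b))
    (nonvan : ∀ u : Mw17Idx δ m → K, u ≠ 0 → ∀ R : Option (Mw17Pt T),
      ∃ ν ∈ Nu, eval (Sum.elim u (mw17Phi T n t R)) (p ν) ≠ 0) :
    ∃ C : HtConst K, ∀ (w : HtAbs K) (u : Mw17Idx δ m → K) (R : Mw17Pt T), u ≠ 0 →
      (∃ ν ∈ Nu, htlSup w.1 u ^ a * htlSup w.1 (mw17Psi T n R) ^ b ≤
        C.val w.1 * w.1 (eval (Sum.elim u (mw17Psi T n R)) (p ν))) ∧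
      (∀ ν ∈ Nu, w.1 (eval (Sum.elim u (mw17Psi T n R)) (p ν)) ≤
        C.val w.1 * (htlSup w.1 u ^ a * htlSup w.1 (mw17Psi T n R) ^ b)) := by
  obtain ⟨C₁, hC₁⟩ := mw17ls_ge T hn t ht Nu p hp nonvan
  obtain ⟨C₂, hC₂⟩ := mw17ls_le Nu p hp
  obtain ⟨C, hC⟩ := htl_val_max C₁ C₂
  refine ⟨C, fun w u R hu => ⟨?_, fun ν hν => ?_⟩⟩
  · obtain ⟨ν, hν, h⟩ := hC₁ w.1 u R hu
    refine ⟨ν, hν, h.trans ?_⟩
    exact mul_le_mul_of_nonneg_right ((le_max_left _ _).trans (hC w.1)) (w.1.nonneg _)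
  · refine (hC₂ w.1 u (mw17Psi T n R) ν hν).trans ?_
    exact mul_le_mul_of_nonneg_right ((le_max_right _ _).trans (hC w.1))
      (mul_nonneg (pow_nonneg (htlSup_nonneg _ _) _) (pow_nonneg (htlSup_nonneg _ _) _))

/-- **LOC-2 for the coefficient family of `D : Mw17GData T n t m₁`**, bidegree
`(n - 1, n * m₁ - m₁)`, both directions with one constant. -/
theorem mw17ls_of_data {m₁ : ℕ} (hn : δ.N + 2 * δ.bound ≤ n) (t : Mw17Idx δ n)
    (ht : mw17Wt t = n) (D : Mw17GData T n t m₁) :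
    ∃ C : HtConst K, ∀ (w : HtAbs K) (u : Mw17Idx δ (n * m₁) → K) (R : Mw17Pt T), u ≠ 0 →
      (∃ ν ∈ D.Nu, htlSup w.1 u ^ (n - 1) * htlSup w.1 (mw17Psi T n R) ^ (n * m₁ - m₁) ≤
        C.val w.1 * w.1 (eval (Sum.elim u (mw17Psi T n R)) (D.p ν))) ∧
      (∀ ν ∈ D.Nu, w.1 (eval (Sum.elim u (mw17Psi T n R)) (D.p ν)) ≤
        C.val w.1 * (htlSup w.1 u ^ (n - 1) * htlSup w.1 (mw17Psi T n R) ^ (n * m₁ - m₁))) :=
  mw17ls_main T hn t ht D.Nu D.p D.hp D.nonvan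

end Lower

/-! ### The point at infinity: partial evaluation at `y` and the Option form -/

section Part

variable {ι₁ ι₂ : Type*}

/-- partial evaluation of a polynomial in `(u, y)` at `y` -/
def mw17lsPart (y : ι₂ → K) (p : MvPolynomial (ι₁ ⊕ ι₂) K) : MvPolynomial ι₁ K :=
  aeval (Sum.elim X (fun j => C (y j)) : ι₁ ⊕ ι₂ → MvPolynomial ι₁ K) p

theorem mw17ls_eval_part (u : ι₁ → K) (y : ι₂ → K) (p : MvPolynomial (ι₁ ⊕ ι₂) K) :
    eval u (mw17lsPart y p) = eval (Sum.elim u y) p := by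
  unfold mw17lsPart
  have h := comp_aeval_apply (f := (Sum.elim X (fun j => C (y j)) : ι₁ ⊕ ι₂ → MvPolynomial ι₁ K))
    (aeval u : MvPolynomial ι₁ K →ₐ[K] K) p
  have h2 : (fun i => (aeval u : MvPolynomial ι₁ K →ₐ[K] K)
      ((Sum.elim X (fun j => C (y j)) : ι₁ ⊕ ι₂ → MvPolynomial ι₁ K) i)) = Sum.elim u y := by
    funext i
    rcases i with i | j
    · simp
    · simp
  rw [h2] at h
  rw [← aeval_eq_eval, ← aeval_eq_eval]
  exact h

theorem mw17ls_part_isHomogeneous [Fintype ι₁] [Fintype ι₂] {p : MvPolynomial (ι₁ ⊕ ι₂) K}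
    {a b : ℕ} (hp : IsWeightedHomogeneous (htlBiw ι₁ ι₂) p (a, b)) (y : ι₂ → K) :
    (mw17lsPart y p).IsHomogeneous a := by
  unfold mw17lsPart
  rw [p.as_sum, map_sum]
  refine IsHomogeneous.sum _ _ _ fun d hd => ?_
  rw [aeval_monomial, Finsupp.prod_fintype _ _ (fun i => pow_zero _), Fintype.prod_sum_type]
  simp only [Sum.elim_inl, Sum.elim_inr]
  have hwt := hp (mem_support_iff.1 hd)
  rw [htl_weight_biw, Prod.mk.injEq] at hwt
  have h1 : (∏ i, (X i : MvPolynomial ι₁ K) ^ d (Sum.inl i)).IsHomogeneous a := by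
    rw [← hwt.1]
    refine IsHomogeneous.prod _ _ _ fun i _ => ?_
    have := (isHomogeneous_X K i).pow (d (Sum.inl i))
    rwa [one_mul] at this
  have h2 : (∏ j, (C (y j) : MvPolynomial ι₁ K) ^ d (Sum.inr j)).IsHomogeneous 0 := by
    have : (∏ j, (C (y j) : MvPolynomial ι₁ K) ^ d (Sum.inr j)) =
        C (∏ j, y j ^ d (Sum.inr j)) := by
      rw [map_prod]
      exact Finset.prod_congr rfl fun j _ => (map_pow _ _ _).symm
    rw [this]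
    exact isHomogeneous_C _ _
  have h3 := (isHomogeneous_C ι₁ (coeff d p)).mul (h1.mul h2)
  rw [add_zero, zero_add] at h3
  exact h3

end Part

section Opt

variable [IsAlgClosed K] {κ : Type*} {n m a b : ℕ}

omit [IsAlgClosed K] in
theorem mw17ls_sup_single {ι : Type*} [Finite ι] [DecidableEq ι] (w : AbsoluteValue K ℝ) (t : ι) :
    htlSup w (Pi.single t (1 : K)) = 1 := by
  refine le_antisymm (htlSup_le zero_le_one fun i => ?_) ?_
  · by_cases h : i = t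
    · subst h
      rw [Pi.single_eq_same, map_one]
    · rw [Pi.single_eq_of_ne h, map_zero]
      exact zero_le_one
  · have := htl_le_sup w (Pi.single t (1 : K)) t
    rwa [Pi.single_eq_same, map_one] at this

/-- **LOC-2 at `P0`**: the homogeneous Nullstellensatz bound for the forms `p_ν(·, e_t)`. -/
theorem mw17ls_ge_none [DecidableEq (Mw17Idx δ n)] (t : Mw17Idx δ n)
    (Nu : Finset κ) (p : κ → MvPolynomial (Mw17Idx δ m ⊕ Mw17Idx δ n) K)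
    (hp : ∀ ν ∈ Nu, IsWeightedHomogeneous (htlBiw (Mw17Idx δ m) (Mw17Idx δ n)) (p ν) (a, b))
    (hinf : ∀ u : Mw17Idx δ m → K, u ≠ 0 →
      ∃ ν ∈ Nu, eval (Sum.elim u (Pi.single t (1 : K))) (p ν) ≠ 0) :
    ∃ C : HtConst K, ∀ (w : AbsoluteValue K ℝ) (u : Mw17Idx δ m → K),
      htlSup w u ^ a ≤ C.val w * ⨆ ν : Nu, w (eval (Sum.elim u (Pi.single t (1 : K))) (p ν)) := by
  obtain ⟨C, hC⟩ := mw17cn_loc2_zero (K := K) (ι := Nu) (κ := Mw17Idx δ m) a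
    (fun ν => mw17lsPart (Pi.single t (1 : K)) (p ν.1))
    (fun ν => mw17ls_part_isHomogeneous (hp ν.1 ν.2) _)
    (fun u hu => by
      obtain ⟨ν, hν, h⟩ := hinf u hu
      exact ⟨⟨ν, hν⟩, by rw [mw17ls_eval_part]; exact h⟩)
  refine ⟨C, fun w u => ?_⟩
  have := hC w u
  simp only [mw17ls_eval_part] at this
  exact this

/-- **LOC-2, `nonvan` literal, on the COMPLETED curve** (`R : Option (Mw17Pt T)`, `none = P0`),
existential form. -/
theorem mw17ls_ge_opt (hn : δ.N + 2 * δ.bound ≤ n) (t : Mw17Idx δ n) (ht : mw17Wt t = n)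
    (Nu : Finset κ) (p : κ → MvPolynomial (Mw17Idx δ m ⊕ Mw17Idx δ n) K)
    (hp : ∀ ν ∈ Nu, IsWeightedHomogeneous (htlBiw (Mw17Idx δ m) (Mw17Idx δ n)) (p ν) (a, b))
    (nonvan : ∀ u : Mw17Idx δ m → K, u ≠ 0 → ∀ R : Option (Mw17Pt T),
      ∃ ν ∈ Nu, eval (Sum.elim u (mw17Phi T n t R)) (p ν) ≠ 0) :
    ∃ C : HtConst K, ∀ (w : AbsoluteValue K ℝ) (u : Mw17Idx δ m → K) (R : Option (Mw17Pt T)),
      u ≠ 0 → ∃ ν ∈ Nu, htlSup w u ^ a * htlSup w (mw17Phi T n t R) ^ b ≤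
        C.val w * w (eval (Sum.elim u (mw17Phi T n t R)) (p ν)) := by
  classical
  obtain ⟨C₁, hC₁⟩ := mw17ls_ge T hn t ht Nu p hp nonvan
  obtain ⟨C₂, hC₂⟩ := mw17ls_ge_none t Nu p hp (fun u hu => by
    obtain ⟨ν, hν, h⟩ := nonvan u hu none
    refine ⟨ν, hν, ?_⟩
    rw [mw17Phi_none] at h
    convert h)
  obtain ⟨C, hC⟩ := htl_val_max C₁ C₂
  refine ⟨C, fun w u R hu => ?_⟩
  cases R with
  | some q =>
    obtain ⟨ν, hν, h⟩ := hC₁ w u q hu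
    refine ⟨ν, hν, ?_⟩
    rw [mw17Phi_some]
    exact h.trans (mul_le_mul_of_nonneg_right ((le_max_left _ _).trans (hC w)) (w.nonneg _))
  | none =>
    obtain ⟨ν₀, hν₀, -⟩ := nonvan u hu none
    have : Nonempty Nu := ⟨⟨ν₀, hν₀⟩⟩
    obtain ⟨j, hj⟩ := exists_eq_ciSup_of_finite
      (f := fun ν : Nu => w (eval (Sum.elim u (Pi.single t (1 : K))) (p ν)))
    have h := hC₂ w u
    rw [← hj] at h
    refine ⟨j.1, j.2, ?_⟩
    have e : mw17Phi T n t none = Pi.single t (1 : K) :=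
      (mw17Phi_none T n t).trans (by congr)
    rw [e, mw17ls_sup_single, one_pow, mul_one]
    exact h.trans (mul_le_mul_of_nonneg_right ((le_max_right _ _).trans (hC w)) (w.nonneg _))

/-- **LOC-2, `nonvan` literal, on the completed curve, both directions with one constant.** -/
theorem mw17ls_main_opt (hn : δ.N + 2 * δ.bound ≤ n) (t : Mw17Idx δ n) (ht : mw17Wt t = n)
    (Nu : Finset κ) (p : κ → MvPolynomial (Mw17Idx δ m ⊕ Mw17Idx δ n) K)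
    (hp : ∀ ν ∈ Nu, IsWeightedHomogeneous (htlBiw (Mw17Idx δ m) (Mw17Idx δ n)) (p ν) (a, b))
    (nonvan : ∀ u : Mw17Idx δ m → K, u ≠ 0 → ∀ R : Option (Mw17Pt T),
      ∃ ν ∈ Nu, eval (Sum.elim u (mw17Phi T n t R)) (p ν) ≠ 0) :
    ∃ C : HtConst K, ∀ (w : HtAbs K) (u : Mw17Idx δ m → K) (R : Option (Mw17Pt T)), u ≠ 0 →
      (∃ ν ∈ Nu, htlSup w.1 u ^ a * htlSup w.1 (mw17Phi T n t R) ^ b ≤
        C.val w.1 * w.1 (eval (Sum.elim u (mw17Phi T n t R)) (p ν))) ∧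
      (∀ ν ∈ Nu, w.1 (eval (Sum.elim u (mw17Phi T n t R)) (p ν)) ≤
        C.val w.1 * (htlSup w.1 u ^ a * htlSup w.1 (mw17Phi T n t R) ^ b)) := by
  obtain ⟨C₁, hC₁⟩ := mw17ls_ge_opt T hn t ht Nu p hp nonvan
  obtain ⟨C₂, hC₂⟩ := mw17ls_le Nu p hp
  obtain ⟨C, hC⟩ := htl_val_max C₁ C₂
  refine ⟨C, fun w u R hu => ⟨?_, fun ν hν => ?_⟩⟩
  · obtain ⟨ν, hν, h⟩ := hC₁ w.1 u R hu
    refine ⟨ν, hν, h.trans ?_⟩
    exact mul_le_mul_of_nonneg_right ((le_max_left _ _).trans (hC w.1)) (w.1.nonneg _)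
  · refine (hC₂ w.1 u (mw17Phi T n t R) ν hν).trans ?_
    exact mul_le_mul_of_nonneg_right ((le_max_right _ _).trans (hC w.1))
      (mul_nonneg (pow_nonneg (htlSup_nonneg _ _) _) (pow_nonneg (htlSup_nonneg _ _) _))

/-- **LOC-2 for the coefficient family of `D : Mw17GData T n t m₁` on the completed curve.** -/
theorem mw17ls_of_data_opt {m₁ : ℕ} (hn : δ.N + 2 * δ.bound ≤ n) (t : Mw17Idx δ n)
    (ht : mw17Wt t = n) (D : Mw17GData T n t m₁) :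
    ∃ C : HtConst K, ∀ (w : HtAbs K) (u : Mw17Idx δ (n * m₁) → K) (R : Option (Mw17Pt T)),
      u ≠ 0 →
      (∃ ν ∈ D.Nu, htlSup w.1 u ^ (n - 1) * htlSup w.1 (mw17Phi T n t R) ^ (n * m₁ - m₁) ≤
        C.val w.1 * w.1 (eval (Sum.elim u (mw17Phi T n t R)) (D.p ν))) ∧
      (∀ ν ∈ D.Nu, w.1 (eval (Sum.elim u (mw17Phi T n t R)) (D.p ν)) ≤
        C.val w.1 * (htlSup w.1 u ^ (n - 1) * htlSup w.1 (mw17Phi T n t R) ^ (n * m₁ - m₁))) :=
  mw17ls_main_opt T hn t ht D.Nu D.p D.hp D.nonvan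

end Opt

end Fermat.Agent.MW17
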