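import Fermat.Agent.MW17.GoodPt
import Fermat.Agent.MW.Asm

/-!
# Program MW (S17): TOP ASSEMBLY of the height half in the language of points `Mw17Pt T`
(prefix `mw17mp_`)

Owner: helper2.  Same as `MW17/Main.lean`, but with the point type, the class map and the tuple
divisor the height half actually uses:

* points `Mw17Pt T = V27pB T →ₐ[ℚ̄] ℚ̄` (`MW17/Setup.lean`, helper16);
* classes `mw17prCl P : (Option (Mw17Pt T) →₀ ℤ) →+ JZero N` (`MW17/Pair/Cl.lean`, helper29);
* the divisor of a tuple `mw17gqTup Q = Σ_b [Q b] − g·[P0]` (`= mw17muTup Q` definitionally).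

`mw17mp_main` : the frozen S17 conclusion from

* `hpar` : the approximate parallelogram law for `h : JZero N → ℝ`;
* `hp`   : a height of points `hp : Mw17Pt T → ℝ`, `0 ≤ hp`;
* `H8`   : `c₂ · Σ_b hp (Q b) − c₁ ≤ h (mw17prCl P (mw17gqTup Q))` for GOOD tuples `Q` (pairwise
           distinct points off `Sig` with `l(Σ_b [Q b]) = 1`);
* `HN`   : Northcott in bounded degree: for all `d, B` only finitely many points `q` with all
           coordinates `v27cbPt T q o` of degree `≤ d` over `ℚ` and `hp q ≤ B`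
           (= helper3's `mw17np_finite` literal).
-/

set_option autoImplicit false
set_option linter.unusedSectionVars false
set_option linter.unusedVariables false
set_option linter.style.haveILetI false

noncomputable section

namespace Fermat.Agent.MW17

open AlgebraicCurve ModularCurve Module Polynomial Fermat.Agent.V Fermat.Agent.V.Dict
  Fermat.Agent.G Fermat.Agent.S24 Fermat.Agent.MW

variable (N : ℕ) [NeZero N] {δ : V27pShape} {T : V27pTable (AlgebraicClosure ℚ) δ}
  [IsDedekindDomain (V27pB T)]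

/-- **TOP ASSEMBLY of S17 in the language of points.** -/
theorem mw17mp_main (P : V27Presented (AlgebraicClosure ℚ) (modularFunctionFieldBar N) T)
    (Sig : Finset (Place (AlgebraicClosure ℚ) (modularFunctionFieldBar N)))
    (h : JZero N → ℝ) (C : ℝ)
    (hpar : ∀ x y : JZero N, |h (x + y) + h (x - y) - 2 * (h x + h y)| ≤ C)
    (hp : Mw17Pt T → ℝ) (hp0 : ∀ q, 0 ≤ hp q)
    (c₁ c₂ : ℝ) (hc₂ : 0 < c₂)
    (H8 : ∀ Q : Fin (genusFF (AlgebraicClosure ℚ) ↥(modularFunctionFieldBar N)) → Mw17Pt T,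
        Function.Injective Q → (∀ i, v27spPlace P (Q i) ∉ Sig) →
        finrank (AlgebraicClosure ℚ)
          (riemannRochSpace (v27dcSum fun i => v27spPlace P (Q i))) = 1 →
        c₂ * ∑ i, hp (Q i) - c₁ ≤ h (mw17prCl P (mw17gqTup Q)))
    (HN : ∀ (d : ℕ) (B : ℝ), {q : Mw17Pt T |
        (∀ o, (minpoly ℚ (v27cbPt T q o)).natDegree ≤ d) ∧ hp q ≤ B}.Finite) :
    AddGroup.FG ↥(FixedPoints.addSubgroup
      ((AlgebraicClosure ℚ) ≃ₐ[ℚ] (AlgebraicClosure ℚ)) (JZero N)) := by
  classical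
  set g := genusFF (AlgebraicClosure ℚ) ↥(modularFunctionFieldBar N) with hg
  have hsum0 : ∀ Q : Fin g → Mw17Pt T, 0 ≤ ∑ i, hp (Q i) :=
    fun Q => Finset.sum_nonneg fun i _ => hp0 _
  refine mwas_main N P.P0 Sig h C (max c₁ 0) hpar ?_ ?_
  · -- lower bound on good classes
    intro y hy
    obtain ⟨K, hK, hfix⟩ := gop_exists_fixing N y
    haveI := hK
    have hyK : y ∈ FixedPoints.addSubgroup ↥K.fixingSubgroup (JZero N) := by
      rw [FixedPoints.mem_addSubgroup]
      exact fun σ => hfix σ.1 σ.2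
    obtain ⟨d, hd⟩ := mw17gq_good N P Sig K
    obtain ⟨Q, hinj, hSig, hl, rfl, -⟩ := hd y hyK hy
    have h1 := H8 Q hinj hSig hl
    have h2 := mul_nonneg hc₂.le (hsum0 Q)
    have h3 : c₁ ≤ max c₁ 0 := le_max_left _ _
    linarith
  · -- Northcott on good classes of `J(K)`
    intro K hK B
    haveI := hK
    obtain ⟨d, hd⟩ := mw17gq_good N P Sig K
    set S : Set (Mw17Pt T) := {q | (∀ o, (minpoly ℚ (v27cbPt T q o)).natDegree ≤ d) ∧
      hp q ≤ (B + c₁) / c₂} with hS
    have hSfin : S.Finite := HN d ((B + c₁) / c₂)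
    have hpi : (Set.pi Set.univ fun _ : Fin g => S).Finite := Set.Finite.pi fun _ => hSfin
    refine (hpi.image fun Q => mw17prCl P (mw17gqTup Q)).subset ?_
    rintro y ⟨hyK, hygood, hyB⟩
    obtain ⟨Q, hinj, hSig, hl, rfl, hdeg⟩ := hd y hyK hygood
    refine ⟨Q, ?_, rfl⟩
    intro i _
    refine ⟨hdeg i, ?_⟩
    have h1 := H8 Q hinj hSig hl
    have h2 : hp (Q i) ≤ ∑ k, hp (Q k) :=
      Finset.single_le_sum (f := fun k => hp (Q k)) (fun k _ => hp0 _) (Finset.mem_univ i)
    rw [le_div_iff₀ hc₂]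
    have h3 : hp (Q i) * c₂ ≤ (∑ k, hp (Q k)) * c₂ := mul_le_mul_of_nonneg_right h2 hc₂.le
    linarith

end Fermat.Agent.MW17
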