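import Fermat.Agent.MW17.Move
import Fermat.Agent.MW17.PairAbs

/-!
# Program MW (S17), §7: the algebraic half of the instantiation of the abstract pairing

Owner: helper15.  Prefix `mw17pm`.

helper1's `MW17/PairAbs.lean` works with a type `Pt` of finite points, `Option Pt` (`none` = the
point `P0`), integer divisors `Option Pt →₀ ℤ`, and a class map `cl : (Option Pt →₀ ℤ) →+ J`.
Here, for a function field `F / K` with the Riemann–Roch package `V27RR K F g`, all places of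
degree one, a place `P0` and a parametrisation `pl : Pt → Place K F` of the places `≠ P0`:

* `mw17pmPl`, `mw17pmDiv`, `mw17pmCl` : the dictionary `Option Pt →₀ ℤ` ⟶ `Divisor K F` ⟶ `Pic0 K F`
  (`cl A = [div A - (deg A) P0]`);
* `mw17pm_cl_eq_iff` : `cl A = cl A' ↔ div A - div A'` principal (degree zero);
* `mw17pm_move` : the field `move` of `Mw17paHyp` (with `s₀ = 4 g`);
* `mw17pm_frac` : (FRAC) if `cl A = cl A'` with sizes `≤ s` then `div A - div A' = div (u₁ / u₂)`
  with `u₁, u₂ ∈ L((g + 2 s) P0)` nonzero — the algebraic front end of (PRINC).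
-/

set_option autoImplicit false

noncomputable section

namespace Fermat.Agent.MW17

open AlgebraicCurve Module Fermat.Agent.V.RR

variable {K F : Type*} [Field K] [Field F] [Algebra K F] {g : ℕ} {Pt : Type*}

/-! ### the dictionary -/

/-- the place of an extended point: `none ↦ P0`, `some q ↦ pl q`. -/
def mw17pmPl (P0 : Place K F) (pl : Pt → Place K F) : Option Pt → Place K F :=
  fun o => Option.elim o P0 pl

@[simp] theorem mw17pmPl_none (P0 : Place K F) (pl : Pt → Place K F) :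
    mw17pmPl P0 pl none = P0 := rfl

@[simp] theorem mw17pmPl_some (P0 : Place K F) (pl : Pt → Place K F) (q : Pt) :
    mw17pmPl P0 pl (some q) = pl q := rfl

theorem mw17pmPl_injective {P0 : Place K F} {pl : Pt → Place K F}
    (hinj : Function.Injective pl) (hne : ∀ q, pl q ≠ P0) :
    Function.Injective (mw17pmPl P0 pl) := by
  intro a b h
  cases a with
  | none =>
    cases b with
    | none => rfl
    | some q => exact absurd h.symm (hne q)
  | some p =>
    cases b with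
    | none => exact absurd h (hne p)
    | some q => exact congrArg some (hinj h)

/-- the divisor of an integer combination of extended points. -/
def mw17pmDiv (P0 : Place K F) (pl : Pt → Place K F) : (Option Pt →₀ ℤ) →+ Divisor K F :=
  Finsupp.mapDomain.addMonoidHom (mw17pmPl P0 pl)

theorem mw17pmDiv_apply (P0 : Place K F) (pl : Pt → Place K F) (A : Option Pt →₀ ℤ) :
    mw17pmDiv P0 pl A = Finsupp.mapDomain (mw17pmPl P0 pl) A := rfl

@[simp] theorem mw17pmDiv_single (P0 : Place K F) (pl : Pt → Place K F) (o : Option Pt) (n : ℤ) :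
    mw17pmDiv P0 pl (Finsupp.single o n) = Finsupp.single (mw17pmPl P0 pl o) n := by
  rw [mw17pmDiv_apply, Finsupp.mapDomain_single]

theorem mw17pmDiv_iota (P0 : Place K F) (pl : Pt → Place K F) (Z : Pt →₀ ℤ) :
    mw17pmDiv P0 pl (mw17paIota Z) = Finsupp.mapDomain pl Z := by
  rw [mw17pmDiv_apply, mw17paIota_apply, ← Finsupp.mapDomain_comp]
  rfl

theorem mw17pmDiv_apply_pl {P0 : Place K F} {pl : Pt → Place K F}
    (hinj : Function.Injective pl) (hne : ∀ q, pl q ≠ P0) (A : Option Pt →₀ ℤ) (o : Option Pt) :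
    mw17pmDiv P0 pl A (mw17pmPl P0 pl o) = A o := by
  rw [mw17pmDiv_apply]
  exact Finsupp.mapDomain_apply (mw17pmPl_injective hinj hne) A o

theorem mw17paDeg_single {α : Type*} (a : α) (n : ℤ) :
    mw17paDeg (Finsupp.single a n) = n := by
  rw [mw17paDeg_apply, Finsupp.sum_single_index rfl]

/-- degrees match (all places of degree one). -/
theorem mw17pm_degree_div (hdeg1 : ∀ v : Place K F, v.deg = 1) (P0 : Place K F)
    (pl : Pt → Place K F) (A : Option Pt →₀ ℤ) :
    Divisor.degree (mw17pmDiv P0 pl A) = mw17paDeg A := by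
  induction A using Finsupp.induction_linear with
  | zero => simp
  | add A B hA hB => rw [map_add, map_add, map_add, hA, hB]
  | single o n =>
    rw [mw17pmDiv_single, Divisor.degree_single, hdeg1, mw17paDeg_single]
    simp

/-- `A ↦ div A - (deg A) • P0`. -/
def mw17pmNorm (P0 : Place K F) (pl : Pt → Place K F) : (Option Pt →₀ ℤ) →+ Divisor K F :=
  AddMonoidHom.mk'
    (fun A => mw17pmDiv P0 pl A - mw17paDeg A • (Finsupp.single P0 1 : Divisor K F))
    (fun A B => by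
      rw [map_add, map_add, add_smul]
      abel)

theorem mw17pmNorm_apply (P0 : Place K F) (pl : Pt → Place K F) (A : Option Pt →₀ ℤ) :
    mw17pmNorm P0 pl A =
      mw17pmDiv P0 pl A - mw17paDeg A • (Finsupp.single P0 1 : Divisor K F) := rfl

theorem mw17pmNorm_of_deg {P0 : Place K F} {pl : Pt → Place K F} {A : Option Pt →₀ ℤ}
    (hA : mw17paDeg A = 0) : mw17pmNorm P0 pl A = mw17pmDiv P0 pl A := by
  rw [mw17pmNorm_apply, hA, zero_smul, sub_zero]

theorem mw17pmNorm_mem (hdeg1 : ∀ v : Place K F, v.deg = 1) (P0 : Place K F)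
    (pl : Pt → Place K F) (A : Option Pt →₀ ℤ) :
    mw17pmNorm P0 pl A ∈ Divisor.degZero (K := K) (F := F) := by
  rw [Divisor.mem_degZero, mw17pmNorm_apply, map_sub, map_zsmul, Divisor.degree_single, hdeg1,
    mw17pm_degree_div hdeg1]
  simp

/-- **the class map** `A ↦ [div A - (deg A) P0]`. -/
def mw17pmCl (hdeg1 : ∀ v : Place K F, v.deg = 1) (P0 : Place K F) (pl : Pt → Place K F) :
    (Option Pt →₀ ℤ) →+ Pic0 K F :=
  (QuotientAddGroup.mk' _).comp
    ((mw17pmNorm P0 pl).codRestrict (Divisor.degZero (K := K) (F := F))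
      (mw17pmNorm_mem hdeg1 P0 pl))

theorem mw17pmCl_apply (hdeg1 : ∀ v : Place K F, v.deg = 1) (P0 : Place K F)
    (pl : Pt → Place K F) (A : Option Pt →₀ ℤ) :
    mw17pmCl hdeg1 P0 pl A = Pic0.mk ⟨mw17pmNorm P0 pl A, mw17pmNorm_mem hdeg1 P0 pl A⟩ := rfl

/-- on degree zero, `cl A = [div A]`. -/
theorem mw17pmCl_of_deg (hdeg1 : ∀ v : Place K F, v.deg = 1) (P0 : Place K F)
    (pl : Pt → Place K F) {A : Option Pt →₀ ℤ} (hA : mw17paDeg A = 0)
    (hmem : mw17pmDiv P0 pl A ∈ Divisor.degZero (K := K) (F := F)) :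
    mw17pmCl hdeg1 P0 pl A = Pic0.mk ⟨mw17pmDiv P0 pl A, hmem⟩ := by
  rw [mw17pmCl_apply]
  congr 1
  exact Subtype.ext (mw17pmNorm_of_deg hA)

/-- `cl A = cl A'` iff the normalised divisors differ by a principal divisor. -/
theorem mw17pm_cl_eq_iff' (hdeg1 : ∀ v : Place K F, v.deg = 1) (P0 : Place K F)
    (pl : Pt → Place K F) (A A' : Option Pt →₀ ℤ) :
    mw17pmCl hdeg1 P0 pl A = mw17pmCl hdeg1 P0 pl A' ↔
      Divisor.IsPrincipal (mw17pmNorm P0 pl A - mw17pmNorm P0 pl A') := by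
  rw [mw17pmCl_apply, mw17pmCl_apply]
  unfold Pic0.mk
  rw [QuotientAddGroup.eq_iff_sub_mem, AddSubgroup.mem_addSubgroupOf]
  exact Divisor.mem_principal

/-- **`cl A = cl A'` iff `div A - div A'` is principal** (degree zero). -/
theorem mw17pm_cl_eq_iff (hdeg1 : ∀ v : Place K F, v.deg = 1) (P0 : Place K F)
    (pl : Pt → Place K F) {A A' : Option Pt →₀ ℤ} (hA : mw17paDeg A = 0)
    (hA' : mw17paDeg A' = 0) :
    mw17pmCl hdeg1 P0 pl A = mw17pmCl hdeg1 P0 pl A' ↔
      Divisor.IsPrincipal (mw17pmDiv P0 pl A - mw17pmDiv P0 pl A') := by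
  rw [mw17pm_cl_eq_iff', mw17pmNorm_of_deg hA, mw17pmNorm_of_deg hA']

/-! ### sizes -/

theorem mw17paSize_mapDomain_inj {α β : Type*} {f : α → β} (hf : Function.Injective f)
    (Z : α →₀ ℤ) : mw17paSize (Finsupp.mapDomain f Z) = mw17paSize Z := by
  unfold mw17paSize
  exact Finsupp.sum_mapDomain_index_inj hf

/-- the size of an effective divisor is its degree (all places of degree one). -/
theorem mw17pm_size_of_nonneg (hdeg1 : ∀ v : Place K F, v.deg = 1) {A : Divisor K F}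
    (hA : 0 ≤ A) : (mw17paSize A : ℤ) = Divisor.degree A := by
  have hsum : Divisor.degree A = ∑ v ∈ A.support, A v * (v.deg : ℤ) := by
    rw [Divisor.degree, Finsupp.liftAddHom_apply]
    rfl
  rw [hsum]
  unfold mw17paSize
  rw [Finsupp.sum, Nat.cast_sum]
  refine Finset.sum_congr rfl fun v _ => ?_
  have h := Finsupp.le_def.mp hA v
  rw [Finsupp.zero_apply] at h
  rw [hdeg1 v, Nat.cast_one, mul_one, Int.natCast_natAbs, abs_of_nonneg h]

/-! ### (MOVE) -/

/-- **(MOVE)**: the field `move` of helper1's `Mw17paHyp`, with `s₀ = 4 g`. -/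
theorem mw17pm_move (R : V27RR K F g) [Infinite K] (hdeg1 : ∀ v : Place K F, v.deg = 1)
    (P0 : Place K F) {pl : Pt → Place K F} (hinj : Function.Injective pl)
    (hne : ∀ q, pl q ≠ P0) (hsurj : ∀ v : Place K F, v ≠ P0 → ∃ q, pl q = v) :
    ∃ s₀ : ℕ, ∀ (x : Pic0 K F) (S : Finset Pt), ∃ Z : Pt →₀ ℤ, mw17paDeg Z = 0 ∧
      mw17pmCl hdeg1 P0 pl (mw17paIota Z) = x ∧ mw17paSize Z ≤ s₀ ∧ Disjoint Z.support S := by
  classical
  refine ⟨4 * g, fun x S => ?_⟩
  obtain ⟨A, B, hAB, hA0, hB0, hAd, hBd, hS, -, rfl⟩ :=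
    mw17mv_exists_rep_pic0 R P0 (hdeg1 P0) (2 * g) le_rfl x (insert P0 (S.image pl))
      (fun v _ => hdeg1 v)
  have hDP0 : (A - B) P0 = 0 := by
    have := hS P0 (Finset.mem_insert_self _ _)
    rw [Finsupp.sub_apply, this.1, this.2, sub_zero]
  have hsupp : ((A - B).support : Set (Place K F)) ⊆ Set.range pl := by
    intro v hv
    have hv' : (A - B) v ≠ 0 := Finsupp.mem_support_iff.mp hv
    have hvP0 : v ≠ P0 := by
      rintro rfl
      exact hv' hDP0
    exact hsurj v hvP0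
  set Z : Pt →₀ ℤ := Finsupp.comapDomain pl (A - B) hinj.injOn with hZdef
  have hZ : Finsupp.mapDomain pl Z = A - B := Finsupp.mapDomain_comapDomain pl hinj _ hsupp
  have hdiv : mw17pmDiv P0 pl (mw17paIota Z) = A - B := by rw [mw17pmDiv_iota, hZ]
  have hdeg : mw17paDeg Z = 0 := by
    rw [← mw17paDeg_iota, ← mw17pm_degree_div hdeg1 P0 pl, hdiv]
    exact Divisor.mem_degZero.mp hAB
  refine ⟨Z, hdeg, ?_, ?_, ?_⟩
  · rw [mw17pmCl_of_deg hdeg1 P0 pl (by rw [mw17paDeg_iota]; exact hdeg)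
      (by rw [hdiv]; exact hAB)]
    congr 1
    exact Subtype.ext hdiv
  · have h1 : mw17paSize Z = mw17paSize (A - B) := by
      rw [← hZ, mw17paSize_mapDomain_inj hinj]
    have h2 := mw17paSize_sub_le A B
    have h3 := mw17pm_size_of_nonneg hdeg1 hA0
    have h4 := mw17pm_size_of_nonneg hdeg1 hB0
    rw [hAd] at h3
    rw [hBd] at h4
    have h3' : mw17paSize A = 2 * g := by exact_mod_cast h3
    have h4' : mw17paSize B = 2 * g := by exact_mod_cast h4
    omega
  · rw [Finset.disjoint_left]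
    intro q hqZ hqS
    have hmem : pl q ∈ insert P0 (S.image pl) :=
      Finset.mem_insert_of_mem (Finset.mem_image_of_mem pl hqS)
    have := hS (pl q) hmem
    have hq0 : Z q = 0 := by
      rw [hZdef, Finsupp.comapDomain_apply, Finsupp.sub_apply, this.1, this.2, sub_zero]
    exact (Finsupp.mem_support_iff.mp hqZ) hq0

/-! ### (FRAC) -/

theorem mw17paSize_mapRange_abs {α : Type*} (D : α →₀ ℤ) :
    mw17paSize (Finsupp.mapRange (fun n : ℤ => |n|) abs_zero D) = mw17paSize D := by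
  unfold mw17paSize
  rw [Finsupp.sum_mapRange_index (fun _ => rfl)]
  exact Finsupp.sum_congr fun _ _ => Int.natAbs_abs _

/-- membership in `L(m P0)` for a nonzero function. -/
theorem mw17pm_mem_L_iff {P0 : Place K F} {m : ℤ} {f : F} (hf : f ≠ 0) :
    f ∈ riemannRochSpace (Finsupp.single P0 m) ↔
      -m ≤ P0.ord f ∧ ∀ v : Place K F, v ≠ P0 → 0 ≤ v.ord f := by
  classical
  rw [mw17mv_mem_iff hf]
  constructor
  · intro h
    refine ⟨?_, fun v hv => ?_⟩
    · have := h P0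
      rwa [Finsupp.single_eq_same] at this
    · have := h v
      rwa [Finsupp.single_eq_of_ne hv, neg_zero] at this
  · rintro ⟨h0, h⟩ v
    by_cases hv : v = P0
    · subst hv
      rwa [Finsupp.single_eq_same]
    · rw [Finsupp.single_eq_of_ne hv, neg_zero]
      exact h v hv

/-- **(FRAC), divisor form**: a principal divisor `D` is `div (u₁ / u₂)` with
`u₁, u₂ ∈ L((g + size D) P0)` nonzero. -/
theorem mw17pm_frac_div (R : V27RR K F g) (hdeg1 : ∀ v : Place K F, v.deg = 1) (P0 : Place K F)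
    {D : Divisor K F} (hD : Divisor.IsPrincipal D) :
    ∃ u₁ u₂ : F, u₁ ≠ 0 ∧ u₂ ≠ 0 ∧
      u₁ ∈ riemannRochSpace (Finsupp.single P0 ((g + mw17paSize D : ℕ) : ℤ)) ∧
      u₂ ∈ riemannRochSpace (Finsupp.single P0 ((g + mw17paSize D : ℕ) : ℤ)) ∧
      ∀ v : Place K F, D v = v.ord u₁ - v.ord u₂ := by
  classical
  obtain ⟨f, hf0, hf⟩ := hD
  set N : Divisor K F := Finsupp.mapRange (fun n : ℤ => |n|) abs_zero D with hN
  have hNv : ∀ v, N v = |D v| := fun v => by rw [hN, Finsupp.mapRange_apply]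
  have hN0 : 0 ≤ N := by
    rw [Finsupp.le_def]
    intro v
    rw [Finsupp.zero_apply, hNv]
    exact abs_nonneg _
  have hdegN : Divisor.degree N = (mw17paSize D : ℤ) := by
    rw [← mw17pm_size_of_nonneg hdeg1 hN0, hN, mw17paSize_mapRange_abs]
  set m : ℕ := g + mw17paSize D with hm
  set E : Divisor K F := (m : ℤ) • (Finsupp.single P0 1 : Divisor K F) - N with hE
  have hdegE : Divisor.degree E = g := by
    rw [hE, map_sub, map_zsmul, Divisor.degree_single, hdeg1, hdegN, hm]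
    push_cast
    simp
  obtain ⟨u₂, hu0, hu⟩ := R.exists_ne_zero_mem (D := E) (by rw [hdegE])
  rw [mw17mv_mem_iff hu0] at hu
  have hEP0 : E P0 = (m : ℤ) - |D P0| := by
    rw [hE, Finsupp.sub_apply, Finsupp.smul_apply, Finsupp.single_eq_same, hNv]
    simp
  have hEv : ∀ v, v ≠ P0 → E v = - |D v| := fun v hv => by
    rw [hE, Finsupp.sub_apply, Finsupp.smul_apply, Finsupp.single_eq_of_ne hv, hNv]
    simp
  have hfu : f * u₂ ≠ 0 := mul_ne_zero hf0 hu0
  refine ⟨f * u₂, u₂, hfu, hu0, ?_, ?_, fun v => ?_⟩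
  · rw [mw17pm_mem_L_iff hfu]
    refine ⟨?_, fun v hv => ?_⟩
    · rw [Place.ord_mul _ hf0 hu0, ← hf P0]
      have h1 := hu P0
      rw [hEP0] at h1
      have h2 := neg_abs_le (D P0)
      linarith
    · rw [Place.ord_mul _ hf0 hu0, ← hf v]
      have h1 := hu v
      rw [hEv v hv] at h1
      have h2 := neg_abs_le (D v)
      linarith
  · rw [mw17pm_mem_L_iff hu0]
    refine ⟨?_, fun v hv => ?_⟩
    · have h1 := hu P0
      rw [hEP0] at h1
      have h2 := abs_nonneg (D P0)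
      linarith
    · have h1 := hu v
      rw [hEv v hv] at h1
      have h2 := abs_nonneg (D v)
      linarith
  · rw [Place.ord_mul _ hf0 hu0, hf v]
    ring

theorem mw17pm_L_mono {P0 : Place K F} {m m' : ℤ} (h : m ≤ m') {f : F}
    (hf : f ∈ riemannRochSpace (Finsupp.single P0 m)) :
    f ∈ riemannRochSpace (Finsupp.single P0 m') := by
  rcases eq_or_ne f 0 with rfl | hf0
  · exact Submodule.zero_mem _
  rw [mw17pm_mem_L_iff hf0] at hf ⊢
  exact ⟨by linarith [hf.1], hf.2⟩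

theorem mw17pm_size_div {P0 : Place K F} {pl : Pt → Place K F}
    (hinj : Function.Injective pl) (hne : ∀ q, pl q ≠ P0) (A : Option Pt →₀ ℤ) :
    mw17paSize (mw17pmDiv P0 pl A) = mw17paSize A := by
  rw [mw17pmDiv_apply, mw17paSize_mapDomain_inj (mw17pmPl_injective hinj hne)]

/-- **(FRAC)**: if `cl A = cl A'` (degree zero, sizes `≤ s`) then `div A - div A' = div (u₁ / u₂)`
with `u₁, u₂ ∈ L((g + 2 s) P0)` nonzero; pointwise: `A o - A' o = ord_o u₁ - ord_o u₂`. -/
theorem mw17pm_frac (R : V27RR K F g) (hdeg1 : ∀ v : Place K F, v.deg = 1) (P0 : Place K F)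
    {pl : Pt → Place K F} (hinj : Function.Injective pl) (hne : ∀ q, pl q ≠ P0) (s : ℕ)
    {A A' : Option Pt →₀ ℤ} (hA : mw17paDeg A = 0) (hA' : mw17paDeg A' = 0)
    (hcl : mw17pmCl hdeg1 P0 pl A = mw17pmCl hdeg1 P0 pl A')
    (hs : mw17paSize A ≤ s) (hs' : mw17paSize A' ≤ s) :
    ∃ u₁ u₂ : F, u₁ ≠ 0 ∧ u₂ ≠ 0 ∧
      u₁ ∈ riemannRochSpace (Finsupp.single P0 ((g + 2 * s : ℕ) : ℤ)) ∧
      u₂ ∈ riemannRochSpace (Finsupp.single P0 ((g + 2 * s : ℕ) : ℤ)) ∧
      (∀ v : Place K F,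
        (mw17pmDiv P0 pl A - mw17pmDiv P0 pl A') v = v.ord u₁ - v.ord u₂) ∧
      ∀ o : Option Pt, A o - A' o = (mw17pmPl P0 pl o).ord u₁ - (mw17pmPl P0 pl o).ord u₂ := by
  have hprinc := (mw17pm_cl_eq_iff hdeg1 P0 pl hA hA').mp hcl
  obtain ⟨u₁, u₂, h1, h2, hu1, hu2, hdiv⟩ := mw17pm_frac_div R hdeg1 P0 hprinc
  have hsize : mw17paSize (mw17pmDiv P0 pl A - mw17pmDiv P0 pl A') ≤ 2 * s := by
    have := mw17paSize_sub_le (mw17pmDiv P0 pl A) (mw17pmDiv P0 pl A')
    rw [mw17pm_size_div hinj hne, mw17pm_size_div hinj hne] at this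
    omega
  have hle : ((g + mw17paSize (mw17pmDiv P0 pl A - mw17pmDiv P0 pl A') : ℕ) : ℤ) ≤
      ((g + 2 * s : ℕ) : ℤ) := by
    exact_mod_cast Nat.add_le_add_left hsize g
  refine ⟨u₁, u₂, h1, h2, mw17pm_L_mono hle hu1, mw17pm_L_mono hle hu2, hdiv, fun o => ?_⟩
  have := hdiv (mw17pmPl P0 pl o)
  rwa [Finsupp.sub_apply, mw17pmDiv_apply_pl hinj hne, mw17pmDiv_apply_pl hinj hne] at this

/-! ### (FRAC), strong form: numerator and denominator without extra zeros on a finite set -/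

theorem mw17paSize_mapRange_negPart_le {α : Type*} (D : α →₀ ℤ) :
    mw17paSize (Finsupp.mapRange (fun n : ℤ => max 0 (-n)) (by simp) D) ≤ mw17paSize D := by
  unfold mw17paSize
  rw [Finsupp.sum_mapRange_index (fun _ => rfl)]
  unfold Finsupp.sum
  refine Finset.sum_le_sum fun v _ => ?_
  show (max 0 (-D v)).natAbs ≤ (D v).natAbs
  omega

/-- **(FRAC), strong divisor form**: a principal divisor `D` is `div (u₁ / u₂)` with
`u₁, u₂ ∈ L((2 g + size D) P0)` nonzero, and at every place `v ≠ P0` of a prescribed finite set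
`u₂` vanishes exactly to the order of the pole of `D`, `u₁` exactly to the order of the zero. -/
theorem mw17pm_frac_div_off (R : V27RR K F g) [Infinite K] (hdeg1 : ∀ v : Place K F, v.deg = 1)
    (P0 : Place K F) {D : Divisor K F} (hD : Divisor.IsPrincipal D) (Sig : Finset (Place K F)) :
    ∃ u₁ u₂ : F, u₁ ≠ 0 ∧ u₂ ≠ 0 ∧
      u₁ ∈ riemannRochSpace (Finsupp.single P0 ((2 * g + mw17paSize D : ℕ) : ℤ)) ∧
      u₂ ∈ riemannRochSpace (Finsupp.single P0 ((2 * g + mw17paSize D : ℕ) : ℤ)) ∧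
      (∀ v : Place K F, D v = v.ord u₁ - v.ord u₂) ∧
      ∀ v ∈ Sig, v ≠ P0 → v.ord u₁ = max 0 (D v) ∧ v.ord u₂ = max 0 (-D v) := by
  classical
  obtain ⟨f, hf0, hf⟩ := hD
  set N : Divisor K F := Finsupp.mapRange (fun n : ℤ => max 0 (-n)) (by simp) D with hN
  have hNv : ∀ v, N v = max 0 (-D v) := fun v => by rw [hN, Finsupp.mapRange_apply]
  have hN0 : 0 ≤ N := by
    rw [Finsupp.le_def]
    intro v
    rw [Finsupp.zero_apply, hNv]
    exact le_max_left _ _
  have hdegN : Divisor.degree N ≤ (mw17paSize D : ℤ) := by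
    rw [← mw17pm_size_of_nonneg hdeg1 hN0, hN]
    exact_mod_cast mw17paSize_mapRange_negPart_le D
  have hdegN0 : 0 ≤ Divisor.degree N := by
    rw [← mw17pm_size_of_nonneg hdeg1 hN0]
    exact Int.natCast_nonneg _
  set m : ℕ := 2 * g + mw17paSize D with hm
  set E : Divisor K F := (m : ℤ) • (Finsupp.single P0 1 : Divisor K F) - N with hE
  have hdegE : 2 * (g : ℤ) ≤ Divisor.degree E := by
    rw [hE, map_sub, map_zsmul, Divisor.degree_single, hdeg1, hm]
    push_cast
    simp only [smul_eq_mul, mul_one]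
    linarith
  obtain ⟨u₂, hu0, hu, hex⟩ := mw17mv_exists_section R E hdegE Sig (fun v _ => hdeg1 v)
  rw [mw17mv_mem_iff hu0] at hu
  have hEP0 : E P0 = (m : ℤ) - max 0 (-D P0) := by
    rw [hE, Finsupp.sub_apply, Finsupp.smul_apply, Finsupp.single_eq_same, hNv]
    simp
  have hEv : ∀ v, v ≠ P0 → E v = - max 0 (-D v) := fun v hv => by
    rw [hE, Finsupp.sub_apply, Finsupp.smul_apply, Finsupp.single_eq_of_ne hv, hNv]
    simp
  have hfu : f * u₂ ≠ 0 := mul_ne_zero hf0 hu0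
  refine ⟨f * u₂, u₂, hfu, hu0, ?_, ?_, fun v => ?_, fun v hv hvP0 => ?_⟩
  · rw [mw17pm_mem_L_iff hfu]
    refine ⟨?_, fun v hv => ?_⟩
    · rw [Place.ord_mul _ hf0 hu0, ← hf P0]
      have h1 := hu P0
      rw [hEP0] at h1
      have h2 : -D P0 ≤ max 0 (-D P0) := le_max_right _ _
      linarith
    · rw [Place.ord_mul _ hf0 hu0, ← hf v]
      have h1 := hu v
      rw [hEv v hv] at h1
      have h2 : -D v ≤ max 0 (-D v) := le_max_right _ _
      linarith
  · rw [mw17pm_mem_L_iff hu0]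
    refine ⟨?_, fun v hv => ?_⟩
    · have h1 := hu P0
      rw [hEP0] at h1
      have h2 : (0 : ℤ) ≤ max 0 (-D P0) := le_max_left _ _
      linarith
    · have h1 := hu v
      rw [hEv v hv] at h1
      have h2 : (0 : ℤ) ≤ max 0 (-D v) := le_max_left _ _
      linarith
  · rw [Place.ord_mul _ hf0 hu0, hf v]
    ring
  · have h2 : v.ord u₂ = max 0 (-D v) := by
      rw [hex v hv, hEv v hvP0, neg_neg]
    refine ⟨?_, h2⟩
    rw [Place.ord_mul _ hf0 hu0, ← hf v, h2]
    rcases le_total 0 (D v) with h | h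
    · rw [max_eq_right h, max_eq_left (by linarith : -D v ≤ 0)]
      ring
    · rw [max_eq_left h, max_eq_right (by linarith : 0 ≤ -D v)]
      ring

/-- **(FRAC), strong form**: if `cl A = cl A'` (degree zero, sizes `≤ s`) and `W` is off `A` and
`A'`, then `div A - div A' = div (u₁ / u₂)` with `u₁, u₂ ∈ L((2 g + 2 s) P0)` nonzero and
**without zeros on the support of `W`**. -/
theorem mw17pm_frac_off (R : V27RR K F g) [Infinite K] (hdeg1 : ∀ v : Place K F, v.deg = 1)
    (P0 : Place K F) {pl : Pt → Place K F} (hinj : Function.Injective pl)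
    (hne : ∀ q, pl q ≠ P0) (s : ℕ)
    {A A' : Option Pt →₀ ℤ} (hA : mw17paDeg A = 0) (hA' : mw17paDeg A' = 0)
    (hcl : mw17pmCl hdeg1 P0 pl A = mw17pmCl hdeg1 P0 pl A')
    (hs : mw17paSize A ≤ s) (hs' : mw17paSize A' ≤ s)
    (W : Pt →₀ ℤ) (ho : Mw17paOff A W) (ho' : Mw17paOff A' W) :
    ∃ u₁ u₂ : F, u₁ ≠ 0 ∧ u₂ ≠ 0 ∧
      u₁ ∈ riemannRochSpace (Finsupp.single P0 ((2 * g + 2 * s : ℕ) : ℤ)) ∧
      u₂ ∈ riemannRochSpace (Finsupp.single P0 ((2 * g + 2 * s : ℕ) : ℤ)) ∧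
      (∀ o : Option Pt, A o - A' o = (mw17pmPl P0 pl o).ord u₁ - (mw17pmPl P0 pl o).ord u₂) ∧
      ∀ r ∈ W.support, (pl r).ord u₁ = 0 ∧ (pl r).ord u₂ = 0 := by
  classical
  have hprinc := (mw17pm_cl_eq_iff hdeg1 P0 pl hA hA').mp hcl
  obtain ⟨u₁, u₂, h1, h2, hu1, hu2, hdiv, hoff⟩ :=
    mw17pm_frac_div_off R hdeg1 P0 hprinc (W.support.image pl)
  have hsize : mw17paSize (mw17pmDiv P0 pl A - mw17pmDiv P0 pl A') ≤ 2 * s := by
    have := mw17paSize_sub_le (mw17pmDiv P0 pl A) (mw17pmDiv P0 pl A')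
    rw [mw17pm_size_div hinj hne, mw17pm_size_div hinj hne] at this
    omega
  have hle : ((2 * g + mw17paSize (mw17pmDiv P0 pl A - mw17pmDiv P0 pl A') : ℕ) : ℤ) ≤
      ((2 * g + 2 * s : ℕ) : ℤ) := by
    exact_mod_cast Nat.add_le_add_left hsize (2 * g)
  refine ⟨u₁, u₂, h1, h2, mw17pm_L_mono hle hu1, mw17pm_L_mono hle hu2, fun o => ?_,
    fun r hr => ?_⟩
  · have := hdiv (mw17pmPl P0 pl o)
    rwa [Finsupp.sub_apply, mw17pmDiv_apply_pl hinj hne, mw17pmDiv_apply_pl hinj hne] at this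
  · have hD0 : (mw17pmDiv P0 pl A - mw17pmDiv P0 pl A') (pl r) = 0 := by
      have e : pl r = mw17pmPl P0 pl (some r) := rfl
      rw [e, Finsupp.sub_apply, mw17pmDiv_apply_pl hinj hne, mw17pmDiv_apply_pl hinj hne,
        Finsupp.notMem_support_iff.mp (ho r hr), Finsupp.notMem_support_iff.mp (ho' r hr),
        sub_zero]
    have := hoff (pl r) (Finset.mem_image_of_mem pl hr) (hne r)
    rw [hD0] at this
    simpa using this

/-! ### the divisor of a function in the language of extended points; the assembly -/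

/-- the divisor of a nonzero function as an integer combination of extended points
(`0` for `u = 0`). -/
def mw17pmOrd (R : V27RR K F g) (P0 : Place K F) {pl : Pt → Place K F}
    (hinj : Function.Injective pl) (hne : ∀ q, pl q ≠ P0) (u : F) : Option Pt →₀ ℤ :=
  open Classical in
  if hu : u = 0 then 0 else
    Finsupp.comapDomain (mw17pmPl P0 pl)
      (Classical.choose (R.hasDiv.exists_divisor u hu))
      (mw17pmPl_injective hinj hne).injOn

theorem mw17pmOrd_apply (R : V27RR K F g) (P0 : Place K F) {pl : Pt → Place K F}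
    (hinj : Function.Injective pl) (hne : ∀ q, pl q ≠ P0) {u : F} (hu : u ≠ 0) (o : Option Pt) :
    mw17pmOrd R P0 hinj hne u o = (mw17pmPl P0 pl o).ord u := by
  unfold mw17pmOrd
  rw [dif_neg hu, Finsupp.comapDomain_apply]
  exact (Classical.choose_spec (R.hasDiv.exists_divisor u hu)).1 _

/-- **the instantiation of helper1's `Mw17paHyp` on the curve, from ONE analytic input** `hG`:
`B (div u₁ - div u₂) W` is bounded, for `u₁, u₂ ∈ L(m P0)` nonzero without zeros on the support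
of `W` (`deg W = 0`, `size W ≤ s`). -/
theorem mw17pm_hyp (R : V27RR K F g) [Infinite K] (hdeg1 : ∀ v : Place K F, v.deg = 1)
    (P0 : Place K F) {pl : Pt → Place K F} (hinj : Function.Injective pl)
    (hne : ∀ q, pl q ≠ P0) (hsurj : ∀ v : Place K F, v ≠ P0 → ∃ q, pl q = v)
    (b : Option Pt → Pt → ℝ) (hsymm : ∀ P Q, b (some P) Q = b (some Q) P)
    (hG : ∀ m s : ℕ, ∃ C : ℝ, ∀ u₁ u₂ : F, u₁ ≠ 0 → u₂ ≠ 0 →
      u₁ ∈ riemannRochSpace (Finsupp.single P0 (m : ℤ)) →
      u₂ ∈ riemannRochSpace (Finsupp.single P0 (m : ℤ)) →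
      ∀ W : Pt →₀ ℤ, mw17paDeg W = 0 → mw17paSize W ≤ s →
      (∀ r ∈ W.support, (pl r).ord u₁ = 0 ∧ (pl r).ord u₂ = 0) →
      |mw17paB b (mw17pmOrd R P0 hinj hne u₁ - mw17pmOrd R P0 hinj hne u₂) W| ≤ C) :
    Mw17paHyp b (mw17pmCl hdeg1 P0 pl) where
  symm := hsymm
  move := mw17pm_move R hdeg1 P0 hinj hne hsurj
  princ := fun s => by
    obtain ⟨C, hC⟩ := hG (2 * g + 2 * s) s
    refine ⟨C, fun A A' W hA hA' hW hcl h1 h2 h3 ho ho' => ?_⟩
    obtain ⟨u₁, u₂, hu1, hu2, hL1, hL2, hdiv, hoff⟩ :=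
      mw17pm_frac_off R hdeg1 P0 hinj hne s hA hA' hcl h1 h2 W ho ho'
    have e : A - A' = mw17pmOrd R P0 hinj hne u₁ - mw17pmOrd R P0 hinj hne u₂ := by
      ext o
      rw [Finsupp.sub_apply, Finsupp.sub_apply, mw17pmOrd_apply R P0 hinj hne hu1,
        mw17pmOrd_apply R P0 hinj hne hu2]
      exact hdiv o
    rw [e]
    exact hC u₁ u₂ hu1 hu2 hL1 hL2 W hW h3 hoff

end Fermat.Agent.MW17
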