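import Mathlib
import Fermat.Agent.MW17.GenPos
import Fermat.Agent.HT.Loc

/-!
# Program MW (S17), heights half (A): the top-order criterion on the table ring

Owner: helper26.  Namespace `Fermat.Agent.MW17`, prefix `mw17tb` (continuation of `MW17/PnTable.lean`).

`t : Mw17Idx δ n` is a TOP index (`mw17Wt t = n`), `P` a form of degree `k` in the monomials of
`L_n`, `b := aeval (mw17Mon T) P ∈ L_{nk}`.  The value `P(e_t)` is the coefficient of `X_t ^ k`, and

* `P(e_t) ≠ 0 → v27pOrd b = n * k`                                (`mw17tb_ord_aeval_eq`);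
* `P(e_t) = 0 → b ∈ L_{nk - 1}`                                    (`mw17tb_aeval_le_pred`);
* family form (`mw17tb_sum_le_pred`) and its contrapositive (`mw17tb_exists_eval_ne_zero`):
  if some `K`-combination of the `aeval mon (P ν)` has exact order `n * k ≥ 1` then some
  `P ν (e_t) ≠ 0`;
* the same for bihomogeneous `p ν(u, y)` of bidegree `(a, b)` at a fixed `u`
  (`mw17tb_bi_sum_le_pred`, `mw17tb_bi_exists_eval_ne_zero`): this is the bridge
  "(G3) at infinity `⟹` the field `nonvan … none` of `Mw17GData`".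
-/

set_option autoImplicit false

noncomputable section

namespace Fermat.Agent.MW17

open Fermat.Agent.V Fermat.Agent.HT MvPolynomial

variable {K : Type*} [Field K] {δ : V27pShape} (T : V27pTable K δ)

section Top

variable {n : ℕ}

/-- the value of a form of degree `k` at the basis vector `e_t` is the coefficient of `X_t ^ k` -/
theorem mw17tb_eval_single {ι : Type*} [Fintype ι] [DecidableEq ι] (t : ι) {k : ℕ}
    {P : MvPolynomial ι K} (hP : P.IsHomogeneous k) :
    eval (Pi.single t (1 : K)) P = coeff (Finsupp.single t k) P := by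
  rw [eval_eq']
  rw [Finset.sum_eq_single (Finsupp.single t k)]
  · have : ∏ i, (Pi.single t (1 : K) : ι → K) i ^ (Finsupp.single t k) i = 1 := by
      refine Finset.prod_eq_one fun i _ => ?_
      by_cases h : i = t
      · subst h
        rw [Pi.single_eq_same, one_pow]
      · rw [Finsupp.single_eq_of_ne h, pow_zero]
    rw [this, mul_one]
  · intro d hd hne
    -- some `i ≠ t` has `d i ≠ 0`
    have hex : ∃ i, i ≠ t ∧ d i ≠ 0 := by
      by_contra hcon
      push Not at hcon
      apply hne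
      have hdeg : d.degree = k := by
        rw [Finsupp.degree_eq_weight_one]
        exact hP (mem_support_iff.mp hd)
      have hd' : d = Finsupp.single t (d t) := by
        ext i
        by_cases h : i = t
        · subst h
          rw [Finsupp.single_eq_same]
        · rw [Finsupp.single_eq_of_ne h, hcon i h]
      rw [hd', Finsupp.degree_single] at hdeg
      rw [hd', hdeg]
    obtain ⟨i, hit, hdi⟩ := hex
    have : ∏ j, (Pi.single t (1 : K) : ι → K) j ^ d j = 0 := by
      refine Finset.prod_eq_zero (Finset.mem_univ i) ?_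
      rw [Pi.single_eq_of_ne hit, zero_pow hdi]
    rw [this, mul_zero]
  · intro h
    rw [notMem_support_iff.mp h, zero_mul]

/-- a product of monomials of total degree `k` other than `mon_t ^ k` lies in `L_{kn - 1}` -/
theorem mw17tb_prod_le_pred (t : Mw17Idx δ n) (ht : mw17Wt t = n) (s : Mw17Idx δ n →₀ ℕ)
    (hs : s ≠ Finsupp.single t s.degree) :
    V27pLe (s.prod fun i e => mw17Mon T i ^ e) (s.degree * n - 1) := by
  classical
  have hex : ∃ i, i ≠ t ∧ s i ≠ 0 := by
    by_contra hcon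
    push Not at hcon
    apply hs
    have hs' : s = Finsupp.single t (s t) := by
      ext i
      by_cases h : i = t
      · subst h
        rw [Finsupp.single_eq_same]
      · rw [Finsupp.single_eq_of_ne h, hcon i h]
    have hdeg : s.degree = s t := by
      conv_lhs => rw [hs']
      rw [Finsupp.degree_single]
    rw [hdeg]
    exact hs'
  obtain ⟨i₀, hi₀t, hsi₀⟩ := hex
  have hwt : mw17Wt i₀ < n := by
    refine lt_of_le_of_ne (mw17Wt_le i₀) fun h => hi₀t ?_
    exact mw17tb_wt_injective (h.trans ht.symm)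
  set s' : Mw17Idx δ n →₀ ℕ := s - Finsupp.single i₀ 1 with hs'
  have hsplit : s = Finsupp.single i₀ 1 + s' := by
    ext i
    rw [Finsupp.add_apply, hs', Finsupp.tsub_apply]
    by_cases h : i = i₀
    · subst h
      rw [Finsupp.single_eq_same]
      omega
    · rw [Finsupp.single_eq_of_ne h]
      omega
  have hdeg : s.degree = 1 + s'.degree := by
    conv_lhs => rw [hsplit]
    rw [map_add, Finsupp.degree_single]
  have hprod : (s.prod fun i e => mw17Mon T i ^ e) =
      mw17Mon T i₀ * (s'.prod fun i e => mw17Mon T i ^ e) := by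
    conv_lhs => rw [hsplit]
    rw [Finsupp.prod_add_index' (fun _ => pow_zero _) (fun _ _ _ => pow_add _ _ _),
      Finsupp.prod_single_index (h := fun i e => mw17Mon T i ^ e) (pow_zero _), pow_one]
  have h1 : V27pLe (mw17Mon T i₀) (n - 1) := by
    rw [← v27pOrd_le_iff, mw17tb_ord_mon]
    omega
  have h2 : V27pLe (s'.prod fun i e => mw17Mon T i ^ e) (s'.degree * n) := by
    have hmono : (monomial s' (1 : K)).IsHomogeneous s'.degree := by
      refine isHomogeneous_monomial _ ?_
      rw [Finsupp.degree_eq_weight_one]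
    have := mw17tb_aeval_le T n s'.degree (monomial s' (1 : K)) hmono
    rwa [aeval_monomial, map_one, one_mul] at this
  rw [hprod]
  have h3 := V27pLe.mul h1 h2
  have e : n - 1 + s'.degree * n = s.degree * n - 1 := by
    rw [hdeg, Nat.add_mul, Nat.one_mul]
    omega
  rwa [e] at h3

/-- **(d)** a form of degree `k` whose coefficient of `X_t ^ k` vanishes maps into `L_{kn - 1}` -/
theorem mw17tb_aeval_le_pred_of_coeff (t : Mw17Idx δ n) (ht : mw17Wt t = n) {k : ℕ}
    {P : MvPolynomial (Mw17Idx δ n) K} (hP : P.IsHomogeneous k)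
    (h0 : coeff (Finsupp.single t k) P = 0) :
    V27pLe (aeval (mw17Mon T (m := n)) P) (k * n - 1) := by
  classical
  rw [aeval_def, eval₂_eq]
  refine Submodule.sum_mem (v27pL T (k * n - 1)) fun s hs => ?_
  rw [← Algebra.smul_def]
  refine Submodule.smul_mem _ _ ?_
  have hdeg : s.degree = k := by
    rw [Finsupp.degree_eq_weight_one]
    exact hP (mem_support_iff.mp hs)
  have hne : s ≠ Finsupp.single t s.degree := by
    intro h
    rw [hdeg] at h
    rw [h] at hs
    exact (mem_support_iff.mp hs) h0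
  have h2 := mw17tb_prod_le_pred T t ht s hne
  rw [hdeg, Finsupp.prod] at h2
  exact h2

/-- **(d)** in terms of the value at `e_t` -/
theorem mw17tb_aeval_le_pred [DecidableEq (Mw17Idx δ n)] (t : Mw17Idx δ n) (ht : mw17Wt t = n)
    {k : ℕ} {P : MvPolynomial (Mw17Idx δ n) K} (hP : P.IsHomogeneous k)
    (h0 : eval (Pi.single t (1 : K)) P = 0) :
    V27pLe (aeval (mw17Mon T (m := n)) P) (k * n - 1) := by
  rw [mw17tb_eval_single t hP] at h0
  exact mw17tb_aeval_le_pred_of_coeff T t ht hP h0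

/-- the order of a sum whose second term has smaller order -/
theorem mw17tb_ord_add_of_lt {a b : V27pB T} (h : v27pOrd b < v27pOrd a) :
    v27pOrd (a + b) = v27pOrd a := by
  apply le_antisymm
  · exact (v27pOrd_add_le a b).trans (max_le le_rfl h.le)
  · have h1 := v27pOrd_sub_le (a + b) b
    rw [add_sub_cancel_right] at h1
    rcases le_max_iff.mp h1 with h2 | h2
    · exact h2
    · omega

/-- **(c)** a form of degree `k` with nonvanishing coefficient of `X_t ^ k` has exact order `kn` -/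
theorem mw17tb_ord_aeval_eq_of_coeff (t : Mw17Idx δ n) (ht : mw17Wt t = n) {k : ℕ}
    {P : MvPolynomial (Mw17Idx δ n) K} (hP : P.IsHomogeneous k)
    (h0 : coeff (Finsupp.single t k) P ≠ 0) :
    v27pOrd (aeval (mw17Mon T (m := n)) P) = k * n := by
  classical
  rcases Nat.eq_zero_or_pos (k * n) with hkn | hkn
  · have := (v27pOrd_le_iff _ _).mpr (mw17tb_aeval_le T n k P hP)
    omega
  set c := coeff (Finsupp.single t k) P with hc
  set P' : MvPolynomial (Mw17Idx δ n) K := P - monomial (Finsupp.single t k) c with hP'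
  have hmono : (monomial (Finsupp.single t k) c).IsHomogeneous k := by
    refine isHomogeneous_monomial _ ?_
    rw [Finsupp.degree_single]
  have hP'hom : P'.IsHomogeneous k := hP.sub hmono
  have hP'0 : coeff (Finsupp.single t k) P' = 0 := by
    rw [hP', coeff_sub, coeff_monomial, if_pos rfl, sub_self]
  have hle := mw17tb_aeval_le_pred_of_coeff T t ht hP'hom hP'0
  have hsplit : aeval (mw17Mon T (m := n)) P =
      c • mw17Mon T t ^ k + aeval (mw17Mon T (m := n)) P' := by
    rw [hP', map_sub, aeval_monomial,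
      Finsupp.prod_single_index (h := fun i e => mw17Mon T i ^ e) (pow_zero _), ← Algebra.smul_def]
    abel
  have hmain : v27pOrd (c • mw17Mon T t ^ k) = k * n := by
    rw [mw17gen_ord_smul T h0, mw17tb_ord_pow T (mw17tb_mon_ne_zero T t), mw17tb_ord_mon, ht]
  rw [hsplit, mw17tb_ord_add_of_lt T, hmain]
  rw [hmain]
  have := (v27pOrd_le_iff _ _).mpr hle
  omega

/-- **(c)** in terms of the value at `e_t` -/
theorem mw17tb_ord_aeval_eq [DecidableEq (Mw17Idx δ n)] (t : Mw17Idx δ n) (ht : mw17Wt t = n)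
    {k : ℕ} {P : MvPolynomial (Mw17Idx δ n) K} (hP : P.IsHomogeneous k)
    (h0 : eval (Pi.single t (1 : K)) P ≠ 0) :
    v27pOrd (aeval (mw17Mon T (m := n)) P) = k * n := by
  rw [mw17tb_eval_single t hP] at h0
  exact mw17tb_ord_aeval_eq_of_coeff T t ht hP h0

/-- exact order `kn ≥ 1` `↔` `P(e_t) ≠ 0` -/
theorem mw17tb_ord_aeval_eq_iff [DecidableEq (Mw17Idx δ n)] (t : Mw17Idx δ n)
    (ht : mw17Wt t = n) {k : ℕ} (hkn : 1 ≤ k * n) {P : MvPolynomial (Mw17Idx δ n) K}
    (hP : P.IsHomogeneous k) :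
    v27pOrd (aeval (mw17Mon T (m := n)) P) = k * n ↔ eval (Pi.single t (1 : K)) P ≠ 0 := by
  refine ⟨fun h h0 => ?_, mw17tb_ord_aeval_eq T t ht hP⟩
  have := (v27pOrd_le_iff _ _).mpr (mw17tb_aeval_le_pred T t ht hP h0)
  omega

/-- **(e)** family form: if all `P ν (e_t)` vanish, every `K`-combination of the
`aeval mon (P ν)` lies in `L_{kn - 1}` -/
theorem mw17tb_sum_le_pred [DecidableEq (Mw17Idx δ n)] {κ : Type*} (t : Mw17Idx δ n)
    (ht : mw17Wt t = n) {k : ℕ} (Nu : Finset κ) (P : κ → MvPolynomial (Mw17Idx δ n) K)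
    (hP : ∀ ν ∈ Nu, (P ν).IsHomogeneous k)
    (h0 : ∀ ν ∈ Nu, eval (Pi.single t (1 : K)) (P ν) = 0) (c : κ → K) :
    V27pLe (∑ ν ∈ Nu, c ν • aeval (mw17Mon T (m := n)) (P ν)) (k * n - 1) :=
  Submodule.sum_mem (v27pL T (k * n - 1)) fun ν hν =>
    Submodule.smul_mem _ _ (mw17tb_aeval_le_pred T t ht (hP ν hν) (h0 ν hν))

/-- **(e')** contrapositive: a combination of exact order `kn ≥ 1` forces some `P ν (e_t) ≠ 0` -/
theorem mw17tb_exists_eval_ne_zero [DecidableEq (Mw17Idx δ n)] {κ : Type*} (t : Mw17Idx δ n)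
    (ht : mw17Wt t = n) {k : ℕ} (hkn : 1 ≤ k * n) (Nu : Finset κ)
    (P : κ → MvPolynomial (Mw17Idx δ n) K) (hP : ∀ ν ∈ Nu, (P ν).IsHomogeneous k) (c : κ → K)
    (hord : v27pOrd (∑ ν ∈ Nu, c ν • aeval (mw17Mon T (m := n)) (P ν)) = k * n) :
    ∃ ν ∈ Nu, eval (Pi.single t (1 : K)) (P ν) ≠ 0 := by
  by_contra hcon
  push Not at hcon
  have := (v27pOrd_le_iff _ _).mpr (mw17tb_sum_le_pred T t ht Nu P hP hcon c)
  omega

/-- the architect's literal (TOP-COEFF) for the canonical top index `mw17tbTop δ n` -/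
theorem mw17tb_le_pred_top [DecidableEq (Mw17Idx δ n)] (hn : δ.bound ≤ n) (k : ℕ)
    (p : MvPolynomial (Mw17Idx δ n) K) (hp : p.IsHomogeneous k)
    (h0 : eval (Pi.single (mw17tbTop δ n) (1 : K)) p = 0) :
    V27pLe (aeval (mw17Mon T (m := n)) p) (k * n - 1) :=
  mw17tb_aeval_le_pred T (mw17tbTop δ n) (mw17tbTop_wt hn) hp h0

/-- (TOP-COEFF), corollary: exact order `k n ≥ 1` forces `p(e_top) ≠ 0` -/
theorem mw17tb_eval_top_ne_zero [DecidableEq (Mw17Idx δ n)] (hn : δ.bound ≤ n) (hn0 : 0 < n)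
    (k : ℕ) (hk : 0 < k) (p : MvPolynomial (Mw17Idx δ n) K) (hp : p.IsHomogeneous k)
    (hord : v27pOrd (aeval (mw17Mon T (m := n)) p) = k * n) :
    eval (Pi.single (mw17tbTop δ n) (1 : K)) p ≠ 0 :=
  (mw17tb_ord_aeval_eq_iff T (mw17tbTop δ n) (mw17tbTop_wt hn) (Nat.mul_pos hk hn0) hp).mp hord

end Top

/-! ### Partial evaluation in the `u`-variables and the bihomogeneous form -/

section PartU

variable {ι₁ ι₂ : Type*}

/-- partial evaluation of a polynomial in `(u, y)` at `u` -/
def mw17tbPartU (u : ι₁ → K) (p : MvPolynomial (ι₁ ⊕ ι₂) K) : MvPolynomial ι₂ K :=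
  aeval (Sum.elim (fun i => C (u i)) X : ι₁ ⊕ ι₂ → MvPolynomial ι₂ K) p

theorem mw17tb_aeval_partU {A : Type*} [CommRing A] [Algebra K A] (u : ι₁ → K) (φ : ι₂ → A)
    (p : MvPolynomial (ι₁ ⊕ ι₂) K) :
    aeval φ (mw17tbPartU u p) = aeval (Sum.elim (fun i => algebraMap K A (u i)) φ) p := by
  unfold mw17tbPartU
  have h := comp_aeval_apply
    (f := (Sum.elim (fun i => C (u i)) X : ι₁ ⊕ ι₂ → MvPolynomial ι₂ K))
    (aeval φ : MvPolynomial ι₂ K →ₐ[K] A) p
  have h2 : (fun i => (aeval φ : MvPolynomial ι₂ K →ₐ[K] A)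
      ((Sum.elim (fun i => C (u i)) X : ι₁ ⊕ ι₂ → MvPolynomial ι₂ K) i)) =
      Sum.elim (fun i => algebraMap K A (u i)) φ := by
    funext i
    rcases i with i | j
    · simp
    · simp
  rw [h2] at h
  exact h

theorem mw17tb_eval_partU (u : ι₁ → K) (y : ι₂ → K) (p : MvPolynomial (ι₁ ⊕ ι₂) K) :
    eval y (mw17tbPartU u p) = eval (Sum.elim u y) p := by
  have h := mw17tb_aeval_partU (A := K) u y p
  rw [aeval_eq_eval] at h
  rw [h]
  have : (Sum.elim (fun i => algebraMap K K (u i)) y : ι₁ ⊕ ι₂ → K) = Sum.elim u y := by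
    funext i
    rcases i with i | j <;> rfl
  rw [this, ← aeval_eq_eval]

theorem mw17tb_partU_isHomogeneous [Fintype ι₁] [Fintype ι₂] {p : MvPolynomial (ι₁ ⊕ ι₂) K}
    {a b : ℕ} (hp : IsWeightedHomogeneous (htlBiw ι₁ ι₂) p (a, b)) (u : ι₁ → K) :
    (mw17tbPartU u p).IsHomogeneous b := by
  unfold mw17tbPartU
  rw [p.as_sum, map_sum]
  refine IsHomogeneous.sum _ _ _ fun d hd => ?_
  rw [aeval_monomial, Finsupp.prod_fintype _ _ (fun i => pow_zero _), Fintype.prod_sum_type]
  simp only [Sum.elim_inl, Sum.elim_inr]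
  have hwt := hp (mem_support_iff.1 hd)
  rw [htl_weight_biw, Prod.mk.injEq] at hwt
  have h1 : (∏ j, (X j : MvPolynomial ι₂ K) ^ d (Sum.inr j)).IsHomogeneous b := by
    rw [← hwt.2]
    refine IsHomogeneous.prod _ _ _ fun j _ => ?_
    have := (isHomogeneous_X K j).pow (d (Sum.inr j))
    rwa [one_mul] at this
  have h2 : (∏ i, (C (u i) : MvPolynomial ι₂ K) ^ d (Sum.inl i)).IsHomogeneous 0 := by
    have : (∏ i, (C (u i) : MvPolynomial ι₂ K) ^ d (Sum.inl i)) =
        C (∏ i, u i ^ d (Sum.inl i)) := by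
      rw [map_prod]
      exact Finset.prod_congr rfl fun i _ => (map_pow _ _ _).symm
    rw [this]
    exact isHomogeneous_C _ _
  have h3 := (isHomogeneous_C ι₂ (coeff d p)).mul (h2.mul h1)
  rw [zero_add, zero_add] at h3
  exact h3

end PartU

section Bi

variable {n m a b : ℕ} {κ : Type*}

/-- **bihomogeneous (e)**: if all `p ν (u, e_t)` vanish, every `K`-combination of the
`p ν (u, mon)` lies in `L_{bn - 1}` -/
theorem mw17tb_bi_sum_le_pred [DecidableEq (Mw17Idx δ n)] (t : Mw17Idx δ n) (ht : mw17Wt t = n)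
    (Nu : Finset κ) (p : κ → MvPolynomial (Mw17Idx δ m ⊕ Mw17Idx δ n) K)
    (hp : ∀ ν ∈ Nu, IsWeightedHomogeneous (htlBiw (Mw17Idx δ m) (Mw17Idx δ n)) (p ν) (a, b))
    (u : Mw17Idx δ m → K)
    (h0 : ∀ ν ∈ Nu, eval (Sum.elim u (Pi.single t (1 : K))) (p ν) = 0) (c : κ → K) :
    V27pLe (∑ ν ∈ Nu, c ν • aeval (Sum.elim (fun i => algebraMap K (V27pB T) (u i))
      (mw17Mon T (m := n))) (p ν)) (b * n - 1) := by
  have h := mw17tb_sum_le_pred T t ht Nu (fun ν => mw17tbPartU u (p ν))
    (fun ν hν => mw17tb_partU_isHomogeneous (hp ν hν) u)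
    (fun ν hν => by rw [mw17tb_eval_partU]; exact h0 ν hν) c
  simp only [mw17tb_aeval_partU] at h
  exact h

/-- **(G3) at infinity `⟹` `nonvan … none`**: if some `K`-combination of the `p ν (u, mon)` has exact
order `b n ≥ 1`, then some `p ν (u, e_t) ≠ 0`. -/
theorem mw17tb_bi_exists_eval_ne_zero [DecidableEq (Mw17Idx δ n)] (t : Mw17Idx δ n)
    (ht : mw17Wt t = n) (hbn : 1 ≤ b * n)
    (Nu : Finset κ) (p : κ → MvPolynomial (Mw17Idx δ m ⊕ Mw17Idx δ n) K)
    (hp : ∀ ν ∈ Nu, IsWeightedHomogeneous (htlBiw (Mw17Idx δ m) (Mw17Idx δ n)) (p ν) (a, b))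
    (u : Mw17Idx δ m → K) (c : κ → K)
    (hord : v27pOrd (∑ ν ∈ Nu, c ν • aeval (Sum.elim (fun i => algebraMap K (V27pB T) (u i))
      (mw17Mon T (m := n))) (p ν)) = b * n) :
    ∃ ν ∈ Nu, eval (Sum.elim u (Pi.single t (1 : K))) (p ν) ≠ 0 := by
  by_contra hcon
  push Not at hcon
  have := (v27pOrd_le_iff _ _).mpr (mw17tb_bi_sum_le_pred T t ht Nu p hp u hcon c)
  omega

end Bi

end Fermat.Agent.MW17
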