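import Fermat.Agent.MW17.MainPt
import Fermat.Agent.MW17.Glob.Northcott
import Fermat.Agent.V.Pres.OfWeierMain
import Fermat.Agent.V.Pres.InstFrac
import Fermat.Agent.V.Div.Modular

/-!
# Program MW (S17): the very top of the assembly (prefix `mw17tp_`)

Owner: helper2.

* `mw17tp_of_pres` : the frozen S17 conclusion from a presentation `P` of `ℚ̄(X₀(N))`, a level `n`
  beyond the table, and the two analytic inputs (H7) `hpar` and (H8) lower bound on good tuples,
  with the height of points `hp := mw17gnHpt T n` (`= htgHt (ψ_n q) / n`); Northcott (HN) is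
  helper3's `mw17gn_HN_pt`.
* `mw17tp_genus_zero` : the case of genus `0` (no analytic input at all).
* `mw17tp_main` : S17 from the analytic inputs for every presentation in positive genus.
-/

set_option autoImplicit false
set_option linter.unusedSectionVars false
set_option linter.unusedVariables false
set_option linter.style.haveILetI false

noncomputable section

namespace Fermat.Agent.MW17

open AlgebraicCurve ModularCurve Module Polynomial Fermat.Agent.V Fermat.Agent.V.Dict
  Fermat.Agent.G Fermat.Agent.S24 Fermat.Agent.MW Fermat.Agent.HT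

variable (N : ℕ) [NeZero N] {δ : V27pShape} {T : V27pTable (AlgebraicClosure ℚ) δ}
  [IsDedekindDomain (V27pB T)]

/-- S17 from a presentation, a level `n`, (H7) and (H8) with `hp := mw17gnHpt T n`. -/
theorem mw17tp_of_pres (P : V27Presented (AlgebraicClosure ℚ) (modularFunctionFieldBar N) T)
    (n : ℕ) (hn : δ.N ≤ n) (hd : ∀ j, δ.d j ≤ n)
    (Sig : Finset (Place (AlgebraicClosure ℚ) (modularFunctionFieldBar N)))
    (h : JZero N → ℝ) (C : ℝ)
    (hpar : ∀ x y : JZero N, |h (x + y) + h (x - y) - 2 * (h x + h y)| ≤ C)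
    (c₁ c₂ : ℝ) (hc₂ : 0 < c₂)
    (H8 : ∀ Q : Fin (genusFF (AlgebraicClosure ℚ) ↥(modularFunctionFieldBar N)) → Mw17Pt T,
        Function.Injective Q → (∀ i, v27spPlace P (Q i) ∉ Sig) →
        finrank (AlgebraicClosure ℚ)
          (riemannRochSpace (v27dcSum fun i => v27spPlace P (Q i))) = 1 →
        c₂ * ∑ i, mw17gnHpt T n (Q i) - c₁ ≤ h (mw17prCl P (mw17gqTup Q))) :
    AddGroup.FG ↥(FixedPoints.addSubgroup
      ((AlgebraicClosure ℚ) ≃ₐ[ℚ] (AlgebraicClosure ℚ)) (JZero N)) :=
  mw17mp_main N P Sig h C hpar (mw17gnHpt T n) (mw17gnHpt_nonneg T n) c₁ c₂ hc₂ H8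
    (mw17gn_HN_pt T n hn hd)

/-- a level beyond the table -/
def mw17tpLevel (δ : V27pShape) : ℕ := δ.N + ∑ j, δ.d j

theorem mw17tp_level_N (δ : V27pShape) : δ.N ≤ mw17tpLevel δ := Nat.le_add_right _ _

theorem mw17tp_level_d (δ : V27pShape) (j : ZMod δ.N) : δ.d j ≤ mw17tpLevel δ :=
  le_trans (Finset.single_le_sum (f := fun j => δ.d j) (fun _ _ => Nat.zero_le _)
    (Finset.mem_univ j)) (Nat.le_add_left _ _)

/-- **S17 in genus `0`**: no analytic input. -/
theorem mw17tp_genus_zero
    (hg : genusFF (AlgebraicClosure ℚ) ↥(modularFunctionFieldBar N) = 0) :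
    AddGroup.FG ↥(FixedPoints.addSubgroup
      ((AlgebraicClosure ℚ) ≃ₐ[ℚ] (AlgebraicClosure ℚ)) (JZero N)) := by
  haveI := v27dv_isCurveOver_modular N
  haveI := v27dv_essFiniteType_modular N
  obtain ⟨δ, T, P, -, -, hP3⟩ :=
    v27ow_exists (AlgebraicClosure ℚ) ↥(modularFunctionFieldBar N)
  haveI : IsDedekindDomain (V27pB T) := v27ifr_isDedekindDomain T _ (hP3 _ le_rfl)
  refine mw17tp_of_pres N P (mw17tpLevel δ) (mw17tp_level_N δ) (mw17tp_level_d δ) ∅
    (fun _ => 0) 0 (fun x y => by simp) 0 1 one_pos (fun Q _ _ _ => ?_)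
  have hemp : IsEmpty (Fin (genusFF (AlgebraicClosure ℚ) ↥(modularFunctionFieldBar N))) := by
    rw [hg]; infer_instance
  simp

/-- **S17 from the analytic inputs in positive genus**: for every presentation (with Dedekind
table ring) a level, a finite exceptional set, a height with the approximate parallelogram law
(H7) and the lower bound (H8) on good tuples. -/
theorem mw17tp_main
    (hpos : 1 ≤ genusFF (AlgebraicClosure ℚ) ↥(modularFunctionFieldBar N) →
      ∀ {δ : V27pShape} {T : V27pTable (AlgebraicClosure ℚ) δ} [IsDedekindDomain (V27pB T)]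
        (P : V27Presented (AlgebraicClosure ℚ) (modularFunctionFieldBar N) T),
        δ.genus = genusFF (AlgebraicClosure ℚ) ↥(modularFunctionFieldBar N) →
        ∃ (n : ℕ) (_ : δ.N ≤ n) (_ : ∀ j, δ.d j ≤ n)
          (Sig : Finset (Place (AlgebraicClosure ℚ) (modularFunctionFieldBar N)))
          (h : JZero N → ℝ) (C c₁ c₂ : ℝ),
          (∀ x y : JZero N, |h (x + y) + h (x - y) - 2 * (h x + h y)| ≤ C) ∧ 0 < c₂ ∧
          ∀ Q : Fin (genusFF (AlgebraicClosure ℚ) ↥(modularFunctionFieldBar N)) → Mw17Pt T,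
            Function.Injective Q → (∀ i, v27spPlace P (Q i) ∉ Sig) →
            finrank (AlgebraicClosure ℚ)
              (riemannRochSpace (v27dcSum fun i => v27spPlace P (Q i))) = 1 →
            c₂ * ∑ i, mw17gnHpt T n (Q i) - c₁ ≤ h (mw17prCl P (mw17gqTup Q))) :
    AddGroup.FG ↥(FixedPoints.addSubgroup
      ((AlgebraicClosure ℚ) ≃ₐ[ℚ] (AlgebraicClosure ℚ)) (JZero N)) := by
  by_cases hg : genusFF (AlgebraicClosure ℚ) ↥(modularFunctionFieldBar N) = 0
  · exact mw17tp_genus_zero N hg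
  haveI := v27dv_isCurveOver_modular N
  haveI := v27dv_essFiniteType_modular N
  obtain ⟨δ, T, P, hgen, -, hP3⟩ :=
    v27ow_exists (AlgebraicClosure ℚ) ↥(modularFunctionFieldBar N)
  haveI : IsDedekindDomain (V27pB T) := v27ifr_isDedekindDomain T _ (hP3 _ le_rfl)
  obtain ⟨n, hn, hd, Sig, h, C, c₁, c₂, hpar, hc₂, H8⟩ :=
    hpos (Nat.one_le_iff_ne_zero.mpr hg) P hgen
  exact mw17tp_of_pres N P n hn hd Sig h C hpar c₁ c₂ hc₂ H8

end Fermat.Agent.MW17
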