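import Fermat.Agent.MW17.TupleZeros
import Fermat.Agent.MW17.Pos.HadamardCurve

/-!
# Program MW (S17), heights half (A): helper7's `Mw17PsTupleLe` / `Mw17PsTupleGe` as theorems

Owner: helper10.  Namespace `Fermat.Agent.MW17`, prefix `mw17tz`.
-/

set_option autoImplicit false

noncomputable section

namespace Fermat.Agent.MW17

open Fermat.Agent.V Fermat.Agent.HT

variable {K : Type*} [Field K] [IsAlgClosed K] {δ : V27pShape} {T : V27pTable K δ}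
  [IsDedekindDomain (V27pB T)]

/-- `Mw17PsBase ⟹ Mw17PsTupleLe` (no (★) needed) -/
theorem mw17tz_psTupleLe (hloc : Mw17BpfLoc T) {n : ℕ} {t : Mw17Idx δ n} (ht : mw17Wt t = n)
    (hN : δ.N ≤ n) (hb : δ.bound < n) (m₁ k₁ : ℕ) (hk₁ : k₁ ≤ n * m₁) {g : ℕ}
    (ω : Fin g → Mw17Idx δ (n * m₁) → K) (F : Multiset (Mw17Pt T))
    (hbase : Mw17PsBase T (n * m₁) ω F k₁) : Mw17PsTupleLe T n t m₁ ω F k₁ :=
  mw17tz_tupleLe hloc ht hN hb m₁ k₁ hk₁ ω F (fun i hi Z hZ => by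
    classical
    have h := hbase (Pi.single i 1) Z
    have hs : (∑ a, (Pi.single i (1 : K) : Fin g → K) a • ω a) = ω i := by
      rw [Finset.sum_eq_single i]
      · simp
      · intro b _ hb; simp [Pi.single_eq_of_ne hb]
      · intro h; exact absurd (Finset.mem_univ _) h
    rw [hs] at h
    exact h hi hZ)

/-- pointwise exactness of `F` + a member of top order `≥ k₁` `⟹ Mw17PsTupleGe` -/
theorem mw17tz_psTupleGe (hloc : Mw17BpfLoc T) {n : ℕ} {t : Mw17Idx δ n} (ht : mw17Wt t = n)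
    (hN : δ.N ≤ n) (hb : δ.bound < n) (m₁ k₁ : ℕ) (hk₁ : k₁ ≤ n * m₁) {g : ℕ}
    (ω : Fin g → Mw17Idx δ (n * m₁) → K) (F : Multiset (Mw17Pt T))
    (hex : ∀ q : Mw17Pt T, ∃ (i : Fin g) (Z : Multiset (Mw17Pt T)), ω i ≠ 0 ∧
      Mw17IsZeros T (mw17Sec T (n * m₁) (ω i)) Z ∧
      ∀ [DecidableEq (Mw17Pt T)], Z.count q ≤ F.count q)
    (htop : ∃ i, ω i ≠ 0 ∧ k₁ ≤ v27pOrd (mw17Sec T (n * m₁) (ω i))) :
    Mw17PsTupleGe T n t m₁ ω F k₁ := by
  obtain ⟨C, hC⟩ := mw17tz_tupleGe hloc ht hN hb m₁ k₁ hk₁ ω F hex htop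
  exact ⟨C, fun w R _ => hC w R⟩

end Fermat.Agent.MW17
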