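import Fermat.Agent.MW17.Tuple
import Fermat.Agent.MW17.Spec
import Fermat.Agent.MW17.PnTable

/-!
# Program MW (S17), heights half (A): (TUPLE_w) in the `δ`-form

Owner: helper10.  Namespace `Fermat.Agent.MW17`, prefix `mw17td`.

For a fixed tuple `a ⊂ L_{n m₁}` with base cycle `E` (a multiset of finite points) and top order
`k₁`:  `‖a(R)‖_w ≍ ‖φR‖_w^{m₁} · δ_w(P0,R)^{n m₁ - k₁} · ∏_{F ∈ E} δ_w(F,R)`, uniformly in `w`, `R`
(`δ_w = mw17Dl T n t w`, the literals of `MW17/Spec.lean`).  Both halves are proved from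
`mw17tu_cmp_sup` (MW17/Tuple.lean) by comparison with an explicit *model tuple*, a product of the
tuples `mon` (ideal `⊤`, order `n`, norm `‖φR‖`), `W(e_t)` (ideal `⊤`, order `n-1`, norm
`‖e_t ∧ φR‖`) and `W(φF)` (ideal `ker F`, order `n`, norm `‖φF ∧ φR‖`).
-/

set_option autoImplicit false

noncomputable section

namespace Fermat.Agent.MW17

open Fermat.Agent.V Fermat.Agent.HT
open scoped Pointwise

variable {K : Type*} [Field K] {δ : V27pShape} (T : V27pTable K δ)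

/-! ### sup norm of a product tuple -/

theorem mw17td_sup_mul {κ κ' : Type*} [Finite κ] [Finite κ'] [Nonempty κ] [Nonempty κ']
    (w : AbsoluteValue K ℝ) (f : κ → K) (g : κ' → K) :
    htlSup w (fun p : κ × κ' => f p.1 * g p.2) = htlSup w f * htlSup w g := by
  apply le_antisymm
  · refine htlSup_le (mul_nonneg (htlSup_nonneg _ _) (htlSup_nonneg _ _)) fun p => ?_
    rw [map_mul]
    exact mul_le_mul (htl_le_sup w f p.1) (htl_le_sup w g p.2) (w.nonneg _) (htlSup_nonneg _ _)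
  · obtain ⟨i, hi⟩ := htl_exists_eq_sup w f
    obtain ⟨j, hj⟩ := htl_exists_eq_sup w g
    rw [hi, hj, ← map_mul]
    exact htl_le_sup w (fun p : κ × κ' => f p.1 * g p.2) (i, j)

/-! ### model tuples -/

/-- a *model tuple*: a fixed finite tuple of `B` with prescribed ideal, exact top order and
exactly known sup norm at every point. -/
def Mw17tdModel (I : Ideal (V27pB T)) (d : ℕ) (N : AbsoluteValue K ℝ → Mw17Pt T → ℝ) : Prop :=
  ∃ (κ : Type) (_ : Fintype κ) (b : κ → V27pB T),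
    Ideal.span (Set.range b) = I ∧ (∀ q, V27pLe (b q) d) ∧
    (∃ q, b q ≠ 0 ∧ v27pOrd (b q) = d) ∧
    ∀ (w : AbsoluteValue K ℝ) (R : Mw17Pt T), htlSup w (fun q => R (b q)) = N w R

variable {T}

theorem Mw17tdModel.mul {I I' : Ideal (V27pB T)} {d d' : ℕ}
    {N N' : AbsoluteValue K ℝ → Mw17Pt T → ℝ}
    (h : Mw17tdModel T I d N) (h' : Mw17tdModel T I' d' N') :
    Mw17tdModel T (I * I') (d + d') (fun w R => N w R * N' w R) := by
  obtain ⟨κ, _, b, hI, hle, ⟨q₀, hq₀, hord⟩, hN⟩ := h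
  obtain ⟨κ', _, b', hI', hle', ⟨q₀', hq₀', hord'⟩, hN'⟩ := h'
  refine ⟨κ × κ', inferInstance, fun p => b p.1 * b' p.2, ?_, ?_, ?_, ?_⟩
  · rw [← hI, ← hI', Ideal.span_mul_span']
    congr 1
    ext z
    constructor
    · rintro ⟨p, rfl⟩
      exact Set.mul_mem_mul ⟨p.1, rfl⟩ ⟨p.2, rfl⟩
    · rintro ⟨_, ⟨i, rfl⟩, _, ⟨j, rfl⟩, rfl⟩
      exact ⟨(i, j), rfl⟩
  · intro p
    exact V27pLe.mul (hle p.1) (hle' p.2)
  · exact ⟨(q₀, q₀'), mul_ne_zero hq₀ hq₀', by rw [v27pOrd_mul hq₀ hq₀', hord, hord']⟩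
  · intro w R
    have : Nonempty κ := ⟨q₀⟩
    have : Nonempty κ' := ⟨q₀'⟩
    simp only [map_mul]
    rw [mw17td_sup_mul w (fun q => R (b q)) (fun q => R (b' q)), hN, hN']

theorem mw17td_model_one : Mw17tdModel T ⊤ 0 (fun _ _ => 1) := by
  refine ⟨Unit, inferInstance, fun _ => 1, ?_, ?_, ?_, ?_⟩
  · rw [Set.range_const, Ideal.span_singleton_one]
  · intro _
    rw [← v27pOrd_le_iff, v27pOrd_one]
  · exact ⟨(), one_ne_zero, v27pOrd_one⟩
  · intro w R
    simp [htlSup]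

theorem Mw17tdModel.pow {I : Ideal (V27pB T)} {d : ℕ} {N : AbsoluteValue K ℝ → Mw17Pt T → ℝ}
    (h : Mw17tdModel T I d N) (e : ℕ) :
    Mw17tdModel T (I ^ e) (e * d) (fun w R => N w R ^ e) := by
  induction e with
  | zero =>
    simp only [pow_zero, Nat.zero_mul, Ideal.one_eq_top]
    exact mw17td_model_one
  | succ e ih =>
    have := ih.mul h
    simp only [pow_succ, Nat.succ_mul]
    exact this

theorem mw17td_model_multiset {n : ℕ} (J : Mw17Pt T → Ideal (V27pB T))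
    (NF : Mw17Pt T → AbsoluteValue K ℝ → Mw17Pt T → ℝ)
    (h : ∀ F, Mw17tdModel T (J F) n (NF F)) (E : Multiset (Mw17Pt T)) :
    Mw17tdModel T (E.map J).prod (E.card * n)
      (fun w R => (E.map fun F => NF F w R).prod) := by
  induction E using Multiset.induction_on with
  | empty =>
    simp only [Multiset.map_zero, Multiset.prod_zero, Multiset.card_zero, Nat.zero_mul,
      Ideal.one_eq_top]
    exact mw17td_model_one
  | cons F E ih =>
    have := (h F).mul ih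
    simp only [Multiset.map_cons, Multiset.prod_cons, Multiset.card_cons, Nat.succ_mul]
    rw [Nat.add_comm]
    exact this

/-! ### the three basic models -/

variable (T)

theorem mw17td_mon_le {m : ℕ} (i : Mw17Idx δ m) : V27pLe (mw17Mon T i) (mw17Wt i) := by
  rw [← v27pOrd_le_iff, mw17tb_ord_mon]

/-- the monomials of `L_n`: ideal `⊤`, order `n`, norm `‖φR‖` -/
theorem mw17td_model_mon {n : ℕ} {t : Mw17Idx δ n} (ht : mw17Wt t = n) :
    Mw17tdModel T ⊤ n (fun w R => htlSup w (mw17Psi T n R)) := by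
  refine ⟨Mw17Idx δ n, inferInstance, mw17Mon T, ?_, ?_, ?_, ?_⟩
  · rw [Ideal.eq_top_iff_one]
    rw [← mw17Mon_zero T n]
    exact Ideal.subset_span ⟨_, rfl⟩
  · intro i
    exact (mw17td_mon_le T i).mono (mw17Wt_le i)
  · exact ⟨t, mw17tb_mon_ne_zero T t, by rw [mw17tb_ord_mon, ht]⟩
  · intro w R
    rfl

/-- the sections `W(y)_{(a,b)} = y_a mon_b - y_b mon_a` of `L_n` -/
def mw17tdW (n : ℕ) (y : Mw17Idx δ n → K) : Mw17Idx δ n × Mw17Idx δ n → V27pB T :=
  fun p => y p.1 • mw17Mon T p.2 - y p.2 • mw17Mon T p.1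

theorem mw17tdW_apply (n : ℕ) (y : Mw17Idx δ n → K) (R : Mw17Pt T)
    (p : Mw17Idx δ n × Mw17Idx δ n) :
    R (mw17tdW T n y p) = htlWedge y (mw17Psi T n R) p := by
  simp only [mw17tdW, htlWedge, mw17Psi, map_sub, map_smul, smul_eq_mul]

theorem mw17tdW_le (n : ℕ) (y : Mw17Idx δ n → K) (p : Mw17Idx δ n × Mw17Idx δ n) :
    V27pLe (mw17tdW T n y p) n := by
  unfold mw17tdW
  exact (((mw17td_mon_le T p.2).mono (mw17Wt_le _)).smul_const _).sub
    (((mw17td_mon_le T p.1).mono (mw17Wt_le _)).smul_const _)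

theorem mw17td_sup_W (n : ℕ) (y : Mw17Idx δ n → K) (w : AbsoluteValue K ℝ) (R : Mw17Pt T) :
    htlSup w (fun p => R (mw17tdW T n y p)) = htlSup w (htlWedge y (mw17Psi T n R)) := by
  congr 1
  funext p
  exact mw17tdW_apply T n y R p

theorem mw17td_ne_top {n : ℕ} {t : Mw17Idx δ n} (ht : mw17Wt t = n) {i : Mw17Idx δ n}
    (hi : i ≠ t) : mw17Wt i < n := by
  refine lt_of_le_of_ne (mw17Wt_le i) fun h => hi ?_
  apply mw17tb_wt_injective
  rw [h, ht]

/-- `W(e_t)`: ideal `⊤`, order `n - 1`, norm `‖e_t ∧ φR‖` -/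
theorem mw17td_model_W0 {n : ℕ} {t : Mw17Idx δ n} (ht : mw17Wt t = n) (hb : δ.bound < n) :
    Mw17tdModel T ⊤ (n - 1)
      (fun w R => htlSup w (htlWedge (Pi.single t (1 : K)) (mw17Psi T n R))) := by
  classical
  have h0t : mw17IdxZero δ n ≠ t := by
    intro h
    have h1 : mw17Wt (mw17IdxZero δ n) = 0 := by
      simp [mw17Wt, mw17IdxZero, δ.d_zero]
    rw [h, ht] at h1
    omega
  refine ⟨Mw17Idx δ n × Mw17Idx δ n, inferInstance, mw17tdW T n (Pi.single t 1), ?_, ?_, ?_, ?_⟩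
  · rw [Ideal.eq_top_iff_one]
    have h1 : mw17tdW T n (Pi.single t (1 : K)) (t, mw17IdxZero δ n) = 1 := by
      simp only [mw17tdW, Pi.single_eq_same, Pi.single_eq_of_ne h0t, one_smul, zero_smul,
        sub_zero, mw17Mon_zero]
    rw [← h1]
    exact Ideal.subset_span ⟨_, rfl⟩
  · rintro ⟨a, b⟩
    by_cases hab : a = b
    · subst hab
      simp only [mw17tdW, sub_self]
      exact V27pLe.zero _
    · unfold mw17tdW
      refine V27pLe.sub ?_ ?_
      · by_cases ha : a = t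
        · subst ha
          have := mw17td_ne_top ht (Ne.symm hab)
          exact ((mw17td_mon_le T b).mono (by omega)).smul_const _
        · simp only [Pi.single_eq_of_ne ha, zero_smul]
          exact V27pLe.zero _
      · by_cases hb' : b = t
        · subst hb'
          have := mw17td_ne_top ht hab
          exact ((mw17td_mon_le T a).mono (by omega)).smul_const _
        · simp only [Pi.single_eq_of_ne hb', zero_smul]
          exact V27pLe.zero _
  · obtain ⟨i₁, hi₁⟩ : ∃ i : Mw17Idx δ n, mw17Wt i = n - 1 :=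
      mw17tb_exists_idx_of_bound (by omega) (by omega)
    have hi₁t : i₁ ≠ t := by
      intro h
      rw [h, ht] at hi₁
      omega
    refine ⟨(t, i₁), ?_, ?_⟩
    · simp only [mw17tdW, Pi.single_eq_same, Pi.single_eq_of_ne hi₁t, one_smul, zero_smul,
        sub_zero]
      exact mw17tb_mon_ne_zero T i₁
    · simp only [mw17tdW, Pi.single_eq_same, Pi.single_eq_of_ne hi₁t, one_smul, zero_smul,
        sub_zero]
      rw [mw17tb_ord_mon, hi₁]
  · intro w R
    exact mw17td_sup_W T n _ w R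

/-- subtracting a constant does not change a positive pole order -/
theorem mw17td_ord_sub_const {a : V27pB T} (ha : 0 < v27pOrd a) (c : K) :
    v27pOrd (a - c • (1 : V27pB T)) = v27pOrd a := by
  have hc : v27pOrd (c • (1 : V27pB T)) = 0 := by
    have h1 : V27pLe (c • (1 : V27pB T)) 0 :=
      ((v27pOrd_le_iff _ _).mp (le_of_eq v27pOrd_one)).smul_const c
    exact Nat.le_zero.mp ((v27pOrd_le_iff _ _).mpr h1)
  apply le_antisymm
  · have := v27pOrd_sub_le a (c • (1 : V27pB T))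
    rw [hc] at this
    exact le_trans this (max_le le_rfl (Nat.zero_le _))
  · have h2 := v27pOrd_add_le (a - c • (1 : V27pB T)) (c • (1 : V27pB T))
    rw [sub_add_cancel, hc] at h2
    rcases le_max_iff.mp h2 with h3 | h3
    · exact h3
    · omega

/-- the kernel of a point is generated by the `mon_b - mon_b(F)` -/
theorem mw17td_ker_le {n : ℕ} (hN : δ.N ≤ n) (hb : δ.bound ≤ n) (F : Mw17Pt T) :
    RingHom.ker (F : V27pB T →+* K) ≤
      Ideal.span (Set.range (mw17tdW T n (mw17Psi T n F))) := by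
  set J := Ideal.span (Set.range (mw17tdW T n (mw17Psi T n F))) with hJ
  have hJker : J ≤ RingHom.ker (F : V27pB T →+* K) := by
    rw [hJ, Ideal.span_le]
    rintro _ ⟨p, rfl⟩
    rw [SetLike.mem_coe, RingHom.mem_ker]
    change F (mw17tdW T n (mw17Psi T n F) p) = 0
    rw [mw17tdW_apply, htlWedge_self]
    rfl
  have key : ∀ x : V27pB T, ∃ c : K, x - algebraMap K (V27pB T) c ∈ J := by
    intro x
    have hx : x ∈ Algebra.adjoin K (Set.range (mw17Mon T (m := n))) := by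
      rw [mw17tb_adjoin_eq_top T hN hb]; trivial
    induction hx using Algebra.adjoin_induction with
    | mem x hx =>
      obtain ⟨i, rfl⟩ := hx
      refine ⟨mw17Psi T n F i, ?_⟩
      have h1 : mw17tdW T n (mw17Psi T n F) (mw17IdxZero δ n, i) =
          mw17Mon T i - algebraMap K (V27pB T) (mw17Psi T n F i) := by
        simp only [mw17tdW, mw17Psi_zero, one_smul, mw17Mon_zero, Algebra.algebraMap_eq_smul_one]
      rw [← h1]
      exact Ideal.subset_span ⟨_, rfl⟩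
    | algebraMap r =>
      exact ⟨r, by rw [sub_self]; exact zero_mem _⟩
    | add x y _ _ hx hy =>
      obtain ⟨c, hc⟩ := hx
      obtain ⟨c', hc'⟩ := hy
      refine ⟨c + c', ?_⟩
      have : x + y - algebraMap K (V27pB T) (c + c') =
          (x - algebraMap K (V27pB T) c) + (y - algebraMap K (V27pB T) c') := by
        rw [map_add]; ring
      rw [this]
      exact add_mem hc hc'
    | mul x y _ _ hx hy =>
      obtain ⟨c, hc⟩ := hx
      obtain ⟨c', hc'⟩ := hy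
      refine ⟨c * c', ?_⟩
      have : x * y - algebraMap K (V27pB T) (c * c') =
          (x - algebraMap K (V27pB T) c) * y +
            algebraMap K (V27pB T) c * (y - algebraMap K (V27pB T) c') := by
        rw [map_mul]; ring
      rw [this]
      exact add_mem (Ideal.mul_mem_right _ _ hc) (Ideal.mul_mem_left _ _ hc')
  intro x hx
  obtain ⟨c, hc⟩ := key x
  have h1 := hJker hc
  rw [RingHom.mem_ker] at hx h1
  have h2 : F (x - algebraMap K (V27pB T) c) = 0 := h1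
  have h3 : F x = 0 := hx
  rw [map_sub, h3, AlgHom.commutes, zero_sub, neg_eq_zero] at h2
  have h4 : algebraMap K K c = c := rfl
  rw [h4] at h2
  rw [h2, map_zero, sub_zero] at hc
  exact hc

/-- `W(φF)`: ideal `ker F`, order `n`, norm `‖φF ∧ φR‖` -/
theorem mw17td_model_WF {n : ℕ} {t : Mw17Idx δ n} (ht : mw17Wt t = n) (hN : δ.N ≤ n)
    (hb : δ.bound ≤ n) (hn : 0 < n) (F : Mw17Pt T) :
    Mw17tdModel T (RingHom.ker (F : V27pB T →+* K)) n
      (fun w R => htlSup w (htlWedge (mw17Psi T n F) (mw17Psi T n R))) := by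
  refine ⟨Mw17Idx δ n × Mw17Idx δ n, inferInstance, mw17tdW T n (mw17Psi T n F), ?_, ?_, ?_, ?_⟩
  · apply le_antisymm
    · rw [Ideal.span_le]
      rintro _ ⟨p, rfl⟩
      rw [SetLike.mem_coe, RingHom.mem_ker]
      change F (mw17tdW T n (mw17Psi T n F) p) = 0
      rw [mw17tdW_apply, htlWedge_self]
      rfl
    · exact mw17td_ker_le T hN hb F
  · exact mw17tdW_le T n _
  · have h1 : mw17tdW T n (mw17Psi T n F) (mw17IdxZero δ n, t) =
        mw17Mon T t - mw17Psi T n F t • (1 : V27pB T) := by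
      simp only [mw17tdW, mw17Psi_zero, one_smul, mw17Mon_zero]
    have hpos : 0 < v27pOrd (mw17Mon T t) := by rw [mw17tb_ord_mon, ht]; exact hn
    have h2 := mw17td_ord_sub_const T hpos (mw17Psi T n F t)
    refine ⟨(mw17IdxZero δ n, t), ?_, ?_⟩
    · rw [h1]
      intro h0
      rw [h0, v27pOrd_zero] at h2
      omega
    · rw [h1, h2, mw17tb_ord_mon, ht]
  · intro w R
    exact mw17td_sup_W T n _ w R

/-! ### the `δ`-form -/

theorem mw17td_span_prod {κ κ' : Type*} (f : κ → V27pB T) (g : κ' → V27pB T) :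
    Ideal.span (Set.range fun p : κ × κ' => f p.1 * g p.2) =
      Ideal.span (Set.range f) * Ideal.span (Set.range g) := by
  rw [Ideal.span_mul_span']
  congr 1
  ext z
  constructor
  · rintro ⟨p, rfl⟩
    exact Set.mul_mem_mul ⟨p.1, rfl⟩ ⟨p.2, rfl⟩
  · rintro ⟨_, ⟨i, rfl⟩, _, ⟨j, rfl⟩, rfl⟩
    exact ⟨(i, j), rfl⟩

theorem mw17td_sup_single {ι : Type*} [Finite ι] [DecidableEq ι] (w : AbsoluteValue K ℝ)
    (t : ι) : htlSup w (Pi.single t (1 : K)) = 1 := by
  apply le_antisymm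
  · refine htlSup_le zero_le_one fun i => ?_
    by_cases hi : i = t
    · subst hi; rw [Pi.single_eq_same, map_one]
    · rw [Pi.single_eq_of_ne hi, map_zero]; exact zero_le_one
  · have := htl_le_sup w (Pi.single t (1 : K)) t
    rwa [Pi.single_eq_same, map_one] at this

theorem mw17td_W0_eq {n : ℕ} (t : Mw17Idx δ n) (w : AbsoluteValue K ℝ) (R : Mw17Pt T) :
    htlSup w (htlWedge (Pi.single t (1 : K)) (mw17Psi T n R)) =
      mw17Dl T n t w none (some R) * htlSup w (mw17Psi T n R) := by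
  classical
  have h1 : (Pi.single t (1 : K) : Mw17Idx δ n → K) ≠ 0 := by
    intro h
    have := congrFun h t
    simp at this
  have h2 := htlDist_mul w h1 (mw17Psi_ne_zero T n R)
  rw [mw17td_sup_single, one_mul] at h2
  rw [← h2]
  unfold mw17Dl
  rw [mw17Phi_none, mw17Phi_some]

theorem mw17td_WF_eq {n : ℕ} (t : Mw17Idx δ n) (w : AbsoluteValue K ℝ) (F R : Mw17Pt T) :
    htlSup w (htlWedge (mw17Psi T n F) (mw17Psi T n R)) =
      mw17Dl T n t w (some F) (some R) *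
        (htlSup w (mw17Psi T n F) * htlSup w (mw17Psi T n R)) := by
  have h2 := htlDist_mul w (mw17Psi_ne_zero T n F) (mw17Psi_ne_zero T n R)
  rw [← h2]
  rfl

/-- the right-hand side of (TUPLE_w) (= helper7's `mw17psTupleRhs`) -/
def mw17tdRhs (n : ℕ) (t : Mw17Idx δ n) (m₁ : ℕ) (E : Multiset (Mw17Pt T)) (k₁ : ℕ)
    (w : AbsoluteValue K ℝ) (R : Mw17Pt T) : ℝ :=
  htlSup w (mw17Psi T n R) ^ m₁ * mw17Dl T n t w none (some R) ^ (n * m₁ - k₁) *
    (E.map fun P : Mw17Pt T => mw17Dl T n t w (some P) (some R)).prod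

theorem mw17tdRhs_nonneg (n : ℕ) (t : Mw17Idx δ n) (m₁ : ℕ) (E : Multiset (Mw17Pt T)) (k₁ : ℕ)
    (w : AbsoluteValue K ℝ) (R : Mw17Pt T) : 0 ≤ mw17tdRhs T n t m₁ E k₁ w R := by
  unfold mw17tdRhs
  refine mul_nonneg (mul_nonneg (pow_nonneg (htlSup_nonneg _ _) _)
    (pow_nonneg (htlDist_nonneg _ _ _) _)) ?_
  refine Multiset.prod_nonneg fun x hx => ?_
  obtain ⟨P, _, rfl⟩ := Multiset.mem_map.mp hx
  exact htlDist_nonneg _ _ _

theorem mw17td_arith (n m₁ k₁ X e : ℕ) (hn : 0 < n) (hX : X + k₁ = n * m₁) :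
    m₁ * n + X * (n - 1) + e * n = k₁ + (X + e) * n := by
  obtain ⟨n', rfl⟩ : ∃ n', n = n' + 1 := ⟨n - 1, by omega⟩
  rw [Nat.add_sub_cancel]
  have h1 : m₁ * (n' + 1) = X + k₁ := by rw [hX]; ring
  rw [h1]
  ring

/-- the model tuple of the right-hand side, and its norm -/
theorem mw17td_model_rhs {n : ℕ} {t : Mw17Idx δ n} (ht : mw17Wt t = n) (hN : δ.N ≤ n)
    (hb : δ.bound < n) (m₁ X : ℕ) (E : Multiset (Mw17Pt T)) :
    Mw17tdModel T (E.map fun P : Mw17Pt T => RingHom.ker (P : V27pB T →+* K)).prod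
      (m₁ * n + X * (n - 1) + E.card * n)
      (fun w R => (htlSup w (mw17Psi T n R) ^ m₁ * mw17Dl T n t w none (some R) ^ X *
          (E.map fun P : Mw17Pt T => mw17Dl T n t w (some P) (some R)).prod) *
        (htlSup w (mw17Psi T n R) ^ (X + E.card) *
          (E.map fun P : Mw17Pt T => htlSup w (mw17Psi T n P)).prod)) := by
  have hn : 0 < n := by omega
  have h1 := (((mw17td_model_mon T ht).pow m₁).mul ((mw17td_model_W0 T ht hb).pow X)).mul
    (mw17td_model_multiset (fun P : Mw17Pt T => RingHom.ker (P : V27pB T →+* K)) _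
      (fun F => mw17td_model_WF T ht hN (by omega) hn F) E)
  rw [Ideal.top_pow, Ideal.top_pow, Ideal.top_mul, Ideal.top_mul] at h1
  convert h1 using 2 with w
  funext R
  simp only [mw17td_W0_eq T t, mw17td_WF_eq T t, mul_pow]
  rw [Multiset.prod_map_mul, Multiset.prod_map_mul, Multiset.map_const', Multiset.prod_replicate]
  ring

theorem mw17td_prod_sup_le (n : ℕ) (E : Multiset (Mw17Pt T)) :
    ∃ C : HtConst K, ∀ w : AbsoluteValue K ℝ,
      (E.map fun P : Mw17Pt T => htlSup w (mw17Psi T n P)).prod ≤ C.val w := by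
  classical
  induction E using Multiset.induction_on with
  | empty =>
    exact ⟨HtConst.one, fun w => by
      rw [Multiset.map_zero, Multiset.prod_zero]; exact htl_one_le_val _ _⟩
  | cons F E ih =>
    obtain ⟨C, hC⟩ := ih
    obtain ⟨C₂, hC₂⟩ := htl_val_finset Finset.univ
      (fun i : Mw17Idx δ n => HtConst.ofElem (mw17Psi T n F i))
    obtain ⟨C₃, hC₃⟩ := htl_val_mul C₂ C
    refine ⟨C₃, fun w => ?_⟩
    rw [Multiset.map_cons, Multiset.prod_cons]
    have h1 : htlSup w (mw17Psi T n F) ≤ C₂.val w := by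
      refine htlSup_le (htl_val_nonneg _ _) fun i => ?_
      refine le_trans ?_ (hC₂ i (Finset.mem_univ _) w)
      rw [htl_val_ofElem]; exact le_max_right _ _
    refine le_trans (mul_le_mul h1 (hC w) ?_ (htl_val_nonneg _ _)) (hC₃ w)
    refine Multiset.prod_nonneg fun x hx => ?_
    obtain ⟨P, _, rfl⟩ := Multiset.mem_map.mp hx
    exact htlSup_nonneg _ _

theorem mw17td_one_le_prod_sup (n : ℕ) (E : Multiset (Mw17Pt T)) (w : AbsoluteValue K ℝ) :
    1 ≤ (E.map fun P : Mw17Pt T => htlSup w (mw17Psi T n P)).prod := by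
  induction E using Multiset.induction_on with
  | empty => rw [Multiset.map_zero, Multiset.prod_zero]
  | cons F E ih =>
    rw [Multiset.map_cons, Multiset.prod_cons]
    exact one_le_mul_of_one_le_of_one_le (htl_one_le_sup (mw17Psi_zero T n F)) ih

variable {T}
variable [IsDedekindDomain (V27pB T)]

/-- **(TUPLE_w), `≤` half**: a fixed tuple `a ⊂ L_{k₁}` (`k₁ ≤ n m₁`) all of whose members lie in
`∏_{P ∈ E} ker P` satisfies `‖a(R)‖_w ≤ C_w ‖φR‖^{m₁} δ_w(P0,R)^{n m₁ - k₁} ∏_{P ∈ E} δ_w(P,R)`. -/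
theorem mw17td_le (hloc : Mw17BpfLoc T) {n : ℕ} {t : Mw17Idx δ n} (ht : mw17Wt t = n)
    (hN : δ.N ≤ n) (hb : δ.bound < n) (m₁ k₁ : ℕ) (hk₁ : k₁ ≤ n * m₁)
    {ι : Type} [Fintype ι] (a : ι → V27pB T) (E : Multiset (Mw17Pt T))
    (haI : ∀ i, a i ∈ (E.map fun P : Mw17Pt T => RingHom.ker (P : V27pB T →+* K)).prod)
    (hale : ∀ i, V27pLe (a i) k₁) :
    ∃ C : HtConst K, ∀ (w : HtAbs K) (R : Mw17Pt T),
      htlSup w.1 (fun i => R (a i)) ≤ C.val w.1 * mw17tdRhs T n t m₁ E k₁ w.1 R := by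
  classical
  have hn : 0 < n := by omega
  have hX : (n * m₁ - k₁) + k₁ = n * m₁ := Nat.sub_add_cancel hk₁
  obtain ⟨κM, _, bM, hIM, hleM, ⟨qM, hqM, hordM⟩, hNM⟩ :=
    mw17td_model_rhs T ht hN hb m₁ (n * m₁ - k₁) E
  obtain ⟨κD, _, bD, hID, hleD, ⟨qD, hqD, hordD⟩, hND⟩ :=
    (mw17td_model_mon T ht).pow (n * m₁ - k₁ + E.card)
  have hI : ∀ p : ι × κD, a p.1 * bD p.2 ∈ Ideal.span (Set.range bM) := by
    intro p
    rw [hIM]
    exact Ideal.mul_mem_right _ _ (haI p.1)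
  have hord : ∀ p : ι × κD, ∃ q, bM q ≠ 0 ∧ v27pOrd (a p.1 * bD p.2) ≤ v27pOrd (bM q) := by
    intro p
    refine ⟨qM, hqM, ?_⟩
    rw [hordM, mw17td_arith n m₁ k₁ _ E.card hn hX, v27pOrd_le_iff]
    exact V27pLe.mul (hale p.1) (hleD p.2)
  obtain ⟨C₁, hC₁⟩ := mw17tu_cmp_sup hloc bM (fun p : ι × κD => a p.1 * bD p.2) ⟨qM, hqM⟩
    hI hord
  obtain ⟨C₂, hC₂⟩ := mw17td_prod_sup_le T n E
  obtain ⟨C₃, hC₃⟩ := htl_val_mul C₁ C₂
  refine ⟨C₃, fun w R => ?_⟩
  have hRhs0 := mw17tdRhs_nonneg T n t m₁ E k₁ w.1 R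
  rcases isEmpty_or_nonempty ι with hι | hι
  · have h0 : htlSup w.1 (fun i => R (a i)) = 0 := by
      unfold htlSup; exact Real.iSup_of_isEmpty _
    rw [h0]
    exact mul_nonneg (htl_val_nonneg _ _) hRhs0
  · have : Nonempty κD := ⟨qD⟩
    have h1 := hC₁ w R
    simp only [map_mul] at h1
    rw [mw17td_sup_mul w.1 (fun i => R (a i)) (fun c => R (bD c)), hND, hNM] at h1
    have hΦ : 0 < htlSup w.1 (mw17Psi T n R) ^ (n * m₁ - k₁ + E.card) :=
      pow_pos (htlSup_pos_iff.2 (mw17Psi_ne_zero T n R)) _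
    have hPF := hC₂ w.1
    have hPF0 : 0 ≤ (E.map fun P : Mw17Pt T => htlSup w.1 (mw17Psi T n P)).prod :=
      le_trans zero_le_one (mw17td_one_le_prod_sup T n E w.1)
    have h2 : htlSup w.1 (fun i => R (a i)) *
        htlSup w.1 (mw17Psi T n R) ^ (n * m₁ - k₁ + E.card) ≤
        (C₃.val w.1 * mw17tdRhs T n t m₁ E k₁ w.1 R) *
          htlSup w.1 (mw17Psi T n R) ^ (n * m₁ - k₁ + E.card) := by
      refine le_trans h1 ?_
      have h3 : C₁.val w.1 * (mw17tdRhs T n t m₁ E k₁ w.1 R *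
          (htlSup w.1 (mw17Psi T n R) ^ (n * m₁ - k₁ + E.card) *
            (E.map fun P : Mw17Pt T => htlSup w.1 (mw17Psi T n P)).prod)) =
          (C₁.val w.1 * (E.map fun P : Mw17Pt T => htlSup w.1 (mw17Psi T n P)).prod) *
            (mw17tdRhs T n t m₁ E k₁ w.1 R *
              htlSup w.1 (mw17Psi T n R) ^ (n * m₁ - k₁ + E.card)) := by ring
      have h4 : C₁.val w.1 * (E.map fun P : Mw17Pt T => htlSup w.1 (mw17Psi T n P)).prod ≤
          C₃.val w.1 :=
        le_trans (mul_le_mul_of_nonneg_left hPF (htl_val_nonneg _ _)) (hC₃ w.1)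
      unfold mw17tdRhs at h3 hRhs0 ⊢
      rw [h3]
      have h5 := mul_le_mul_of_nonneg_right h4 (mul_nonneg hRhs0 hΦ.le)
      refine le_trans h5 (le_of_eq ?_)
      ring
    exact le_of_mul_le_mul_right h2 hΦ

/-- **(TUPLE_w), `≥` half**: a fixed tuple `a` whose ideal contains `∏_{P ∈ E} ker P` and which has
a member of pole order `≥ k₁` satisfies
`‖φR‖^{m₁} δ_w(P0,R)^{n m₁ - k₁} ∏_{P ∈ E} δ_w(P,R) ≤ C_w ‖a(R)‖_w`. -/
theorem mw17td_ge (hloc : Mw17BpfLoc T) {n : ℕ} {t : Mw17Idx δ n} (ht : mw17Wt t = n)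
    (hN : δ.N ≤ n) (hb : δ.bound < n) (m₁ k₁ : ℕ) (hk₁ : k₁ ≤ n * m₁)
    {ι : Type} [Fintype ι] (a : ι → V27pB T) (E : Multiset (Mw17Pt T))
    (haI : (E.map fun P : Mw17Pt T => RingHom.ker (P : V27pB T →+* K)).prod ≤
      Ideal.span (Set.range a))
    (hatop : ∃ i, a i ≠ 0 ∧ k₁ ≤ v27pOrd (a i)) :
    ∃ C : HtConst K, ∀ (w : HtAbs K) (R : Mw17Pt T),
      mw17tdRhs T n t m₁ E k₁ w.1 R ≤ C.val w.1 * htlSup w.1 (fun i => R (a i)) := by
  classical
  have hn : 0 < n := by omega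
  have hX : (n * m₁ - k₁) + k₁ = n * m₁ := Nat.sub_add_cancel hk₁
  obtain ⟨i₁, hi₁, hi₁k⟩ := hatop
  obtain ⟨κM, _, bM, hIM, hleM, ⟨qM, hqM, hordM⟩, hNM⟩ :=
    mw17td_model_rhs T ht hN hb m₁ (n * m₁ - k₁) E
  obtain ⟨κD, _, bD, hID, hleD, ⟨qD, hqD, hordD⟩, hND⟩ :=
    (mw17td_model_mon T ht).pow (n * m₁ - k₁ + E.card)
  have hI : ∀ q : κM, bM q ∈ Ideal.span (Set.range fun p : ι × κD => a p.1 * bD p.2) := by
    intro q
    rw [mw17td_span_prod, hID, Ideal.top_pow, Ideal.mul_top]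
    apply haI
    rw [← hIM]
    exact Ideal.subset_span ⟨q, rfl⟩
  have hord : ∀ q : κM, ∃ p : ι × κD, a p.1 * bD p.2 ≠ 0 ∧
      v27pOrd (bM q) ≤ v27pOrd (a p.1 * bD p.2) := by
    intro q
    refine ⟨(i₁, qD), mul_ne_zero hi₁ hqD, ?_⟩
    rw [v27pOrd_mul hi₁ hqD, hordD]
    have h1 := (v27pOrd_le_iff _ _).mpr (hleM q)
    rw [mw17td_arith n m₁ k₁ _ E.card hn hX] at h1
    omega
  obtain ⟨C₁, hC₁⟩ := mw17tu_cmp_sup hloc (fun p : ι × κD => a p.1 * bD p.2) bM
    ⟨(i₁, qD), mul_ne_zero hi₁ hqD⟩ hI hord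
  refine ⟨C₁, fun w R => ?_⟩
  have : Nonempty ι := ⟨i₁⟩
  have : Nonempty κD := ⟨qD⟩
  have hRhs0 := mw17tdRhs_nonneg T n t m₁ E k₁ w.1 R
  have h1 := hC₁ w R
  simp only [map_mul] at h1
  rw [mw17td_sup_mul w.1 (fun i => R (a i)) (fun c => R (bD c)), hND, hNM] at h1
  have hΦ : 0 < htlSup w.1 (mw17Psi T n R) ^ (n * m₁ - k₁ + E.card) :=
    pow_pos (htlSup_pos_iff.2 (mw17Psi_ne_zero T n R)) _
  have hPF1 := mw17td_one_le_prod_sup T n E w.1
  have h2 : mw17tdRhs T n t m₁ E k₁ w.1 R *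
      htlSup w.1 (mw17Psi T n R) ^ (n * m₁ - k₁ + E.card) ≤
      (C₁.val w.1 * htlSup w.1 (fun i => R (a i))) *
        htlSup w.1 (mw17Psi T n R) ^ (n * m₁ - k₁ + E.card) := by
    rw [mul_assoc]
    refine le_trans ?_ h1
    unfold mw17tdRhs at hRhs0 ⊢
    refine mul_le_mul_of_nonneg_left ?_ hRhs0
    exact le_mul_of_one_le_right hΦ.le hPF1
  exact le_of_mul_le_mul_right h2 hΦ

end Fermat.Agent.MW17
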