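import Fermat.Agent.MW17.RatPt
import Fermat.Agent.G.Open.Main

/-!
# Program MW (S17), rationality, leaf (RAT-min) (prefix `mw17rm_`)

Owner: helper2.  Consumes main's `G/Open/Main.lean` (`gop_finset_fixing`: finitely many elements of
`ℚ̄ · F₀` are fixed by a common open subgroup of `Gal(ℚ̄/ℚ)`) and helper15's `MW17/RatPt.lean`.

For ANY one-point presentation `P : V27Presented ℚ̄ (modularFunctionFieldBar N) T` there is a
number field `K₁ ⊆ ℚ̄` such that every `σ ∈ G_{K₁}` (acting through the Prelude's
`arithmeticGalois`) fixes the generators `ψ x`, `ψ (e j)`, hence (helper15) the place `P0`, the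
structure constants of the table, and acts on coordinate points by conjugating coordinates.
-/

set_option autoImplicit false
set_option linter.unusedSectionVars false
set_option linter.unusedVariables false

noncomputable section

namespace Fermat.Agent.MW17

open AlgebraicCurve ModularCurve Polynomial Fermat.Agent.V Fermat.Agent.G

variable (N : ℕ) {δ : V27pShape} {T : V27pTable (AlgebraicClosure ℚ) δ}

/-- **(RAT-min), generators.**  A number field over which the generators of a presentation of
`F_ℚ̄(N)` are rational. -/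
theorem mw17rm_exists_gen (P : V27Presented (AlgebraicClosure ℚ) (modularFunctionFieldBar N) T) :
    ∃ K₁ : IntermediateField ℚ (AlgebraicClosure ℚ), FiniteDimensional ℚ K₁ ∧
      ∀ σ : AlgebraicClosure ℚ ≃ₐ[ℚ] AlgebraicClosure ℚ, σ ∈ K₁.fixingSubgroup →
        arithmeticGalois (modularFunctionFieldFull N) σ • P.ψ V27pB.x = P.ψ V27pB.x ∧
        ∀ j, arithmeticGalois (modularFunctionFieldFull N) σ • P.ψ (V27pB.e j)
          = P.ψ (V27pB.e j) := by
  classical
  haveI : NeZero δ.N := ⟨Nat.pos_iff_ne_zero.mp δ.hN⟩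
  have halg : Algebra.IsAlgebraic ℚ (AlgebraicClosure ℚ) := AlgebraicClosure.isAlgebraic ℚ
  obtain ⟨E, hE, h⟩ := gop_finset_fixing (L := AlgebraicClosure ℚ) (modularFunctionFieldFull N)
    (insert (P.ψ V27pB.x) (Finset.univ.image fun j : ZMod δ.N => P.ψ (V27pB.e j)))
  refine ⟨E, hE, fun σ hσ => ⟨h σ hσ _ (Finset.mem_insert_self _ _), fun j => ?_⟩⟩
  exact h σ hσ _ (Finset.mem_insert_of_mem (Finset.mem_image_of_mem _ (Finset.mem_univ j)))

/-- the conjugate of a coordinate point under `arithmeticGalois σ` is `σ ∘ q` -/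
theorem mw17rm_conj_apply (σ : AlgebraicClosure ℚ ≃ₐ[ℚ] AlgebraicClosure ℚ)
    (q : V27coP δ → AlgebraicClosure ℚ) (o : V27coP δ) :
    mw17rpConj (SemilinearAut.baseAut (arithmeticGalois (modularFunctionFieldFull N) σ) :
      AlgebraicClosure ℚ →+* AlgebraicClosure ℚ) q o = σ (q o) := rfl

variable [IsDedekindDomain (V27pB T)]

/-- **(RAT-min).**  A number field `K₁` such that for `σ ∈ G_{K₁}`, `γ := arithmeticGalois σ`:
`γ` fixes `ψ x`, `ψ (e j)` and `P0`, the structure constants are `σ`-fixed, `ψ` is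
`γ`-semilinear, and `γ • placeOf q = placeOf (σ ∘ q)`. -/
theorem mw17rm_exists (P : V27Presented (AlgebraicClosure ℚ) (modularFunctionFieldBar N) T) :
    ∃ K₁ : IntermediateField ℚ (AlgebraicClosure ℚ), FiniteDimensional ℚ K₁ ∧
      ∀ σ : AlgebraicClosure ℚ ≃ₐ[ℚ] AlgebraicClosure ℚ, σ ∈ K₁.fixingSubgroup →
        arithmeticGalois (modularFunctionFieldFull N) σ • P.ψ V27pB.x = P.ψ V27pB.x ∧
        (∀ j, arithmeticGalois (modularFunctionFieldFull N) σ • P.ψ (V27pB.e j)
          = P.ψ (V27pB.e j)) ∧
        arithmeticGalois (modularFunctionFieldFull N) σ • P.P0 = P.P0 ∧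
        (∀ i j k, (T.c i j k).map
          (SemilinearAut.baseAut (arithmeticGalois (modularFunctionFieldFull N) σ) :
            AlgebraicClosure ℚ →+* AlgebraicClosure ℚ) = T.c i j k) ∧
        (∀ b : V27pB T, arithmeticGalois (modularFunctionFieldFull N) σ • P.ψ b
          = P.ψ (mw17rpMap T
            (SemilinearAut.baseAut (arithmeticGalois (modularFunctionFieldFull N) σ) :
              AlgebraicClosure ℚ →+* AlgebraicClosure ℚ) b)) ∧
        ∀ (q : V27coP δ → AlgebraicClosure ℚ) (hq : V27coPt T.c q),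
          ∃ hq' : V27coPt T.c (mw17rpConj
              (SemilinearAut.baseAut (arithmeticGalois (modularFunctionFieldFull N) σ) :
                AlgebraicClosure ℚ →+* AlgebraicClosure ℚ) q),
            arithmeticGalois (modularFunctionFieldFull N) σ • P.placeOf q hq
              = P.placeOf (mw17rpConj
                (SemilinearAut.baseAut (arithmeticGalois (modularFunctionFieldFull N) σ) :
                  AlgebraicClosure ℚ →+* AlgebraicClosure ℚ) q) hq' := by
  obtain ⟨K₁, hK₁, h⟩ := mw17rm_exists_gen N P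
  refine ⟨K₁, hK₁, fun σ hσ => ?_⟩
  obtain ⟨hx, he⟩ := h σ hσ
  refine ⟨hx, he, mw17rp_smul_P0_of_fixed P _ hx he, ?_, ?_, ?_⟩
  · exact fun i j k => mw17rp_c_fixed P _ hx he i j k
  · exact fun b => mw17rp_psi_semilinear P _ hx he b
  · exact fun q hq => ⟨_, mw17rp_smul_placeOf_of_fixed P _ hx he hq⟩

end Fermat.Agent.MW17
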