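import Fermat.Prelude.Def_AlgebraicCurve_BaseChangeGalois
import Fermat.Agent.V.Sem.Points

/-!
# Program MW (S17), rationality, leaf (RAT-2): semilinear automorphisms and coordinate points

Owner: helper15.  Prefix `mw17rp_`.

Setting: a one-point presentation `P : V27Presented K F T` (`K` algebraically closed, `V27pB T`
Dedekind) and a semilinear automorphism `γ` of `F / K` over `σ := baseAut γ`, such that

* `hc` : the structure constants are `σ`-fixed, `(T.c i j k).map σ = T.c i j k`;
* `hψ` : `ψ` is `γ`-semilinear, `γ • ψ b = ψ (b^σ)` (coefficientwise action)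

(the literal output of helper9's `mw17rt_exists`).  Then

* `mw17rp_ev_map`  : `b^σ (σ ∘ q) = σ (b q)` (evaluation is equivariant);
* `mw17rp_pt`      : `σ ∘ q` is a coordinate point if `q` is;
* `mw17rp_smul_placeOf` : `γ • P.placeOf q = P.placeOf (σ ∘ q)`;
* `mw17rp_smul_sum`     : `γ • Σ_i [placeOf (E i)] = Σ_i [placeOf (σ ∘ E i)]`;
* `mw17rp_placeOf_injective` : distinct coordinate points give distinct places;
* `mw17rp_orbit_mem` : if `γ` fixes the divisor `Σ_i [placeOf (E i)]` then `σ ∘ E i = E i'` for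
  some `i'`.
-/

set_option autoImplicit false
set_option linter.unusedSectionVars false
set_option linter.unusedVariables false
set_option linter.style.haveILetI false

noncomputable section

namespace Fermat.Agent.MW17

open AlgebraicCurve Polynomial Fermat.Agent.S24 Fermat.Agent.V Fermat.Agent.V.Dict

open scoped Pointwise

variable {K : Type*} [Field K] {δ : V27pShape} {F : Type*} [Field F] [Algebra K F]
  {T : V27pTable K δ}

/-- coefficientwise action of a ring endomorphism of `K` on the table ring. -/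
def mw17rpMap (T : V27pTable K δ) (τ : K →+* K) (b : V27pB T) : V27pB T :=
  fun j => (b j).map τ

@[simp] theorem mw17rpMap_apply (τ : K →+* K) (b : V27pB T) (j : ZMod δ.N) :
    mw17rpMap T τ b j = (b j).map τ := rfl

/-- the conjugate of a coordinate tuple. -/
def mw17rpConj (τ : K →+* K) (q : V27coP δ → K) : V27coP δ → K := fun o => τ (q o)

@[simp] theorem mw17rpConj_apply (τ : K →+* K) (q : V27coP δ → K) (o : V27coP δ) :
    mw17rpConj τ q o = τ (q o) := rfl

/-- **evaluation is equivariant**: `b^τ (τ ∘ q) = τ (b q)`. -/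
theorem mw17rp_ev_map (τ : K →+* K) (q : V27coP δ → K) (b : ZMod δ.N → K[X]) :
    v27coEv (mw17rpConj τ q) (fun j => (b j).map τ) = τ (v27coEv q b) := by
  unfold v27coEv
  rw [map_sum]
  refine Finset.sum_congr rfl fun j _ => ?_
  rw [map_mul, mw17rpConj_apply, mw17rpConj_apply, Polynomial.eval_map_apply]

/-- **`τ ∘ q` is a coordinate point** when the structure constants are `τ`-fixed. -/
theorem mw17rp_pt (τ : K →+* K) (hc : ∀ i j k, (T.c i j k).map τ = T.c i j k)
    {q : V27coP δ → K} (hq : V27coPt T.c q) : V27coPt T.c (mw17rpConj τ q) := by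
  refine ⟨?_, fun i j => ?_⟩
  · rw [mw17rpConj_apply, hq.1, map_one]
  · rw [mw17rpConj_apply, mw17rpConj_apply, ← map_mul, hq.2 i j, map_sum]
    refine Finset.sum_congr rfl fun k _ => ?_
    rw [map_mul, mw17rpConj_apply, mw17rpConj_apply, ← Polynomial.eval_map_apply, hc]

/-- `b ↦ b^τ` is injective. -/
theorem mw17rpMap_injective (τ : K →+* K) : Function.Injective (mw17rpMap T τ) := by
  intro a b h
  funext j
  exact Polynomial.map_injective τ τ.injective (congrFun h j)

theorem mw17rpMap_map (τ τ' : K →+* K) (b : V27pB T) :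
    mw17rpMap T τ (mw17rpMap T τ' b) = mw17rpMap T (τ.comp τ') b := by
  funext j
  rw [mw17rpMap_apply, mw17rpMap_apply, mw17rpMap_apply, Polynomial.map_map]

theorem mw17rpMap_id (b : V27pB T) : mw17rpMap T (RingHom.id K) b = b := by
  funext j
  rw [mw17rpMap_apply, Polynomial.map_id]

/-! ### coordinates of a point are recovered from its `K`-algebra hom -/

theorem mw17rp_hom_x {q : V27coP δ → K} (hq : V27coPt T.c q) :
    v27smHom T q hq V27pB.x = q none :=
  v27piEv_x (T := T) (q none) (fun j => q (some j)) hq.1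

theorem mw17rp_hom_e {q : V27coP δ → K} (hq : V27coPt T.c q) (j : ZMod δ.N) :
    v27smHom T q hq (V27pB.e j) = q (some j) :=
  v27piEv_e (T := T) (q none) (fun j => q (some j)) j

theorem mw17rp_hom_injective {q q' : V27coP δ → K} (hq : V27coPt T.c q) (hq' : V27coPt T.c q')
    (h : v27smHom T q hq = v27smHom T q' hq') : q = q' := by
  funext o
  cases o with
  | none => rw [← mw17rp_hom_x hq, ← mw17rp_hom_x hq', h]
  | some j => rw [← mw17rp_hom_e hq j, ← mw17rp_hom_e hq' j, h]

/-! ### fixed generators ⟹ fixed structure constants and semilinear `ψ` -/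

theorem mw17rp_smul_aeval (γ : SemilinearAut K F) (x : F) (p : K[X]) :
    γ • (aeval x p) = aeval (γ • x) (p.map (SemilinearAut.baseAut γ : K →+* K)) := by
  induction p using Polynomial.induction_on' with
  | add p q hp hq => rw [map_add, smul_add, hp, hq, Polynomial.map_add, map_add]
  | monomial n a =>
    rw [Polynomial.map_monomial, aeval_monomial, aeval_monomial, smul_mul', smul_pow',
      SemilinearAut.smul_algebraMap]
    rfl

/-- `ψ b = Σ_j (b j)(ψ x) · ψ (e j)`. -/
theorem mw17rp_psi_eq_sum (P : V27Presented K F T) (b : V27pB T) :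
    P.ψ b = ∑ j, aeval (P.ψ V27pB.x) (b j) * P.ψ (V27pB.e j) := by
  conv_lhs => rw [V27pB.eq_sum_smul_e b]
  rw [map_sum]
  refine Finset.sum_congr rfl fun j _ => ?_
  rw [Algebra.smul_def, map_mul, v27pi_algebraMap_poly_eq_aeval, ← aeval_algHom_apply]

section fixed

variable (P : V27Presented K F T) (γ : SemilinearAut K F)
  (hx : γ • P.ψ V27pB.x = P.ψ V27pB.x) (he : ∀ j, γ • P.ψ (V27pB.e j) = P.ψ (V27pB.e j))

include hx he in
/-- **`ψ` is `γ`-semilinear as soon as `γ` fixes the generators `ψ x`, `ψ (e j)`.** -/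
theorem mw17rp_psi_semilinear (b : V27pB T) :
    γ • P.ψ b = P.ψ (mw17rpMap T (SemilinearAut.baseAut γ : K →+* K) b) := by
  rw [mw17rp_psi_eq_sum P b, mw17rp_psi_eq_sum P (mw17rpMap T _ b), Finset.smul_sum]
  refine Finset.sum_congr rfl fun j _ => ?_
  rw [smul_mul', mw17rp_smul_aeval, hx, he, mw17rpMap_apply]

include hx he in
/-- **the structure constants are `σ`-fixed as soon as `γ` fixes the generators.** -/
theorem mw17rp_c_fixed (i j k : ZMod δ.N) :
    (T.c i j k).map (SemilinearAut.baseAut γ : K →+* K) = T.c i j k := by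
  have h1 : γ • P.ψ (V27pB.e i * V27pB.e j) = P.ψ (V27pB.e i * V27pB.e j) := by
    rw [map_mul, smul_mul', he, he]
  rw [mw17rp_psi_semilinear P γ hx he] at h1
  have h2 := congrFun (P.inj h1) k
  rwa [mw17rpMap_apply, V27pB.e_mul_e_apply] at h2

end fixed

section place

variable [IsAlgClosed K] [IsDedekindDomain (V27pB T)] (P : V27Presented K F T)

/-- **distinct coordinate points give distinct places.** -/
theorem mw17rp_placeOf_injective {q q' : V27coP δ → K} (hq : V27coPt T.c q)
    (hq' : V27coPt T.c q') (h : P.placeOf q hq = P.placeOf q' hq') : q = q' := by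
  letI := P.toAlgebra
  haveI := P.isScalarTower
  haveI := P.isFractionRing
  exact mw17rp_hom_injective hq hq'
    (v27pt_place_injective (M := F) (v27pi_not_isField (T := T)) h)

variable (γ : SemilinearAut K F)
  (hc : ∀ i j k, (T.c i j k).map (SemilinearAut.baseAut γ : K →+* K) = T.c i j k)
  (hψ : ∀ b : V27pB T, γ • P.ψ b = P.ψ (mw17rpMap T (SemilinearAut.baseAut γ : K →+* K) b))

include hψ in
/-- the inverse acts through the inverse base automorphism. -/
theorem mw17rp_inv_smul_psi (b : V27pB T) :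
    γ⁻¹ • P.ψ b = P.ψ (mw17rpMap T ((SemilinearAut.baseAut γ).symm : K →+* K) b) := by
  have h := hψ (mw17rpMap T ((SemilinearAut.baseAut γ).symm : K →+* K) b)
  rw [mw17rpMap_map] at h
  have hid : ((SemilinearAut.baseAut γ : K →+* K).comp
      ((SemilinearAut.baseAut γ).symm : K →+* K)) = RingHom.id K := by
    ext a
    simp
  rw [hid, mw17rpMap_id] at h
  rw [← h, inv_smul_smul]

include hc hψ in
/-- **(RAT-2)**: `γ • P.placeOf q = P.placeOf (σ ∘ q)`, `σ = baseAut γ`. -/
theorem mw17rp_smul_placeOf {q : V27coP δ → K} (hq : V27coPt T.c q) :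
    γ • P.placeOf q hq = P.placeOf (mw17rpConj (SemilinearAut.baseAut γ : K →+* K) q)
      (mw17rp_pt _ hc hq) := by
  letI := P.toAlgebra
  haveI := P.isScalarTower
  haveI := P.isFractionRing
  unfold V27Presented.placeOf
  refine v27pt_place_eq_of_forall (M := F) (v27pi_not_isField (T := T)) _ _ (fun b => ?_)
    (fun b hb => ?_)
  · show P.ψ b ∈ (γ • (P.placeOf q hq).toValuationSubring : ValuationSubring F)
    rw [ValuationSubring.mem_pointwise_smul_iff_inv_smul_mem, mw17rp_inv_smul_psi P γ hψ]
    exact P.placeOf_mem q hq _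
  · rcases eq_or_ne b 0 with rfl | hb0
    · exact Or.inr rfl
    left
    show (P.ψ b)⁻¹ ∉ (γ • (P.placeOf q hq).toValuationSubring : ValuationSubring F)
    rw [ValuationSubring.mem_pointwise_smul_iff_inv_smul_mem, smul_inv'',
      mw17rp_inv_smul_psi P γ hψ]
    set b' := mw17rpMap T ((SemilinearAut.baseAut γ).symm : K →+* K) b with hb'
    have hb'0 : b' ≠ 0 := by
      intro h0
      apply hb0
      apply mw17rpMap_injective ((SemilinearAut.baseAut γ).symm : K →+* K)
      rw [← hb', h0]
      funext j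
      simp
    have hev : v27coEv q b' = 0 := by
      have h1 := mw17rp_ev_map ((SemilinearAut.baseAut γ).symm : K →+* K)
        (mw17rpConj (SemilinearAut.baseAut γ : K →+* K) q) b
      have h2 : mw17rpConj ((SemilinearAut.baseAut γ).symm : K →+* K)
          (mw17rpConj (SemilinearAut.baseAut γ : K →+* K) q) = q := by
        funext o
        simp
      rw [h2] at h1
      rw [v27smHom_apply] at hb
      show v27coEv q (fun j => (b j).map ((SemilinearAut.baseAut γ).symm : K →+* K)) = 0
      rw [h1, hb, map_zero]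
    have hpos := (P.placeOf_ord_pos_iff q hq hb'0).mpr hev
    intro hmem
    have := PlaceOrd.ord_nonneg_of_mem _ hmem
    rw [Place.ord_inv] at this
    omega

include hc hψ in
/-- **(RAT-2), divisor form**: `γ • Σ_i [placeOf (E i)] = Σ_i [placeOf (σ ∘ E i)]`. -/
theorem mw17rp_smul_sum {m : ℕ} (E : Fin m → V27coP δ → K) (hE : ∀ i, V27coPt T.c (E i)) :
    γ • v27dcSum (fun i => P.placeOf (E i) (hE i)) =
      v27dcSum (fun i => P.placeOf (mw17rpConj (SemilinearAut.baseAut γ : K →+* K) (E i))
        (mw17rp_pt _ hc (hE i))) := by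
  unfold v27dcSum
  rw [Finset.smul_sum]
  refine Finset.sum_congr rfl fun i _ => ?_
  rw [SemilinearAut.smul_single, mw17rp_smul_placeOf P γ hc hψ (hE i)]

include hc hψ in
/-- **the points of a `γ`-stable divisor are permuted by `σ`**: if `γ` fixes `Σ_i [placeOf (E i)]`
then every conjugate `σ ∘ E i` is one of the `E i'`. -/
theorem mw17rp_orbit_mem {m : ℕ} (E : Fin m → V27coP δ → K) (hE : ∀ i, V27coPt T.c (E i))
    (hfix : γ • v27dcSum (fun i => P.placeOf (E i) (hE i)) =
      v27dcSum (fun i => P.placeOf (E i) (hE i))) (i : Fin m) :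
    ∃ i', mw17rpConj (SemilinearAut.baseAut γ : K →+* K) (E i) = E i' := by
  rw [mw17rp_smul_sum P γ hc hψ E hE] at hfix
  have hpos : 0 < v27dcSum (fun i => P.placeOf (mw17rpConj (SemilinearAut.baseAut γ : K →+* K) (E i))
      (mw17rp_pt _ hc (hE i)))
      (P.placeOf (mw17rpConj (SemilinearAut.baseAut γ : K →+* K) (E i)) (mw17rp_pt _ hc (hE i))) :=
    (v27dcSum_pos_iff _ _).mpr ⟨i, rfl⟩
  rw [hfix] at hpos
  obtain ⟨i', hi'⟩ := (v27dcSum_pos_iff _ _).mp hpos
  exact ⟨i', (mw17rp_placeOf_injective P (hE i') (mw17rp_pt _ hc (hE i)) hi').symm⟩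

include hc hψ in
/-- the same for an arbitrary divisor: a place `placeOf q` in the support of a `γ`-stable divisor
`D` is mapped to a place `placeOf (σ ∘ q)` in the support of `D`. -/
theorem mw17rp_mem_support {D : Divisor K F} (hfix : γ • D = D) {q : V27coP δ → K}
    (hq : V27coPt T.c q) (hmem : P.placeOf q hq ∈ D.support) :
    P.placeOf (mw17rpConj (SemilinearAut.baseAut γ : K →+* K) q) (mw17rp_pt _ hc hq) ∈ D.support := by
  rw [Finsupp.mem_support_iff] at hmem ⊢
  rw [← mw17rp_smul_placeOf P γ hc hψ hq, ← hfix, SemilinearAut.divisor_smul_apply_smul]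
  exact hmem

end place

section placeFixed

variable [IsAlgClosed K] [IsDedekindDomain (V27pB T)] (P : V27Presented K F T)
  (γ : SemilinearAut K F)
  (hx : γ • P.ψ V27pB.x = P.ψ V27pB.x) (he : ∀ j, γ • P.ψ (V27pB.e j) = P.ψ (V27pB.e j))

include hx he in
/-- **(RAT-2) from fixed generators only**: if `γ` fixes `ψ x` and all `ψ (e j)` then
`γ • P.placeOf q = P.placeOf (σ ∘ q)`. -/
theorem mw17rp_smul_placeOf_of_fixed {q : V27coP δ → K} (hq : V27coPt T.c q) :
    γ • P.placeOf q hq = P.placeOf (mw17rpConj (SemilinearAut.baseAut γ : K →+* K) q)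
      (mw17rp_pt _ (mw17rp_c_fixed P γ hx he) hq) :=
  mw17rp_smul_placeOf P γ (mw17rp_c_fixed P γ hx he) (mw17rp_psi_semilinear P γ hx he) hq

include hx he in
/-- `γ` fixes the place at infinity as soon as it fixes `ψ x` (the only pole of `ψ x`). -/
theorem mw17rp_smul_P0_of_fixed : γ • P.P0 = P.P0 := by
  by_contra hne
  obtain ⟨q, hq, hv⟩ := P.exists_placeOf hne
  have h1 := P.placeOf_ord_nonneg q hq V27pB.x
  rw [← hv] at h1
  have h2 := SemilinearAut.ord_smul γ P.P0 (P.ψ V27pB.x)
  rw [hx, P.ord_x] at h2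
  have hN : 0 < δ.N := δ.hN
  omega

end placeFixed

end Fermat.Agent.MW17
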