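import Mathlib
import Fermat.Agent.MW17.InstZeros
import Fermat.Agent.MW.ResPoly.Main
import Fermat.Agent.MW.ResPoly.Sign

/-!
# Program MW (S17), heights half (A), §3.3 (RES-POLY) on the table ring `B = V27pB T`

`K` an infinite field, `T : V27pTable K δ`, `m n > 0` non-gaps (there are monomials of exact weight
`m`, `n`), `V : MwrsVal K (V27pB T)` ANY multiplicative leading coefficient with `V.ord = v27pOrd`
(`hV`; e.g. helper4's `mw17inVal T` or helper5's `mw17lcVal T`).  With helper4's instance layer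
(`mw17inLcm V`, `mw17inLcmPoly V`, `Mw17IsZeros`), helper5's Weil reciprocity `mwrs_sym'` (through
`mwrp_sym_uniform`) and the abstract interpolation `mwrp_main`:

`mw17rp_exists V hV` : there is `F : MvPolynomial (Mw17Idx δ m ⊕ Mw17Idx δ n) K`, bihomogeneous of
bidegree `(n, m)`, such that, writing `F(u,t) := eval (Sum.elim u t) F`, `𝐮 := mw17Sec T m u`,
`𝐭 := mw17Sec T n t`, `ρ(a,b) := det (b | B ⧸ aB)`, `lc_k := mw17inLcm V k`, `ε := mwrsSign`:
* (R1)  `lc_n t ≠ 0 → F(u,t) = lc_n(t)^m ρ(𝐭, 𝐮)`                         (ALL `u`);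
* (R2)  `lc_m u ≠ 0 → F(u,t) = ε(m,n) lc_m(u)^n ρ(𝐮, 𝐭)`                  (ALL `t`);
* (R-prod)  `u ≠ 0`, `Z` a zero cycle of `𝐮`, `m' = ord 𝐮`:
            `F(u,t) = ε(m',n) lc(𝐮)^n lc_n(t)^(m-m') ∏_{q ∈ Z} q(𝐭)`     (ALL `t`);
* (R-prod') `t ≠ 0`, `Z` a zero cycle of `𝐭`, `n' = ord 𝐭`:
            `F(u,t) = ε(m,n) ε(n',m) lc(𝐭)^m lc_m(u)^(n-n') ∏_{q ∈ Z} q(𝐮)` (ALL `u`).
`mw17rpRes V m n` is a choice of such an `F` (junk `0` outside the hypotheses);
`mw17rpRes_eq_zero_iff` is the vanishing criterion (R5).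

Owner: helper17.  Prefix `mw17rp`.
-/

set_option autoImplicit false
set_option linter.unusedSectionVars false

noncomputable section

namespace Fermat.Agent.MW17

open Fermat.Agent.V Fermat.Agent.MW MvPolynomial

variable {K : Type*} [Field K] {δ : V27pShape} {T : V27pTable K δ}

/-- `ρ(a, b) = det (b | B ⧸ aB)` in the spelling of `Mw17IsZeros`. -/
theorem mw17rp_rho_def (a b : V27pB T) :
    mwrpRho K a b
      = LinearMap.det (LinearMap.mulLeft K (Ideal.Quotient.mk (Ideal.span {a}) b)) := rfl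

theorem mw17rp_sec_eq (m : ℕ) (u : Mw17Idx δ m → K) :
    ∑ i, u i • mw17Mon T i = mw17Sec T m u := rfl

theorem mw17rp_sign_ne_zero (e : ℤˣ) : (((e : ℤ)) : K) ≠ 0 := by
  intro h
  have := mwrp_units_int_sq (K := K) e
  rw [h, mul_zero] at this
  exact zero_ne_one this

/-- `m` is a non-gap: there is a monomial of exact weight `m`. -/
def Mw17rpNonGap (δ : V27pShape) (m : ℕ) : Prop := ∃ i : Mw17Idx δ m, mw17Wt i = m

/-- every `m ≥ N * max d` is a non-gap (helper4's `mw17in_exists_idx_wt`). -/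
theorem mw17rp_nonGap_of_le (m : ℕ) (hm : δ.N * (Finset.univ.sup δ.d) ≤ m) : Mw17rpNonGap δ m :=
  mw17in_exists_idx_wt (δ := δ) m hm

variable (V : MwrsVal K (V27pB T)) (hV : ∀ b, V.ord b = v27pOrd b)

include hV

/-- the residue condition of helper5's `mwrs_sym'` on the table ring. -/
theorem mw17rp_res (t : V27pB T) (ht : 0 < V.ord t) :
    ∀ j : Fin (V.ord t), ∃ b : V27pB T, b ≠ 0 ∧ V.ord b % V.ord t = j :=
  mwrs_res_of_gap V t ht
    ⟨δ.N * (Finset.univ.sup δ.d), fun m hm => by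
      obtain ⟨b, -, hb⟩ := mw17in_exists_ord T m hm
      exact ⟨b, by rw [hV, hb]⟩⟩

/-- Weil reciprocity on the table ring with the uniform sign. -/
theorem mw17rp_sym (u t : V27pB T) (hu : u ≠ 0) (ht : 0 < v27pOrd t) :
    mwrpRho K u t * V.lc u ^ v27pOrd t =
      (((mwrsSign (v27pOrd u) (v27pOrd t) : ℤˣ) : ℤ) : K)
        * (mwrpRho K t u * V.lc t ^ v27pOrd u) := by
  have ht' : 0 < V.ord t := by rw [hV]; exact ht
  have h := mwrp_sym_uniform V u t hu ht' (mw17rp_res V hV t ht')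
  rwa [hV, hV] at h

/-- **(RES-POLY) on the table ring.** -/
theorem mw17rp_exists [Infinite K] {m n : ℕ} (hm : 0 < m) (hn : 0 < n)
    (hgm : Mw17rpNonGap δ m) (hgn : Mw17rpNonGap δ n) :
    ∃ F : MvPolynomial (Mw17Idx δ m ⊕ Mw17Idx δ n) K, MwrpBihom F n m ∧
      (∀ (u : Mw17Idx δ m → K) (t : Mw17Idx δ n → K), mw17inLcm V n t ≠ 0 →
        eval (Sum.elim u t) F
          = mw17inLcm V n t ^ m * mwrpRho K (mw17Sec T n t) (mw17Sec T m u)) ∧
      (∀ (u : Mw17Idx δ m → K) (t : Mw17Idx δ n → K), mw17inLcm V m u ≠ 0 →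
        eval (Sum.elim u t) F
          = (((mwrsSign m n : ℤˣ) : ℤ) : K) * mw17inLcm V m u ^ n
            * mwrpRho K (mw17Sec T m u) (mw17Sec T n t)) ∧
      (∀ u : Mw17Idx δ m → K, u ≠ 0 → ∀ Z : Multiset (Mw17Pt T),
        (∀ b, mwrpRho K (mw17Sec T m u) b = (Z.map fun q : Mw17Pt T => q b).prod) →
        ∀ t : Mw17Idx δ n → K,
        eval (Sum.elim u t) F
          = (((mwrsSign (v27pOrd (mw17Sec T m u)) n : ℤˣ) : ℤ) : K)
            * V.lc (mw17Sec T m u) ^ n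
            * mw17inLcm V n t ^ (m - v27pOrd (mw17Sec T m u))
            * (Z.map fun q : Mw17Pt T => q (mw17Sec T n t)).prod) ∧
      (∀ t : Mw17Idx δ n → K, t ≠ 0 → ∀ Z : Multiset (Mw17Pt T),
        (∀ b, mwrpRho K (mw17Sec T n t) b = (Z.map fun q : Mw17Pt T => q b).prod) →
        ∀ u : Mw17Idx δ m → K,
        eval (Sum.elim u t) F
          = (((mwrsSign m n : ℤˣ) : ℤ) : K)
            * (((mwrsSign (v27pOrd (mw17Sec T n t)) m : ℤˣ) : ℤ) : K)
            * V.lc (mw17Sec T n t) ^ m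
            * mw17inLcm V m u ^ (n - v27pOrd (mw17Sec T n t))
            * (Z.map fun q : Mw17Pt T => q (mw17Sec T m u)).prod) := by
  obtain ⟨im, him⟩ := hgm
  obtain ⟨jn, hjn⟩ := hgn
  have hfam : ∀ (k : ℕ) (x : Mw17Idx δ k → K), eval x (mw17inLcmPoly V k) ≠ 0 →
      (∑ i, x i • mw17Mon T i) ≠ 0 ∧ v27pOrd (∑ i, x i • mw17Mon T i) = k ∧
        V.lc (∑ i, x i • mw17Mon T i) = eval x (mw17inLcmPoly V k) := by
    intro k x hx
    obtain ⟨h1, h2, h3⟩ := mw17in_lcm_spec V hV k x hx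
    rw [hV] at h2
    exact ⟨h1, h2, h3⟩
  obtain ⟨F, hF, hR1, hR2, hP, hP'⟩ := mwrp_main (K := K) (B := V27pB T) v27pOrd V.lc
    (fun b hb => ⟨v27ifr_finite_quotient T b hb, v27ifr_hq T b hb⟩)
    mwrsSign
    (fun u t hu _ ht => mw17rp_sym V hV u t hu ht)
    (fun i : Mw17Idx δ m => mw17Mon T i) (fun j : Mw17Idx δ n => mw17Mon T j) m n hm hn
    (mw17inLcmPoly V m) (mw17inLcmPoly V n)
    (mw17inLcmPoly_ne_zero V im him) (mw17inLcmPoly_ne_zero V jn hjn)
    (hfam m) (fun x => mw17in_ord_sec_le T m x)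
    (hfam n) (fun y => mw17in_ord_sec_le T n y)
  refine ⟨F, hF, ?_, ?_, ?_, ?_⟩
  · intro u t ht
    have := hR1 u t (by rwa [mw17inLcmPoly_eval])
    rwa [mw17inLcmPoly_eval] at this
  · intro u t hu
    have := hR2 u t (by rwa [mw17inLcmPoly_eval])
    rwa [mw17inLcmPoly_eval] at this
  · intro u hu Z hZ t
    have hne : (∑ i, u i • mw17Mon T i) ≠ 0 := by
      rw [mw17rp_sec_eq, ne_eq, mw17in_sec_eq_zero_iff]; exact hu
    have := hP u hne Z hZ t
    rwa [mw17inLcmPoly_eval] at this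
  · intro t ht Z hZ u
    have hne : (∑ j, t j • mw17Mon T j) ≠ 0 := by
      rw [mw17rp_sec_eq, ne_eq, mw17in_sec_eq_zero_iff]; exact ht
    have := hP' t hne Z hZ u
    rwa [mw17inLcmPoly_eval] at this

omit hV

/-! ### a choice of the resultant polynomial -/

open Classical in
/-- **the resultant polynomial `Res_{m,n}(u,t)`** attached to the leading coefficient `V` (junk `0`
unless `V.ord = v27pOrd` and `m, n > 0` are non-gaps). -/
def mw17rpRes [Infinite K] (m n : ℕ) : MvPolynomial (Mw17Idx δ m ⊕ Mw17Idx δ n) K :=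
  if h : (∀ b, V.ord b = v27pOrd b) ∧ 0 < m ∧ 0 < n ∧ Mw17rpNonGap δ m ∧ Mw17rpNonGap δ n then
    (mw17rp_exists V h.1 h.2.1 h.2.2.1 h.2.2.2.1 h.2.2.2.2).choose
  else 0

section Spec

variable [Infinite K] {m n : ℕ} (hm : 0 < m) (hn : 0 < n) (hgm : Mw17rpNonGap δ m)
  (hgn : Mw17rpNonGap δ n)

include hV hm hn hgm hgn

theorem mw17rpRes_spec :
    MwrpBihom (mw17rpRes V m n) n m ∧
      (∀ (u : Mw17Idx δ m → K) (t : Mw17Idx δ n → K), mw17inLcm V n t ≠ 0 →
        eval (Sum.elim u t) (mw17rpRes V m n)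
          = mw17inLcm V n t ^ m * mwrpRho K (mw17Sec T n t) (mw17Sec T m u)) ∧
      (∀ (u : Mw17Idx δ m → K) (t : Mw17Idx δ n → K), mw17inLcm V m u ≠ 0 →
        eval (Sum.elim u t) (mw17rpRes V m n)
          = (((mwrsSign m n : ℤˣ) : ℤ) : K) * mw17inLcm V m u ^ n
            * mwrpRho K (mw17Sec T m u) (mw17Sec T n t)) ∧
      (∀ u : Mw17Idx δ m → K, u ≠ 0 → ∀ Z : Multiset (Mw17Pt T),
        (∀ b, mwrpRho K (mw17Sec T m u) b = (Z.map fun q : Mw17Pt T => q b).prod) →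
        ∀ t : Mw17Idx δ n → K,
        eval (Sum.elim u t) (mw17rpRes V m n)
          = (((mwrsSign (v27pOrd (mw17Sec T m u)) n : ℤˣ) : ℤ) : K)
            * V.lc (mw17Sec T m u) ^ n
            * mw17inLcm V n t ^ (m - v27pOrd (mw17Sec T m u))
            * (Z.map fun q : Mw17Pt T => q (mw17Sec T n t)).prod) ∧
      (∀ t : Mw17Idx δ n → K, t ≠ 0 → ∀ Z : Multiset (Mw17Pt T),
        (∀ b, mwrpRho K (mw17Sec T n t) b = (Z.map fun q : Mw17Pt T => q b).prod) →
        ∀ u : Mw17Idx δ m → K,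
        eval (Sum.elim u t) (mw17rpRes V m n)
          = (((mwrsSign m n : ℤˣ) : ℤ) : K)
            * (((mwrsSign (v27pOrd (mw17Sec T n t)) m : ℤˣ) : ℤ) : K)
            * V.lc (mw17Sec T n t) ^ m
            * mw17inLcm V m u ^ (n - v27pOrd (mw17Sec T n t))
            * (Z.map fun q : Mw17Pt T => q (mw17Sec T m u)).prod) := by
  have h : (∀ b, V.ord b = v27pOrd b) ∧ 0 < m ∧ 0 < n ∧ Mw17rpNonGap δ m ∧ Mw17rpNonGap δ n :=
    ⟨hV, hm, hn, hgm, hgn⟩
  rw [mw17rpRes, dif_pos h]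
  exact (mw17rp_exists V h.1 h.2.1 h.2.2.1 h.2.2.2.1 h.2.2.2.2).choose_spec

/-- bihomogeneity of bidegree `(n, m)`. -/
theorem mw17rpRes_bihom : MwrpBihom (mw17rpRes V m n) n m :=
  (mw17rpRes_spec V hV hm hn hgm hgn).1

/-- (R1) -/
theorem mw17rpRes_R1 (u : Mw17Idx δ m → K) (t : Mw17Idx δ n → K) (ht : mw17inLcm V n t ≠ 0) :
    eval (Sum.elim u t) (mw17rpRes V m n)
      = mw17inLcm V n t ^ m * mwrpRho K (mw17Sec T n t) (mw17Sec T m u) :=
  (mw17rpRes_spec V hV hm hn hgm hgn).2.1 u t ht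

/-- (R2) -/
theorem mw17rpRes_R2 (u : Mw17Idx δ m → K) (t : Mw17Idx δ n → K) (hu : mw17inLcm V m u ≠ 0) :
    eval (Sum.elim u t) (mw17rpRes V m n)
      = (((mwrsSign m n : ℤˣ) : ℤ) : K) * mw17inLcm V m u ^ n
        * mwrpRho K (mw17Sec T m u) (mw17Sec T n t) :=
  (mw17rpRes_spec V hV hm hn hgm hgn).2.2.1 u t hu

end Spec

/-! ### the product forms with the zero cycle (`K` algebraically closed, `B` Dedekind) -/

section Closed

variable [IsAlgClosed K] [IsDedekindDomain (V27pB T)] {m n : ℕ} (hm : 0 < m) (hn : 0 < n)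
  (hgm : Mw17rpNonGap δ m) (hgn : Mw17rpNonGap δ n)

include hV hm hn hgm hgn

/-- **(R-prod)** for any zero cycle `Z` of `sec u` (helper16's `Mw17IsZeros`). -/
theorem mw17rpRes_prod {u : Mw17Idx δ m → K} (hu : u ≠ 0) {Z : Multiset (Mw17Pt T)}
    (hZ : Mw17IsZeros T (mw17Sec T m u) Z) (t : Mw17Idx δ n → K) :
    eval (Sum.elim u t) (mw17rpRes V m n)
      = (((mwrsSign (v27pOrd (mw17Sec T m u)) n : ℤˣ) : ℤ) : K)
        * V.lc (mw17Sec T m u) ^ n
        * mw17inLcm V n t ^ (m - v27pOrd (mw17Sec T m u))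
        * (Z.map fun q : Mw17Pt T => q (mw17Sec T n t)).prod :=
  (mw17rpRes_spec V hV hm hn hgm hgn).2.2.2.1 u hu Z (fun b => hZ.2 b) t

/-- **(R-prod')** for any zero cycle `Z` of `sec t`. -/
theorem mw17rpRes_prod' {t : Mw17Idx δ n → K} (ht : t ≠ 0) {Z : Multiset (Mw17Pt T)}
    (hZ : Mw17IsZeros T (mw17Sec T n t) Z) (u : Mw17Idx δ m → K) :
    eval (Sum.elim u t) (mw17rpRes V m n)
      = (((mwrsSign m n : ℤˣ) : ℤ) : K)
        * (((mwrsSign (v27pOrd (mw17Sec T n t)) m : ℤˣ) : ℤ) : K)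
        * V.lc (mw17Sec T n t) ^ m
        * mw17inLcm V m u ^ (n - v27pOrd (mw17Sec T n t))
        * (Z.map fun q : Mw17Pt T => q (mw17Sec T m u)).prod :=
  (mw17rpRes_spec V hV hm hn hgm hgn).2.2.2.2 t ht Z (fun b => hZ.2 b) u

/-- **(R5) vanishing criterion**: for `u ≠ 0`, `Res(u,t) = 0` iff `sec u` and `sec t` have a common
zero, or both are degenerate (`ord (sec u) < m` and `lc_n t = 0`). -/
theorem mw17rpRes_eq_zero_iff {u : Mw17Idx δ m → K} (hu : u ≠ 0) (t : Mw17Idx δ n → K) :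
    eval (Sum.elim u t) (mw17rpRes V m n) = 0 ↔
      (∃ q : Mw17Pt T, q (mw17Sec T m u) = 0 ∧ q (mw17Sec T n t) = 0) ∨
        (v27pOrd (mw17Sec T m u) < m ∧ mw17inLcm V n t = 0) := by
  have hb : mw17Sec T m u ≠ 0 := by rw [ne_eq, mw17in_sec_eq_zero_iff]; exact hu
  rw [mw17rpRes_prod V hV hm hn hgm hgn hu (mw17in_isZeros T hb) t]
  have hlc : V.lc (mw17Sec T m u) ^ n ≠ 0 := pow_ne_zero _ (V.lc_ne_zero hb)
  have hle : v27pOrd (mw17Sec T m u) ≤ m := mw17in_ord_sec_le T m u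
  rw [mul_eq_zero, mul_eq_zero, mul_eq_zero]
  constructor
  · rintro (((h | h) | h) | h)
    · exact absurd h (mw17rp_sign_ne_zero (K := K) _)
    · exact absurd h hlc
    · right
      rcases Nat.eq_zero_or_pos (m - v27pOrd (mw17Sec T m u)) with h0 | hpos
      · rw [h0, pow_zero] at h; exact absurd h one_ne_zero
      · exact ⟨by omega, pow_eq_zero_iff (by omega) |>.mp h⟩
    · left
      rw [Multiset.prod_eq_zero_iff, Multiset.mem_map] at h
      obtain ⟨q, hq, hq0⟩ := h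
      exact ⟨q, (mw17in_mem_zeros_iff T hb q).mp hq, hq0⟩
  · rintro (⟨q, hq1, hq2⟩ | ⟨hlt, h0⟩)
    · right
      rw [Multiset.prod_eq_zero_iff, Multiset.mem_map]
      exact ⟨q, (mw17in_mem_zeros_iff T hb q).mpr hq1, hq2⟩
    · left; right
      rw [h0]
      exact zero_pow (by omega)

end Closed

/-! ### the `Mw17GData` literals of helper16's `MW17/Spec.lean`: `hF`, (R-prod) with the TOP index,
the polynomial form of (R-prod) -/

open Fermat.Agent.HT

/-- bridge: `MwrpBihom F n m` is `IsWeightedHomogeneous (htlBiw ι κ) F (n, m)` (helper13's / Spec's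
spelling of bihomogeneity). -/
theorem mw17rp_bihom_biw {ι κ : Type*} [Fintype ι] [Fintype κ] {F : MvPolynomial (ι ⊕ κ) K}
    {n m : ℕ} (h : MwrpBihom F n m) : IsWeightedHomogeneous (htlBiw ι κ) F (n, m) := by
  intro d hd
  have h1 := h.1 hd
  have h2 := h.2 hd
  rw [Finsupp.weight_apply, Finsupp.sum_fintype _ _ (fun i => by simp), Fintype.sum_sum_type]
    at h1 h2
  rw [htl_weight_biw]
  simp only [Sum.elim_inl, Sum.elim_inr, smul_eq_mul, mul_one, mul_zero, Finset.sum_const_zero,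
    add_zero, zero_add] at h1 h2
  rw [h1, h2]

/-- converse bridge. -/
theorem mw17rp_biw_bihom {ι κ : Type*} [Fintype ι] [Fintype κ] {F : MvPolynomial (ι ⊕ κ) K}
    {n m : ℕ} (h : IsWeightedHomogeneous (htlBiw ι κ) F (n, m)) : MwrpBihom F n m := by
  constructor
  · intro d hd
    have h0 := h hd
    rw [htl_weight_biw, Prod.mk.injEq] at h0
    rw [Finsupp.weight_apply, Finsupp.sum_fintype _ _ (fun i => by simp), Fintype.sum_sum_type]
    simp only [Sum.elim_inl, Sum.elim_inr, smul_eq_mul, mul_one, mul_zero, Finset.sum_const_zero,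
      add_zero]
    exact h0.1
  · intro d hd
    have h0 := h hd
    rw [htl_weight_biw, Prod.mk.injEq] at h0
    rw [Finsupp.weight_apply, Finsupp.sum_fintype _ _ (fun i => by simp), Fintype.sum_sum_type]
    simp only [Sum.elim_inl, Sum.elim_inr, smul_eq_mul, mul_one, mul_zero, Finset.sum_const_zero,
      zero_add]
    exact h0.2

/-- **the constant `c` of (R-prod)** in the literal of `Mw17GData.prod`:
`c = ε(m', n) · lc(sec u)^n · λ_t^(m - m')`, `m' = ord (sec u)`, `λ_t = lc (mon_t)`. -/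
def mw17rpC (m n : ℕ) (t : Mw17Idx δ n) (u : Mw17Idx δ m → K) : K :=
  (((mwrsSign (v27pOrd (mw17Sec T m u)) n : ℤˣ) : ℤ) : K) * V.lc (mw17Sec T m u) ^ n
    * V.lc (mw17Mon T t) ^ (m - v27pOrd (mw17Sec T m u))

theorem mw17rpC_ne_zero (m n : ℕ) (t : Mw17Idx δ n) {u : Mw17Idx δ m → K} (hu : u ≠ 0) :
    mw17rpC V m n t u ≠ 0 := by
  have hb : mw17Sec T m u ≠ 0 := by rw [ne_eq, mw17in_sec_eq_zero_iff]; exact hu
  unfold mw17rpC
  exact mul_ne_zero (mul_ne_zero (mw17rp_sign_ne_zero (K := K) _)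
    (pow_ne_zero _ (V.lc_ne_zero hb))) (pow_ne_zero _ (V.lc_ne_zero (mw17in_mon_ne_zero T t)))

section GData

variable [IsAlgClosed K] [IsDedekindDomain (V27pB T)] {m n : ℕ} (hm : 0 < m) (hn : 0 < n)
  (hgm : Mw17rpNonGap δ m) (t : Mw17Idx δ n) (ht : mw17Wt t = n)

include hV hm hn hgm ht

/-- bihomogeneity in the `Mw17GData.hF` literal. -/
theorem mw17rpRes_hF :
    IsWeightedHomogeneous (htlBiw (Mw17Idx δ m) (Mw17Idx δ n)) (mw17rpRes V m n) (n, m) :=
  mw17rp_bihom_biw (mw17rpRes_bihom V hV hm hn hgm ⟨t, ht⟩)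

/-- **(R-prod) in the `Mw17GData.prod` literal**: `t` the TOP index of `L_n`. -/
theorem mw17rpRes_prod_top {u : Mw17Idx δ m → K} (hu : u ≠ 0) {Z : Multiset (Mw17Pt T)}
    (hZ : Mw17IsZeros T (mw17Sec T m u) Z) (y : Mw17Idx δ n → K) :
    eval (Sum.elim u y) (mw17rpRes V m n)
      = mw17rpC V m n t u * y t ^ (m - Z.card)
        * (Z.map fun q : Mw17Pt T => ∑ j, y j * mw17Psi T n q j).prod := by
  rw [mw17rpRes_prod V hV hm hn hgm ⟨t, ht⟩ hu hZ y, mw17inLcm_eq_top V t ht, mul_pow, hZ.1,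
    mw17rpC]
  have : (Z.map fun q : Mw17Pt T => q (mw17Sec T n y))
      = Z.map fun q : Mw17Pt T => ∑ j, y j * mw17Psi T n q j :=
    Multiset.map_congr rfl fun q _ => mw17Sec_apply T n y q
  rw [this]
  ring

/-- the existential form, VERBATIM the first conjunct of `Mw17GData.prod`. -/
theorem mw17rpRes_prod_exists {u : Mw17Idx δ m → K} (hu : u ≠ 0) {Z : Multiset (Mw17Pt T)}
    (hZ : Mw17IsZeros T (mw17Sec T m u) Z) :
    ∃ c : K, c ≠ 0 ∧ ∀ y : Mw17Idx δ n → K, eval (Sum.elim u y) (mw17rpRes V m n)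
      = c * y t ^ (m - Z.card) * (Z.map fun q : Mw17Pt T => ∑ j, y j * mw17Psi T n q j).prod :=
  ⟨mw17rpC V m n t u, mw17rpC_ne_zero V m n t hu,
    mw17rpRes_prod_top V hV hm hn hgm t ht hu hZ⟩

/-- **(R-prod) as a POLYNOMIAL identity in the second group of variables** (helper6's (ALG-F)). -/
theorem mw17rpRes_prod_poly {u : Mw17Idx δ m → K} (hu : u ≠ 0) {Z : Multiset (Mw17Pt T)}
    (hZ : Mw17IsZeros T (mw17Sec T m u) Z) :
    mwrpEvalL u (mw17rpRes V m n)
      = C (mw17rpC V m n t u) * X t ^ (m - Z.card)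
        * mwrpChow (fun j : Mw17Idx δ n => mw17Mon T j) Z := by
  refine MvPolynomial.funext fun y => ?_
  rw [mwrp_eval_evalL, mw17rpRes_prod_top V hV hm hn hgm t ht hu hZ y, map_mul, map_mul, eval_C,
    map_pow, eval_X, mwrp_eval_chow]
  congr 1
  refine congrArg Multiset.prod (Multiset.map_congr rfl fun q _ => ?_)
  rw [mw17rp_sec_eq, mw17Sec_apply]

/-- the same with linear forms spelled `∑ j, C (ψ_n q j) * X j`. -/
theorem mw17rpRes_prod_poly' {u : Mw17Idx δ m → K} (hu : u ≠ 0) {Z : Multiset (Mw17Pt T)}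
    (hZ : Mw17IsZeros T (mw17Sec T m u) Z) :
    mwrpEvalL u (mw17rpRes V m n)
      = C (mw17rpC V m n t u) * X t ^ (m - Z.card)
        * (Z.map fun q : Mw17Pt T => ∑ j, C (mw17Psi T n q j) * X j).prod :=
  mw17rpRes_prod_poly V hV hm hn hgm t ht hu hZ

/-- `F(u, ·) ≠ 0` as a polynomial for `u ≠ 0`. -/
theorem mw17rpRes_evalL_ne_zero {u : Mw17Idx δ m → K} (hu : u ≠ 0) :
    mwrpEvalL u (mw17rpRes V m n) ≠ 0 := by
  have hb : mw17Sec T m u ≠ 0 := by rw [ne_eq, mw17in_sec_eq_zero_iff]; exact hu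
  rw [mw17rpRes_prod_poly' V hV hm hn hgm t ht hu (mw17in_isZeros T hb)]
  refine mul_ne_zero (mul_ne_zero ?_ (pow_ne_zero _ (X_ne_zero t))) ?_
  · rw [ne_eq, C_eq_zero]; exact mw17rpC_ne_zero V m n t hu
  · rw [ne_eq, Multiset.prod_eq_zero_iff, Multiset.mem_map]
    rintro ⟨q, -, hq⟩
    have := congrArg (coeff (Finsupp.single (mw17IdxZero δ n) 1)) hq
    rw [coeff_sum, coeff_zero] at this
    simp only [coeff_C_mul, coeff_X, Finsupp.single_left_inj one_ne_zero] at this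
    rw [Finset.sum_eq_single (mw17IdxZero δ n)] at this
    · rw [if_pos rfl, mul_one, mw17Psi_zero] at this
      exact one_ne_zero this
    · intro j _ hj
      rw [if_neg hj, mul_zero]
    · intro h; exact absurd (Finset.mem_univ _) h

end GData

/-! ### `F(0, t) = 0` and the vanishing hypothesis `hvan` of (G1) (helper24's `mw17st_exists_G`) -/

/-- a polynomial which is homogeneous of positive degree in the first group of variables vanishes
when that group is specialised to `0`. -/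
theorem mw17rp_eval_zero_left {ι κ : Type*} [Fintype ι] [Fintype κ] {F : MvPolynomial (ι ⊕ κ) K}
    {n m : ℕ} (h : MwrpBihom F n m) (hn : 0 < n) (y : κ → K) :
    eval (Sum.elim (0 : ι → K) y) F = 0 := by
  rw [eval_eq']
  refine Finset.sum_eq_zero fun d hd => ?_
  have h1 := h.1 (mem_support_iff.1 hd)
  rw [Finsupp.weight_apply, Finsupp.sum_fintype _ _ (fun i => by simp), Fintype.sum_sum_type]
    at h1
  simp only [Sum.elim_inl, Sum.elim_inr, smul_eq_mul, mul_one, mul_zero, Finset.sum_const_zero,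
    add_zero] at h1
  have hex : ∃ i ∈ (Finset.univ : Finset ι), d (Sum.inl i) ≠ 0 := by
    apply Finset.exists_ne_zero_of_sum_ne_zero
    rw [h1]; exact hn.ne'
  obtain ⟨i, -, hi⟩ := hex
  rw [Finset.prod_eq_zero (Finset.mem_univ (Sum.inl i)) (by
    rw [Sum.elim_inl, Pi.zero_apply, zero_pow hi]), mul_zero]

/-- the same in the second group. -/
theorem mw17rp_eval_zero_right {ι κ : Type*} [Fintype ι] [Fintype κ] {F : MvPolynomial (ι ⊕ κ) K}
    {n m : ℕ} (h : MwrpBihom F n m) (hm : 0 < m) (x : ι → K) :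
    eval (Sum.elim x (0 : κ → K)) F = 0 := by
  rw [eval_eq']
  refine Finset.sum_eq_zero fun d hd => ?_
  have h1 := h.2 (mem_support_iff.1 hd)
  rw [Finsupp.weight_apply, Finsupp.sum_fintype _ _ (fun i => by simp), Fintype.sum_sum_type]
    at h1
  simp only [Sum.elim_inl, Sum.elim_inr, smul_eq_mul, mul_one, mul_zero, Finset.sum_const_zero,
    zero_add] at h1
  have hex : ∃ i ∈ (Finset.univ : Finset κ), d (Sum.inr i) ≠ 0 := by
    apply Finset.exists_ne_zero_of_sum_ne_zero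
    rw [h1]; exact hm.ne'
  obtain ⟨i, -, hi⟩ := hex
  rw [Finset.prod_eq_zero (Finset.mem_univ (Sum.inr i)) (by
    rw [Sum.elim_inr, Pi.zero_apply, zero_pow hi]), mul_zero]

section Hvan

variable [IsAlgClosed K] [IsDedekindDomain (V27pB T)] {m n : ℕ} (hm : 0 < m) (hn : 0 < n)
  (hgm : Mw17rpNonGap δ m) (hgn : Mw17rpNonGap δ n)

include hV hm hn hgm hgn

/-- **the vanishing hypothesis `hvan` of helper24's (G1)** (`mw17st_exists_G`), for ALL `u`, `t`:
`F(u,t) = 0` as soon as `sec u` and `sec t` have a common zero. -/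
theorem mw17rpRes_hvan (u : Mw17Idx δ m → K) (t : Mw17Idx δ n → K) (q : Mw17Pt T)
    (h1 : q (mw17Sec T m u) = 0) (h2 : q (mw17Sec T n t) = 0) :
    eval (Sum.elim u t) (mw17rpRes V m n) = 0 := by
  by_cases hu : u = 0
  · subst hu
    exact mw17rp_eval_zero_left (mw17rpRes_bihom V hV hm hn hgm hgn) hn t
  · exact (mw17rpRes_eq_zero_iff V hV hm hn hgm hgn hu t).mpr (Or.inl ⟨q, h1, h2⟩)

end Hvan

end Fermat.Agent.MW17
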