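import Fermat.Agent.MW17.TupleDl
import Fermat.Agent.MW17.InstZeros

/-!
# Program MW (S17), heights half (A): (TUPLE_w) from zero multisets

Owner: helper10.  Namespace `Fermat.Agent.MW17`, prefix `mw17tz`.

The ideal-theoretic hypotheses of `mw17td_le` / `mw17td_ge` (MW17/TupleDl.lean) in the language of
the zero multisets `Mw17IsZeros` (helper16's `MW17/Spec.lean`, helper4's `MW17/InstZeros.lean`),
and the two halves of (TUPLE_w) for a tuple of coefficient vectors `ω` in exactly the literals of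
helper7's `Mw17PsTupleLe` / `Mw17PsTupleGe` (`MW17/Pos/HadamardCurve.lean`).
-/

set_option autoImplicit false

noncomputable section

namespace Fermat.Agent.MW17

open Fermat.Agent.V Fermat.Agent.HT Fermat.Agent.MW UniqueFactorizationMonoid

variable {K : Type*} [Field K] {δ : V27pShape} (T : V27pTable K δ)
  [IsAlgClosed K] [IsDedekindDomain (V27pB T)]

/-- a section whose zero multiset contains `F` lies in `∏_{P ∈ F} ker P` -/
theorem mw17tz_mem_prod_ker {b : V27pB T} (hb : b ≠ 0) {Z F : Multiset (Mw17Pt T)}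
    (hZ : Mw17IsZeros T b Z) (hF : F ≤ Z) :
    b ∈ (F.map fun P : Mw17Pt T => RingHom.ker (P : V27pB T →+* K)).prod := by
  have hsr : Ideal.span {b} ≠ 0 := Submodule.span_singleton_eq_bot.mp.mt hb
  rw [← Ideal.span_singleton_le_iff_mem,
    mwcr_prod_ker_le_iff K (mw17in_hres T) hsr F (fun q _ => mw17in_ker_ne_bot T q)]
  rw [mw17in_isZeros_unique T hb hZ] at hF
  exact hF

/-- pointwise exactness of the base cycle gives `∏_{P ∈ F} ker P ≤ (a_i)` -/
theorem mw17tz_prod_ker_le {ι : Type*} (a : ι → V27pB T) (F : Multiset (Mw17Pt T))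
    (h : ∀ q : Mw17Pt T, ∃ (i : ι) (Z : Multiset (Mw17Pt T)), a i ≠ 0 ∧ Mw17IsZeros T (a i) Z ∧
      ∀ [DecidableEq (Mw17Pt T)], Z.count q ≤ F.count q) :
    (F.map fun P : Mw17Pt T => RingHom.ker (P : V27pB T →+* K)).prod ≤
      Ideal.span (Set.range a) := by
  classical
  have hF0 := mwcr_prod_ker_ne_zero K (mw17in_hres T) F (fun q _ => mw17in_ker_ne_bot T q)
  have hJ0 : Ideal.span (Set.range a) ≠ 0 := by
    obtain ⟨q₀, _⟩ := mw17in_exists_point_ne_zero T (one_ne_zero : (1 : V27pB T) ≠ 0)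
    obtain ⟨i, Z, hi, _, _⟩ := h q₀
    intro h0
    apply hi
    have h3 : a i ∈ Ideal.span (Set.range a) := Ideal.subset_span ⟨i, rfl⟩
    rw [h0] at h3
    simpa using h3
  rw [← Ideal.dvd_iff_le, dvd_iff_normalizedFactors_le_normalizedFactors hJ0 hF0,
    ← mwcrZeros_map_ker K (mw17in_hres T), ← mwcrZeros_map_ker K (mw17in_hres T)
      (F.map fun P : Mw17Pt T => RingHom.ker (P : V27pB T →+* K)).prod,
    Multiset.map_le_map_iff (mwcr_ker_injective (K := K) (B := V27pB T)),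
    mwcrZeros_prod_ker K (mw17in_hres T) F (fun q _ => mw17in_ker_ne_bot T q),
    Multiset.le_iff_count]
  intro q
  obtain ⟨i, Z, hi, hZ, hcount⟩ := h q
  have hsr : Ideal.span {a i} ≠ 0 := Submodule.span_singleton_eq_bot.mp.mt hi
  have hle : Ideal.span {a i} ≤ Ideal.span (Set.range a) :=
    (Ideal.span_singleton_le_iff_mem _).mpr (Ideal.subset_span ⟨i, rfl⟩)
  have h1 := Multiset.le_iff_count.mp (mwcrZeros_anti K (mw17in_hres T) hsr hle) q
  have h2 : mwcrZeros K (mw17in_hres T) (Ideal.span {a i}) = Z :=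
    (mw17in_isZeros_unique T hi hZ).symm
  rw [h2] at h1
  exact le_trans h1 hcount

variable {T}

/-- **(TUPLE_w, `≤` half) for coefficient vectors** = helper7's `Mw17PsTupleLe T n t m₁ ω F k₁`
(`mw17tdRhs` and `mw17psTupleRhs` have the same body).  `hbase` is `Mw17PsBase` at the members. -/
theorem mw17tz_tupleLe (hloc : Mw17BpfLoc T) {n : ℕ} {t : Mw17Idx δ n} (ht : mw17Wt t = n)
    (hN : δ.N ≤ n) (hb : δ.bound < n) (m₁ k₁ : ℕ) (hk₁ : k₁ ≤ n * m₁) {g : ℕ}
    (ω : Fin g → Mw17Idx δ (n * m₁) → K) (F : Multiset (Mw17Pt T))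
    (hbase : ∀ i, ω i ≠ 0 → ∀ Z : Multiset (Mw17Pt T),
      Mw17IsZeros T (mw17Sec T (n * m₁) (ω i)) Z → F ≤ Z ∧ Multiset.card Z ≤ k₁) :
    ∃ C : HtConst K, ∀ (w : HtAbs K) (R : Mw17Pt T),
      htlSup w.1 (fun a => R (mw17Sec T (n * m₁) (ω a))) ≤
        C.val w.1 * mw17tdRhs T n t m₁ F k₁ w.1 R := by
  refine mw17td_le hloc ht hN hb m₁ k₁ hk₁ (fun i => mw17Sec T (n * m₁) (ω i)) F ?_ ?_
  · intro i
    by_cases hi : ω i = 0
    · simp only [hi, (mw17in_sec_eq_zero_iff T _ _).mpr rfl]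
      exact zero_mem _
    · have hne : mw17Sec T (n * m₁) (ω i) ≠ 0 := fun h => hi ((mw17in_sec_eq_zero_iff T _ _).mp h)
      have hZ := mw17in_isZeros T hne
      exact mw17tz_mem_prod_ker T hne hZ (hbase i hi _ hZ).1
  · intro i
    by_cases hi : ω i = 0
    · simp only [hi, (mw17in_sec_eq_zero_iff T _ _).mpr rfl]
      exact V27pLe.zero _
    · have hne : mw17Sec T (n * m₁) (ω i) ≠ 0 := fun h => hi ((mw17in_sec_eq_zero_iff T _ _).mp h)
      have hZ := mw17in_isZeros T hne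
      rw [← v27pOrd_le_iff, ← hZ.1]
      exact (hbase i hi _ hZ).2

/-- **(TUPLE_w, `≥` half) for coefficient vectors** = helper7's `Mw17PsTupleGe T n t m₁ ω F k₁`
(for ALL `R`).  `hex` = pointwise exactness of the base cycle `F` (helper9's (8.2) export),
`htop` = some member has pole order `≥ k₁`. -/
theorem mw17tz_tupleGe (hloc : Mw17BpfLoc T) {n : ℕ} {t : Mw17Idx δ n} (ht : mw17Wt t = n)
    (hN : δ.N ≤ n) (hb : δ.bound < n) (m₁ k₁ : ℕ) (hk₁ : k₁ ≤ n * m₁) {g : ℕ}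
    (ω : Fin g → Mw17Idx δ (n * m₁) → K) (F : Multiset (Mw17Pt T))
    (hex : ∀ q : Mw17Pt T, ∃ (i : Fin g) (Z : Multiset (Mw17Pt T)), ω i ≠ 0 ∧
      Mw17IsZeros T (mw17Sec T (n * m₁) (ω i)) Z ∧
      ∀ [DecidableEq (Mw17Pt T)], Z.count q ≤ F.count q)
    (htop : ∃ i, ω i ≠ 0 ∧ k₁ ≤ v27pOrd (mw17Sec T (n * m₁) (ω i))) :
    ∃ C : HtConst K, ∀ (w : HtAbs K) (R : Mw17Pt T),
      mw17tdRhs T n t m₁ F k₁ w.1 R ≤
        C.val w.1 * htlSup w.1 (fun a => R (mw17Sec T (n * m₁) (ω a))) := by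
  refine mw17td_ge hloc ht hN hb m₁ k₁ hk₁ (fun i => mw17Sec T (n * m₁) (ω i)) F ?_ ?_
  · refine mw17tz_prod_ker_le T _ F fun q => ?_
    obtain ⟨i, Z, hi, hZ, hc⟩ := hex q
    exact ⟨i, Z, fun h => hi ((mw17in_sec_eq_zero_iff T _ _).mp h), hZ, hc⟩
  · obtain ⟨i, hi, hk⟩ := htop
    exact ⟨i, fun h => hi ((mw17in_sec_eq_zero_iff T _ _).mp h), hk⟩

end Fermat.Agent.MW17
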