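import Fermat.Agent.MW17.Pos.MainSpare
import Fermat.Agent.MW17.Glob.All
import Fermat.Agent.MW17.Star.Plug
import Fermat.Agent.MW17.Pos.TangentMain

/-!
# Program MW (S17): END-TO-END DRY RUN / SPARE of the final wiring (prefix `mw17pw`)

Owner: helper19 (second tester next to helper14; helper2's `MW17/Wire.lean` + `S17.lean` are the
official files).  `mw17pw_S17 N` = the frozen S17 conclusion for EVERY level `N` (no primality, no
`5 ≤ N`), from

* helper2's `mw17tp_main` (top assembly: genus 0, presentation, weak Mordell-Weil, Northcott),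
* `mw17pw_X0` (`MW17/Pos/MainSpare.lean`: the (H7) + (H8) package),
* helper22's `mw17g_all` ∘ helper6's `mw17sg_all` (all global statements from the algebraic core),
* helper5's `mw17sl_main'` (the local (★-off)),
* helper25's `mw17tg_htan` (the tangent bound (c')), helper9's `mw17ge_main` (EPS).
-/

set_option autoImplicit false
set_option linter.unusedSectionVars false
set_option linter.unusedVariables false
set_option linter.style.haveILetI false

noncomputable section

namespace Fermat.Agent.MW17

open AlgebraicCurve ModularCurve Module Fermat.Agent.V Fermat.Agent.V.Dict Fermat.Agent.V.RR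
  Fermat.Agent.HT Fermat.Agent.G Fermat.Agent.S24 Fermat.Agent.MW

/-- **S17 for every level `N`.** -/
theorem mw17pw_S17 (N : ℕ) [NeZero N] :
    AddGroup.FG ↥(FixedPoints.addSubgroup
      ((AlgebraicClosure ℚ) ≃ₐ[ℚ] (AlgebraicClosure ℚ)) (JZero N)) := by
  refine mw17tp_main N (fun hg δ T _ P hgen => ?_)
  haveI := v27dv_isCurveOver_modular N
  haveI := v27dv_essFiniteType_modular N
  have R : V27RR (AlgebraicClosure ℚ) ↥(modularFunctionFieldBar N)
      (genusFF (AlgebraicClosure ℚ) ↥(modularFunctionFieldBar N)) := v27x_rr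
  -- ONE level `n` beyond everything
  set n : ℕ := δ.N + 2 * δ.bound + 1 +
    (2 * genusFF (AlgebraicClosure ℚ) ↥(modularFunctionFieldBar N) + 1) + ∑ j, δ.d j with hn
  have hn1 : δ.N + 2 * δ.bound + 1 ≤ n := by omega
  have hd : ∀ j, δ.d j ≤ n := fun j =>
    le_trans (Finset.single_le_sum (f := fun j => δ.d j) (fun _ _ => Nat.zero_le _)
      (Finset.mem_univ j)) (Nat.le_add_left _ _)
  have hN : δ.N ≤ n := by omega
  have hb : δ.bound < n := by omega
  have hg2 : 2 * genusFF (AlgebraicClosure ℚ) ↥(modularFunctionFieldBar N) + 1 ≤ n := by omega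
  have ht : mw17Wt (mw17tbTop δ n) = n := mw17tbTop_wt (by omega)
  -- the algebraic core and all global statements
  have hD := mw17sg_all T hn1
  obtain ⟨hoffG, hMT, hP0⟩ := mw17g_all T hn1 hD
  have hoffL : ∀ m₁ : ℕ, 0 < m₁ → Mw17StarOff T n (mw17tbTop δ n) m₁ := fun m₁ hm => by
    obtain ⟨D⟩ := hD m₁ hm
    exact (mw17sl_main' T hn1 D).1
  have heps : Mw17Eps T n (mw17tbTop δ n) :=
    mw17ge_main T n (by omega) hN hd _ hoffG hP0
  have hc' := mw17tg_htan P R n hg2 hN hd hb (mw17tbTop δ n) ht (mw17cn_bpfLoc T) hP0 heps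
    (1 / 4) (by norm_num)
  exact mw17pw_X0 N P hg n (by omega) hN hd hb (mw17tbTop δ n) ht hoffL hoffG
    (fun m₁ hm => (hMT m₁ hm).2) (fun m₁ hm => (hMT m₁ hm).1) hP0 hc'

end Fermat.Agent.MW17
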